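import Mathlib
import Fermat.Agent.Reduction.PlacesMap
import Fermat.Prelude.Def_AlgebraicCurve_BaseChangeGalois

/-!
# Two Gauss reductions of a curve glued from two copies of a curve

`Data` records a curve `F/K` of genus `g`, two maps `α, β` from a curve `F₀/K` of genus `g'` with
good reduction `E/k`, and two Gauss reductions of `F` to `E` for which `(α, β)` reduce to `(id, Fr)`
and `(Fr, id)`, as for `X₀(Mq)` over `X₀(M)`. It is the input of `exists_toric_subgroups`. Also
defined: the symmetric parameter `T = α j * β j`, its reduction `hat`, and `Compat`, the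
semilinear automorphisms compatible with both components.
-/

set_option autoImplicit false
set_option linter.style.haveILetI false

noncomputable section

open AlgebraicCurve SemilinearAut

namespace FLTAgent.Lift

open FLTAgent.Reduction

/-- The data: a curve `F/K` of genus `g`, two maps `α, β` from a curve `F₀/K` of genus `g'` with
good reduction `E/k`, and two Gauss reductions of `F` to `E` for which `(α, β)` reduce to
`(id, Fr)` and `(Fr, id)`, where `Fr a = (frob⁻¹ • a) ^ q`. -/
structure Data {K k : Type*} [Field K] [Field k] (A : ValuationSubring K) (π : A →+* k) (q : ℕ)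
    (F F₀ E : Type*) [Field F] [Field F₀] [Field E] [Algebra K F] [Algebra K F₀] [Algebra k E]
    (g g' : ℕ) where
  q_prime : q.Prime
  charP : CharP k q
  /-- The valuation has rank one. -/
  rank_one : ∀ a c : K, a ∈ A.nonunits → c ≠ 0 → ∃ M : ℕ, a ^ M / c ∈ A
  /-- The reduction on the first component. -/
  Ginf : GaussRed A π F E
  /-- The reduction on the second component. -/
  Gzero : GaussRed A π F E
  /-- The reduction of the small curve. -/
  G : GaussRed A π F₀ E
  /-- A parameter of the small curve. -/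
  j : F₀
  param : GoodParam G g' j
  curve : CurveData K F g
  scale_inf : ∀ f : F, f ≠ 0 → ∃ c : K, c ≠ 0 ∧ c • f ∈ Ginf.V ∧ Ginf.red (c • f) ≠ 0
  scale_zero : ∀ f : F, f ≠ 0 → ∃ c : K, c ≠ 0 ∧ c • f ∈ Gzero.V ∧ Gzero.red (c • f) ≠ 0
  /-- The first degeneracy. -/
  α : F₀ →ₐ[K] F
  /-- The second degeneracy. -/
  β : F₀ →ₐ[K] F
  /-- The Frobenius on coefficients. -/
  frob : SemilinearAut k E
  frob_base : ∀ x : k, baseAut frob x = x ^ q
  frob_param : frob • G.red j = G.red j
  alpha_mem_inf : ∀ a ∈ G.V, α a ∈ Ginf.V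
  alpha_mem_zero : ∀ a ∈ G.V, α a ∈ Gzero.V
  beta_mem_inf : ∀ a ∈ G.V, β a ∈ Ginf.V
  beta_mem_zero : ∀ a ∈ G.V, β a ∈ Gzero.V
  red_alpha_inf : ∀ a ∈ G.V, Ginf.red (α a) = G.red a
  red_beta_inf : ∀ a ∈ G.V, Ginf.red (β a) = (frob⁻¹ • G.red a) ^ q
  red_alpha_zero : ∀ a ∈ G.V, Gzero.red (α a) = (frob⁻¹ • G.red a) ^ q
  red_beta_zero : ∀ a ∈ G.V, Gzero.red (β a) = G.red a
  /-- No zero of one of `α j`, `β j` is a pole of the other. -/
  ord_same_sign : ∀ P : Place K F, 0 ≤ P.ord (α j) * P.ord (β j)
  degree_alpha : Divisor.degree (poleDiv (α j) : Divisor K F) =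
    (q + 1 : ℕ) * Divisor.degree (poleDiv j : Divisor K F₀)
  degree_beta : Divisor.degree (poleDiv (β j) : Divisor K F) =
    (q + 1 : ℕ) * Divisor.degree (poleDiv j : Divisor K F₀)
  /-- Restriction of places along `α`. -/
  resα : Place K F → Place K F₀
  /-- Restriction of places along `β`. -/
  resβ : Place K F → Place K F₀
  ord_resα : ∀ P, ∃ e : ℕ, 0 < e ∧ ∀ a : F₀, P.ord (α a) = e * (resα P).ord a
  ord_resβ : ∀ P, ∃ e : ℕ, 0 < e ∧ ∀ a : F₀, P.ord (β a) = e * (resβ P).ord a
  principal_resα : ∀ f : F, f ≠ 0 →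
    Finsupp.mapDomain resα (divOf f : Divisor K F) ∈ Divisor.principal (K := K) (F := F₀)
  principal_resβ : ∀ f : F, f ≠ 0 →
    Finsupp.mapDomain resβ (divOf f : Divisor K F) ∈ Divisor.principal (K := K) (F := F₀)

namespace Data

variable {K k F F₀ E : Type*} [Field K] [Field k] [Field F] [Field F₀] [Field E] [Algebra K F]
  [Algebra K F₀] [Algebra k E] {A : ValuationSubring K} {π : A →+* k} {q g g' : ℕ}
variable (D : Data A π q F F₀ E g g')

/-- The `q`-power Frobenius of the reduced curve, linear over the constants. -/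
def Fr (a : E) : E := (D.frob⁻¹ • a) ^ q

/-- The symmetric parameter of the big curve. -/
def T : F := D.α D.j * D.β D.j

/-- The parameter of the reduced curve. -/
def tau : E := D.G.red D.j

/-- The reduction of the symmetric parameter, on either component. -/
def hat : E := D.tau ^ (q + 1)

/-- A semilinear automorphism of `F` compatible with `σb` on both components. -/
structure Compat (σ : SemilinearAut K F) (σb : SemilinearAut k E) : Prop where
  mem_inf : ∀ f : F, σ • f ∈ D.Ginf.V ↔ f ∈ D.Ginf.V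
  mem_zero : ∀ f : F, σ • f ∈ D.Gzero.V ↔ f ∈ D.Gzero.V
  red_inf : ∀ f ∈ D.Ginf.V, D.Ginf.red (σ • f) = σb • D.Ginf.red f
  red_zero : ∀ f ∈ D.Gzero.V, D.Gzero.red (σ • f) = σb • D.Gzero.red f
  alpha_fix : σ • D.α D.j = D.α D.j
  beta_fix : σ • D.β D.j = D.β D.j

end Data

end FLTAgent.Lift
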