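import Fermat.Agent.Lift.Labels

/-!
# Compatible automorphisms act on labels

Automorphisms compatible with the two components are closed under composition and inverse and
respect the specialisation at a fixed crossing (`Compat.sp_glued`); hence they send good classes to
good classes (`Good.map`) and, if they fix the crossings, transform the label by the action on the
residue field (`Wit.map`).
-/

set_option autoImplicit false
set_option linter.style.haveILetI false
set_option linter.unusedSectionVars false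

noncomputable section

open AlgebraicCurve SemilinearAut Module

namespace FLTAgent.Lift

open FLTAgent.Reduction

namespace Data

variable {K k F F₀ E : Type*} [Field K] [Field k] [Field F] [Field F₀] [Field E] [Algebra K F]
  [Algebra K F₀] [Algebra k E] {A : ValuationSubring K} {π : A →+* k} {q g g' : ℕ}
variable {D : Data A π q F F₀ E g g'}

namespace Compat

variable {σ τ : SemilinearAut K F} {σb τb : SemilinearAut k E}

theorem comp (h : D.Compat σ σb) (h' : D.Compat τ τb) : D.Compat (σ * τ) (σb * τb) where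
  mem_inf f := by rw [mul_smul, h.mem_inf, h'.mem_inf]
  mem_zero f := by rw [mul_smul, h.mem_zero, h'.mem_zero]
  red_inf f hf := by rw [mul_smul, h.red_inf _ ((h'.mem_inf f).mpr hf), h'.red_inf f hf, mul_smul]
  red_zero f hf := by
    rw [mul_smul, h.red_zero _ ((h'.mem_zero f).mpr hf), h'.red_zero f hf, mul_smul]
  alpha_fix := by rw [mul_smul, h'.alpha_fix, h.alpha_fix]
  beta_fix := by rw [mul_smul, h'.beta_fix, h.beta_fix]

theorem inverse (h : D.Compat σ σb) : D.Compat σ⁻¹ σb⁻¹ where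
  mem_inf f := by rw [← h.mem_inf (σ⁻¹ • f), smul_inv_smul]
  mem_zero f := by rw [← h.mem_zero (σ⁻¹ • f), smul_inv_smul]
  red_inf f hf := by
    rw [eq_inv_smul_iff, ← h.red_inf _ (by rwa [← h.mem_inf, smul_inv_smul]), smul_inv_smul]
  red_zero f hf := by
    rw [eq_inv_smul_iff, ← h.red_zero _ (by rwa [← h.mem_zero, smul_inv_smul]), smul_inv_smul]
  alpha_fix := inv_smul_eq_iff.mpr h.alpha_fix.symm
  beta_fix := inv_smul_eq_iff.mpr h.beta_fix.symm

theorem onInv (h : D.Compat σ σb) : D.inv.Compat σ σb where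
  mem_inf := h.mem_inf
  mem_zero := h.mem_zero
  red_inf := h.red_inf
  red_zero := h.red_zero
  alpha_fix := by
    show σ • D.α D.j⁻¹ = D.α D.j⁻¹
    rw [map_inv₀, smul_inv'', h.alpha_fix]
  beta_fix := by
    show σ • D.β D.j⁻¹ = D.β D.j⁻¹
    rw [map_inv₀, smul_inv'', h.beta_fix]

theorem smul_T (h : D.Compat σ σb) : σ • D.T = D.T := by
  rw [Data.T, smul_mul', h.alpha_fix, h.beta_fix]

theorem base_mem (h : D.Compat σ σb) {c : K} (hc : c ∈ A) :
    ∃ hc' : baseAut σ c ∈ A, π ⟨baseAut σ c, hc'⟩ = baseAut σb (π ⟨c, hc⟩) := by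
  have hV : algebraMap K F ((⟨c, hc⟩ : A) : K) ∈ D.Ginf.V := D.Ginf.const_mem _
  have h1 : algebraMap K F (baseAut σ c) ∈ D.Ginf.V := by
    rw [← SemilinearAut.smul_algebraMap]
    exact (h.mem_inf _).mpr hV
  have hex : ∃ u, u ∈ D.Ginf.V ∧ D.Ginf.red u ≠ 0 :=
    ⟨1, D.Ginf.V.one_mem, by rw [D.Ginf.red_one]; exact one_ne_zero⟩
  have hc' : baseAut σ c ∈ A :=
    Lift.mem_A_of_smul_mem D.Ginf (u := (1 : F)) D.Ginf.V.one_mem
      (by rw [D.Ginf.red_one]; exact one_ne_zero) (by rwa [Algebra.smul_def, mul_one])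
  refine ⟨hc', (algebraMap k E).injective ?_⟩
  rw [← D.Ginf.red_const, show ((⟨baseAut σ c, hc'⟩ : A) : K) = baseAut σ c from rfl,
    ← SemilinearAut.smul_algebraMap, ← SemilinearAut.smul_algebraMap, ← D.Ginf.red_const]
  exact h.red_inf _ hV

theorem sp_glued_fin [Infinite k] (h : D.Compat σ σb) {Q : Place k E}
    (hfin : 0 ≤ Q.ord D.tau) (hfix : σb • Q = Q) {P : Place K F} (hP : D.sp P = (true, Q)) :
    D.sp (σ • P) = (true, Q) := by
  have hdisc : IsDisc A D.T P := sp_finite_iff.mp (by rw [hP]; exact hfin)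
  have hvT : valAt (σ • P) D.T = baseAut σ (valAt P D.T) := by
    conv_lhs => rw [← h.smul_T]
    exact valAt_smul_semilinear D.curve σ (Vanish.zero_iff.mpr hdisc.1)
  have hdisc' : IsDisc A D.T (σ • P) := by
    refine ⟨?_, ?_⟩
    · rw [← h.smul_T, SemilinearAut.ord_smul]; exact hdisc.1
    · rw [hvT]; exact (h.base_mem hdisc.2).1
  refine IsSp.unique (isSp_sp hdisc') ⟨isCanon_true Q, hfin, fun y hy hyr => ?_⟩
  set y' := σ⁻¹ • y with hy'
  have hyy : σ • y' = y := smul_inv_smul σ y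
  have hy'V : y' ∈ D.V := ⟨(h.inverse.mem_inf y).mpr hy.1, (h.inverse.mem_zero y).mpr hy.2⟩
  have hy'r : RegAway (K := K) D.T y' := fun R hR => by
    have h1 : 0 ≤ (σ • R).ord D.T := by rw [← h.smul_T, SemilinearAut.ord_smul]; exact hR
    have := vanish_smul σ⁻¹ (hyr _ h1)
    rwa [inv_smul_smul] at this
  have hA := valAt_mem hdisc hy'V hy'r
  obtain ⟨hA', hπ⟩ := h.base_mem hA
  have hval : valAt (σ • P) y = baseAut σ (valAt P y') := by
    rw [← hyy]
    exact valAt_smul_semilinear D.curve σ (hy'r P hdisc.1)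
  rw [resVal_of_eq (σ • P) y ⟨_, hA'⟩ hval, hπ, ← resVal_of_eq P y' ⟨_, hA⟩ rfl,
    (isSp_sp hdisc).2.2 y' hy'V hy'r, hP]
  show baseAut σb (valAt Q (D.Ginf.red y')) = valAt Q (D.Ginf.red y)
  have hreg : Vanish Q (D.Ginf.red y') 0 := (regPair_red hy'V hy'r).1 Q hfin
  rw [← valAt_smul_semilinear D.param.curveBar σb hreg, hfix,
    ← h.red_inf y' hy'V.1, hyy]

/-- A compatible automorphism fixing a point of the first component preserves the places
specialising to it. -/
theorem sp_glued [Infinite k] (h : D.Compat σ σb) {Q : Place k E}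
    (hfix : σb • Q = Q) {P : Place K F} (hP : D.sp P = (true, Q)) :
    D.sp (σ • P) = (true, Q) := by
  rcases le_or_gt 0 (Q.ord D.tau) with hfin | hfin
  · exact h.sp_glued_fin hfin hfix hP
  · rw [← sp_inv]
    refine h.onInv.sp_glued_fin ?_ hfix (by rwa [sp_inv])
    rw [D.tau_inv, Place.ord_inv]
    omega

end Compat

variable {σ : SemilinearAut K F} {σb : SemilinearAut k E}

theorem divOf_smul_semilinear {K F : Type*} [Field K] [Field F] [Algebra K F] {g : ℕ}
    (hC : CurveData K F g) (σ : SemilinearAut K F) (f : F) :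
    σ • (divOf f : Divisor K F) = divOf (σ • f) :=
  Finsupp.ext fun w => by
    rw [SemilinearAut.divisor_smul_apply, hC.divOf_apply, hC.divOf_apply]
    have := SemilinearAut.ord_smul σ (σ⁻¹ • w) f
    rw [smul_inv_smul] at this
    exact this.symm

/-- The image of a good class under a compatible automorphism. -/
def Good.map (hσ : D.Compat σ σb) {n : ℕ} {z : Pic0 K F} (a : D.Good n z) :
    D.Good n (σ • z) where
  Z := degZeroSMulHom σ a.Z
  f := σ • a.f
  w1 := σb • a.w1
  w0 := σb • a.w0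
  rep := by
    refine ⟨?_, (smul_ne_zero_iff_ne σ).mpr a.rep.ne_zero, ?_⟩
    · rw [← pic0_smul_mk, a.rep.mk_eq]
    · rw [coe_degZeroSMulHom, ← divOf_smul_semilinear D.curve, ← a.rep.div_eq]
      exact (map_zsmul (DistribSMul.toAddMonoidHom (Divisor K F) σ) _ _).symm
  mem := ⟨(hσ.mem_inf _).mpr a.mem.1, (hσ.mem_zero _).mpr a.mem.2⟩
  w1_ne := (smul_ne_zero_iff_ne σb).mpr a.w1_ne
  w0_ne := (smul_ne_zero_iff_ne σb).mpr a.w0_ne
  red_eq := by
    refine Prod.ext ?_ ?_
    · show D.Ginf.red _ = _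
      rw [hσ.red_inf _ a.mem.1,
        show D.Ginf.red a.f = a.w1 ^ n from congrArg Prod.fst a.red_eq]
      exact smul_pow' σb a.w1 n
    · show D.Gzero.red _ = _
      rw [hσ.red_zero _ a.mem.2,
        show D.Gzero.red a.f = a.w0 ^ n from congrArg Prod.snd a.red_eq]
      exact smul_pow' σb a.w0 n

/-- The image of a label. -/
theorem Wit.map [Infinite k] (hσ : D.Compat σ σb)
    (hfix : ∀ Q ∈ D.X, σb • Q = Q ∧ σb • D.frob • Q = D.frob • Q) {n : ℕ} (hn : n ≠ 0)
    {z : Pic0 K F} {μ : Place k E → k} (W : D.Wit n z μ) :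
    Nonempty (D.Wit n (σ • z) fun Q => baseAut σb (μ Q)) := by
  have e1 : D.Ginf.red (σ • W.h) * (W.good.map hσ).w1 =
      σb • (D.Ginf.red W.h * W.good.w1) := by
    rw [hσ.red_inf _ W.h_mem.1]
    exact (smul_mul' σb _ _).symm
  have e0 : D.Gzero.red (σ • W.h) * (W.good.map hσ).w0 =
      σb • (D.Gzero.red W.h * W.good.w0) := by
    rw [hσ.red_zero _ W.h_mem.2]
    exact (smul_mul' σb _ _).symm
  refine ⟨⟨W.good.map hσ, σ • W.h, σ • W.G,
    ⟨(hσ.mem_inf _).mpr W.h_mem.1, (hσ.mem_zero _).mpr W.h_mem.2⟩, fun P => ?_, fun P => ?_,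
    fun Q hQ P hP => ?_, fun Q hQ => ?_, fun Q hQ => ?_⟩⟩
  · rw [SemilinearAut.divisor_smul_apply]
    exact W.G_nonneg _
  · have h1 := vanish_smul σ (W.bound (σ⁻¹ • P))
    rw [smul_inv_smul] at h1
    show Vanish P (σ • W.h) (-((degZeroSMulHom σ W.good.Z : Divisor K F) P + (σ • W.G) P))
    rwa [coe_degZeroSMulHom, SemilinearAut.divisor_smul_apply, SemilinearAut.divisor_smul_apply]
  · rw [SemilinearAut.divisor_smul_apply]
    exact W.away Q hQ _ (hσ.inverse.sp_glued (inv_smul_eq_iff.mpr (hfix Q hQ).1.symm) hP)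
  · rw [e1, ← (hfix Q hQ).1, valAt_smul_semilinear D.param.curveBar σb (W.reg hn hQ).1]
    exact (map_ne_zero _).mpr (W.val_ne Q hQ)
  · rw [e0, e1, ← (hfix Q hQ).2, valAt_smul_semilinear D.param.curveBar σb (W.reg hn hQ).2.1]
    conv_rhs => rw [show valAt Q (σb • (D.Ginf.red W.h * W.good.w1)) =
      valAt (σb • Q) (σb • (D.Ginf.red W.h * W.good.w1)) by rw [(hfix Q hQ).1],
      valAt_smul_semilinear D.param.curveBar σb (W.reg hn hQ).1, ← map_mul]
    rw [W.glue Q hQ]

end Data

end FLTAgent.Lift
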