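import Mathlib
import Fermat.Agent.Reduction.PlacesMap

/-!
# Regular functions on the reduced curve

For functions on the reduced curve regular away from the poles of a good parameter we prove the
existence of prescribed orders (`exists_reg_ord`) and values (`exists_prescribed`), approximation
with bounded poles (`exists_approx`), that an ideal without common zero containing a function with
exact poles is everything (`one_mem_of_noZero`, refined in `mem_ideal_of_ord`), and that a character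
of this ring is evaluation at a place (`exists_place_of_char`).
-/

set_option autoImplicit false
set_option linter.style.haveILetI false
set_option linter.unusedSectionVars false

noncomputable section

open AlgebraicCurve Module FLTAgent.Reduction

namespace FLTAgent.Lift

variable {K k F Fb : Type*} [Field K] [Field k] [Field F] [Field Fb] [Algebra K F] [Algebra k Fb]
variable {A : ValuationSubring K} {π : A →+* k} {G : GaussRed A π F Fb} {g : ℕ} {x : F}

theorem regAway_mul {u v : Fb} {y : Fb} (hu : RegAway (K := k) y u) (hv : RegAway (K := k) y v) :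
    RegAway (K := k) y (u * v) := fun Q hQ => (hu Q hQ).mul_zero' (hv Q hQ)

/-- The divisor with coefficient `e` on a finite set of places. -/
def finDiv (S : Finset (Place k Fb)) (e : Place k Fb → ℕ) : Divisor k Fb :=
  ∑ Q ∈ S, Finsupp.single Q (e Q : ℤ)

theorem finDiv_apply [DecidableEq (Place k Fb)] (S : Finset (Place k Fb)) (e : Place k Fb → ℕ)
    (Q : Place k Fb) : finDiv S e Q = if Q ∈ S then (e Q : ℤ) else 0 := by
  classical
  simp [finDiv, Finsupp.finsetSum_apply, Finsupp.single_apply]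

theorem finDiv_nonneg (S : Finset (Place k Fb)) (e : Place k Fb → ℕ) : 0 ≤ finDiv S e :=
  Finset.sum_nonneg fun _ _ => Finsupp.single_nonneg.mpr (Int.natCast_nonneg _)

section Bar

variable (hx : GoodParam G g x)
include hx

/-- A regular function of exact order at one place, vanishing to given orders at others. -/
theorem exists_reg_ord (S : Finset (Place k Fb)) (e : Place k Fb → ℕ)
    (hS : ∀ Q ∈ S, 0 ≤ Q.ord (G.red x)) {z : Place k Fb} (hz : z ∈ S) :
    ∃ v : Fb, v ≠ 0 ∧ RegAway (K := k) (G.red x) v ∧ z.ord v = e z ∧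
      ∀ Q ∈ S, Vanish Q v (e Q) := by
  classical
  obtain ⟨n, hn⟩ : ∃ n : ℕ, (hx.bound : ℤ) + 1 + Divisor.degree (finDiv S e) ≤ n :=
    ⟨(hx.bound + 1 + Divisor.degree (finDiv S e)).toNat, Int.self_le_toNat _⟩
  obtain ⟨f, hf, hf0, hord⟩ := hx.curveBar.exists_exact z hx.bound hx.exists_bound.choose_spec.2
    (D := boundDiv (G.red x) n (finDiv S e)) (by
      rw [hx.curveBar.degree_boundDiv, hx.degree_poleDiv_bar]
      have := hx.le_mul_paramDeg n
      omega)
  rw [hx.curveBar.boundDiv_apply, max_eq_left (by have := hS z hz; omega), mul_zero, zero_sub,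
    neg_neg, finDiv_apply, if_pos hz] at hord
  refine ⟨f, hf0, ?_, hord, fun Q hQ => ?_⟩
  · exact hx.curveBar.regAway_of_mem_polesLe
      (hx.curveBar.L_bound_le_polesLe (finDiv_nonneg S e) hf)
  · have := hx.curveBar.mem_L_bound.mp hf Q
    rwa [max_eq_left (by have := hS Q hQ; omega), mul_zero, sub_zero, finDiv_apply, if_pos hQ]
      at this

/-- A regular function with prescribed values at finitely many finite places. -/
theorem exists_prescribed (S : Finset (Place k Fb)) (hS : ∀ Q ∈ S, 0 ≤ Q.ord (G.red x))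
    (c : Place k Fb → k) :
    ∃ w : Fb, RegAway (K := k) (G.red x) w ∧ ∀ Q ∈ S, valAt Q w = c Q := by
  classical
  have hd : ∀ z : S, ∃ u : Fb, RegAway (K := k) (G.red x) u ∧ valAt z.1 u = 1 ∧
      ∀ Q ∈ S, Q ≠ z.1 → valAt Q u = 0 := by
    intro z
    obtain ⟨v, hv0, hv, hvz, hvS⟩ := exists_reg_ord hx S
      (fun Q => if Q = z.1 then 0 else 1) hS z.2
    simp only [if_true, Nat.cast_zero] at hvz
    obtain ⟨hne, -⟩ := valAt_inv hx.curveBar hv0 hvz
    refine ⟨(valAt z.1 v)⁻¹ • v, fun Q hQ => (hv Q hQ).smul _, ?_, fun Q hQ hQz => ?_⟩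
    · rw [hx.curveBar.valAt_smul _ (hv _ (hS _ z.2)), inv_mul_cancel₀ hne]
    · have h1 := hvS Q hQ
      simp only [if_neg hQz, Nat.cast_one] at h1
      rw [hx.curveBar.valAt_smul _ (hv _ (hS _ hQ)), valAt_eq_zero_of_vanish h1, mul_zero]
  choose u hu hu1 hu0 using hd
  refine ⟨∑ z : S, c z.1 • u z, fun Q hQ => Vanish.sum _ _ fun z _ => (hu z Q hQ).smul _,
    fun Q hQ => valAt_eq ?_⟩
  have h1 : (algebraMap k Fb (c Q)) = ∑ z : S, algebraMap k Fb (if z.1 = Q then c z.1 else 0) := by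
    rw [Finset.sum_eq_single ⟨Q, hQ⟩ (fun z _ hz => by
      rw [if_neg (fun h => hz (Subtype.ext h)), map_zero]) (by simp), if_pos rfl]
  rw [h1, ← Finset.sum_sub_distrib]
  refine Vanish.sum _ _ fun z _ => ?_
  have hv := hx.curveBar.exists_valAt ((hu z Q (hS Q hQ)).smul (c z.1))
  rw [hx.curveBar.valAt_smul _ (hu z Q (hS Q hQ))] at hv
  by_cases hzQ : z.1 = Q
  · subst hzQ
    simpa [hu1] using hv
  · simpa [hzQ, hu0 z Q hQ (Ne.symm hzQ)] using hv

/-- Approximation by functions of bounded degree. -/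
theorem exists_approx (S : Finset (Place k Fb)) (e : Place k Fb → ℕ)
    (hS : ∀ Q ∈ S, 0 ≤ Q.ord (G.red x)) :
    ∃ n₀ : ℕ, ∀ f : Fb, RegAway (K := k) (G.red x) f →
      ∃ w ∈ (polesLe (G.red x) n₀ : Submodule k Fb), ∀ Q ∈ S, Vanish Q (f - w) (e Q) := by
  classical
  set E := finDiv S e with hE
  obtain ⟨n₀, hn₀⟩ : ∃ n : ℕ, (hx.bound : ℤ) + Divisor.degree E ≤ n ∧ hx.bound ≤ n :=
    ⟨hx.bound + (Divisor.degree E).toNat, by push_cast; omega, Nat.le_add_right _ _⟩
  refine ⟨n₀, fun f hf => ?_⟩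
  obtain ⟨m, hm⟩ := hx.curveBar.exists_mem_polesLe hf
  set N := max m n₀ with hN
  set U : Submodule k Fb := riemannRochSpace (boundDiv (G.red x) N E) with hU
  haveI := hx.curveBar.finite_L' (boundDiv (G.red x) N E)
  haveI := hx.curveBar.finite_L' (boundDiv (G.red x) n₀ (0 : Divisor k Fb))
  haveI := hx.curveBar.finite_L' (boundDiv (G.red x) N (0 : Divisor k Fb))
  haveI := hx.curveBar.finite_L' (boundDiv (G.red x) n₀ E)
  have hUle : U ≤ polesLe (G.red x) N := hx.curveBar.L_bound_le_polesLe (finDiv_nonneg S e)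
  have hle := hx.curveBar.polesLe_mono (G.red x) (le_max_right m n₀)
  have hinter : (polesLe (G.red x) n₀ : Submodule k Fb) ⊓ U
      ≤ riemannRochSpace (boundDiv (G.red x) n₀ E) := by
    rintro w ⟨hw1, hw2⟩
    refine hx.curveBar.mem_L_bound.mpr fun Q => ?_
    by_cases hQ : Q ∈ S
    · have h := hx.curveBar.mem_L_bound.mp hw2 Q
      rw [max_eq_left (by have := hS Q hQ; omega)] at h ⊢
      simpa using h
    · have h := hx.curveBar.mem_polesLe.mp hw1 Q
      rwa [hE, finDiv_apply, if_neg hQ, zero_sub]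
  have d1 := Submodule.finrank_sup_add_finrank_inf_eq (polesLe (G.red x) n₀ : Submodule k Fb) U
  have d2 := Submodule.finrank_mono hinter
  have e1 := hx.finrank_polesLe_bar (n := n₀) hn₀.2
  have e2 := hx.finrank_polesLe_bar (n := N) (by omega)
  have e3 := hx.ell_bound_bar (n := n₀) (D := E) (by have := hx.le_mul_paramDeg n₀; omega)
  have e4 := hx.ell_bound_bar (n := N) (D := E) (by
    have := hx.le_mul_paramDeg N
    have : (n₀ : ℤ) ≤ N := by exact_mod_cast le_max_right m n₀
    omega)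
  have e4' : (finrank k U : ℤ) = N * (paramDeg (K := K) x : ℤ) - Divisor.degree E + 1 - g := e4
  simp only [ell, polesLe] at d1 d2 e1 e2 e3
  have hall : (polesLe (G.red x) n₀ : Submodule k Fb) ⊔ U = polesLe (G.red x) N :=
    Submodule.eq_of_le_of_finrank_le (sup_le hle hUle) (by simp only [polesLe]; omega)
  have hfN := hx.curveBar.polesLe_mono (G.red x) (le_max_left m n₀) hm
  rw [← hall] at hfN
  obtain ⟨w, hw, u, hu, rfl⟩ := Submodule.mem_sup.mp hfN
  refine ⟨w, hw, fun Q hQ => ?_⟩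
  have h := hx.curveBar.mem_L_bound.mp hu Q
  rw [max_eq_left (by have := hS Q hQ; omega), mul_zero, sub_zero, hE, finDiv_apply,
    if_pos hQ] at h
  simpa using h

/-- An ideal containing a function with exact poles and without common zero is everything. -/
theorem one_mem_of_noZero [Infinite k] (J : Submodule k Fb)
    (hJ : ∀ u ∈ J, RegAway (K := k) (G.red x) u)
    (hmul : ∀ u ∈ J, ∀ w, RegAway (K := k) (G.red x) w → w * u ∈ J)
    {f₀ : Fb} {d : ℕ} (hf₀J : f₀ ∈ J) (hf₀0 : f₀ ≠ 0)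
    (hf₀ : f₀ ∈ (polesLe (G.red x) d : Submodule k Fb))
    (hexact : ∀ Q : Place k Fb, Q.ord (G.red x) < 0 → Q.ord f₀ = (d : ℤ) * Q.ord (G.red x))
    (hzero : ∀ Q : Place k Fb, 0 ≤ Q.ord (G.red x) → 0 < Q.ord f₀ → ∃ u ∈ J, valAt Q u ≠ 0) :
    (1 : Fb) ∈ J := by
  classical
  set Z : Finset (Place k Fb) := (divOf f₀ : Divisor k Fb).support.filter
    (fun Q => 0 ≤ Q.ord (G.red x) ∧ 0 < Q.ord f₀) with hZ
  have hZmem : ∀ Q, Q ∈ Z ↔ 0 ≤ Q.ord (G.red x) ∧ 0 < Q.ord f₀ := fun Q => by
    rw [hZ, Finset.mem_filter, Finsupp.mem_support_iff, hx.curveBar.divOf_apply]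
    exact ⟨fun h => h.2, fun h => ⟨by omega, h⟩⟩
  choose u hu hune using fun Q : Z => hzero Q ((hZmem Q).mp Q.2).1 ((hZmem Q).mp Q.2).2
  let idx : Z ≃ Fin Z.card := Z.equivFin
  let poly : Z → Polynomial k := fun Q =>
    ∑ j : Z, Polynomial.C (valAt (Q : Place k Fb) (u j)) * Polynomial.X ^ (idx j : ℕ)
  have hpoly : ∀ Q, poly Q ≠ 0 := fun Q h => by
    have := congrArg (fun q : Polynomial k => q.coeff (idx Q : ℕ)) h
    simp [poly, Polynomial.finsetSum_coeff, Polynomial.coeff_X_pow, Fin.val_inj] at this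
    exact hune Q this
  obtain ⟨t, ht⟩ : ∃ t : k, (∏ Q, poly Q).eval t ≠ 0 := by
    by_contra h
    push Not at h
    have h0 : (∏ Q, poly Q) = 0 :=
      Polynomial.funext fun r => (h r).trans Polynomial.eval_zero.symm
    exact Finset.prod_ne_zero_iff.mpr (fun Q _ => hpoly Q) h0
  rw [Polynomial.eval_prod, Finset.prod_ne_zero_iff] at ht
  set H : Fb := ∑ j : Z, t ^ (idx j : ℕ) • u j with hH
  have hHJ : H ∈ J := Submodule.sum_mem _ fun j _ => J.smul_mem _ (hu j)
  have hHval : ∀ Q : Z, valAt (Q : Place k Fb) H = (poly Q).eval t := by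
    intro Q
    refine valAt_eq ?_
    simp only [hH, poly, Polynomial.eval_finsetSum, Polynomial.eval_mul, Polynomial.eval_C,
      Polynomial.eval_pow, Polynomial.eval_X, map_sum]
    rw [← Finset.sum_sub_distrib]
    refine Vanish.sum _ _ fun j _ => ?_
    rw [mul_comm, map_mul, ← Algebra.smul_def, ← smul_sub]
    exact (hx.curveBar.exists_valAt (hJ _ (hu j) _ ((hZmem Q).mp Q.2).1)).smul _
  by_cases hH0 : H = 0
  · have hno : ∀ Q : Place k Fb, 0 ≤ Q.ord (G.red x) → Q.ord f₀ = 0 := by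
      intro Q hQ
      have h0 := Vanish.zero_iff.mp (hJ _ hf₀J Q hQ)
      by_contra hne
      exact ht ⟨Q, (hZmem Q).mpr ⟨hQ, by omega⟩⟩ (Finset.mem_univ _)
        (by rw [← hHval, hH0, valAt_zero])
    have := hmul f₀ hf₀J f₀⁻¹ fun Q hQ =>
      Vanish.zero_iff.mpr (by rw [Q.ord_inv, hno Q hQ]; rfl)
    rwa [inv_mul_cancel₀ hf₀0] at this
  obtain ⟨m, hm⟩ := hx.curveBar.exists_mem_polesLe (hJ H hHJ)
  obtain ⟨z, w, hz, hw, h1⟩ := hx.exists_coprime_sum (n' := hx.bound) (d := d) le_rfl hm hf₀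
    hexact hH0 hf₀0 (fun Q hQ hQ' => by
      have hne : valAt Q H ≠ 0 := by
        rw [hHval ⟨Q, (hZmem Q).mpr ⟨hQ, hQ'⟩⟩]
        exact ht _ (Finset.mem_univ _)
      rcases lt_or_eq_of_le (Vanish.zero_iff.mp (hJ H hHJ Q hQ)) with hlt | heq
      · exact absurd (valAt_eq_zero_of_vanish (Or.inr hlt)) hne
      · exact heq.symm)
    (hx.curveBar.one_mem_polesLe _ _)
  rw [h1, mul_comm H, mul_comm f₀]
  exact J.add_mem (hmul H hHJ z (hx.curveBar.regAway_of_mem_polesLe hz))
    (hmul f₀ hf₀J w (hx.curveBar.regAway_of_mem_polesLe hw))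

/-- An ideal containing elements of small order contains all elements of larger order. -/
theorem mem_ideal_of_ord [Infinite k] (I : Submodule k Fb)
    (hI : ∀ u ∈ I, RegAway (K := k) (G.red x) u)
    (hmul : ∀ u ∈ I, ∀ w, RegAway (K := k) (G.red x) w → w * u ∈ I)
    {f₀ : Fb} {d : ℕ} (hf₀I : f₀ ∈ I) (hf₀0 : f₀ ≠ 0)
    (hf₀ : f₀ ∈ (polesLe (G.red x) d : Submodule k Fb))
    (hexact : ∀ Q : Place k Fb, Q.ord (G.red x) < 0 → Q.ord f₀ = (d : ℤ) * Q.ord (G.red x))
    (ε : Place k Fb → ℤ)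
    (hε : ∀ Q : Place k Fb, 0 ≤ Q.ord (G.red x) → ∃ i ∈ I, i ≠ 0 ∧ Q.ord i ≤ ε Q)
    {w : Fb} (hw : RegAway (K := k) (G.red x) w)
    (hwε : ∀ Q : Place k Fb, 0 ≤ Q.ord (G.red x) → Vanish Q w (ε Q)) : w ∈ I := by
  classical
  rcases eq_or_ne w 0 with rfl | hw0
  · exact I.zero_mem
  let J : Submodule k Fb :=
    { carrier := {u | RegAway (K := k) (G.red x) u ∧ u * w ∈ I}
      zero_mem' := ⟨fun _ _ => Vanish.zero_left, by rw [zero_mul]; exact I.zero_mem⟩
      add_mem' := fun {a b} ha hb =>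
        ⟨fun Q hQ => (ha.1 Q hQ).add (hb.1 Q hQ), by rw [add_mul]; exact I.add_mem ha.2 hb.2⟩
      smul_mem' := fun c a ha =>
        ⟨fun Q hQ => (ha.1 Q hQ).smul c, by rw [smul_mul_assoc]; exact I.smul_mem c ha.2⟩ }
  have h1 : (1 : Fb) ∈ J := by
    refine one_mem_of_noZero hx J (fun u hu => hu.1)
      (fun u hu v hv => ⟨regAway_mul hv hu.1, by rw [mul_assoc]; exact hmul _ hu.2 v hv⟩)
      (f₀ := f₀) ⟨hI _ hf₀I, by rw [mul_comm]; exact hmul _ hf₀I w hw⟩ hf₀0 hf₀ hexact ?_
    intro Q hQ _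
    obtain ⟨i, hiI, hi0, hiQ⟩ := hε Q hQ
    have hwQ := (hwε Q hQ).resolve_left hw0
    have hiQ0 := Vanish.zero_iff.mp (hI i hiI Q hQ)
    set S : Finset (Place k Fb) :=
      insert Q ((divOf w : Divisor k Fb).support.filter fun R => 0 ≤ R.ord (G.red x)) with hS
    obtain ⟨v, hv0, hv, hvQ, hvS⟩ := exists_reg_ord hx S
      (fun R => if R = Q then (Q.ord w - Q.ord i).toNat else (R.ord w).toNat) (fun R hR => by
        rcases Finset.mem_insert.mp hR with rfl | hR
        · exact hQ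
        · exact (Finset.mem_filter.mp hR).2) (Finset.mem_insert_self _ _)
    simp only [if_true] at hvQ
    have hu0 : v * i / w ≠ 0 := div_ne_zero (mul_ne_zero hv0 hi0) hw0
    have hord : ∀ R : Place k Fb, R.ord (v * i / w) = R.ord v + R.ord i - R.ord w := fun R => by
      rw [FF.ord_div R (mul_ne_zero hv0 hi0) hw0, R.ord_mul hv0 hi0]
    have hmem : v * i / w ∈ J := by
      refine ⟨fun R hR => Or.inr ?_, ?_⟩
      · rw [hord]
        have hi' := Vanish.zero_iff.mp (hI i hiI R hR)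
        have hv' := Vanish.zero_iff.mp (hv R hR)
        by_cases hRQ : R = Q
        · subst hRQ; omega
        · by_cases hz : R.ord w = 0
          · omega
          · have hRS : R ∈ S := Finset.mem_insert_of_mem (Finset.mem_filter.mpr
              ⟨Finsupp.mem_support_iff.mpr (by rwa [hx.curveBar.divOf_apply]), hR⟩)
            have h2 := (hvS R hRS).resolve_left hv0
            simp only [if_neg hRQ] at h2
            omega
      · rw [div_mul_cancel₀ _ hw0]
        exact hmul i hiI v hv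
    refine ⟨_, hmem, (valAt_inv hx.curveBar hu0 ?_).1⟩
    rw [hord]
    omega
  simpa using h1.2

/-- A character of the ring of regular functions is the evaluation at a place. -/
theorem exists_place_of_char [Infinite k] (χ : Fb → k)
    (hadd : ∀ u v, RegAway (K := k) (G.red x) u → RegAway (K := k) (G.red x) v →
      χ (u + v) = χ u + χ v)
    (hmul : ∀ u v, RegAway (K := k) (G.red x) u → RegAway (K := k) (G.red x) v →
      χ (u * v) = χ u * χ v)
    (hconst : ∀ a : k, χ (algebraMap k Fb a) = a) :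
    ∃ z : Place k Fb, 0 ≤ z.ord (G.red x) ∧
      ∀ u, RegAway (K := k) (G.red x) u → χ u = valAt z u := by
  classical
  set τ := G.red x with hτ
  have hregc : ∀ a : k, RegAway (K := k) τ (algebraMap k Fb a) := fun a _ _ => Vanish.const a
  let J : Submodule k Fb :=
    { carrier := {u | RegAway (K := k) τ u ∧ χ u = 0}
      zero_mem' := ⟨fun _ _ => Vanish.zero_left, by simpa using hconst 0⟩
      add_mem' := fun {a b} ha hb => ⟨fun Q hQ => (ha.1 Q hQ).add (hb.1 Q hQ),
        by rw [hadd a b ha.1 hb.1, ha.2, hb.2, add_zero]⟩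
      smul_mem' := fun c a ha => ⟨fun Q hQ => (ha.1 Q hQ).smul c, by
        rw [Algebra.smul_def, hmul _ a (hregc c) ha.1, ha.2, mul_zero]⟩ }
  have hτreg : RegAway (K := k) τ τ := fun Q hQ => Vanish.zero_iff.mpr hQ
  set c := χ τ
  set f₀ := τ - algebraMap k Fb c with hf₀
  have hf₀reg : RegAway (K := k) τ f₀ := fun Q hQ => (hτreg Q hQ).sub (Vanish.const c)
  have hf₀J : f₀ ∈ J := by
    refine ⟨hf₀reg, ?_⟩
    have h := hadd f₀ (algebraMap k Fb c) hf₀reg (hregc c)
    rw [hf₀, sub_add_cancel, hconst] at h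
    exact left_eq_add.mp (h.trans (add_comm _ _)) 
  have hf₀0 : f₀ ≠ 0 := sub_ne_zero.mpr (hx.not_const c)
  have hexact : ∀ Q : Place k Fb, Q.ord τ < 0 → Q.ord f₀ = ((1 : ℕ) : ℤ) * Q.ord τ := fun Q hQ => by
    have h2 := FF.ord_add_of_lt Q (f := τ) (g := -algebraMap k Fb c) hx.red_ne_zero
      (Or.inr (by rw [FF.ord_neg, FF.ord_algebraMap]; exact hQ))
    rw [← sub_eq_add_neg] at h2
    rw [hf₀, h2.2, Nat.cast_one, one_mul]
  by_contra hcon
  push Not at hcon
  have h1 : (1 : Fb) ∈ J := by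
    refine one_mem_of_noZero hx J (fun u hu => hu.1)
      (fun u hu w hw => ⟨regAway_mul hw hu.1, by rw [hmul w u hw hu.1, hu.2, mul_zero]⟩)
      hf₀J hf₀0 (Submodule.sub_mem _ (hx.curveBar.self_mem_polesLe τ) (by
        rw [Algebra.algebraMap_eq_smul_one]
        exact Submodule.smul_mem _ _ (hx.curveBar.one_mem_polesLe τ 1))) hexact ?_
    intro Q hQ _
    obtain ⟨u, hu, hne⟩ := hcon Q hQ
    refine ⟨u - algebraMap k Fb (χ u), ⟨fun R hR => (hu R hR).sub (Vanish.const _), ?_⟩, ?_⟩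
    · have h := hadd (u - algebraMap k Fb (χ u)) (algebraMap k Fb (χ u))
        (fun R hR => (hu R hR).sub (Vanish.const _)) (hregc _)
      rw [sub_add_cancel, hconst] at h
      exact left_eq_add.mp (h.trans (add_comm _ _))
    · rw [hx.curveBar.valAt_sub (hu Q hQ) (Vanish.const _), valAt_algebraMap, sub_ne_zero]
      exact fun h => hne h.symm
  have h2 : χ (1 : Fb) = 1 := by simpa using hconst 1
  exact one_ne_zero (h2.symm.trans h1.2)

end Bar

end FLTAgent.Lift
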