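import Fermat.Agent.Lift.Defs
import Fermat.Agent.Lift.Curve

/-!
# The Frobenius of the reduced curve

`Fr` is the `q`-power Frobenius of `E`, linear over the constants (`FrHom`); we record its effect on
orders (`ord_Fr`), values (`valAt_Fr`) and on the parameter (`Fr_tau`), the polynomial `frobPoly`,
regularity of pullbacks along `α` and `β`, and the data `inv` with `j` replaced by `j⁻¹`, used for
the second affine chart.
-/

set_option autoImplicit false
set_option linter.style.haveILetI false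
set_option linter.unusedSectionVars false

noncomputable section

open AlgebraicCurve SemilinearAut Module

namespace FLTAgent.Lift

open FLTAgent.Reduction

/-- Semilinear automorphisms preserve `Vanish`. -/
theorem vanish_smul {K F : Type*} [Field K] [Field F] [Algebra K F] (σ : SemilinearAut K F)
    {v : Place K F} {f : F} {n : ℤ} (h : Vanish v f n) : Vanish (σ • v) (σ • f) n := by
  rcases h with rfl | h
  · exact Or.inl (smul_zero σ)
  · exact Or.inr (by rwa [SemilinearAut.ord_smul])

theorem valAt_smul_semilinear {K F : Type*} [Field K] [Field F] [Algebra K F] {g : ℕ}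
    (hC : CurveData K F g) (σ : SemilinearAut K F) {v : Place K F} {f : F} (h : Vanish v f 0) :
    valAt (σ • v) (σ • f) = baseAut σ (valAt v f) := by
  refine valAt_eq ?_
  rw [← SemilinearAut.smul_algebraMap, ← smul_sub]
  exact vanish_smul σ (hC.exists_valAt h)

namespace Data

variable {K k F F₀ E : Type*} [Field K] [Field k] [Field F] [Field F₀] [Field E] [Algebra K F]
  [Algebra K F₀] [Algebra k E] {A : ValuationSubring K} {π : A →+* k} {q g g' : ℕ}
variable (D : Data A π q F F₀ E g g')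

include D in
theorem charP_top : CharP E q := by
  haveI := D.charP
  exact charP_of_injective_algebraMap (algebraMap k E).injective q

theorem Fr_mul (a b : E) : D.Fr (a * b) = D.Fr a * D.Fr b := by
  rw [Fr, smul_mul', mul_pow, Fr, Fr]

theorem Fr_add (a b : E) : D.Fr (a + b) = D.Fr a + D.Fr b := by
  haveI := D.charP_top
  haveI : Fact q.Prime := ⟨D.q_prime⟩
  rw [Fr, smul_add, add_pow_char, Fr, Fr]

theorem Fr_algebraMap (c : k) : D.Fr (algebraMap k E c) = algebraMap k E c := by
  have h : D.frob • algebraMap k E (baseAut D.frob⁻¹ c) = algebraMap k E c := by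
    rw [← SemilinearAut.smul_algebraMap, smul_inv_smul]
  rw [SemilinearAut.smul_algebraMap, D.frob_base, map_pow] at h
  rw [Fr, SemilinearAut.smul_algebraMap, h]

/-- The Frobenius as a `k`-algebra map. -/
def FrHom : E →ₐ[k] E where
  toFun := D.Fr
  map_one' := by rw [Fr, smul_one, one_pow]
  map_mul' := D.Fr_mul
  map_zero' := by rw [Fr, smul_zero, zero_pow D.q_prime.ne_zero]
  map_add' := D.Fr_add
  commutes' := D.Fr_algebraMap

theorem FrHom_apply (a : E) : D.FrHom a = D.Fr a := rfl

theorem Fr_zero : D.Fr 0 = 0 := map_zero D.FrHom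

theorem Fr_one : D.Fr 1 = 1 := map_one D.FrHom

theorem Fr_sub (a b : E) : D.Fr (a - b) = D.Fr a - D.Fr b := map_sub D.FrHom a b

theorem Fr_pow (a : E) (n : ℕ) : D.Fr (a ^ n) = D.Fr a ^ n := map_pow D.FrHom a n

theorem Fr_ne_zero {a : E} (h : a ≠ 0) : D.Fr a ≠ 0 :=
  fun h0 => h (D.FrHom.toRingHom.injective (h0.trans (map_zero D.FrHom.toRingHom).symm))

theorem ord_Fr (Q : Place k E) (a : E) : Q.ord (D.Fr a) = q * (D.frob • Q).ord a := by
  have h := SemilinearAut.ord_smul D.frob Q (D.frob⁻¹ • a)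
  rw [smul_inv_smul] at h
  rw [Fr, FF.ord_pow, h]

theorem vanish_Fr {Q : Place k E} {a : E} {n : ℤ} (h : Vanish (D.frob • Q) a n) :
    Vanish Q (D.Fr a) (q * n) := by
  rcases h with rfl | h
  · exact Or.inl D.Fr_zero
  · exact Or.inr (by
      rw [D.ord_Fr]
      exact mul_le_mul_of_nonneg_left h (Int.natCast_nonneg q))

theorem vanish_Fr_zero {Q : Place k E} {a : E} (h : Vanish (D.frob • Q) a 0) :
    Vanish Q (D.Fr a) 0 := by simpa using D.vanish_Fr h

theorem valAt_Fr {Q : Place k E} {a : E} (h : Vanish (D.frob • Q) a 0) :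
    valAt Q (D.Fr a) = valAt (D.frob • Q) a := by
  refine valAt_eq ?_
  have h1 := D.param.curveBar.exists_valAt h
  rw [← D.Fr_algebraMap (valAt (D.frob • Q) a), ← D.Fr_sub]
  refine (D.vanish_Fr h1).mono ?_
  have := D.q_prime.one_lt
  omega

theorem tau_ne_zero : D.tau ≠ 0 := D.param.red_ne_zero

theorem tau_not_const (c : k) : D.tau ≠ algebraMap k E c := D.param.not_const c

theorem Fr_tau : D.Fr D.tau = D.tau ^ q := by
  have h : D.frob⁻¹ • D.tau = D.tau := by
    rw [inv_smul_eq_iff]
    exact D.frob_param.symm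
  rw [Fr, h]

theorem ord_tau_smul (Q : Place k E) : (D.frob • Q).ord D.tau = Q.ord D.tau := by
  conv_lhs => rw [show D.tau = D.frob • D.tau from D.frob_param.symm]
  exact SemilinearAut.ord_smul _ _ _

theorem valAt_tau_smul {Q : Place k E} (h : 0 ≤ Q.ord D.tau) :
    valAt (D.frob • Q) D.tau = valAt Q D.tau ^ q := by
  conv_lhs => rw [show D.tau = D.frob • D.tau from D.frob_param.symm]
  rw [valAt_smul_semilinear D.param.curveBar _ (Vanish.zero_iff.mpr h), D.frob_base]

theorem hat_ne_zero : D.hat ≠ 0 := pow_ne_zero _ D.tau_ne_zero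

theorem ord_hat (Q : Place k E) : Q.ord D.hat = (q + 1 : ℕ) * Q.ord D.tau := by
  rw [hat, FF.ord_pow]

theorem regAway_Fr {w : E} (h : RegAway (K := k) D.tau w) :
    RegAway (K := k) D.tau (D.Fr w) :=
  fun Q hQ => D.vanish_Fr_zero (h _ (by rwa [D.ord_tau_smul]))

/-- The polynomial relation satisfied on the crossings. -/
def frobPoly : E := D.tau ^ q ^ 2 - D.tau

include D in
theorem one_lt_q_sq : 1 < q ^ 2 := Nat.one_lt_pow two_ne_zero D.q_prime.one_lt

theorem frobPoly_ord {Q : Place k E} (hQ : Q.ord D.tau < 0) :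
    D.frobPoly ≠ 0 ∧ Q.ord D.frobPoly = ((q ^ 2 : ℕ) : ℤ) * Q.ord D.tau := by
  have hlt : Q.ord (D.tau ^ q ^ 2) < Q.ord (-D.tau) := by
    rw [FF.ord_neg, FF.ord_pow]
    have h1 : (1 : ℤ) < (q ^ 2 : ℕ) := by exact_mod_cast D.one_lt_q_sq
    nlinarith
  obtain ⟨h1, h2⟩ := FF.ord_add_of_lt Q (pow_ne_zero _ D.tau_ne_zero) (Or.inr hlt)
  rw [← sub_eq_add_neg] at h1 h2
  exact ⟨h1, h2.trans (FF.ord_pow Q _ _)⟩

theorem frobPoly_ne_zero : D.frobPoly ≠ 0 := by
  obtain ⟨Q, hQ⟩ := D.param.exists_pole_bar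
  exact (D.frobPoly_ord hQ).1

theorem frobPoly_mem : D.frobPoly ∈ (polesLe D.tau (q ^ 2) : Submodule k E) := by
  have h := D.param.curveBar.pow_mem_polesLe (D.param.curveBar.self_mem_polesLe D.tau)
  refine Submodule.sub_mem _ (by simpa using h (q ^ 2))
    (D.param.curveBar.polesLe_mono _ D.one_lt_q_sq.le (D.param.curveBar.self_mem_polesLe D.tau))

/-! ### The common pieces of `α` and `β` -/

theorem alpha_ord_nonneg {P : Place K F} (hP : 0 ≤ P.ord D.T) :
    0 ≤ P.ord (D.α D.j) ∧ 0 ≤ P.ord (D.β D.j) := by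
  have ha : D.α D.j ≠ 0 := fun h => D.param.ne_zero (D.α.toRingHom.injective
    (h.trans (map_zero D.α.toRingHom).symm))
  have hb : D.β D.j ≠ 0 := fun h => D.param.ne_zero (D.β.toRingHom.injective
    (h.trans (map_zero D.β.toRingHom).symm))
  rw [T, P.ord_mul ha hb] at hP
  rcases mul_nonneg_iff.mp (D.ord_same_sign P) with h | h
  · exact h
  · omega

theorem regAway_alpha {a : F₀} (h : RegAway (K := K) D.j a) : RegAway (K := K) D.T (D.α a) := by
  intro P hP
  obtain ⟨e, he, heq⟩ := D.ord_resα P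
  have h1 := (D.alpha_ord_nonneg hP).1
  rw [heq] at h1
  have h2 : 0 ≤ (D.resα P).ord D.j := nonneg_of_mul_nonneg_right h1 (by exact_mod_cast he)
  refine Vanish.zero_iff.mpr ?_
  rw [heq]
  exact mul_nonneg (Int.natCast_nonneg e) (Vanish.zero_iff.mp (h _ h2))

theorem regAway_beta {a : F₀} (h : RegAway (K := K) D.j a) : RegAway (K := K) D.T (D.β a) := by
  intro P hP
  obtain ⟨e, he, heq⟩ := D.ord_resβ P
  have h1 := (D.alpha_ord_nonneg hP).2
  rw [heq] at h1
  have h2 : 0 ≤ (D.resβ P).ord D.j := nonneg_of_mul_nonneg_right h1 (by exact_mod_cast he)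
  refine Vanish.zero_iff.mpr ?_
  rw [heq]
  exact mul_nonneg (Int.natCast_nonneg e) (Vanish.zero_iff.mp (h _ h2))

/-! ### The data with the inverse parameter -/

theorem ord_alpha_inv (P : Place K F) : P.ord (D.α D.j⁻¹) = -P.ord (D.α D.j) := by
  rw [map_inv₀, P.ord_inv]

theorem ord_beta_inv (P : Place K F) : P.ord (D.β D.j⁻¹) = -P.ord (D.β D.j) := by
  rw [map_inv₀, P.ord_inv]

theorem degree_poleDiv_inv {K F : Type*} [Field K] [Field F] [Algebra K F] {g : ℕ}
    (hC : CurveData K F g) (f : F) :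
    Divisor.degree (poleDiv f⁻¹ : Divisor K F) = Divisor.degree (poleDiv f : Divisor K F) := by
  have h : (poleDiv f⁻¹ : Divisor K F) = poleDiv f + divOf f := Finsupp.ext fun v => by
    simp only [Finsupp.add_apply, hC.poleDiv_apply, hC.divOf_apply, v.ord_inv, neg_neg]
    omega
  rw [h, map_add, hC.degree_divOf, add_zero]

/-- The data with the parameter `j⁻¹`. -/
def inv : Data A π q F F₀ E g g' :=
  { D with
    j := D.j⁻¹
    param := D.param.inv
    frob_param := by
      rw [D.G.red_inv D.param.mem D.param.red_ne_zero, smul_inv'', D.frob_param]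
    ord_same_sign := fun P => by
      rw [D.ord_alpha_inv, D.ord_beta_inv, neg_mul_neg]
      exact D.ord_same_sign P
    degree_alpha := by
      rw [map_inv₀, degree_poleDiv_inv D.curve, degree_poleDiv_inv D.param.curve]
      exact D.degree_alpha
    degree_beta := by
      rw [map_inv₀, degree_poleDiv_inv D.curve, degree_poleDiv_inv D.param.curve]
      exact D.degree_beta }

theorem inv_inv' : D.inv.inv = D := by
  cases D
  simp [inv]

theorem T_inv : D.inv.T = D.T⁻¹ := by
  show D.α D.j⁻¹ * D.β D.j⁻¹ = _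
  rw [map_inv₀, map_inv₀, T, mul_inv]

theorem tau_inv : D.inv.tau = D.tau⁻¹ := D.G.red_inv D.param.mem D.param.red_ne_zero

theorem hat_inv : D.inv.hat = D.hat⁻¹ := by
  rw [hat, tau_inv, inv_pow, hat]

theorem Fr_inv (a : E) : D.inv.Fr a = D.Fr a := rfl

end Data

end FLTAgent.Lift
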