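import Fermat.Agent.Lift.Pair

/-!
# A frame of the big curve and reductions of Riemann–Roch spaces

The symmetric parameter `T` reduces to `(hat, hat)` and has degree `degT`; `killZero` and `killInf`
die on one component each. With these we construct integral functions forming a frame over `K[T]`
with independent reductions (`exists_frame`), deduce that finitely many functions lie in the span of
such a family (`exists_pindep_span`), and hence that reduction preserves the dimension of
Riemann–Roch spaces (`finrank_redSub_L`).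
-/

set_option autoImplicit false
set_option linter.style.haveILetI false
set_option linter.unusedSectionVars false

noncomputable section

open AlgebraicCurve SemilinearAut Module

namespace FLTAgent.Lift

open FLTAgent.Reduction

namespace Data

variable {K k F F₀ E : Type*} [Field K] [Field k] [Field F] [Field F₀] [Field E] [Algebra K F]
  [Algebra K F₀] [Algebra k E] {A : ValuationSubring K} {π : A →+* k} {q g g' : ℕ}
variable (D : Data A π q F F₀ E g g')

theorem alpha_mem {a : F₀} (ha : a ∈ D.G.V) : D.α a ∈ D.V :=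
  ⟨D.alpha_mem_inf a ha, D.alpha_mem_zero a ha⟩

theorem beta_mem {a : F₀} (ha : a ∈ D.G.V) : D.β a ∈ D.V :=
  ⟨D.beta_mem_inf a ha, D.beta_mem_zero a ha⟩

theorem red_alpha {a : F₀} (ha : a ∈ D.G.V) : D.red (D.α a) = (D.G.red a, D.Fr (D.G.red a)) :=
  Prod.ext (D.red_alpha_inf a ha) (D.red_alpha_zero a ha)

theorem red_beta {a : F₀} (ha : a ∈ D.G.V) : D.red (D.β a) = (D.Fr (D.G.red a), D.G.red a) :=
  Prod.ext (D.red_beta_inf a ha) (D.red_beta_zero a ha)

theorem T_mem : D.T ∈ D.V := D.V.mul_mem (D.alpha_mem D.param.mem) (D.beta_mem D.param.mem)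

theorem red_T : D.red D.T = (D.hat, D.hat) := by
  show D.red (D.α D.j * D.β D.j) = _
  rw [red_mul (D.alpha_mem D.param.mem) (D.beta_mem D.param.mem), D.red_alpha D.param.mem,
    D.red_beta D.param.mem, Prod.mk_mul_mk]
  show (D.tau * D.Fr D.tau, D.Fr D.tau * D.tau) = _
  rw [D.Fr_tau, hat, pow_succ, mul_comm]

theorem alpha_j_ne_zero : D.α D.j ≠ 0 := fun h => D.param.ne_zero (D.α.toRingHom.injective
  (h.trans (map_zero D.α.toRingHom).symm))

theorem beta_j_ne_zero : D.β D.j ≠ 0 := fun h => D.param.ne_zero (D.β.toRingHom.injective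
  (h.trans (map_zero D.β.toRingHom).symm))

theorem T_ne_zero : D.T ≠ 0 := mul_ne_zero D.alpha_j_ne_zero D.beta_j_ne_zero

/-- The degree of the symmetric parameter. -/
def degT : ℕ := 2 * ((q + 1) * paramDeg (K := K) D.j)

theorem degree_poleDiv_T : Divisor.degree (poleDiv D.T : Divisor K F) = (D.degT : ℤ) := by
  have h : (poleDiv D.T : Divisor K F) = poleDiv (D.α D.j) + poleDiv (D.β D.j) :=
    Finsupp.ext fun P => by
      simp only [Finsupp.add_apply, D.curve.poleDiv_apply, T,
        P.ord_mul D.alpha_j_ne_zero D.beta_j_ne_zero]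
      rcases mul_nonneg_iff.mp (D.ord_same_sign P) with ⟨h1, h2⟩ | ⟨h1, h2⟩ <;> omega
  rw [h, map_add, D.degree_alpha, D.degree_beta, D.param.degree_poleDiv]
  simp only [degT]
  push_cast
  ring

theorem degT_pos : 1 ≤ D.degT := by
  have := D.param.paramDeg_pos
  simp only [degT]
  nlinarith

theorem le_mul_degT (n : ℕ) : (n : ℤ) ≤ n * (D.degT : ℤ) :=
  le_mul_of_one_le_right (Int.natCast_nonneg n) (by exact_mod_cast D.degT_pos)

theorem hat_ord_neg {Q : Place k E} : Q.ord D.hat < 0 ↔ Q.ord D.tau < 0 := by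
  rw [D.ord_hat]
  constructor <;> intro h <;> push_cast at * <;> nlinarith

theorem hat_ord_nonneg {Q : Place k E} : 0 ≤ Q.ord D.hat ↔ 0 ≤ Q.ord D.tau := by
  rw [← not_lt, ← not_lt, D.hat_ord_neg]

theorem hat_not_const (c : k) : D.hat ≠ algebraMap k E c := by
  intro h
  obtain ⟨Q, hQ⟩ := D.param.exists_pole_bar
  have := D.hat_ord_neg.mpr hQ
  rw [h, FF.ord_algebraMap] at this
  exact lt_irrefl _ this

theorem linFactor_mem (c : K) : linFactor A D.T c ∈ D.V := by
  unfold linFactor
  split_ifs with hc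
  · exact D.V.sub_mem D.T_mem (const_mem ⟨c, hc⟩)
  · exact D.V.sub_mem D.V.one_mem (smul_mem ⟨_, (A.mem_or_inv_mem c).resolve_left hc⟩ D.T_mem)

theorem red_linFactor_of_mem (c : A) :
    D.red (linFactor A D.T (c : K)) =
      (D.hat - algebraMap k E (π c), D.hat - algebraMap k E (π c)) := by
  rw [linFactor, if_pos c.2, red_sub D.T_mem (const_mem c), red_const, D.red_T]
  rfl

theorem red_linFactor_of_notMem {c : K} (hc : c ∉ A) : D.red (linFactor A D.T c) = 1 := by
  have hinv := (A.mem_or_inv_mem c).resolve_left hc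
  rw [linFactor, if_neg hc, red_sub D.V.one_mem (smul_mem ⟨_, hinv⟩ D.T_mem), red_one,
    red_smul ⟨_, hinv⟩ D.T_mem, D.Ginf.res_inv_of_notMem hc, zero_smul, sub_zero]

theorem red_linFactor_ne_zero (c : K) :
    (D.red (linFactor A D.T c)).1 ≠ 0 ∧ (D.red (linFactor A D.T c)).2 ≠ 0 := by
  by_cases hc : c ∈ A
  · rw [D.red_linFactor_of_mem ⟨c, hc⟩]
    exact ⟨sub_ne_zero.mpr (D.hat_not_const _), sub_ne_zero.mpr (D.hat_not_const _)⟩
  · rw [D.red_linFactor_of_notMem hc]
    exact ⟨one_ne_zero, one_ne_zero⟩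

theorem linFactor_mem_polesLe (c : K) :
    linFactor A D.T c ∈ (polesLe D.T 1 : Submodule K F) := by
  have h1 := D.curve.self_mem_polesLe D.T
  have h2 := D.curve.one_mem_polesLe D.T 1
  unfold linFactor
  split_ifs with hc
  · rw [Algebra.algebraMap_eq_smul_one]
    exact Submodule.sub_mem _ h1 (Submodule.smul_mem _ _ h2)
  · exact Submodule.sub_mem _ h2 (Submodule.smul_mem _ _ h1)

theorem vanish_linFactor {P : Place K F} (hP : 0 ≤ P.ord D.T) :
    Vanish P (linFactor A D.T (valAt P D.T)) 1 := by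
  have h := D.curve.exists_valAt (Vanish.zero_iff.mpr hP)
  unfold linFactor
  split_ifs with hc
  · exact h
  · have hne : valAt P D.T ≠ 0 := fun h0 => hc (h0 ▸ A.zero_mem)
    have : (1 : F) - (valAt P D.T)⁻¹ • D.T =
        (-(valAt P D.T)⁻¹) • (D.T - algebraMap K F (valAt P D.T)) := by
      rw [smul_sub, neg_smul, Algebra.algebraMap_eq_smul_one, smul_smul, neg_mul,
        inv_mul_cancel₀ hne, neg_smul, one_smul]
      ring
    rw [this]
    exact h.smul _

/-- An integral function, regular away from the poles of `T`, with both reductions nonzero,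
vanishing to prescribed orders at finite places. -/
theorem exists_clear (Z : Divisor K F) : ∃ u : F, u ∈ D.V ∧ (D.red u).1 ≠ 0 ∧ (D.red u).2 ≠ 0 ∧
    RegAway (K := K) D.T u ∧ ∀ P : Place K F, 0 ≤ P.ord D.T → Vanish P u (Z P) := by
  classical
  set u : F := ∏ P ∈ Z.support, linFactor A D.T (valAt P D.T) ^ (Z P).toNat with hu
  have hm : ∀ P ∈ Z.support, linFactor A D.T (valAt P D.T) ^ (Z P).toNat ∈ D.V := fun P _ =>
    pow_mem (D.linFactor_mem _) _
  have hreg : ∀ c : K, RegAway (K := K) D.T (linFactor A D.T c) := fun c =>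
    D.curve.regAway_of_mem_polesLe (D.linFactor_mem_polesLe c)
  have hprod : ∀ (s : Finset (Place K F)) (P : Place K F), 0 ≤ P.ord D.T →
      Vanish P (∏ Q ∈ s, linFactor A D.T (valAt Q D.T) ^ (Z Q).toNat) 0 := by
    intro s P hP
    induction s using Finset.induction with
    | empty => simpa using Vanish.one
    | insert a s ha ih =>
      rw [Finset.prod_insert ha]
      exact Vanish.mul_zero' (by simpa using (hreg _ P hP).pow (Z a).toNat) ih
  refine ⟨u, D.V.prod_mem hm, ?_, ?_, fun P hP => hprod _ P hP, fun P hP => ?_⟩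
  · rw [hu, red_prod _ _ hm, Prod.fst_prod, Finset.prod_ne_zero_iff]
    intro P _
    rw [red_pow (D.linFactor_mem _), Prod.pow_fst]
    exact pow_ne_zero _ (D.red_linFactor_ne_zero _).1
  · rw [hu, red_prod _ _ hm, Prod.snd_prod, Finset.prod_ne_zero_iff]
    intro P _
    rw [red_pow (D.linFactor_mem _), Prod.pow_snd]
    exact pow_ne_zero _ (D.red_linFactor_ne_zero _).2
  · by_cases hPD : P ∈ Z.support
    · rw [hu, ← Finset.mul_prod_erase _ _ hPD]
      have h1 := ((D.vanish_linFactor hP).pow (Z P).toNat).mul (hprod (Z.support.erase P) P hP)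
      exact h1.mono (by omega)
    · rw [Finsupp.notMem_support_iff.mp hPD]
      exact hprod _ P hP

/-- An integral multiplier with both reductions nonzero making `y` regular away from the poles
of `T`. -/
theorem exists_clear_poles (y : F) : ∃ u : F, u ∈ D.V ∧ (D.red u).1 ≠ 0 ∧ (D.red u).2 ≠ 0 ∧
    RegAway (K := K) D.T u ∧ RegAway (K := K) D.T (u * y) := by
  obtain ⟨u, hu, hu1, hu2, hureg, hvan⟩ := D.exists_clear (poleDiv y)
  refine ⟨u, hu, hu1, hu2, hureg, fun P hP => ?_⟩
  have h1 := (hvan P hP).mul (Vanish.self (v := P) y)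
  rw [D.curve.poleDiv_apply] at h1
  exact h1.mono (by omega)

/-! ### A frame -/

/-- `β(j)^q - α(j)`: it dies on the second component. -/
def killZero : F := D.β D.j ^ q - D.α D.j

/-- `α(j)^q - β(j)`: it dies on the first component. -/
def killInf : F := D.α D.j ^ q - D.β D.j

theorem killZero_mem : D.killZero ∈ D.V :=
  D.V.sub_mem (pow_mem (D.beta_mem D.param.mem) q) (D.alpha_mem D.param.mem)

theorem killInf_mem : D.killInf ∈ D.V :=
  D.V.sub_mem (pow_mem (D.alpha_mem D.param.mem) q) (D.beta_mem D.param.mem)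

theorem red_killZero : D.red D.killZero = (D.frobPoly, 0) := by
  rw [killZero, red_sub (pow_mem (D.beta_mem D.param.mem) q) (D.alpha_mem D.param.mem),
    red_pow (D.beta_mem D.param.mem), D.red_beta D.param.mem, D.red_alpha D.param.mem,
    Prod.pow_mk, Prod.mk_sub_mk]
  show (D.Fr D.tau ^ q - D.tau, D.tau ^ q - D.Fr D.tau) = _
  rw [D.Fr_tau, sub_self, frobPoly, ← pow_mul, pow_two]

theorem red_killInf : D.red D.killInf = (0, D.frobPoly) := by
  rw [killInf, red_sub (pow_mem (D.alpha_mem D.param.mem) q) (D.beta_mem D.param.mem),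
    red_pow (D.alpha_mem D.param.mem), D.red_beta D.param.mem, D.red_alpha D.param.mem,
    Prod.pow_mk, Prod.mk_sub_mk]
  show (D.tau ^ q - D.Fr D.tau, D.Fr D.tau ^ q - D.tau) = _
  rw [D.Fr_tau, sub_self, frobPoly, ← pow_mul, pow_two]

theorem regAway_alpha_j : RegAway (K := K) D.T (D.α D.j) :=
  fun _ hP => Vanish.zero_iff.mpr (D.alpha_ord_nonneg hP).1

theorem regAway_beta_j : RegAway (K := K) D.T (D.β D.j) :=
  fun _ hP => Vanish.zero_iff.mpr (D.alpha_ord_nonneg hP).2

theorem regAway_killZero : RegAway (K := K) D.T D.killZero := fun P hP =>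
  Vanish.sub (by simpa using (D.regAway_beta_j P hP).pow q) (D.regAway_alpha_j P hP)

theorem regAway_killInf : RegAway (K := K) D.T D.killInf := fun P hP =>
  Vanish.sub (by simpa using (D.regAway_alpha_j P hP).pow q) (D.regAway_beta_j P hP)

theorem exists_basis_hat : ∃ e : Fin (q + 1) × Fin (paramDeg (K := K) D.j) → E,
    ∀ M, LinearIndependent k fun p : Fin M × (Fin (q + 1) × Fin (paramDeg (K := K) D.j)) =>
      D.hat ^ (p.1 : ℕ) * e p.2 := by
  obtain ⟨n₀, eb, -, hind⟩ := D.param.exists_basis_bar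
  refine ⟨fun i => D.tau ^ (i.1 : ℕ) * eb i.2, fun M => ?_⟩
  have h := (hind (M * (q + 1))).comp
    (fun p : Fin M × (Fin (q + 1) × Fin (paramDeg (K := K) D.j)) =>
      (finProdFinEquiv (p.1, p.2.1), p.2.2))
    (fun p p' hpp => by
      obtain ⟨a, b, c⟩ := p
      obtain ⟨a', b', c'⟩ := p'
      simp only [Prod.mk.injEq, EmbeddingLike.apply_eq_iff_eq] at hpp
      simp [hpp])
  convert h using 1
  funext p
  simp only [Function.comp_apply, hat, finProdFinEquiv_apply_val, ← mul_assoc, ← pow_mul, ← pow_add]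
  congr 2
  ring

/-- Integral functions, regular away from the poles of `T`, forming a frame over `K[T]`. -/
theorem exists_frame : ∃ (n₀ : ℕ) (e : Fin D.degT → F),
    (∀ i, e i ∈ D.V ∧ e i ∈ (polesLe D.T n₀ : Submodule K F)) ∧
    ∀ M, D.PIndep fun p : Fin M × Fin D.degT => D.T ^ (p.1 : ℕ) * e p.2 := by
  classical
  set ι := Fin (q + 1) × Fin (paramDeg (K := K) D.j) with hι
  obtain ⟨eb, hind⟩ := D.exists_basis_hat
  choose y hy hyred using fun i => D.Ginf.red_surj (eb i)
  choose y' hy' hy'red using fun i => D.Gzero.red_surj (eb i)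
  have hz : (D.Gzero.red D.killZero) = 0 := congrArg Prod.snd D.red_killZero
  have hi : (D.Ginf.red D.killInf) = 0 := congrArg Prod.fst D.red_killInf
  choose M hM using fun i => exists_kill (D := D) D.Gzero D.scale_zero D.killZero_mem.2 hz (y i)
  choose M' hM' using fun i => exists_kill (D := D) D.Ginf D.scale_inf D.killInf_mem.1 hi (y' i)
  set N := (Finset.univ.sup M) + (Finset.univ.sup M') with hN
  let b : ι ⊕ ι → F := Sum.elim (fun i => D.killZero ^ N * y i) (fun i => D.killInf ^ N * y' i)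
  have hk0 : ∀ i, D.killZero ^ N * y i ∈ D.Gzero.V ∧ D.Gzero.red (D.killZero ^ N * y i) = 0 :=
    fun i => hM i N ((Finset.le_sup (Finset.mem_univ i)).trans (Nat.le_add_right _ _))
  have hk1 : ∀ i, D.killInf ^ N * y' i ∈ D.Ginf.V ∧ D.Ginf.red (D.killInf ^ N * y' i) = 0 :=
    fun i => hM' i N ((Finset.le_sup (Finset.mem_univ i)).trans (Nat.le_add_left _ _))
  have hbV : ∀ i, b i ∈ D.V := by
    rintro (i | i)
    · exact ⟨D.Ginf.V.mul_mem (pow_mem D.killZero_mem.1 N) (hy i), (hk0 i).1⟩
    · exact ⟨(hk1 i).1, D.Gzero.V.mul_mem (pow_mem D.killInf_mem.2 N) (hy' i)⟩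
  have hbred : ∀ i, D.red (b i) = Sum.elim (fun i => (D.frobPoly ^ N * eb i, (0 : E)))
      (fun i => ((0 : E), D.frobPoly ^ N * eb i)) i := by
    rintro (i | i)
    · refine Prod.ext ?_ (hk0 i).2
      show D.Ginf.red (D.killZero ^ N * y i) = _
      rw [D.Ginf.red_mul (pow_mem D.killZero_mem.1 N) (hy i), D.Ginf.red_pow D.killZero_mem.1,
        hyred]
      exact congrArg (fun x => x ^ N * eb i) (congrArg Prod.fst D.red_killZero)
    · refine Prod.ext (hk1 i).2 ?_
      show D.Gzero.red (D.killInf ^ N * y' i) = _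
      rw [D.Gzero.red_mul (pow_mem D.killInf_mem.2 N) (hy' i), D.Gzero.red_pow D.killInf_mem.2,
        hy'red]
      exact congrArg (fun x => x ^ N * eb i) (congrArg Prod.snd D.red_killInf)
  choose u hu hu1 hu2 hureg huy using fun i => D.exists_clear_poles (b i)
  set U : F := ∏ i, u i with hU
  have hUV : U ∈ D.V := D.V.prod_mem fun i _ => hu i
  have hU1 : (D.red U).1 ≠ 0 := by
    rw [hU, red_prod _ _ fun i _ => hu i, Prod.fst_prod]
    exact Finset.prod_ne_zero_iff.mpr fun i _ => hu1 i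
  have hU2 : (D.red U).2 ≠ 0 := by
    rw [hU, red_prod _ _ fun i _ => hu i, Prod.snd_prod]
    exact Finset.prod_ne_zero_iff.mpr fun i _ => hu2 i
  have hreg : ∀ i, RegAway (K := K) D.T (U * b i) := fun i P hP => by
    rw [hU, ← Finset.prod_erase_mul _ _ (Finset.mem_univ i), mul_assoc]
    refine Vanish.mul_zero' ?_ (huy i P hP)
    induction (Finset.univ.erase i) using Finset.induction with
    | empty => simpa using Vanish.one
    | insert a s ha ih =>
      rw [Finset.prod_insert ha]
      exact Vanish.mul_zero' (hureg a P hP) ih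
  choose n hn using fun i => D.curve.exists_mem_polesLe (hreg i)
  have hcard : Fintype.card (ι ⊕ ι) = D.degT := by
    simp [ι, degT, two_mul]
  let eqv : Fin D.degT ≃ ι ⊕ ι := (finCongr hcard.symm).trans (Fintype.equivFin _).symm
  refine ⟨Finset.univ.sup n, fun i => U * b (eqv i), fun i => ⟨D.V.mul_mem hUV (hbV _),
    D.curve.polesLe_mono D.T (Finset.le_sup (Finset.mem_univ _)) (hn _)⟩, fun M => ⟨?_, ?_⟩⟩
  · exact fun p => D.V.mul_mem (pow_mem D.T_mem _) (D.V.mul_mem hUV (hbV _))
  · have hN0 : D.frobPoly ^ N ≠ 0 := pow_ne_zero _ D.frobPoly_ne_zero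
    let f₁ : E →ₗ[k] E × E :=
      (LinearMap.inl k E E).comp (LinearMap.mulLeft k ((D.red U).1 * D.frobPoly ^ N))
    let f₂ : E →ₗ[k] E × E :=
      (LinearMap.inr k E E).comp (LinearMap.mulLeft k ((D.red U).2 * D.frobPoly ^ N))
    let v : Fin M × ι → E := fun p => D.hat ^ (p.1 : ℕ) * eb p.2
    have h1 : LinearIndependent k (Sum.elim (f₁ ∘ v) (f₂ ∘ v)) := by
      refine LinearIndependent.sum_type ((hind M).map' f₁ ?_) ((hind M).map' f₂ ?_) ?_
      · exact LinearMap.ker_eq_bot.mpr (LinearMap.inl_injective.comp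
          (mul_right_injective₀ (mul_ne_zero hU1 hN0)))
      · exact LinearMap.ker_eq_bot.mpr (LinearMap.inr_injective.comp
          (mul_right_injective₀ (mul_ne_zero hU2 hN0)))
      · refine (LinearMap.isCompl_range_inl_inr (R := k) (M := E) (M₂ := E)).disjoint.mono ?_ ?_
        · exact Submodule.span_le.mpr (by rintro _ ⟨p, rfl⟩; exact ⟨_, rfl⟩)
        · exact Submodule.span_le.mpr (by rintro _ ⟨p, rfl⟩; exact ⟨_, rfl⟩)
    let eq2 : Fin M × Fin D.degT ≃ (Fin M × ι) ⊕ (Fin M × ι) :=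
      ((Equiv.refl _).prodCongr eqv).trans (Equiv.prodSumDistrib _ _ _)
    convert h1.comp eq2 eq2.injective using 1
    funext p
    obtain ⟨a, i⟩ := p
    rw [red_mul (pow_mem D.T_mem _) (D.V.mul_mem hUV (hbV _)), red_pow D.T_mem, D.red_T,
      red_mul hUV (hbV _), hbred]
    simp only [Function.comp_apply, eq2, Equiv.trans_apply, Equiv.prodCongr_apply, Prod.map,
      Equiv.coe_refl, id_eq]
    rcases eqv i with c | c <;>
      simp [f₁, f₂, v, Prod.ext_iff] <;> ring

theorem redIndep_pow (M : ℕ) : D.PIndep fun a : Fin M => D.T ^ (a : ℕ) := by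
  obtain ⟨Q, hQ⟩ := D.param.exists_pole_bar
  refine ⟨fun a => pow_mem D.T_mem _, ?_⟩
  have h : (fun a : Fin M => (D.red (D.T ^ (a : ℕ))).1) = fun a : Fin M => D.hat ^ (a : ℕ) :=
    funext fun a => by rw [red_pow D.T_mem, D.red_T, Prod.pow_fst]
  refine LinearIndependent.of_comp (LinearMap.fst k E E) ?_
  show LinearIndependent k (fun a : Fin M => (D.red (D.T ^ (a : ℕ))).1)
  rw [h]
  exact linearIndependent_pow_of_ord_neg (D.hat_ord_neg.mpr hQ) M

theorem ell_bound_T {C : ℤ}
    (hC : ∀ Z : Divisor K F, C ≤ Divisor.degree Z → (ell Z : ℤ) = Divisor.degree Z + 1 - g)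
    {n : ℕ} {Z : Divisor K F} (h : C + Divisor.degree Z ≤ n * (D.degT : ℤ)) :
    (ell (boundDiv D.T n Z) : ℤ) = n * (D.degT : ℤ) - Divisor.degree Z + 1 - g := by
  rw [hC _ (by rw [D.curve.degree_boundDiv, D.degree_poleDiv_T]; omega),
    D.curve.degree_boundDiv, D.degree_poleDiv_T]

/-- Finitely many functions lie in the span of a family with independent reductions. -/
theorem exists_pindep_span (s : Finset F) : ∃ (ι : Type) (_ : Fintype ι) (b : ι → F),
    D.PIndep b ∧ ∀ f ∈ s, f ∈ Submodule.span K (Set.range b) := by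
  classical
  set d₀ := D.degT with hd₀
  obtain ⟨n₀, e, he, hind⟩ := D.exists_frame
  obtain ⟨C₀, hC₀⟩ := D.curve.exists_C
  set Esp : ℕ → Submodule K F := fun M => Submodule.span K
    (Set.range fun p : Fin M × Fin d₀ => D.T ^ (p.1 : ℕ) * e p.2) with hE
  set Pw : ℕ → Submodule K F := fun M => Submodule.span K
    (Set.range fun a : Fin M => D.T ^ (a : ℕ)) with hPw
  have hmul : ∀ {a b : ℕ} {u z : F}, u ∈ Pw a → z ∈ Esp b → u * z ∈ Esp (a + b) := by
    intro a b u z hu hz
    have h := Submodule.mul_mem_mul hu hz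
    rw [hPw, hE, Submodule.span_mul_span] at h
    refine Submodule.span_le.mpr ?_ h
    rintro _ ⟨_, ⟨i, rfl⟩, _, ⟨p, rfl⟩, rfl⟩
    refine Submodule.subset_span ⟨(⟨(i : ℕ) + p.1, by omega⟩, p.2), ?_⟩
    simp [pow_add, mul_assoc]
  have key : ∀ f : F, ∃ (M : ℕ) (w : F), w ∈ Pw M ∧ w ≠ 0 ∧ w * f ∈ Esp M := by
    intro f
    set d : ℕ := (Divisor.degree (poleDiv f : Divisor K F)).toNat with hd
    set M := C₀.toNat + n₀ * d₀ + d + 2 with hM
    set N := M + n₀ with hN
    by_contra hcon
    push Not at hcon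
    rcases eq_or_ne f 0 with rfl | hf0
    · exact hcon M 1 (Submodule.subset_span ⟨⟨0, by omega⟩, by simp⟩) one_ne_zero (by simp)
    have hli : LinearIndependent K (Sum.elim (fun p : Fin M × Fin d₀ => D.T ^ (p.1 : ℕ) * e p.2)
        (fun a : Fin M => D.T ^ (a : ℕ) * f)) := by
      refine LinearIndependent.sum_type (hind M).linearIndependent
        ((D.redIndep_pow M).linearIndependent.map' (LinearMap.mulRight K f)
          (LinearMap.ker_eq_bot.mpr (mul_left_injective₀ hf0))) ?_
      rw [Submodule.disjoint_def]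
      intro v hv1 hv2
      have hcomp : (fun a : Fin M => D.T ^ (a : ℕ) * f) = (LinearMap.mulRight K f) ∘
          fun a : Fin M => D.T ^ (a : ℕ) := rfl
      rw [hcomp, Set.range_comp, ← Submodule.map_span] at hv2
      obtain ⟨w, hw, rfl⟩ := hv2
      by_contra hne
      exact hcon M w hw (fun h0 => hne (by simp [h0])) hv1
    have hdeg : Divisor.degree (poleDiv f : Divisor K F) = (d : ℤ) := by
      have := D.curve.degree_nonneg (D := (poleDiv f : Divisor K F)) fun v => by
        rw [D.curve.poleDiv_apply]; exact le_max_left _ _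
      omega
    have hmem : ∀ (m : ℕ) (z : F), z ∈ (polesLe (K := K) D.T m : Submodule K F) → m ≤ N →
        z ∈ riemannRochSpace (boundDiv (K := K) D.T N (-poleDiv f)) := by
      intro m z hz hmN
      refine D.curve.mem_L_bound.mpr fun v =>
        (D.curve.mem_polesLe.mp (D.curve.polesLe_mono D.T hmN hz) v).mono ?_
      rw [Finsupp.neg_apply, D.curve.poleDiv_apply]
      omega
    have hle : Submodule.span K (Set.range (Sum.elim
        (fun p : Fin M × Fin d₀ => D.T ^ (p.1 : ℕ) * e p.2) (fun a : Fin M => D.T ^ (a : ℕ) * f)))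
        ≤ riemannRochSpace (boundDiv D.T N (-poleDiv f)) := by
      rw [Submodule.span_le]
      rintro _ ⟨(p | a), rfl⟩
      · exact hmem _ _ (D.curve.mul_mem_polesLe
          (D.curve.pow_mem_polesLe (D.curve.self_mem_polesLe D.T) _) (he p.2).2) (by omega)
      · refine D.curve.mem_L_bound.mpr fun v => ?_
        have h1 := D.curve.mem_polesLe.mp (D.curve.polesLe_mono D.T
          (show (a : ℕ) * 1 ≤ N by omega) (D.curve.pow_mem_polesLe (D.curve.self_mem_polesLe D.T) a)) v
        refine (h1.mul (Vanish.self f)).mono ?_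
        rw [Finsupp.neg_apply, D.curve.poleDiv_apply]
        omega
    haveI := D.curve.finite_L' (boundDiv D.T N (-poleDiv f))
    have h1 := Submodule.finrank_mono hle
    rw [finrank_span_eq_card hli, Fintype.card_sum, Fintype.card_prod, Fintype.card_fin,
      Fintype.card_fin] at h1
    have h2 := D.ell_bound_T hC₀ (n := N) (Z := -(poleDiv f : Divisor K F)) (by
      rw [map_neg, hdeg]
      have := D.le_mul_degT N
      omega)
    rw [map_neg, hdeg, ← hd₀] at h2
    have h1' : ((M * d₀ + M : ℕ) : ℤ) ≤ ell (boundDiv (K := K) D.T N (-poleDiv f)) := by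
      exact_mod_cast h1
    push_cast at h1'
    have h3 : (N : ℤ) * (d₀ : ℤ) = M * d₀ + n₀ * d₀ := by
      rw [hN]; push_cast; ring
    have hM' : (M : ℤ) = C₀.toNat + n₀ * d₀ + d + 2 := by rw [hM]; push_cast; ring
    omega
  have all : ∀ t : Finset F, ∃ (M : ℕ) (w : F), w ∈ Pw M ∧ w ≠ 0 ∧ ∀ f ∈ t, w * f ∈ Esp M := by
    intro t
    induction t using Finset.induction with
    | empty => exact ⟨1, 1, Submodule.subset_span ⟨0, by simp⟩, one_ne_zero, by simp⟩
    | insert a t ha ih =>
      obtain ⟨M1, w1, hw1, hw10, hw1t⟩ := ih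
      obtain ⟨M2, w2, hw2, hw20, hw2a⟩ := key a
      refine ⟨M1 + M2, w1 * w2, ?_, mul_ne_zero hw10 hw20, fun f hf => ?_⟩
      · have h := Submodule.mul_mem_mul hw1 hw2
        rw [hPw, Submodule.span_mul_span] at h
        refine Submodule.span_le.mpr ?_ h
        rintro _ ⟨_, ⟨i, rfl⟩, _, ⟨j, rfl⟩, rfl⟩
        exact Submodule.subset_span ⟨⟨(i : ℕ) + j, by omega⟩, by simp [pow_add]⟩
      · rcases Finset.mem_insert.mp hf with rfl | hf
        · rw [mul_assoc]
          exact hmul hw1 hw2a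
        · rw [mul_comm w1, mul_assoc, add_comm]
          exact hmul hw2 (hw1t f hf)
  obtain ⟨M, w, hw, hw0, hws⟩ := all s
  obtain ⟨cw, hcw⟩ := (Submodule.mem_span_range_iff_exists_fun K).mp hw
  obtain ⟨c, hc, hcV, hcred⟩ := (D.redIndep_pow M).exists_norm (c := cw) (by
    by_contra h
    push Not at h
    exact hw0 (by rw [← hcw]; simp [h]))
  rw [hcw] at hcV hcred
  have hsym : (D.red (c • w)).1 ≠ 0 ∧ (D.red (c • w)).2 ≠ 0 := by
    have hm : c • w ∈ Submodule.span K (Set.range fun a : Fin M => D.T ^ (a : ℕ)) :=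
      Submodule.smul_mem _ c hw
    obtain ⟨cc, hcc⟩ := (Submodule.mem_span_range_iff_exists_fun K).mp hm
    have hccA : ∀ i, cc i ∈ A := fun i => (D.redIndep_pow M).coeff_mem (hcc ▸ hcV) i
    have h1 : D.red (c • w) = ∑ i, π ⟨cc i, hccA i⟩ • D.red (D.T ^ (i : ℕ)) :=
      (congrArg D.red hcc.symm).trans
        (red_sum_smul (D.redIndep_pow M).1 (fun i => (⟨cc i, hccA i⟩ : A)))
    have heq : (D.red (c • w)).1 = (D.red (c • w)).2 := by
      rw [h1, Prod.fst_sum, Prod.snd_sum]
      refine Finset.sum_congr rfl fun i _ => ?_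
      rw [Prod.smul_fst, Prod.smul_snd, red_pow D.T_mem, D.red_T, Prod.pow_fst, Prod.pow_snd]
    constructor <;> intro h0 <;> refine hcred (Prod.ext ?_ ?_)
    · exact h0
    · exact heq ▸ h0
    · exact heq.trans h0
    · exact h0
  set u := c • w with hu
  have hu0 : u ≠ 0 := ne_zero_of_red hcred
  have hui := inv_mem hcV hsym.1 hsym.2
  refine ⟨Fin M × Fin d₀, inferInstance, fun p => u⁻¹ * (D.T ^ (p.1 : ℕ) * e p.2), ⟨fun p =>
    D.V.mul_mem hui ((hind M).1 p), ?_⟩, fun f hf => ?_⟩
  · have h1 : (fun p : Fin M × Fin d₀ => D.red (u⁻¹ * (D.T ^ (p.1 : ℕ) * e p.2)))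
        = (LinearMap.mulLeft k (D.red u)⁻¹) ∘ fun p : Fin M × Fin d₀ =>
          D.red (D.T ^ (p.1 : ℕ) * e p.2) := by
      funext p
      rw [red_mul hui ((hind M).1 p), red_inv hcV hsym.1 hsym.2]
      rfl
    rw [h1]
    refine (hind M).2.map' _ (LinearMap.ker_eq_bot.mpr fun a b hab => ?_)
    exact Prod.ext (mul_left_cancel₀ (inv_ne_zero hsym.1) (congrArg Prod.fst hab))
      (mul_left_cancel₀ (inv_ne_zero hsym.2) (congrArg Prod.snd hab))
  · have h1 : u * f ∈ Esp M := by
      rw [hu, smul_mul_assoc]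
      exact Submodule.smul_mem _ _ (hws f hf)
    have h2 : (fun p : Fin M × Fin d₀ => u⁻¹ * (D.T ^ (p.1 : ℕ) * e p.2)) =
        (LinearMap.mulLeft K u⁻¹) ∘ fun p : Fin M × Fin d₀ => D.T ^ (p.1 : ℕ) * e p.2 := rfl
    rw [h2, Set.range_comp, ← Submodule.map_span]
    exact ⟨u * f, h1, by simp [inv_mul_cancel_left₀ hu0]⟩

/-- Reduction preserves the dimension of Riemann-Roch spaces. -/
theorem finrank_redSub_L (Z : Divisor K F) :
    finrank k (D.redSub (riemannRochSpace Z)) = ell Z ∧
      FiniteDimensional k (D.redSub (riemannRochSpace Z)) := by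
  obtain ⟨s, hs⟩ := (Module.Finite.iff_fg.mp (D.curve.finite_L' Z) :
    (riemannRochSpace Z : Submodule K F).FG)
  obtain ⟨ι, _, b, hb, hmem⟩ := D.exists_pindep_span s
  have hle : (riemannRochSpace Z : Submodule K F) ≤ Submodule.span K (Set.range b) := by
    rw [← hs]; exact Submodule.span_le.mpr fun f hf => hmem f hf
  exact ⟨finrank_redSub hb hle, redSub_finite hb hle⟩

end Data

end FLTAgent.Lift
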