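import Fermat.Agent.Lift.Main

/-!
# An upper bound for the classes with divisible orders at the crossings

`kerPhi n` consists of the `n`-torsion classes whose first normalised reduction has orders
divisible by `n` at the crossings. As there are at most `n ^ (nX - 1)` good classes
(`card_good_le`) and the rest is controlled by the torsion of the reduced curve, it has order at
most `p ^ ((4 g' + nX - 1) m)` for `n = p ^ m` (`card_kerPhi_le`).
-/

set_option autoImplicit false
set_option linter.style.haveILetI false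
set_option linter.unusedSectionVars false

noncomputable section

open AlgebraicCurve SemilinearAut Module

namespace FLTAgent.Lift

open FLTAgent.Reduction

namespace Data

variable {K k F F₀ E : Type*} [Field K] [Field k] [Field F] [Field F₀] [Field E] [Algebra K F]
  [Algebra K F₀] [Algebra k E] [IsAlgClosed K] [IsAlgClosed k] {A : ValuationSubring K}
  {π : A →+* k} {q g g' : ℕ} {D : Data A π q F F₀ E g g'}

/-- The values of a label are roots of unity. -/
theorem Wit.mu_pow {n : ℕ} (hn : n ≠ 0) {z : Pic0 K F} {μ : Place k E → k} (W : D.Wit n z μ)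
    {Q : Place k E} (hQ : Q ∈ D.X) : μ Q ^ n = 1 := by
  have h1 := (W.reg hn hQ).2.2
  rw [W.glue Q hQ, mul_pow] at h1
  exact mul_right_cancel₀ (pow_ne_zero n (W.val_ne Q hQ)) (h1.symm.trans (one_mul _).symm)

/-- Classes with proportional labels are equal. -/
theorem Wit.eq_of_label_smul {n : ℕ} (hn : (n : k) ≠ 0) (hX : 1 ≤ D.nX) {z z' : Pic0 K F}
    {μ μ' : Place k E → k} (W : D.Wit n z μ) (W' : D.Wit n z' μ') {c : k}
    (h : ∀ Q ∈ D.X, μ Q = c * μ' Q) : z = z' := by
  have hn0 : n ≠ 0 := fun e => hn (by rw [e, Nat.cast_zero])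
  obtain ⟨gn⟩ := W'.good.neg
  obtain ⟨ν, ⟨V⟩⟩ := gn.exists_wit hn0 hX
  obtain ⟨U⟩ := W'.add hn0 V
  rw [add_neg_cancel] at U
  obtain ⟨a, ha⟩ := U.zero_const hn0
  obtain ⟨U'⟩ := W.add hn0 V
  have h0 : z + -z' = 0 := U'.eq_zero_of_const hn hX (a := c * a) fun Q hQ => by
    rw [Pi.mul_apply, h Q hQ, mul_assoc]
    exact congrArg (c * ·) (ha Q hQ)
  exact eq_of_sub_eq_zero (by rwa [sub_eq_add_neg])

/-- There are at most `n ^ (nX - 1)` good classes. -/
theorem card_good_le {n : ℕ} (hn : (n : k) ≠ 0) (hX : 1 ≤ D.nX) :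
    Finite {z : Pic0 K F // Nonempty (D.Good n z)} ∧
      Nat.card {z : Pic0 K F // Nonempty (D.Good n z)} ≤ n ^ (D.nX - 1) := by
  classical
  have hn0 : n ≠ 0 := fun e => hn (by rw [e, Nat.cast_zero])
  obtain ⟨Q₀, hQ₀⟩ : D.Xfin.Nonempty := Finset.card_pos.mp hX
  choose μ hμ using fun z : {z : Pic0 K F // Nonempty (D.Good n z)} => z.2.some.exists_wit hn0 hX
  let R : Finset k := Polynomial.nthRootsFinset n (1 : k)
  let code : {z : Pic0 K F // Nonempty (D.Good n z)} → (↥(D.Xfin.erase Q₀) → R) := fun z Q =>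
    ⟨μ z Q.1 / μ z Q₀, by
      rw [Polynomial.mem_nthRootsFinset (Nat.pos_of_ne_zero hn0), div_pow,
        (hμ z).some.mu_pow hn0 (mem_Xfin.mp (Finset.mem_of_mem_erase Q.2)),
        (hμ z).some.mu_pow hn0 (mem_Xfin.mp hQ₀), div_one]⟩
  have hinj : Function.Injective code := fun z z' h => by
    have h0 : μ z' Q₀ ≠ 0 := (hμ z').some.mu_ne hn0 (mem_Xfin.mp hQ₀)
    have h0' : μ z Q₀ ≠ 0 := (hμ z).some.mu_ne hn0 (mem_Xfin.mp hQ₀)
    refine Subtype.ext ((hμ z).some.eq_of_label_smul hn hX (hμ z').some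
      (c := μ z Q₀ / μ z' Q₀) fun Q hQ => ?_)
    rcases eq_or_ne Q Q₀ with rfl | hne
    · rw [div_mul_cancel₀ _ h0]
    · have h1 := congrArg Subtype.val (congrFun h ⟨Q, Finset.mem_erase.mpr ⟨hne, mem_Xfin.mpr hQ⟩⟩)
      change μ z Q / μ z Q₀ = μ z' Q / μ z' Q₀ at h1
      rw [div_eq_iff h0'] at h1
      rw [h1]
      field_simp
  refine ⟨Finite.of_injective code hinj, (Nat.card_le_card_of_injective code hinj).trans ?_⟩
  rw [Nat.card_fun, Nat.card_eq_finsetCard, Nat.card_eq_finsetCard,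
    Finset.card_erase_of_mem hQ₀]
  refine Nat.pow_le_pow_left ?_ _
  show (Polynomial.nthRootsFinset n (1 : k)).card ≤ n
  rw [Polynomial.nthRootsFinset_def]
  exact (Multiset.toFinset_card_le _).trans (Polynomial.card_nthRoots n 1)

variable (D) in
/-- The classes whose reduced divisors are divisible at the glued points. -/
def kerPhi (n : ℕ) : AddSubgroup (Pic0.torsion K F n) where
  carrier := {z | ∀ Q ∈ D.X, D.phi n Q z = 0}
  zero_mem' Q _ := by
    have h : IsRep n ((0 : Pic0.torsion K F n) : Pic0 K F)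
        (0 : Divisor.degZero (K := K) (F := F)) (1 : F) := by
      refine ⟨rfl, one_ne_zero, ?_⟩
      rw [show (divOf (1 : F) : Divisor K F) = 0 from Finsupp.ext fun v => by
        rw [D.curve.divOf_apply, Place.ord_one, Finsupp.zero_apply]]
      exact smul_zero _
    rw [phi_eq h, dI_one, Finsupp.zero_apply, Int.cast_zero]
  add_mem' {z z'} hz hz' Q hQ := by
    obtain ⟨Z, f, h⟩ := exists_isRep z.2 D.curve
    obtain ⟨Z', f', h'⟩ := exists_isRep z'.2 D.curve
    rw [phi_eq (z := z + z') (h.add h' D.curve), dI_mul h.ne_zero h'.ne_zero, Finsupp.add_apply,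
      Int.cast_add, ← phi_eq h, ← phi_eq h', hz Q hQ, hz' Q hQ, add_zero]
  neg_mem' {z} hz Q hQ := by
    obtain ⟨Z, f, h⟩ := exists_isRep z.2 D.curve
    have h' : IsRep n ((-z : Pic0.torsion K F n) : Pic0 K F) (-Z) f⁻¹ := by
      refine ⟨?_, inv_ne_zero h.ne_zero, ?_⟩
      · show (QuotientAddGroup.mk (-Z) : Pic0 K F) = -(z : Pic0 K F)
        rw [QuotientAddGroup.mk_neg]
        exact congrArg Neg.neg h.mk_eq
      · rw [NegMemClass.coe_neg, smul_neg, h.div_eq, D.curve.divOf_inv]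
    rw [phi_eq h', dI_inv h.ne_zero, Finsupp.neg_apply, Int.cast_neg, ← phi_eq h, hz Q hQ,
      neg_zero]

theorem mem_kerPhi {n : ℕ} {z : Pic0.torsion K F n} {Z : Divisor.degZero (K := K) (F := F)}
    {f : F} (h : IsRep n (z : Pic0 K F) Z f) :
    z ∈ D.kerPhi n ↔ ∀ Q ∈ D.X, (n : ℤ) ∣ D.dI f Q :=
  forall₂_congr fun Q _ => by rw [phi_eq h, ZMod.intCast_zmod_eq_zero_iff_dvd]

/-- The halves of the divisor of a representative. -/
theorem exists_quot {n : ℕ} (hn : n ≠ 0) {z : Pic0 K F}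
    {Z : Divisor.degZero (K := K) (F := F)} {f : F} (h : IsRep n z Z f)
    (hphi : ∀ Q ∈ D.X, (n : ℤ) ∣ D.dI f Q) :
    ∃ c1 c0 : Divisor.degZero (K := k) (F := E),
      (n : ℤ) • (c1 : Divisor k E) = D.dI f ∧ (n : ℤ) • (c0 : Divisor k E) = D.dZ f := by
  obtain ⟨c1, hc1⟩ := exists_divide (n := n) (Z := D.dI f) fun Q => by
    by_cases hQ : Q ∈ D.X
    exacts [hphi Q hQ, dvd_dI_of_notMem h hQ]
  obtain ⟨c0, hc0⟩ := exists_divide (n := n) (Z := D.dZ f) fun Q => by
    by_cases hQ : D.IsCanon (false, Q)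
    · have h1 := DFunLike.congr_fun (spDiv_rep (D := D) h.div_eq) (false, Q)
      rw [spDiv_eq_sDiv h.ne_zero, sDiv_apply_false h.ne_zero hQ, Finsupp.smul_apply,
        smul_eq_mul] at h1
      exact ⟨_, h1⟩
    · simp only [Data.IsCanon, not_not] at hQ
      have hQX : D.frob⁻¹ • Q ∈ D.X := hQ.2
      have h1 := DFunLike.congr_fun (spDiv_rep (D := D) h.div_eq) (true, D.frob⁻¹ • Q)
      rw [spDiv_eq_sDiv h.ne_zero, sDiv_apply_true h.ne_zero, if_pos hQX, smul_inv_smul,
        Finsupp.smul_apply, smul_eq_mul] at h1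
      exact (dvd_add_right (hphi _ hQX)).mp ⟨_, h1⟩
  have hd : ∀ {c e : Divisor k E}, (n : ℤ) • c = e → Divisor.degree e = 0 →
      c ∈ Divisor.degZero (K := k) (F := E) := fun {c e} he h0 => by
    have h2 := congrArg Divisor.degree he
    rw [map_zsmul, h0, smul_eq_mul] at h2
    exact (mul_eq_zero.mp h2).resolve_left (by exact_mod_cast hn)
  exact ⟨⟨c1, hd hc1 (degree_dI h.ne_zero)⟩, ⟨c0, hd hc0 (degree_dZ h.ne_zero)⟩, hc1, hc0⟩

theorem mk_mem_torsion {n : ℕ} {c : Divisor.degZero (K := k) (F := E)} {e : Divisor k E}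
    (he : (n : ℤ) • (c : Divisor k E) = e) (hp : e ∈ Divisor.principal (K := k) (F := E)) :
    Pic0.mk c ∈ Pic0.torsion k E n := by
  rw [Pic0.mem_torsion]
  show (QuotientAddGroup.mk ((n : ℤ) • c) : Pic0 k E) = 0
  refine pic0_mk_eq_zero.mpr ?_
  rw [AddSubgroupClass.coe_zsmul, he]
  exact hp

theorem principal_dI {f : F} (hf : f ≠ 0) :
    D.dI f ∈ Divisor.principal (K := k) (F := E) := by
  obtain ⟨c, hc⟩ := exists_normal_inf (D := D) hf
  rw [dI_eq hc]
  exact D.param.curveBar.isPrincipal_divOf hc.2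

theorem principal_dZ {f : F} (hf : f ≠ 0) :
    D.dZ f ∈ Divisor.principal (K := k) (F := E) := by
  obtain ⟨c, hc⟩ := exists_normal_zero (D := D) hf
  rw [dZ_eq hc]
  exact D.param.curveBar.isPrincipal_divOf hc.2

/-- Size of `kerPhi` in prime order. -/
theorem card_kerPhi_prime_le {p : ℕ} (hp : (p : k) ≠ 0) (hX : 1 ≤ D.nX)
    [Finite (Pic0.torsion k E p)] [Finite (Pic0.torsion K F p)]
    (hE : Nat.card (Pic0.torsion k E p) ≤ p ^ (2 * g')) :
    Nat.card (D.kerPhi p) ≤ p ^ (4 * g' + (D.nX - 1)) := by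
  classical
  have hp0 : p ≠ 0 := fun e => hp (by rw [e, Nat.cast_zero])
  haveI := Fintype.ofFinite (D.kerPhi p)
  choose Z f hrep using fun z : D.kerPhi p => exists_isRep z.1.2 D.curve
  choose c1 c0 hc1 hc0 using fun z : D.kerPhi p =>
    exists_quot hp0 (hrep z) ((mem_kerPhi (hrep z)).mp z.2)
  let cl : D.kerPhi p → Pic0.torsion k E p × Pic0.torsion k E p := fun z =>
    (⟨_, mk_mem_torsion (hc1 z) (principal_dI (hrep z).ne_zero)⟩,
      ⟨_, mk_mem_torsion (hc0 z) (principal_dZ (hrep z).ne_zero)⟩)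
  obtain ⟨hfinG, hG⟩ := card_good_le (D := D) hp hX
  haveI := hfinG
  have hfib : ∀ b ∈ (Finset.univ : Finset (D.kerPhi p)).image cl,
      ((Finset.univ : Finset (D.kerPhi p)).filter fun z => cl z = b).card ≤
        p ^ (D.nX - 1) := by
    intro b hb
    obtain ⟨z₀, -, rfl⟩ := Finset.mem_image.mp hb
    refine le_trans ?_ hG
    rw [← Nat.card_eq_finsetCard]
    refine Nat.card_le_card_of_injective (fun z => ⟨((z.1.1 : Pic0.torsion K F p) : Pic0 K F) -
      ((z₀.1 : Pic0.torsion K F p) : Pic0 K F), ?_⟩) fun a a' h => ?_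
    · obtain ⟨-, hz⟩ := Finset.mem_filter.mp z.2
      have h1 := congrArg (fun t => ((t.1 : Pic0.torsion k E p) : Pic0 k E)) hz
      have h0 := congrArg (fun t => ((t.2 : Pic0.torsion k E p) : Pic0 k E)) hz
      simp only [cl] at h1 h0
      have hn : IsRep p (-((z₀.1 : Pic0.torsion K F p) : Pic0 K F)) (-Z z₀) (f z₀)⁻¹ := by
        refine ⟨?_, inv_ne_zero (hrep z₀).ne_zero, ?_⟩
        · show (QuotientAddGroup.mk (-Z z₀) : Pic0 K F) = _
          rw [QuotientAddGroup.mk_neg]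
          exact congrArg Neg.neg (hrep z₀).mk_eq
        · rw [NegMemClass.coe_neg, smul_neg, (hrep z₀).div_eq, D.curve.divOf_inv]
      have h' := (hrep z.1).add hn D.curve
      rw [← sub_eq_add_neg] at h'
      refine exists_good hp0 h' (c1 := (c1 z.1 : Divisor k E) - c1 z₀)
        (c0 := (c0 z.1 : Divisor k E) - c0 z₀) ?_ ?_ (pic0_mk_eq_iff.mp h1.symm)
        (pic0_mk_eq_iff.mp h0.symm)
      · rw [smul_sub, hc1, hc1, dI_mul (hrep z.1).ne_zero (inv_ne_zero (hrep z₀).ne_zero),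
          dI_inv (hrep z₀).ne_zero, sub_eq_add_neg]
      · rw [smul_sub, hc0, hc0, dZ_mul (hrep z.1).ne_zero (inv_ne_zero (hrep z₀).ne_zero),
          dZ_inv (hrep z₀).ne_zero, sub_eq_add_neg]
    · have h' := sub_left_injective (congrArg Subtype.val h)
      exact Subtype.ext (Subtype.ext (Subtype.ext h'))
  have h1 := Finset.card_le_mul_card_image (Finset.univ : Finset (D.kerPhi p))
    (p ^ (D.nX - 1)) hfib
  rw [Finset.card_univ, ← Nat.card_eq_fintype_card] at h1
  refine h1.trans ?_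
  haveI := Fintype.ofFinite (Pic0.torsion k E p)
  have h2 : ((Finset.univ : Finset (D.kerPhi p)).image cl).card ≤
      p ^ (2 * g') * p ^ (2 * g') := by
    refine (Finset.card_le_univ _).trans ?_
    rw [Fintype.card_prod]
    rw [Nat.card_eq_fintype_card] at hE
    exact Nat.mul_le_mul hE hE
  refine (Nat.mul_le_mul_left _ h2).trans (le_of_eq ?_)
  rw [← pow_add, ← pow_add]
  congr 1
  ring

/-- Size of `kerPhi` in prime power order. -/
theorem card_kerPhi_le {p : ℕ} [Fact p.Prime] (hp : (p : k) ≠ 0) (hX : 1 ≤ D.nX)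
    [Finite (Pic0.torsion k E p)] (hE : Nat.card (Pic0.torsion k E p) ≤ p ^ (2 * g'))
    (hfin : ∀ m, Finite (Pic0.torsion K F (p ^ m))) (m : ℕ) :
    Nat.card (D.kerPhi (p ^ m)) ≤ p ^ ((4 * g' + (D.nX - 1)) * m) := by
  classical
  have hpp : p.Prime := Fact.out
  induction m with
  | zero =>
    haveI : Subsingleton (D.kerPhi (p ^ 0)) := ⟨fun a b => by
      have h : ∀ c : D.kerPhi (p ^ 0), ((c.1 : Pic0.torsion K F (p ^ 0)) : Pic0 K F) = 0 :=
        fun c => by
          have h1 : ((p ^ 0 : ℕ) : ℤ) = 1 := by simp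
          exact (one_zsmul _).symm.trans
            ((congrArg (fun t : ℤ => t • ((c.1 : Pic0.torsion K F (p ^ 0)) : Pic0 K F)) h1).symm.trans
              (Pic0.mem_torsion.mp c.1.2))
      exact Subtype.ext (Subtype.ext ((h a).trans (h b).symm))⟩
    haveI := hfin 0
    refine (Finite.card_le_one_iff_subsingleton.mpr ‹_›).trans ?_
    simp
  | succ m ih =>
    haveI := hfin (m + 1)
    haveI := hfin m
    haveI : Finite (Pic0.torsion K F p) := by simpa using hfin 1
    have hmul : ∀ z : D.kerPhi (p ^ (m + 1)),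
        ∃ w : D.kerPhi (p ^ m), ((w.1 : Pic0.torsion K F (p ^ m)) : Pic0 K F) =
          p • ((z.1 : Pic0.torsion K F (p ^ (m + 1))) : Pic0 K F) := by
      intro z
      obtain ⟨Z, f, h⟩ := exists_isRep z.1.2 D.curve
      have hmem : p • ((z.1 : Pic0.torsion K F (p ^ (m + 1))) : Pic0 K F) ∈
          Pic0.torsion K F (p ^ m) := by
        have := Pic0.mem_torsion.mp z.1.2
        rw [natCast_zsmul] at this
        rw [Pic0.mem_torsion, natCast_zsmul, smul_smul, ← pow_succ]
        exact this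
      have h' : IsRep (p ^ m) ((⟨_, hmem⟩ : Pic0.torsion K F (p ^ m)) : Pic0 K F) (p • Z) f := by
        refine ⟨?_, h.ne_zero, ?_⟩
        · show (QuotientAddGroup.mk (p • Z) : Pic0 K F) = _
          rw [QuotientAddGroup.mk_nsmul]
          exact congrArg (p • ·) h.mk_eq
        · rw [← h.div_eq, AddSubgroupClass.coe_nsmul, natCast_zsmul, natCast_zsmul, smul_smul,
            ← pow_succ]
      refine ⟨⟨_, (mem_kerPhi h').mpr fun Q hQ => ?_⟩, rfl⟩
      exact (Int.natCast_dvd_natCast.mpr (pow_dvd_pow p m.le_succ)).trans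
        ((mem_kerPhi h).mp z.2 Q hQ)
    choose ψ hψ using hmul
    let φ : D.kerPhi (p ^ (m + 1)) →+ D.kerPhi (p ^ m) := AddMonoidHom.mk' ψ fun a b =>
      Subtype.ext (Subtype.ext (by
        rw [hψ]
        push_cast
        rw [hψ, hψ]
        exact map_add (nsmulAddMonoidHom p) _ _))
    have hkerφ : Nat.card φ.ker ≤ Nat.card (D.kerPhi p) := by
      have hdown : ∀ z : φ.ker, ∃ w : D.kerPhi p, ((w.1 : Pic0.torsion K F p) : Pic0 K F) =
          ((z.1.1 : Pic0.torsion K F (p ^ (m + 1))) : Pic0 K F) := by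
        intro z
        have hz0 : p • ((z.1.1 : Pic0.torsion K F (p ^ (m + 1))) : Pic0 K F) = 0 := by
          rw [← hψ, show ψ z.1 = 0 from z.2]
          rfl
        have hmem : ((z.1.1 : Pic0.torsion K F (p ^ (m + 1))) : Pic0 K F) ∈
            Pic0.torsion K F p := by
          rw [Pic0.mem_torsion, natCast_zsmul]
          exact hz0
        obtain ⟨Z, f, h⟩ := exists_isRep hmem D.curve
        let zp : Pic0.torsion K F p :=
          ⟨((z.1.1 : Pic0.torsion K F (p ^ (m + 1))) : Pic0 K F), hmem⟩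
        have hzp : zp ∈ D.kerPhi p := (mem_kerPhi (z := zp) h).mpr fun Q hQ => ?_
        exact ⟨(⟨zp, hzp⟩ : D.kerPhi p), Eq.refl ((zp : Pic0 K F))⟩
        have h' : IsRep (p ^ (m + 1)) ((z.1.1 : Pic0.torsion K F (p ^ (m + 1))) : Pic0 K F) Z
            (f ^ p ^ m) := by
          refine ⟨h.mk_eq, pow_ne_zero _ h.ne_zero, ?_⟩
          rw [divOf_pow D.curve, ← h.div_eq, smul_smul, ← Nat.cast_mul, ← pow_succ]
        have h2 := (mem_kerPhi h').mp z.1.2 Q hQ
        rw [dI_pow h.ne_zero, Finsupp.smul_apply, smul_eq_mul, pow_succ, Nat.cast_mul] at h2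
        exact (mul_dvd_mul_iff_left
          (Int.natCast_ne_zero.mpr (pow_ne_zero m hpp.ne_zero))).mp h2
      choose w hw using hdown
      refine Nat.card_le_card_of_injective w fun a b h => ?_
      have := congrArg (fun t : D.kerPhi p => ((t.1 : Pic0.torsion K F p) : Pic0 K F)) h
      simp only [hw] at this
      exact Subtype.ext (Subtype.ext (Subtype.ext this))
    rw [AddSubgroup.card_eq_card_quotient_mul_card_addSubgroup φ.ker,
      Nat.card_congr (QuotientAddGroup.quotientKerEquivRange φ).toEquiv]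
    refine le_trans ?_ (le_of_eq (show p ^ ((4 * g' + (D.nX - 1)) * m) *
      p ^ (4 * g' + (D.nX - 1)) = _ by rw [← pow_add]; ring_nf))
    exact Nat.mul_le_mul
      ((Nat.card_le_card_of_injective φ.range.subtype Subtype.val_injective).trans ih)
      (hkerφ.trans (card_kerPhi_prime_le hp hX hE))

/-- A multiple in `kerPhi` of high order gives an element of `kerPhi` of lower order. -/
theorem kerPhi_of_nsmul {p : ℕ} [Fact p.Prime] {m c u : ℕ} (hu : ¬ p ∣ u) {z' : Pic0 K F}
    (hz' : z' ∈ Pic0.torsion K F (p ^ (m + c))) {w : D.kerPhi (p ^ (m + c))}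
    (hw : ((w.1 : Pic0.torsion K F (p ^ (m + c))) : Pic0 K F) = (p ^ c * u) • z')
    {z : Pic0.torsion K F (p ^ m)} (hz : (z : Pic0 K F) = p ^ c • z') : z ∈ D.kerPhi (p ^ m) := by
  classical
  have hpp : p.Prime := Fact.out
  obtain ⟨Z, f, h⟩ := exists_isRep hz' D.curve
  have hrepw : IsRep (p ^ (m + c)) ((w.1 : Pic0.torsion K F (p ^ (m + c))) : Pic0 K F)
      ((p ^ c * u) • Z) (f ^ (p ^ c * u)) := by
    refine ⟨?_, pow_ne_zero _ h.ne_zero, ?_⟩
    · show (QuotientAddGroup.mk ((p ^ c * u) • Z) : Pic0 K F) = _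
      rw [QuotientAddGroup.mk_nsmul, hw]
      exact congrArg (_ • ·) h.mk_eq
    · rw [divOf_pow D.curve, ← h.div_eq, AddSubgroupClass.coe_nsmul, natCast_zsmul,
        natCast_zsmul, natCast_zsmul, smul_smul, smul_smul, mul_comm]
  have hrep : IsRep (p ^ m) (z : Pic0 K F) (p ^ c • Z) f := by
    refine ⟨?_, h.ne_zero, ?_⟩
    · show (QuotientAddGroup.mk (p ^ c • Z) : Pic0 K F) = _
      rw [QuotientAddGroup.mk_nsmul, hz]
      exact congrArg (_ • ·) h.mk_eq
    · rw [← h.div_eq, AddSubgroupClass.coe_nsmul, natCast_zsmul, natCast_zsmul, smul_smul,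
        ← pow_add]
  refine (mem_kerPhi hrep).mpr fun Q hQ => ?_
  have h2 := (mem_kerPhi hrepw).mp w.2 Q hQ
  rw [dI_pow h.ne_zero, Finsupp.smul_apply, smul_eq_mul, pow_add, Nat.cast_mul, Nat.cast_mul,
    mul_comm ((p ^ m : ℕ) : ℤ), mul_assoc] at h2
  have h3 := (mul_dvd_mul_iff_left (Int.natCast_ne_zero.mpr (pow_ne_zero c hpp.ne_zero))).mp h2
  refine (Int.isCoprime_iff_nat_coprime.mpr ?_).dvd_of_dvd_mul_left h3
  simpa using Nat.Coprime.pow_left m (hpp.coprime_iff_not_dvd.mpr hu)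

end Data

end FLTAgent.Lift
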