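import Mathlib

/-!
# A common kernel from many solutions modulo every power of `p`

`exists_kernel_matrix`: if a set of linear forms on `ℤ_[p] ^ r` has, up to a bounded factor, at
least `p ^ (k m)` common zeros modulo `p ^ m` for every `m`, then it has `k` independent common
zeros over `ℤ_[p]`. The proof puts the span of the forms in Smith normal form.
-/

set_option autoImplicit false
set_option linter.style.haveILetI false

noncomputable section

open Matrix Module

namespace FLTAgent.Lift

variable {p : ℕ} [Fact p.Prime]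

theorem card_smul_eq_zero_le {a : ℤ_[p]} (ha : a ≠ 0) (m : ℕ) :
    Nat.card {t : ZMod (p ^ m) // PadicInt.toZModPow m a * t = 0} ≤ p ^ a.valuation := by
  classical
  haveI : NeZero (p ^ m) := ⟨pow_ne_zero _ (Fact.out : p.Prime).ne_zero⟩
  refine le_trans (Nat.card_le_card_of_injective
    (fun t => (⟨t.1, ?_⟩ : {t : ZMod (p ^ m) // (p ^ a.valuation) • t = 0}))
    fun _ _ h => Subtype.ext (congrArg Subtype.val h :)) ?_
  · obtain ⟨t, h⟩ := t
    show (p ^ a.valuation) • t = 0
    have hs : PadicInt.toZModPow m a =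
        PadicInt.toZModPow m (PadicInt.unitCoeff ha : ℤ_[p]) * (p : ZMod (p ^ m)) ^ a.valuation := by
      conv_lhs => rw [PadicInt.unitCoeff_spec ha]
      rw [map_mul, map_pow, map_natCast]
    rw [hs, mul_assoc] at h
    rw [nsmul_eq_mul, Nat.cast_pow]
    exact (((PadicInt.unitCoeff ha).isUnit.map (PadicInt.toZModPow m)).mul_right_eq_zero).mp h
  · rw [Nat.card_eq_fintype_card, Fintype.card_subtype]
    exact IsAddCyclic.card_nsmul_eq_zero_le (pow_pos (Fact.out : p.Prime).pos _)

theorem ncard_le_of_diag {R : Type*} [CommRing R] [Finite R] {r n : ℕ}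
    {P : Matrix (Fin r) (Fin r) R} (hP : IsUnit P) (f : Fin n ↪ Fin r) (c : Fin n → R)
    (S : Set (Fin r → R)) (hS : ∀ x ∈ S, ∀ i, c i * (P *ᵥ x) (f i) = 0) :
    S.ncard ≤ Nat.card R ^ (r - n) * ∏ i, Nat.card {t : R // c i * t = 0} := by
  classical
  let φ : S → ({j : Fin r // j ∉ Set.range f} → R) × (∀ i, {t : R // c i * t = 0}) :=
    fun x => (fun j => (P *ᵥ (x : Fin r → R)) j,
      fun i => ⟨(P *ᵥ (x : Fin r → R)) (f i), hS _ x.2 i⟩)
  have hinj : Function.Injective φ := by
    intro x x' hxx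
    obtain ⟨u, hu⟩ := hP
    have hback : ∀ v : Fin r → R, (↑u⁻¹ : Matrix (Fin r) (Fin r) R) *ᵥ (P *ᵥ v) = v := fun v => by
      rw [Matrix.mulVec_mulVec, ← hu, Units.inv_mul, Matrix.one_mulVec]
    refine Subtype.ext ?_
    rw [← hback (x : Fin r → R), ← hback (x' : Fin r → R)]
    refine congrArg _ (funext fun j => ?_)
    by_cases hj : j ∈ Set.range f
    · obtain ⟨i, rfl⟩ := hj
      exact congrArg Subtype.val (congrFun (congrArg Prod.snd hxx) i)
    · exact congrFun (congrArg Prod.fst hxx) ⟨j, hj⟩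
  rw [← Nat.card_coe_set_eq]
  refine (Nat.card_le_card_of_injective φ hinj).trans (le_of_eq ?_)
  rw [Nat.card_prod, Nat.card_fun, Nat.card_pi, Nat.card_eq_fintype_card
    (α := {j : Fin r // j ∉ Set.range f}), Fintype.card_subtype_compl,
    show Fintype.card {j // j ∈ Set.range f} = n from
      (Set.card_range_of_injective f.injective).trans (Fintype.card_fin n), Fintype.card_fin]

/-- If the conditions `rows` have many common solutions modulo every power of `p`, they have a
`k`-dimensional common kernel. -/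
theorem exists_kernel_matrix {r k : ℕ} (rows : Set (Fin r → ℤ_[p])) (C : ℕ)
    (h : ∀ m : ℕ, ∃ S : Set (Fin r → ZMod (p ^ m)),
      p ^ (k * m) ≤ S.ncard * C ∧ ∀ x ∈ S, ∀ v ∈ rows, (PadicInt.toZModPow m ∘ v) ⬝ᵥ x = 0) :
    ∃ B : Matrix (Fin r) (Fin k) ℤ_[p], Function.Injective (fun v : Fin k → ℤ_[p] => B *ᵥ v) ∧
      ∀ v ∈ rows, v ᵥ* B = 0 := by
  classical
  obtain ⟨n, snf⟩ := (Submodule.span ℤ_[p] rows).smithNormalForm (Pi.basisFun ℤ_[p] (Fin r))
  obtain ⟨bM, bN, f, a, hsnf⟩ := snf
  set P : Matrix (Fin r) (Fin r) ℤ_[p] := Matrix.of fun i => bM i with hP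
  have hPinv : IsUnit P := by
    haveI := bM.invertibleToMatrix (Pi.basisFun ℤ_[p] (Fin r))
    have e : P = ((Pi.basisFun ℤ_[p] (Fin r)).toMatrix bM)ᵀ := by
      ext i j
      simp [P, Basis.toMatrix_apply]
    rw [e, Matrix.isUnit_transpose]
    haveI := (Pi.basisFun ℤ_[p] (Fin r)).invertibleToMatrix bM
    exact isUnit_of_invertible _
  have ha : ∀ i, a i ≠ 0 := fun i h0 => bN.ne_zero i (Subtype.ext (by rw [hsnf, h0, zero_smul]; rfl))
  -- the count of solutions
  set T := ∑ i, (a i).valuation with hT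
  have hcount : ∀ m, p ^ (k * m) ≤ p ^ ((r - n) * m) * p ^ T * C := by
    intro m
    haveI : NeZero (p ^ m) := ⟨pow_ne_zero _ (Fact.out : p.Prime).ne_zero⟩
    obtain ⟨S, hS, hzero⟩ := h m
    refine hS.trans (Nat.mul_le_mul_right C ?_)
    set Pm := P.map (PadicInt.toZModPow m) with hPm
    have hspan : ∀ v ∈ Submodule.span ℤ_[p] rows, ∀ x ∈ S,
        (PadicInt.toZModPow m ∘ v) ⬝ᵥ x = 0 := by
      intro v hv x hx
      induction hv using Submodule.span_induction with
      | mem v hv => exact hzero x hx v hv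
      | zero => simp [dotProduct]
      | add v w _ _ hv hw =>
        have e : (PadicInt.toZModPow m ∘ (v + w)) =
            (PadicInt.toZModPow m ∘ v) + (PadicInt.toZModPow m ∘ w) := by ext; simp
        rw [e, add_dotProduct, hv, hw, add_zero]
      | smul c v _ hv =>
        have e : (PadicInt.toZModPow m ∘ (c • v)) =
            PadicInt.toZModPow m c • (PadicInt.toZModPow m ∘ v) := by ext; simp
        rw [e, smul_dotProduct, hv, smul_zero]
    have hy : ∀ x ∈ S, ∀ i, PadicInt.toZModPow m (a i) * (Pm *ᵥ x) (f i) = 0 := by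
      intro x hx i
      have h1 := hspan _ (bN i).2 x hx
      rw [hsnf] at h1
      have e : (PadicInt.toZModPow m ∘ (a i • bM (f i))) =
          PadicInt.toZModPow m (a i) • fun j => Pm (f i) j := by
        ext j; simp [Pm, P]
      rw [e, smul_dotProduct, smul_eq_mul] at h1
      exact h1
    have hu : IsUnit Pm := hPinv.map (PadicInt.toZModPow m).mapMatrix
    refine (ncard_le_of_diag hu f (fun i => PadicInt.toZModPow m (a i)) S hy).trans ?_
    rw [Nat.card_zmod, ← pow_mul, mul_comm m, hT, ← Finset.prod_pow_eq_pow_sum]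
    exact Nat.mul_le_mul_left _
      (Finset.prod_le_prod' fun i _ => card_smul_eq_zero_le (ha i) m)
  have hk : k ≤ r - n := by
    by_contra hlt
    push Not at hlt
    have h1 := hcount (T + C + 1)
    have hp2 := (Fact.out : p.Prime).two_le
    have h2 : p ^ ((r - n) * (T + C + 1)) * p ^ (T + C + 1) ≤ p ^ (k * (T + C + 1)) := by
      rw [← pow_add]
      exact Nat.pow_le_pow_right (Fact.out : p.Prime).pos (by nlinarith)
    rw [mul_assoc] at h1
    have h3 := Nat.le_of_mul_le_mul_left (h2.trans h1) (pow_pos (Fact.out : p.Prime).pos _)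
    rw [show T + C + 1 = T + (C + 1) by ring, pow_add] at h3
    have h4 := Nat.le_of_mul_le_mul_left h3 (pow_pos (Fact.out : p.Prime).pos _)
    have h5 : C + 1 < p ^ (C + 1) := Nat.lt_pow_self hp2
    omega
  -- the kernel
  obtain ⟨e⟩ : Nonempty (Fin k ↪ {j : Fin r // j ∉ Set.range f}) := by
    refine Function.Embedding.nonempty_of_card_le ?_
    have hr : Fintype.card {j // j ∈ Set.range f} = n :=
      (Set.card_range_of_injective f.injective).trans (Fintype.card_fin n)
    rw [Fintype.card_subtype_compl, hr, Fintype.card_fin, Fintype.card_fin]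
    exact hk
  set Em : Matrix (Fin r) (Fin k) ℤ_[p] := Matrix.of fun j i => if j = (e i).1 then 1 else 0 with hEm
  obtain ⟨u, hu⟩ := hPinv
  set Q : Matrix (Fin r) (Fin r) ℤ_[p] := ↑(u⁻¹) with hQ
  have hPQ : P * Q = 1 := by rw [← hu, hQ]; exact u.mul_inv
  refine ⟨Q * Em, fun v w hvw => funext fun i => ?_, fun v hv => ?_⟩
  · have h1 := congrArg (P *ᵥ ·) hvw
    simp only [Matrix.mulVec_mulVec, ← Matrix.mul_assoc, hPQ, Matrix.one_mul] at h1
    have h2 := congrFun h1 (e i).1
    simpa [Em, Matrix.mulVec, dotProduct, e.injective.eq_iff, ← Subtype.ext_iff] using h2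
  · have hv' : v ∈ Submodule.span ℤ_[p] rows := Submodule.subset_span hv
    have key : ∀ i, (bN i : Fin r → ℤ_[p]) ᵥ* (Q * Em) = 0 := by
      intro i
      rw [hsnf, Matrix.smul_vecMul, show bM (f i) = (Pi.single (f i) (1 : ℤ_[p])) ᵥ* P by
        rw [Matrix.single_one_vecMul]; rfl, Matrix.vecMul_vecMul, ← Matrix.mul_assoc, hPQ,
        Matrix.one_mul, Matrix.single_one_vecMul]
      ext c
      have : f i ≠ (e c).1 := fun hc => (e c).2 ⟨i, hc⟩
      simp [Em, this]
    have e1 : v = ∑ i, bN.repr ⟨v, hv'⟩ i • (bN i : Fin r → ℤ_[p]) := by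
      have h9 := congrArg Subtype.val (bN.sum_repr ⟨v, hv'⟩)
      rw [AddSubmonoidClass.coe_finsetSum] at h9
      exact h9.symm
    rw [e1, Matrix.sum_vecMul]
    exact Finset.sum_eq_zero fun i _ => by rw [Matrix.smul_vecMul, key, smul_zero]

end FLTAgent.Lift
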