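import Fermat.Agent.Lift.Rigidity

/-!
# The toric torsion points of a curve with two glued reductions

Two good classes with the same label are equal (`Wit.eq_of_label`), so inertia fixes good classes
(`Good.inertia_eq`) and the square of Frobenius multiplies them by `q²` (`Good.frob_sq_eq`).
Consequently the `p ^ m`-torsion contains subgroups of order at least a constant times
`p ^ ((g - 2 g') m)` with these two properties (`exists_toric_subgroups`).
-/

set_option autoImplicit false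
set_option linter.style.haveILetI false
set_option linter.unusedSectionVars false

noncomputable section

open AlgebraicCurve SemilinearAut

namespace FLTAgent.Lift

open FLTAgent.Reduction

namespace Data

variable {K k F F₀ E : Type*} [Field K] [Field k] [Field F] [Field F₀] [Field E] [Algebra K F]
  [Algebra K F₀] [Algebra k E] [IsAlgClosed K] [IsAlgClosed k] {A : ValuationSubring K}
  {π : A →+* k} {q g g' : ℕ} {D : Data A π q F F₀ E g g'}

theorem Wit.exists_nsmul {n : ℕ} (hn : n ≠ 0) {z : Pic0 K F} {μ : Place k E → k}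
    (W : D.Wit n z μ) (r : ℕ) : Nonempty (D.Wit n ((r + 1) • z) (μ ^ (r + 1))) := by
  induction r with
  | zero => rw [zero_add, one_nsmul, pow_one]; exact ⟨W⟩
  | succ r ih =>
    obtain ⟨V⟩ := ih
    rw [succ_nsmul, pow_succ]
    exact V.add hn W

/-- Two good classes with the same label are equal. -/
theorem Wit.eq_of_label {n : ℕ} (hn : (n : k) ≠ 0) (hX : 1 ≤ D.nX) {z z' : Pic0 K F}
    {μ μ' : Place k E → k} (W : D.Wit n z μ) (W' : D.Wit n z' μ')
    (h : ∀ Q ∈ D.X, μ Q = μ' Q) : z = z' := by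
  have hn0 : n ≠ 0 := fun e => hn (by rw [e, Nat.cast_zero])
  obtain ⟨gn⟩ := W'.good.neg
  obtain ⟨ν, ⟨V⟩⟩ := gn.exists_wit hn0 hX
  obtain ⟨U⟩ := W'.add hn0 V
  rw [add_neg_cancel] at U
  obtain ⟨a, ha⟩ := U.zero_const hn0
  obtain ⟨U'⟩ := W.add hn0 V
  have h0 : z + -z' = 0 := U'.eq_zero_of_const hn hX (a := a) fun Q hQ => by
    rw [Pi.mul_apply, h Q hQ]
    exact ha Q hQ
  exact eq_of_sub_eq_zero (by rwa [sub_eq_add_neg])

/-- Inertia fixes the good classes. -/
theorem Good.inertia_eq {n : ℕ} (hn : (n : k) ≠ 0) (hX : 1 ≤ D.nX) {z : Pic0 K F}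
    (gd : D.Good n z) {σ : SemilinearAut K F} (hσ : D.Compat σ 1) : σ • z = z := by
  have hn0 : n ≠ 0 := fun e => hn (by rw [e, Nat.cast_zero])
  obtain ⟨μ, ⟨W⟩⟩ := gd.exists_wit hn0 hX
  obtain ⟨W'⟩ := W.map hσ (fun Q _ => ⟨one_smul _ Q, one_smul _ _⟩) hn0
  exact W'.eq_of_label hn hX W fun Q _ => rfl

/-- The square of Frobenius acts on the good classes by `q²`. -/
theorem Good.frob_sq_eq {n : ℕ} (hn : (n : k) ≠ 0) (hX : 1 ≤ D.nX) {z : Pic0 K F}
    (gd : D.Good n z) {σ : SemilinearAut K F} (hσ : D.Compat σ D.frob) :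
    σ • σ • z = (q ^ 2) • z := by
  have hn0 : n ≠ 0 := fun e => hn (by rw [e, Nat.cast_zero])
  obtain ⟨μ, ⟨W⟩⟩ := gd.exists_wit hn0 hX
  obtain ⟨W'⟩ := W.map (hσ.comp hσ) (fun Q hQ => by
    rw [mul_smul, mul_smul]
    exact ⟨D.frob_frob_of_mem_X hQ, congrArg (D.frob • ·) (D.frob_frob_of_mem_X hQ)⟩) hn0
  obtain ⟨r, hr⟩ : ∃ r, q ^ 2 = r + 1 :=
    ⟨q ^ 2 - 1, (Nat.sub_add_cancel (Nat.one_le_pow 2 q D.q_prime.pos)).symm⟩
  obtain ⟨W''⟩ := W.exists_nsmul hn0 r
  rw [← mul_smul, hr]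
  refine W'.eq_of_label hn hX W'' fun Q _ => ?_
  rw [Pi.pow_apply, ← hr]
  show baseAut D.frob (baseAut D.frob (μ Q)) = _
  rw [D.frob_base, D.frob_base, ← pow_mul, sq]

end Data

variable {K k F F₀ E : Type*} [Field K] [Field k] [Field F] [Field F₀] [Field E] [Algebra K F]
  [Algebra K F₀] [Algebra k E] [IsAlgClosed K] [IsAlgClosed k] {A : ValuationSubring K}
  {π : A →+* k} {q g g' : ℕ}

/-- Large subgroups of the `p`-power torsion fixed by inertia, with `Frobenius² = q²`. -/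
theorem exists_toric_subgroups (D : Data A π q F F₀ E g g') {p : ℕ} (hp : p.Prime) (hpq : p ≠ q)
    (hcard : ∀ m, Nat.card (Pic0.torsion K F (p ^ m)) = p ^ (2 * g * m))
    (hcard₀ : ∀ m, Nat.card (Pic0.torsion K F₀ (p ^ m)) = p ^ (2 * g' * m))
    {B : ℕ} (hB : B ≠ 0) (hfix : ∀ x : Pic0 k E, D.frob • D.frob • x = x → B • x = 0) :
    ∃ C : ℕ, ∀ m : ℕ, ∃ S : AddSubgroup (Pic0 K F),
      S ≤ Pic0.torsion K F (p ^ m) ∧
      p ^ ((g - 2 * g') * m) ≤ Nat.card S * C ∧
      (∀ σ : SemilinearAut K F, D.Compat σ 1 → ∀ z ∈ S, σ • z = z) ∧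
      (∀ σ : SemilinearAut K F, D.Compat σ D.frob → ∀ z ∈ S, σ • σ • z = (q ^ 2) • z) := by
  by_cases hX : 1 ≤ D.nX
  · refine ⟨p ^ (2 * g * padicValNat p B), fun m => ?_⟩
    obtain ⟨S, hS, hgood, hle⟩ := Data.exists_good_subgroup hp hcard hcard₀ hB hfix hX m
    haveI := D.charP
    have hn : ((p ^ m : ℕ) : k) ≠ 0 := by
      rw [Nat.cast_pow]
      refine pow_ne_zero _ fun h => hpq ?_
      exact ((Nat.prime_dvd_prime_iff_eq D.q_prime hp).mp ((CharP.cast_eq_zero_iff k q p).mp h)).symm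
    exact ⟨S, hS, hle, fun σ hσ z hz => (hgood z hz).some.inertia_eq hn hX hσ,
      fun σ hσ z hz => (hgood z hz).some.frob_sq_eq hn hX hσ⟩
  · refine ⟨1, fun m => ⟨⊥, bot_le, ?_, ?_, ?_⟩⟩
    · have hg : (g : ℤ) + 1 = 2 * g' + D.nX := Data.genus_eq (D := D)
      have h0 : g - 2 * g' = 0 := by omega
      rw [h0, zero_mul, pow_zero, mul_one]
      exact Nat.one_le_iff_ne_zero.mpr (Nat.card_ne_zero.mpr ⟨inferInstance, inferInstance⟩)
    · intro σ _ z hz
      rw [AddSubgroup.mem_bot.mp hz]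
      exact smul_zero (A := Pic0 K F) σ
    · intro σ _ z hz
      rw [AddSubgroup.mem_bot.mp hz, smul_zero (A := Pic0 K F) σ, smul_zero (A := Pic0 K F) σ,
        smul_zero]

end FLTAgent.Lift
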