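import Fermat.Agent.Lift.Main

/-!
# Monodromy, and the exchange of the components

`Compat.exists_good_sub`: for `σ` acting trivially on the reductions, `σ z - z` is a good class.
An `Exchange` is an automorphism swapping the two components; it inverts labels and moves them by
Frobenius (`Exchange.map_wit`), whence Frobenius is `-q` times the exchange on good classes
(`Exchange.frob_smul_eq`).
-/

set_option autoImplicit false
set_option linter.style.haveILetI false
set_option linter.unusedSectionVars false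

noncomputable section

open AlgebraicCurve SemilinearAut Module

namespace FLTAgent.Lift

open FLTAgent.Reduction

namespace Data

variable {K k F F₀ E : Type*} [Field K] [Field k] [Field F] [Field F₀] [Field E] [Algebra K F]
  [Algebra K F₀] [Algebra k E] {A : ValuationSubring K} {π : A →+* k} {q g g' : ℕ}
variable {D : Data A π q F F₀ E g g'} {σ : SemilinearAut K F} {σb : SemilinearAut k E}

/-- Inertia does not move the normalised divisors of the first component. -/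
theorem Compat.dI_smul_eq (h : D.Compat σ 1) {f : F} (hf : f ≠ 0) :
    D.dI (σ • f) = D.dI f := by
  obtain ⟨c, hc⟩ := exists_normal_inf (D := D) hf
  have e : σ • c • f = baseAut σ c • σ • f := by
    rw [Algebra.smul_def, smul_mul', SemilinearAut.smul_algebraMap, ← Algebra.smul_def]
  have hc' : IsNormal D.Ginf (baseAut σ c) (σ • f) := by
    refine ⟨e ▸ (h.mem_inf _).mpr hc.1, ?_⟩
    rw [← e, h.red_inf _ hc.1, one_smul]
    exact hc.2
  rw [dI_eq hc', dI_eq hc, ← e, h.red_inf _ hc.1, one_smul]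

/-- Inertia does not move the normalised divisors of the second component. -/
theorem Compat.dZ_smul_eq (h : D.Compat σ 1) {f : F} (hf : f ≠ 0) :
    D.dZ (σ • f) = D.dZ f := by
  obtain ⟨c, hc⟩ := exists_normal_zero (D := D) hf
  have e : σ • c • f = baseAut σ c • σ • f := by
    rw [Algebra.smul_def, smul_mul', SemilinearAut.smul_algebraMap, ← Algebra.smul_def]
  have hc' : IsNormal D.Gzero (baseAut σ c) (σ • f) := by
    refine ⟨e ▸ (h.mem_zero _).mpr hc.1, ?_⟩
    rw [← e, h.red_zero _ hc.1, one_smul]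
    exact hc.2
  rw [dZ_eq hc', dZ_eq hc, ← e, h.red_zero _ hc.1, one_smul]

/-- Monodromy lands in the good classes. -/
theorem Compat.exists_good_sub [IsAlgClosed K] [IsAlgClosed k] (h : D.Compat σ 1) {n : ℕ}
    (hn : n ≠ 0) {z : Pic0 K F} (hz : z ∈ Pic0.torsion K F n) :
    Nonempty (D.Good n (σ • z - z)) := by
  obtain ⟨Z, f, hr⟩ := exists_isRep hz D.curve
  have hσf : σ • f ≠ 0 := (smul_ne_zero_iff_ne σ).mpr hr.ne_zero
  have h1 : IsRep n (σ • z) (degZeroSMulHom σ Z) (σ • f) := by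
    refine ⟨by rw [← pic0_smul_mk, hr.mk_eq], hσf, ?_⟩
    rw [coe_degZeroSMulHom, ← divOf_smul_semilinear D.curve, ← hr.div_eq]
    exact (map_zsmul (DistribSMul.toAddMonoidHom (Divisor K F) σ) _ _).symm
  have h2 : IsRep n (-z) (-Z) f⁻¹ := by
    refine ⟨?_, inv_ne_zero hr.ne_zero, ?_⟩
    · show (QuotientAddGroup.mk (-Z) : Pic0 K F) = -z
      rw [QuotientAddGroup.mk_neg]
      exact congrArg Neg.neg hr.mk_eq
    · rw [NegMemClass.coe_neg, smul_neg, hr.div_eq, D.curve.divOf_inv]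
  have h3 := h1.add h2 D.curve
  rw [← sub_eq_add_neg] at h3
  refine exists_good hn h3 (c1 := 0) (c0 := 0) ?_ ?_ (zero_mem _) (zero_mem _)
  · rw [smul_zero, dI_mul hσf (inv_ne_zero hr.ne_zero), dI_inv hr.ne_zero,
      h.dI_smul_eq hr.ne_zero, add_neg_cancel]
  · rw [smul_zero, dZ_mul hσf (inv_ne_zero hr.ne_zero), dZ_inv hr.ne_zero,
      h.dZ_smul_eq hr.ne_zero, add_neg_cancel]

theorem Compat.smul_tau (h : D.Compat σ σb) : σb • D.tau = D.tau := by
  have hm := D.alpha_mem_inf _ D.param.mem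
  have h1 := h.red_inf _ hm
  rw [h.alpha_fix, D.red_alpha_inf _ D.param.mem] at h1
  exact h1.symm

theorem Compat.sp_perm_fin [Infinite k] (h : D.Compat σ σb) {Q : Place k E}
    (hfin : 0 ≤ Q.ord D.tau) {P : Place K F} (hP : D.sp P = (true, Q)) :
    D.sp (σ • P) = (true, σb • Q) := by
  have hdisc : IsDisc A D.T P := sp_finite_iff.mp (by rw [hP]; exact hfin)
  have hvT : valAt (σ • P) D.T = baseAut σ (valAt P D.T) := by
    conv_lhs => rw [← h.smul_T]
    exact valAt_smul_semilinear D.curve σ (Vanish.zero_iff.mpr hdisc.1)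
  have hdisc' : IsDisc A D.T (σ • P) := by
    refine ⟨?_, ?_⟩
    · rw [← h.smul_T, SemilinearAut.ord_smul]; exact hdisc.1
    · rw [hvT]; exact (h.base_mem hdisc.2).1
  have hfin' : 0 ≤ (σb • Q).ord D.tau := by rwa [← h.smul_tau, SemilinearAut.ord_smul]
  refine IsSp.unique (isSp_sp hdisc') ⟨isCanon_true _, hfin', fun y hy hyr => ?_⟩
  set y' := σ⁻¹ • y with hy'
  have hyy : σ • y' = y := smul_inv_smul σ y
  have hy'V : y' ∈ D.V := ⟨(h.inverse.mem_inf y).mpr hy.1, (h.inverse.mem_zero y).mpr hy.2⟩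
  have hy'r : RegAway (K := K) D.T y' := fun R hR => by
    have h1 : 0 ≤ (σ • R).ord D.T := by rw [← h.smul_T, SemilinearAut.ord_smul]; exact hR
    have := vanish_smul σ⁻¹ (hyr _ h1)
    rwa [inv_smul_smul] at this
  have hA := valAt_mem hdisc hy'V hy'r
  obtain ⟨hA', hπ⟩ := h.base_mem hA
  have hval : valAt (σ • P) y = baseAut σ (valAt P y') := by
    rw [← hyy]
    exact valAt_smul_semilinear D.curve σ (hy'r P hdisc.1)
  rw [resVal_of_eq (σ • P) y ⟨_, hA'⟩ hval, hπ, ← resVal_of_eq P y' ⟨_, hA⟩ rfl,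
    (isSp_sp hdisc).2.2 y' hy'V hy'r, hP]
  show baseAut σb (valAt Q (D.Ginf.red y')) = valAt (σb • Q) (D.Ginf.red y)
  have hreg : Vanish Q (D.Ginf.red y') 0 := (regPair_red hy'V hy'r).1 Q hfin
  rw [← valAt_smul_semilinear D.param.curveBar σb hreg, ← h.red_inf y' hy'V.1, hyy]

theorem Compat.sp_perm [Infinite k] (h : D.Compat σ σb) {Q : Place k E}
    {P : Place K F} (hP : D.sp P = (true, Q)) :
    D.sp (σ • P) = (true, σb • Q) := by
  rcases le_or_gt 0 (Q.ord D.tau) with hfin | hfin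
  · exact h.sp_perm_fin hfin hP
  · rw [← sp_inv]
    refine h.onInv.sp_perm_fin ?_ (by rwa [sp_inv])
    rw [D.tau_inv, Place.ord_inv]
    omega

/-- The image of a label when the glued points are permuted. -/
theorem Wit.map_perm [Infinite k] (hσ : D.Compat σ σb)
    (hperm : ∀ Q ∈ D.X, σb⁻¹ • Q ∈ D.X ∧ σb • D.frob • σb⁻¹ • Q = D.frob • Q) {n : ℕ}
    (hn : n ≠ 0) {z : Pic0 K F} {μ : Place k E → k} (W : D.Wit n z μ) :
    Nonempty (D.Wit n (σ • z) fun Q => baseAut σb (μ (σb⁻¹ • Q))) := by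
  have e1 : D.Ginf.red (σ • W.h) * (W.good.map hσ).w1 =
      σb • (D.Ginf.red W.h * W.good.w1) := by
    rw [hσ.red_inf _ W.h_mem.1]
    exact (smul_mul' σb _ _).symm
  have e0 : D.Gzero.red (σ • W.h) * (W.good.map hσ).w0 =
      σb • (D.Gzero.red W.h * W.good.w0) := by
    rw [hσ.red_zero _ W.h_mem.2]
    exact (smul_mul' σb _ _).symm
  refine ⟨⟨W.good.map hσ, σ • W.h, σ • W.G,
    ⟨(hσ.mem_inf _).mpr W.h_mem.1, (hσ.mem_zero _).mpr W.h_mem.2⟩, fun P => ?_, fun P => ?_,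
    fun Q hQ P hP => ?_, fun Q hQ => ?_, fun Q hQ => ?_⟩⟩
  · rw [SemilinearAut.divisor_smul_apply]
    exact W.G_nonneg _
  · have h1 := vanish_smul σ (W.bound (σ⁻¹ • P))
    rw [smul_inv_smul] at h1
    show Vanish P (σ • W.h) (-((degZeroSMulHom σ W.good.Z : Divisor K F) P + (σ • W.G) P))
    rwa [coe_degZeroSMulHom, SemilinearAut.divisor_smul_apply, SemilinearAut.divisor_smul_apply]
  · rw [SemilinearAut.divisor_smul_apply]
    exact W.away _ (hperm Q hQ).1 _ (hσ.inverse.sp_perm hP)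
  · obtain ⟨hQ', -⟩ := hperm Q hQ
    rw [e1, ← smul_inv_smul σb Q, valAt_smul_semilinear D.param.curveBar σb (W.reg hn hQ').1]
    exact (map_ne_zero _).mpr (W.val_ne _ hQ')
  · obtain ⟨hQ', hF⟩ := hperm Q hQ
    rw [e0, e1, ← hF, valAt_smul_semilinear D.param.curveBar σb (W.reg hn hQ').2.1]
    conv_rhs => rw [show valAt Q (σb • (D.Ginf.red W.h * W.good.w1)) =
      valAt (σb • σb⁻¹ • Q) (σb • (D.Ginf.red W.h * W.good.w1)) by rw [smul_inv_smul],
      valAt_smul_semilinear D.param.curveBar σb (W.reg hn hQ').1, ← map_mul]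
    rw [W.glue _ hQ']

/-- A linear automorphism exchanging the two components. -/
structure Exchange (D : Data A π q F F₀ E g g') (τ : SemilinearAut K F) : Prop where
  base : ∀ c : K, baseAut τ c = c
  mem_inf : ∀ f : F, τ • f ∈ D.Ginf.V ↔ f ∈ D.Gzero.V
  mem_zero : ∀ f : F, τ • f ∈ D.Gzero.V ↔ f ∈ D.Ginf.V
  red_inf : ∀ f ∈ D.Gzero.V, D.Ginf.red (τ • f) = D.Gzero.red f
  red_zero : ∀ f ∈ D.Ginf.V, D.Gzero.red (τ • f) = D.Ginf.red f
  alpha_smul : τ • D.α D.j = D.β D.j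
  beta_smul : τ • D.β D.j = D.α D.j
  involutive : τ * τ = 1

namespace Exchange

variable {τ : SemilinearAut K F}

theorem onInv (h : D.Exchange τ) : D.inv.Exchange τ where
  base := h.base
  mem_inf := h.mem_inf
  mem_zero := h.mem_zero
  red_inf := h.red_inf
  red_zero := h.red_zero
  alpha_smul := by
    show τ • D.α D.j⁻¹ = D.β D.j⁻¹
    rw [map_inv₀, smul_inv'', h.alpha_smul, map_inv₀]
  beta_smul := by
    show τ • D.β D.j⁻¹ = D.α D.j⁻¹
    rw [map_inv₀, smul_inv'', h.beta_smul, map_inv₀]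
  involutive := h.involutive

theorem smul_smul_self (h : D.Exchange τ) {β : Type*} [MulAction (SemilinearAut K F) β] (x : β) :
    τ • τ • x = x := by
  rw [smul_smul, h.involutive, one_smul]

theorem smul_T (h : D.Exchange τ) : τ • D.T = D.T := by
  rw [Data.T, smul_mul', h.alpha_smul, h.beta_smul, mul_comm]

theorem mem_V (h : D.Exchange τ) {y : F} (hy : y ∈ D.V) : τ • y ∈ D.V :=
  ⟨(h.mem_inf y).mpr hy.2, (h.mem_zero y).mpr hy.1⟩

theorem regAway (h : D.Exchange τ) {y : F} (hy : RegAway (K := K) D.T y) :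
    RegAway (K := K) D.T (τ • y) := fun R hR => by
  have h1 : 0 ≤ (τ • R).ord D.T := by rw [← h.smul_T, SemilinearAut.ord_smul]; exact hR
  have := vanish_smul τ (hy _ h1)
  rwa [h.smul_smul_self] at this

theorem red_smul (h : D.Exchange τ) {y : F} (hy : y ∈ D.V) :
    D.red (τ • y) = ((D.red y).2, (D.red y).1) :=
  Prod.ext (h.red_inf y hy.2) (h.red_zero y hy.1)

theorem frob_mem_Xaff (h : D.Exchange τ) {Q : Place k E} (hQ : Q ∈ D.Xaff) :
    D.frob • Q ∈ D.Xaff := by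
  refine ⟨mem_Xaff_smul_ord hQ, fun x hx => ?_⟩
  obtain ⟨hreg, y, hy, hyr, rfl⟩ := hx
  rw [frob_frob_of_mem_Xaff hQ]
  have hmem : ((D.red y).2, (D.red y).1) ∈ D.RR :=
    ⟨⟨hreg.2, hreg.1⟩, τ • y, h.mem_V hy, h.regAway hyr, h.red_smul hy⟩
  exact (hQ.2 _ hmem).symm

theorem frob_mem_X (h : D.Exchange τ) {Q : Place k E} (hQ : Q ∈ D.X) : D.frob • Q ∈ D.X := by
  rcases hQ with hQ | ⟨hneg, hQ⟩
  · exact Or.inl (h.frob_mem_Xaff hQ)
  · exact Or.inr ⟨by rwa [D.ord_tau_smul], h.onInv.frob_mem_Xaff hQ⟩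

theorem sp_smul_fin [Infinite k] (h : D.Exchange τ) {Q : Place k E} (hQ : Q ∈ D.Xaff)
    {P : Place K F} (hP : D.sp P = (true, Q)) :
    D.sp (τ • P) = (true, D.frob • Q) := by
  have hdisc : IsDisc A D.T P := sp_finite_iff.mp (by rw [hP]; exact hQ.1)
  have hvT : valAt (τ • P) D.T = valAt P D.T := by
    conv_lhs => rw [← h.smul_T]
    rw [valAt_smul_semilinear D.curve τ (Vanish.zero_iff.mpr hdisc.1), h.base]
  have hdisc' : IsDisc A D.T (τ • P) := by
    refine ⟨?_, ?_⟩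
    · rw [← h.smul_T, SemilinearAut.ord_smul]; exact hdisc.1
    · rw [hvT]; exact hdisc.2
  refine IsSp.unique (isSp_sp hdisc') ⟨isCanon_true _, mem_Xaff_smul_ord hQ, fun y hy hyr => ?_⟩
  set y' := τ • y with hy'
  have hyy : τ • y' = y := h.smul_smul_self y
  have hy'V : y' ∈ D.V := h.mem_V hy
  have hy'r : RegAway (K := K) D.T y' := h.regAway hyr
  have hA := valAt_mem hdisc hy'V hy'r
  have hval : valAt (τ • P) y = valAt P y' := by
    conv_lhs => rw [← hyy]
    rw [valAt_smul_semilinear D.curve τ (hy'r P hdisc.1), h.base]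
  rw [resVal_of_eq (τ • P) y ⟨_, hA⟩ hval, ← resVal_of_eq P y' ⟨_, hA⟩ rfl,
    (isSp_sp hdisc).2.2 y' hy'V hy'r, hP]
  show valAt Q (D.Ginf.red y') = valAt (D.frob • Q) (D.Ginf.red y)
  have hglue := hQ.2 _ ⟨regPair_red hy'V hy'r, y', hy'V, hy'r, rfl⟩
  refine hglue.trans ?_
  show valAt (D.frob • Q) (D.Gzero.red y') = _
  rw [hy', h.red_zero y hy.1]

theorem sp_smul [Infinite k] (h : D.Exchange τ) {Q : Place k E} (hQ : Q ∈ D.X)
    {P : Place K F} (hP : D.sp P = (true, Q)) :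
    D.sp (τ • P) = (true, D.frob • Q) := by
  rcases hQ with hQ | ⟨-, hQ⟩
  · exact h.sp_smul_fin hQ hP
  · rw [← sp_inv]
    exact h.onInv.sp_smul_fin hQ (by rwa [sp_inv])

/-- A good class after exchanging the components. -/
def good (h : D.Exchange τ) {n : ℕ} {z : Pic0 K F} (a : D.Good n z) : D.Good n (τ • z) where
  Z := degZeroSMulHom τ a.Z
  f := τ • a.f
  w1 := a.w0
  w0 := a.w1
  rep := by
    refine ⟨?_, (smul_ne_zero_iff_ne τ).mpr a.rep.ne_zero, ?_⟩
    · rw [← pic0_smul_mk, a.rep.mk_eq]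
    · rw [coe_degZeroSMulHom, ← divOf_smul_semilinear D.curve, ← a.rep.div_eq]
      exact (map_zsmul (DistribSMul.toAddMonoidHom (Divisor K F) τ) _ _).symm
  mem := h.mem_V a.mem
  w1_ne := a.w0_ne
  w0_ne := a.w1_ne
  red_eq := by
    rw [h.red_smul a.mem, a.red_eq]

/-- The exchange inverts the labels and moves them by Frobenius. -/
theorem map_wit [Infinite k] (h : D.Exchange τ) {n : ℕ} (hn : n ≠ 0) {z : Pic0 K F}
    {μ : Place k E → k} (W : D.Wit n z μ) :
    Nonempty (D.Wit n (τ • z) fun Q => (μ (D.frob • Q))⁻¹) := by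
  have hτ : τ⁻¹ = τ := inv_eq_of_mul_eq_one_right h.involutive
  refine ⟨⟨h.good W.good, τ • W.h, τ • W.G, h.mem_V W.h_mem, fun P => ?_, fun P => ?_,
    fun Q hQ P hP => ?_, fun Q hQ => ?_, fun Q hQ => ?_⟩⟩
  · rw [SemilinearAut.divisor_smul_apply]
    exact W.G_nonneg _
  · have h1 := vanish_smul τ (W.bound (τ⁻¹ • P))
    rw [smul_inv_smul] at h1
    show Vanish P (τ • W.h) (-((degZeroSMulHom τ W.good.Z : Divisor K F) P + (τ • W.G) P))
    rwa [coe_degZeroSMulHom, SemilinearAut.divisor_smul_apply, SemilinearAut.divisor_smul_apply]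
  · rw [SemilinearAut.divisor_smul_apply, hτ]
    exact W.away _ (h.frob_mem_X hQ) _ (h.sp_smul hQ hP)
  · show valAt Q (D.Ginf.red (τ • W.h) * W.good.w0) ≠ 0
    rw [h.red_inf _ W.h_mem.2]
    have hR := h.frob_mem_X hQ
    have h2 := W.glue _ hR
    rw [frob_frob_of_mem_X (D := D) hQ] at h2
    rw [h2]
    exact mul_ne_zero (W.mu_ne hn hR) (W.val_ne _ hR)
  · show valAt (D.frob • Q) (D.Gzero.red (τ • W.h) * W.good.w1) =
      (μ (D.frob • Q))⁻¹ * valAt Q (D.Ginf.red (τ • W.h) * W.good.w0)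
    rw [h.red_inf _ W.h_mem.2, h.red_zero _ W.h_mem.1]
    have hR := h.frob_mem_X hQ
    have h2 := W.glue _ hR
    rw [frob_frob_of_mem_X (D := D) hQ] at h2
    rw [h2, inv_mul_cancel_left₀ (W.mu_ne hn hR)]

/-- Frobenius is `-q` times the exchange on the good classes. -/
theorem frob_smul_eq [IsAlgClosed K] [IsAlgClosed k] (h : D.Exchange τ) {n : ℕ} (hn : (n : k) ≠ 0)
    (hX : 1 ≤ D.nX) {z : Pic0 K F} (gd : D.Good n z) (hσ : D.Compat σ D.frob) :
    σ • z = -(q • τ • z) := by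
  have hn0 : n ≠ 0 := fun e => hn (by rw [e, Nat.cast_zero])
  obtain ⟨μ, ⟨W⟩⟩ := gd.exists_wit hn0 hX
  have hinv : ∀ Q ∈ D.X, D.frob⁻¹ • Q = D.frob • Q := fun Q hQ => by
    rw [inv_smul_eq_iff, frob_frob_of_mem_X (D := D) hQ]
  obtain ⟨W1⟩ := W.map_perm hσ (fun Q hQ => by
    rw [hinv Q hQ]
    exact ⟨h.frob_mem_X hQ, congrArg _ (frob_frob_of_mem_X (D := D) hQ)⟩) hn0
  obtain ⟨W2⟩ := h.map_wit hn0 W
  obtain ⟨r, hr⟩ : ∃ r, q = r + 1 := ⟨q - 1, (Nat.sub_add_cancel D.q_prime.one_le).symm⟩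
  obtain ⟨W3⟩ := W2.exists_nsmul hn0 r
  rw [← hr] at W3
  obtain ⟨W4⟩ := W1.add hn0 W3
  refine eq_neg_of_add_eq_zero_left (W4.eq_zero_of_const hn hX (a := 1) fun Q hQ => ?_)
  rw [Pi.mul_apply, Pi.pow_apply, hinv Q hQ, D.frob_base, inv_pow,
    mul_inv_cancel₀ (pow_ne_zero _ (W.mu_ne hn0 (h.frob_mem_X hQ)))]

end Exchange

end Data

end FLTAgent.Lift
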