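import Fermat.Agent.Lift.Frame

/-!
# The reduced affine chart

`RR` is the ring of reduced pairs of integral functions regular away from the poles of `T`, with
regular components. It is exactly the ring of regular pairs glued at a finite set `Xaff` of
crossings (`mem_RR_iff`), which are fixed by the square of Frobenius (`frob_frob_of_mem_Xaff`). The
crossings of the two charts agree on the overlap (`mem_Xaff_inv_iff`) and form the finite set `X`.
-/

set_option autoImplicit false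
set_option linter.style.haveILetI false
set_option linter.unusedSectionVars false

noncomputable section

open AlgebraicCurve SemilinearAut Module

namespace FLTAgent.Lift

open FLTAgent.Reduction

namespace Data

variable {K k F F₀ E : Type*} [Field K] [Field k] [Field F] [Field F₀] [Field E] [Algebra K F]
  [Algebra K F₀] [Algebra k E] {A : ValuationSubring K} {π : A →+* k} {q g g' : ℕ}
variable (D : Data A π q F F₀ E g g')

/-- A pair of functions regular where `tau` is finite. -/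
def RegPair (x : E × E) : Prop :=
  RegAway (K := k) D.tau x.1 ∧ RegAway (K := k) D.tau x.2

/-- Regular pairs which are reductions of integral functions regular where `T` is finite. -/
def RR : Submodule k (E × E) where
  carrier := {x | D.RegPair x ∧ ∃ y ∈ D.V, RegAway (K := K) D.T y ∧ D.red y = x}
  zero_mem' := ⟨⟨fun _ _ => Vanish.zero_left, fun _ _ => Vanish.zero_left⟩,
    0, D.V.zero_mem, fun _ _ => Vanish.zero_left, red_zero⟩
  add_mem' := by
    rintro x x' ⟨hx, y, hy, hyr, rfl⟩ ⟨hx', y', hy', hy'r, rfl⟩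
    exact ⟨⟨fun Q hQ => (hx.1 Q hQ).add (hx'.1 Q hQ), fun Q hQ => (hx.2 Q hQ).add (hx'.2 Q hQ)⟩,
      y + y', D.V.add_mem hy hy', fun P hP => (hyr P hP).add (hy'r P hP), red_add hy hy'⟩
  smul_mem' := by
    rintro c x ⟨hx, y, hy, hyr, rfl⟩
    obtain ⟨a, rfl⟩ := D.Ginf.res_surj c
    exact ⟨⟨fun Q hQ => (hx.1 Q hQ).smul _, fun Q hQ => (hx.2 Q hQ).smul _⟩,
      (a : K) • y, smul_mem a hy, fun P hP => (hyr P hP).smul _, red_smul a hy⟩

variable {D}

theorem mem_RR {x : E × E} :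
    x ∈ D.RR ↔ D.RegPair x ∧ ∃ y ∈ D.V, RegAway (K := K) D.T y ∧ D.red y = x := Iff.rfl

theorem RR_mul {x x' : E × E} (h : x ∈ D.RR) (h' : x' ∈ D.RR) : x * x' ∈ D.RR := by
  obtain ⟨hx, y, hy, hyr, rfl⟩ := h
  obtain ⟨hx', y', hy', hy'r, rfl⟩ := h'
  exact ⟨⟨regAway_mul hx.1 hx'.1, regAway_mul hx.2 hx'.2⟩, y * y', D.V.mul_mem hy hy',
    fun P hP => (hyr P hP).mul_zero' (hy'r P hP), red_mul hy hy'⟩

theorem RR_one : (1 : E × E) ∈ D.RR :=
  ⟨⟨fun _ _ => Vanish.one, fun _ _ => Vanish.one⟩, 1, D.V.one_mem, fun _ _ => Vanish.one, red_one⟩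

theorem RR_pow {x : E × E} (h : x ∈ D.RR) (n : ℕ) : x ^ n ∈ D.RR := by
  induction n with
  | zero => simpa using RR_one
  | succ n ih => rw [pow_succ]; exact RR_mul ih h

/-- The reduction of the image of a function under the first degeneracy. -/
theorem mk_Fr_mem_RR {w : E} (hw : RegAway (K := k) D.tau w) : (w, D.Fr w) ∈ D.RR := by
  obtain ⟨a, haV, har, rfl⟩ := D.param.exists_lift_reg hw
  exact ⟨⟨hw, D.regAway_Fr hw⟩, D.α a, D.alpha_mem haV, D.regAway_alpha har, D.red_alpha haV⟩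

/-- The reduction of the image of a function under the second degeneracy. -/
theorem Fr_mk_mem_RR {w : E} (hw : RegAway (K := k) D.tau w) : (D.Fr w, w) ∈ D.RR := by
  obtain ⟨a, haV, har, rfl⟩ := D.param.exists_lift_reg hw
  exact ⟨⟨D.regAway_Fr hw, hw⟩, D.β a, D.beta_mem haV, D.regAway_beta har, D.red_beta haV⟩

variable (D) in
theorem regAway_tau : RegAway (K := k) D.tau D.tau := fun _ hQ => Vanish.zero_iff.mpr hQ

variable (D) in
theorem regAway_frobPoly : RegAway (K := k) D.tau D.frobPoly :=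
  D.param.curveBar.regAway_of_mem_polesLe D.frobPoly_mem

theorem frobPoly_mem_RR_fst : (D.frobPoly, (0 : E)) ∈ D.RR :=
  ⟨⟨D.regAway_frobPoly, fun _ _ => Vanish.zero_left⟩, D.killZero, D.killZero_mem,
    D.regAway_killZero, D.red_killZero⟩

theorem frobPoly_mem_RR_snd : ((0 : E), D.frobPoly) ∈ D.RR :=
  ⟨⟨fun _ _ => Vanish.zero_left, D.regAway_frobPoly⟩, D.killInf, D.killInf_mem,
    D.regAway_killInf, D.red_killInf⟩

variable (D) in
theorem regAway_hat : RegAway (K := k) D.tau D.hat := fun _ hQ =>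
  Vanish.zero_iff.mpr (D.hat_ord_nonneg.mpr hQ)

theorem hat_mem_RR : (D.hat, D.hat) ∈ D.RR :=
  ⟨⟨D.regAway_hat, D.regAway_hat⟩, D.T, D.T_mem, fun _ hP => Vanish.zero_iff.mpr hP, D.red_T⟩

theorem fst_sub_mem_RR {x : E × E} (hx : x ∈ D.RR) : (x.1 - D.Fr x.2, (0 : E)) ∈ D.RR := by
  have h := D.RR.sub_mem hx (Fr_mk_mem_RR hx.1.2)
  rwa [show x - (D.Fr x.2, x.2) = (x.1 - D.Fr x.2, (0 : E)) from Prod.ext rfl (sub_self _)] at h

variable (D)

/-- The crossings in the affine chart. -/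
def Xaff : Set (Place k E) :=
  {Q | 0 ≤ Q.ord D.tau ∧ ∀ x ∈ D.RR, valAt Q x.1 = valAt (D.frob • Q) x.2}

variable {D}

theorem ord_tau_smul_nonneg {Q : Place k E} (hQ : 0 ≤ Q.ord D.tau) :
    0 ≤ (D.frob • Q).ord D.tau := by rwa [D.ord_tau_smul]

theorem frob_frob_of_mem_Xaff {Q : Place k E} (hQ : Q ∈ D.Xaff) :
    D.frob • D.frob • Q = Q := by
  classical
  by_contra hne
  have hQ2 := ord_tau_smul_nonneg (ord_tau_smul_nonneg hQ.1)
  obtain ⟨w, hw, hwv⟩ := exists_prescribed D.param {Q, D.frob • D.frob • Q} (fun R hR => by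
    rcases Finset.mem_insert.mp hR with rfl | hR
    · exact hQ.1
    · rwa [Finset.mem_singleton.mp hR]) (fun R => if R = Q then 1 else 0)
  have h1 := hQ.2 _ (fst_sub_mem_RR (mk_Fr_mem_RR hw))
  simp only [valAt_zero] at h1
  have hF := D.regAway_Fr hw
  rw [D.param.curveBar.valAt_sub (hw Q hQ.1) (D.regAway_Fr hF Q hQ.1),
    D.valAt_Fr (hF _ (ord_tau_smul_nonneg hQ.1)), D.valAt_Fr (hw _ hQ2),
    hwv Q (by simp), hwv _ (Finset.mem_insert_of_mem (Finset.mem_singleton_self _)), if_pos rfl,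
    if_neg hne, sub_zero] at h1
  exact one_ne_zero h1

theorem vanish_frobPoly_of_mem_Xaff {Q : Place k E} (hQ : Q ∈ D.Xaff) :
    Vanish Q D.frobPoly 1 := by
  have h1 := hQ.2 _ frobPoly_mem_RR_fst
  simp only [valAt_zero] at h1
  exact (D.param.curveBar.vanish_one_iff (D.regAway_frobPoly Q hQ.1)).mpr h1

variable (D) in
theorem Xaff_finite : D.Xaff.Finite :=
  (divOf D.frobPoly : Divisor k E).support.finite_toSet.subset fun Q hQ => by
    rw [Finset.mem_coe, Finsupp.mem_support_iff, D.param.curveBar.divOf_apply]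
    have := (vanish_frobPoly_of_mem_Xaff hQ).resolve_left D.frobPoly_ne_zero
    omega

theorem mem_Xaff_smul_ord {Q : Place k E} (hQ : Q ∈ D.Xaff) :
    0 ≤ (D.frob • Q).ord D.tau := ord_tau_smul_nonneg hQ.1

/-- **The reduced chart is the glued ring.** -/
theorem mem_RR_iff [Infinite k] {x : E × E} :
    x ∈ D.RR ↔ D.RegPair x ∧ ∀ Q ∈ D.Xaff, valAt Q x.1 = valAt (D.frob • Q) x.2 := by
  classical
  refine ⟨fun h => ⟨h.1, fun Q hQ => hQ.2 x h⟩, fun ⟨hx, hglue⟩ => ?_⟩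
  let I : Submodule k E := D.RR.comap (LinearMap.inl k E E)
  have hIreg : ∀ u ∈ I, RegAway (K := k) D.tau u := fun u hu => hu.1.1
  have hImul : ∀ u ∈ I, ∀ w, RegAway (K := k) D.tau w → w * u ∈ I := fun u hu w hw => by
    show (w * u, (0 : E)) ∈ D.RR
    have h := RR_mul (mk_Fr_mem_RR hw) (show ((u, 0) : E × E) ∈ D.RR from hu)
    simpa using h
  have key : x.1 - D.Fr x.2 ∈ I := by
    refine mem_ideal_of_ord D.param I hIreg hImul
      (show D.frobPoly ∈ I from frobPoly_mem_RR_fst) D.frobPoly_ne_zero D.frobPoly_mem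
      (fun Q hQ => (D.frobPoly_ord hQ).2) (fun Q => if Q ∈ D.Xaff then 1 else 0) (fun Q hQ => ?_)
      (fun Q hQ => (hx.1 Q hQ).sub (D.regAway_Fr hx.2 Q hQ)) (fun Q hQ => ?_)
    · by_cases hQX : Q ∈ D.Xaff
      · rw [if_pos hQX]
        obtain ⟨w, hw0, hw, hwQ, -⟩ := exists_reg_ord D.param {Q} (fun _ => 1)
          (fun R hR => by rwa [Finset.mem_singleton.mp hR]) (Finset.mem_singleton_self Q)
        refine ⟨w - D.Fr (D.Fr w), fst_sub_mem_RR (mk_Fr_mem_RR hw), ?_⟩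
        have h2 : Q.ord w < Q.ord (-D.Fr (D.Fr w)) := by
          rw [FF.ord_neg, D.ord_Fr, D.ord_Fr, frob_frob_of_mem_Xaff hQX, hwQ]
          have h1 : (1 : ℤ) < q := by exact_mod_cast D.q_prime.one_lt
          push_cast
          nlinarith
        obtain ⟨h3, h4⟩ := FF.ord_add_of_lt Q hw0 (Or.inr h2)
        rw [← sub_eq_add_neg] at h3 h4
        exact ⟨h3, by rw [h4, hwQ]; rfl⟩
      · rw [if_neg hQX]
        obtain ⟨y, hy, hne⟩ : ∃ y ∈ D.RR, valAt Q y.1 ≠ valAt (D.frob • Q) y.2 := by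
          by_contra hcon
          push Not at hcon
          exact hQX ⟨hQ, hcon⟩
        have hreg : Vanish Q (y.1 - D.Fr y.2) 0 := (hy.1.1 Q hQ).sub (D.regAway_Fr hy.1.2 Q hQ)
        have hval : valAt Q (y.1 - D.Fr y.2) ≠ 0 := by
          rw [D.param.curveBar.valAt_sub (hy.1.1 Q hQ) (D.regAway_Fr hy.1.2 Q hQ),
            D.valAt_Fr (hy.1.2 _ (ord_tau_smul_nonneg hQ)), sub_ne_zero]
          exact hne
        refine ⟨_, fst_sub_mem_RR hy, fun h0 => hval ((congrArg (valAt Q) h0).trans (valAt_zero Q)), ?_⟩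
        rcases lt_or_eq_of_le (Vanish.zero_iff.mp hreg) with hlt | heq
        · exact absurd (valAt_eq_zero_of_vanish (Or.inr hlt)) hval
        · exact heq.symm.le
    · by_cases hQX : Q ∈ D.Xaff
      · rw [if_pos hQX]
        refine (D.param.curveBar.vanish_one_iff ((hx.1 Q hQ).sub (D.regAway_Fr hx.2 Q hQ))).mpr ?_
        rw [D.param.curveBar.valAt_sub (hx.1 Q hQ) (D.regAway_Fr hx.2 Q hQ),
          D.valAt_Fr (hx.2 _ (ord_tau_smul_nonneg hQ)), sub_eq_zero]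
        exact hglue Q hQX
      · rw [if_neg hQX]
        exact (hx.1 Q hQ).sub (D.regAway_Fr hx.2 Q hQ)
  have h := D.RR.add_mem (show ((x.1 - D.Fr x.2, 0) : E × E) ∈ D.RR from key) (Fr_mk_mem_RR hx.2)
  simpa using h

/-- Shifting to the other chart. -/
theorem exists_shift {x : E × E} (hx : x ∈ D.RR) :
    ∃ N : ℕ, ∀ M : ℕ, N ≤ M → (D.hat ^ M)⁻¹ • x ∈ D.inv.RR := by
  obtain ⟨⟨hx1, hx2⟩, y, hy, hyr, rfl⟩ := hx
  obtain ⟨n, hn⟩ := D.curve.exists_mem_polesLe hyr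
  obtain ⟨m1, hm1⟩ := D.param.curveBar.exists_mem_polesLe hx1
  obtain ⟨m2, hm2⟩ := D.param.curveBar.exists_mem_polesLe hx2
  refine ⟨n + m1 + m2, fun M hM => ?_⟩
  have hreg : ∀ {w : E} {m : ℕ}, w ∈ (polesLe D.tau m : Submodule k E) → m ≤ M →
      RegAway (K := k) D.inv.tau ((D.hat ^ M)⁻¹ * w) := by
    intro w m hw hm Q hQ
    rw [D.tau_inv, Q.ord_inv] at hQ
    rcases eq_or_ne w 0 with rfl | hw0
    · simp [Vanish]
    refine Or.inr ?_
    have h1 := (D.param.curveBar.mem_polesLe.mp hw Q).resolve_left hw0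
    rw [Q.ord_mul (inv_ne_zero (pow_ne_zero _ D.hat_ne_zero)) hw0, Q.ord_inv, FF.ord_pow, D.ord_hat]
    rw [max_eq_right (by omega)] at h1
    have h2 : (m : ℤ) ≤ M := by exact_mod_cast hm
    have h3 : (1 : ℤ) ≤ (q + 1 : ℕ) := by push_cast; omega
    have h4 : (m : ℤ) * -Q.ord D.tau ≤ M * -Q.ord D.tau :=
      mul_le_mul_of_nonneg_right h2 (by omega)
    have h5 : (M : ℤ) * -Q.ord D.tau ≤ M * ((q + 1 : ℕ) * -Q.ord D.tau) :=
      mul_le_mul_of_nonneg_left (le_mul_of_one_le_left (by omega) h3) (Int.natCast_nonneg _)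
    linarith
  have hT1 : (D.red (D.T ^ M)).1 ≠ 0 := by
    rw [red_pow D.T_mem, D.red_T]; exact pow_ne_zero _ D.hat_ne_zero
  have hT2 : (D.red (D.T ^ M)).2 ≠ 0 := by
    rw [red_pow D.T_mem, D.red_T]; exact pow_ne_zero _ D.hat_ne_zero
  have hTi : (D.T ^ M)⁻¹ ∈ D.V := inv_mem (pow_mem D.T_mem M) hT1 hT2
  refine ⟨⟨hreg hm1 (by omega), hreg hm2 (by omega)⟩, (D.T ^ M)⁻¹ * y, D.V.mul_mem hTi hy,
    fun P hP => ?_, ?_⟩
  · rw [D.T_inv, P.ord_inv] at hP
    rcases eq_or_ne y 0 with rfl | hy0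
    · simp [Vanish]
    refine Or.inr ?_
    rw [P.ord_mul (inv_ne_zero (pow_ne_zero _ D.T_ne_zero)) hy0, P.ord_inv, FF.ord_pow]
    have h1 := (D.curve.mem_polesLe.mp hn P).resolve_left hy0
    rw [max_eq_right (by omega)] at h1
    have h2 : (n : ℤ) ≤ M := by exact_mod_cast (show n ≤ M by omega)
    have h4 : (n : ℤ) * -P.ord D.T ≤ M * -P.ord D.T := mul_le_mul_of_nonneg_right h2 (by omega)
    linarith
  · show D.red ((D.T ^ M)⁻¹ * y) = _
    rw [red_mul hTi hy, red_inv (pow_mem D.T_mem M) hT1 hT2, red_pow D.T_mem, D.red_T]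
    rfl

theorem mem_Xaff_of_inv {Q : Place k E} (hQ : Q.ord D.tau = 0) (h : Q ∈ D.inv.Xaff) :
    Q ∈ D.Xaff := by
  refine ⟨hQ.ge, fun x hx => ?_⟩
  obtain ⟨N, hN⟩ := exists_shift hx
  have hpoly := vanish_frobPoly_of_mem_Xaff h
  have hcQ : 0 ≤ (D.frob • Q).ord D.tau := by rw [D.ord_tau_smul, hQ]
  have h0i : 0 ≤ Q.ord D.inv.tau := h.1
  have heq := h.2 _ (hN N le_rfl)
  have hq2 : valAt Q D.tau ^ q ^ 2 = valAt Q D.tau := by
    have h1 : valAt Q D.inv.tau ^ q ^ 2 = valAt Q D.inv.tau := by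
      have h2 := valAt_eq_zero_of_vanish hpoly
      have h3 : valAt Q (D.inv.tau ^ q ^ 2) = valAt Q D.inv.tau ^ q ^ 2 := by
        clear h2 heq
        induction q ^ 2 with
        | zero => simp [valAt_one]
        | succ n ih =>
          rw [pow_succ, D.param.curveBar.valAt_mul (by simpa using (Vanish.zero_iff.mpr h0i).pow n)
            (Vanish.zero_iff.mpr h0i), ih, pow_succ]
      rw [frobPoly, D.param.curveBar.valAt_sub (by simpa using (Vanish.zero_iff.mpr h0i).pow _)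
        (Vanish.zero_iff.mpr h0i), h3, sub_eq_zero] at h2
      exact h2
    rw [D.tau_inv, (valAt_inv D.param.curveBar D.tau_ne_zero hQ).2, inv_pow] at h1
    exact inv_injective h1
  have hτQ : Vanish Q D.tau 0 := Vanish.zero_iff.mpr hQ.ge
  have hval : ∀ (R : Place k E) (n : ℕ), 0 ≤ R.ord D.tau →
      valAt R (D.tau ^ n) = valAt R D.tau ^ n := by
    intro R n hR
    induction n with
    | zero => simp [valAt_one]
    | succ n ih =>
      rw [pow_succ, D.param.curveBar.valAt_mul (by simpa using (Vanish.zero_iff.mpr hR).pow n)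
        (Vanish.zero_iff.mpr hR), ih, pow_succ]
  have hhat : ∀ M : ℕ, valAt Q (D.hat ^ M) = valAt (D.frob • Q) (D.hat ^ M) := by
    intro M
    rw [hat, ← pow_mul, hval Q _ hQ.ge, hval _ _ hcQ, D.valAt_tau_smul hQ.ge, ← pow_mul,
      ← mul_assoc, pow_mul, pow_mul _ (q * (q + 1))]
    congr 1
    rw [mul_add, mul_one, pow_add _ (q * q), ← pow_two, hq2, pow_succ, mul_comm]
  have hne : ∀ R : Place k E, R.ord D.tau = 0 → valAt R (D.hat ^ N)⁻¹ ≠ 0 ∧
      Vanish R (D.hat ^ N)⁻¹ 0 := by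
    intro R hR
    have h0 : R.ord (D.hat ^ N)⁻¹ = 0 := by rw [R.ord_inv, FF.ord_pow, D.ord_hat, hR]; simp
    exact ⟨(valAt_inv D.param.curveBar (inv_ne_zero (pow_ne_zero _ D.hat_ne_zero)) h0).1,
      Vanish.zero_iff.mpr h0.ge⟩
  have hcQ0 : (D.frob • Q).ord D.tau = 0 := by rw [D.ord_tau_smul, hQ]
  have hinv : valAt Q (D.hat ^ N)⁻¹ = valAt (D.frob • Q) (D.hat ^ N)⁻¹ := by
    have e1 : Q.ord (D.hat ^ N) = 0 := by rw [FF.ord_pow, D.ord_hat, hQ]; simp
    have e2 : (D.frob • Q).ord (D.hat ^ N) = 0 := by rw [FF.ord_pow, D.ord_hat, hcQ0]; simp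
    rw [(valAt_inv D.param.curveBar (pow_ne_zero _ D.hat_ne_zero) e1).2,
      (valAt_inv D.param.curveBar (pow_ne_zero _ D.hat_ne_zero) e2).2, hhat]
  simp only [Prod.smul_fst, Prod.smul_snd, smul_eq_mul] at heq
  rw [D.param.curveBar.valAt_mul (hne Q hQ).2 (hx.1.1 Q hQ.ge)] at heq
  have heq2 : valAt (D.frob • Q) ((D.hat ^ N)⁻¹ * x.2) =
      valAt (D.frob • Q) (D.hat ^ N)⁻¹ * valAt (D.frob • Q) x.2 :=
    D.param.curveBar.valAt_mul (hne _ hcQ0).2 (hx.1.2 _ hcQ)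
  change _ = valAt (D.frob • Q) ((D.hat ^ N)⁻¹ * x.2) at heq
  rw [heq2, hinv] at heq
  exact mul_left_cancel₀ (hne _ hcQ0).1 heq

/-- The crossings of the two charts agree on the overlap. -/
theorem mem_Xaff_inv_iff {Q : Place k E} (hQ : Q.ord D.tau = 0) :
    Q ∈ D.inv.Xaff ↔ Q ∈ D.Xaff := by
  refine ⟨mem_Xaff_of_inv hQ, fun h => ?_⟩
  have hQ' : Q.ord D.inv.tau = 0 := by rw [D.tau_inv, Q.ord_inv, hQ, neg_zero]
  exact mem_Xaff_of_inv hQ' (by rwa [D.inv_inv'])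

variable (D)

/-- All crossings. -/
def X : Set (Place k E) := D.Xaff ∪ {Q | Q.ord D.tau < 0 ∧ Q ∈ D.inv.Xaff}

variable {D}

theorem mem_Xaff_iff {Q : Place k E} : Q ∈ D.Xaff ↔ Q ∈ D.X ∧ 0 ≤ Q.ord D.tau := by
  refine ⟨fun h => ⟨Or.inl h, h.1⟩, ?_⟩
  rintro ⟨h | h, hQ⟩
  · exact h
  · exact absurd hQ (not_le.mpr h.1)

variable (D)

theorem X_inv : D.inv.X = D.X := by
  ext Q
  rcases lt_trichotomy (Q.ord D.tau) 0 with h | h | h
  · have h1 : Q ∉ D.Xaff := fun h' => absurd h'.1 (not_le.mpr h)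
    have h2 : ¬ Q.ord D.inv.tau < 0 := by rw [D.tau_inv, Q.ord_inv]; omega
    simp [X, h, h1, h2]
  · have h2 : ¬ Q.ord D.inv.tau < 0 := by rw [D.tau_inv, Q.ord_inv]; omega
    have h3 : ¬ Q.ord D.tau < 0 := by omega
    simp [X, h2, h3, mem_Xaff_inv_iff h]
  · have h1 : Q.ord D.inv.tau < 0 := by rw [D.tau_inv, Q.ord_inv]; omega
    have h2 : Q ∉ D.inv.Xaff := fun h' => absurd h'.1 (not_le.mpr h1)
    have h3 : ¬ Q.ord D.tau < 0 := by omega
    simp [X, h1, h2, h3, D.inv_inv']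

theorem X_finite : D.X.Finite :=
  D.Xaff_finite.union (D.inv.Xaff_finite.subset fun _ h => h.2)

theorem frob_frob_of_mem_X {Q : Place k E} (hQ : Q ∈ D.X) : D.frob • D.frob • Q = Q := by
  rcases hQ with h | h
  · exact frob_frob_of_mem_Xaff h
  · exact frob_frob_of_mem_Xaff (D := D.inv) h.2

end Data

end FLTAgent.Lift
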