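import Fermat.Agent.Lift.Ideal
import Fermat.Agent.Reduction.PlacesMap

/-!
# Divisors specialise to the divisors of the reductions

`spDiv_eq_rdiv`: for a function with unit content on both components, the specialisation of its
divisor is the divisor of its pair of reductions on classes. The inequality at each class of the
affine chart (`spDiv_le_rdiv`) compares the functions vanishing on the zeros above the class with
the locally divisible pairs (`locDiv_le_IE`, `finrank_locDiv_ge`); both sides have total degree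
zero.
-/

set_option autoImplicit false
set_option linter.style.haveILetI false
set_option linter.unusedSectionVars false

noncomputable section

open AlgebraicCurve SemilinearAut Module

namespace FLTAgent.Lift

open FLTAgent.Reduction

theorem mapDomain_eq_zero_of {α β : Type*} {f : α → β} {Z : α →₀ ℤ} {b : β}
    (h : ∀ a, Z a ≠ 0 → f a ≠ b) : Finsupp.mapDomain f Z b = 0 := by
  classical
  rw [mapDomain_apply_eq_sum]
  refine Finset.sum_eq_zero fun a ha => ?_
  obtain ⟨ha1, ha2⟩ := Finset.mem_filter.mp ha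
  exact absurd ha2 (h a (Finsupp.mem_support_iff.mp ha1))

/-- The sum of all coefficients. -/
def total {α : Type*} : (α →₀ ℤ) →+ ℤ := Finsupp.liftAddHom fun _ => AddMonoidHom.id ℤ

theorem total_mapDomain {α β : Type*} (f : α → β) (Z : α →₀ ℤ) :
    total (Finsupp.mapDomain f Z) = total Z := by
  simp only [total, Finsupp.liftAddHom_apply]
  exact Finsupp.sum_mapDomain_index (fun _ => rfl) (fun _ _ _ => rfl)

theorem eq_of_le_of_total_eq {α : Type*} {Z W : α →₀ ℤ} (h : ∀ a, Z a ≤ W a)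
    (ht : total Z = total W) : Z = W := by
  classical
  have hd : total (W - Z) = 0 := by rw [map_sub, ht, sub_self]
  simp only [total, Finsupp.liftAddHom_apply] at hd
  change ∑ b ∈ (W - Z).support, (W - Z) b = 0 at hd
  ext a
  by_contra hne
  have hmem : a ∈ (W - Z).support := by
    rw [Finsupp.mem_support_iff, Finsupp.sub_apply]; omega
  have := (Finset.sum_eq_zero_iff_of_nonneg fun b _ => by
    rw [Finsupp.sub_apply]; have := h b; omega).mp hd a hmem
  rw [Finsupp.sub_apply] at this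
  omega

namespace Data

variable {K k F F₀ E : Type*} [Field K] [Field k] [Field F] [Field F₀] [Field E] [Algebra K F]
  [Algebra K F₀] [Algebra k E] {A : ValuationSubring K} {π : A →+* k} {q g g' : ℕ}
variable {D : Data A π q F F₀ E g g'}

theorem cls_false_injective : Function.Injective (D.cls false) := by
  intro z z' h
  unfold Data.cls at h
  split_ifs at h with h1 h2 h2
  · simpa using h
  · simp at h
  · simp at h
  · simpa using h

theorem cls_true_injective : Function.Injective (D.cls true) := fun z z' h => by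
  simpa [cls_true] using h

variable (D) in
/-- The divisor of a pair, on classes. -/
def rdiv (x : E × E) : Cls k E →₀ ℤ :=
  Finsupp.mapDomain (D.cls true) (divOf x.1 : Divisor k E) +
    Finsupp.mapDomain (D.cls false) (divOf x.2 : Divisor k E)

variable (D) in
/-- The specialisation of the divisor of a function. -/
def spDiv [Infinite k] (y : F) : Cls k E →₀ ℤ :=
  Finsupp.mapDomain D.sp (divOf y : Divisor K F)

theorem rdiv_mul {x x' : E × E} (h1 : x.1 ≠ 0) (h2 : x.2 ≠ 0) (h1' : x'.1 ≠ 0) (h2' : x'.2 ≠ 0) :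
    D.rdiv (x * x') = D.rdiv x + D.rdiv x' := by
  rw [rdiv, rdiv, rdiv, Prod.fst_mul, Prod.snd_mul, D.param.curveBar.divOf_mul h1 h1',
    D.param.curveBar.divOf_mul h2 h2', Finsupp.mapDomain_add, Finsupp.mapDomain_add]
  abel

theorem spDiv_mul [Infinite k] {y y' : F} (h : y ≠ 0) (h' : y' ≠ 0) :
    D.spDiv (y * y') = D.spDiv y + D.spDiv y' := by
  rw [spDiv, spDiv, spDiv, D.curve.divOf_mul h h', Finsupp.mapDomain_add]

open Classical in
theorem rdiv_apply_true (x : E × E) (z : Place k E) :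
    D.rdiv x (true, z) =
      z.ord x.1 + (if z ∈ D.X then (D.frob • z).ord x.2 else 0) := by
  rw [rdiv, Finsupp.add_apply]
  congr 1
  · rw [← cls_true (D := D) z, Finsupp.mapDomain_apply cls_true_injective,
      D.param.curveBar.divOf_apply]
  · split_ifs with h
    · rw [← cls_false_smul h, Finsupp.mapDomain_apply cls_false_injective,
        D.param.curveBar.divOf_apply]
    · refine mapDomain_eq_zero_of fun R _ hR => ?_
      unfold Data.cls at hR
      split_ifs at hR with h1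
      · exact h (by rw [← (Prod.mk.injEq _ _ _ _).mp hR |>.2]; exact h1.2)
      · simp at hR

theorem rdiv_apply_false (x : E × E) {z : Place k E} (h : D.IsCanon (false, z)) :
    D.rdiv x (false, z) = z.ord x.2 := by
  rw [rdiv, Finsupp.add_apply, mapDomain_eq_zero_of (f := D.cls true) (fun R _ hR => by
    rw [cls_true] at hR; simp at hR), zero_add]
  rw [← cls_of_canon h, Finsupp.mapDomain_apply cls_false_injective,
    D.param.curveBar.divOf_apply]

theorem rdiv_inv (x : E × E) : D.inv.rdiv x = D.rdiv x := by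
  have h : ∀ b, D.inv.cls b = D.cls b := fun b => funext fun z => by
    unfold Data.cls
    rw [D.X_inv]
    rfl
  rw [rdiv, rdiv, h, h]

theorem spDiv_inv [Infinite k] (y : F) : D.inv.spDiv y = D.spDiv y := by
  rw [spDiv, spDiv]
  exact congrArg (fun f => Finsupp.mapDomain f (divOf y : Divisor K F)) (funext sp_inv)

/-! ### The inequality at a class of the affine chart -/

/-- The reductions of integral regular functions vanishing on a divisor. -/
def IE (D : Data A π q F F₀ E g g') (Z : Divisor K F) : Submodule k (E × E) where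
  carrier := {x | ∃ y ∈ D.V, RegAway (K := K) D.T y ∧
    (∀ P, Z P ≠ 0 → Vanish P y (Z P)) ∧ D.red y = x}
  zero_mem' := ⟨0, D.V.zero_mem, fun _ _ => Vanish.zero_left, fun _ _ => Vanish.zero_left, red_zero⟩
  add_mem' := by
    rintro x x' ⟨y, hy, hyr, hv, rfl⟩ ⟨y', hy', hy'r, hv', rfl⟩
    exact ⟨y + y', D.V.add_mem hy hy', fun P hP => (hyr P hP).add (hy'r P hP),
      fun P hP => (hv P hP).add (hv' P hP), red_add hy hy'⟩
  smul_mem' := by
    rintro c x ⟨y, hy, hyr, hv, rfl⟩
    obtain ⟨a, rfl⟩ := D.Ginf.res_surj c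
    exact ⟨(a : K) • y, smul_mem a hy, fun P hP => (hyr P hP).smul _,
      fun P hP => (hv P hP).smul _, red_smul a hy⟩

theorem IE_le_RR [Infinite k] (Z : Divisor K F) : IE D Z ≤ D.RR := by
  rintro _ ⟨y, hy, hyr, -, rfl⟩
  exact red_mem_RR hy hyr

theorem IE_mul [Infinite k] {Z : Divisor K F} (hZ : ∀ P, Z P ≠ 0 → IsDisc A D.T P) {x v : E × E}
    (hx : x ∈ IE D Z) (hv : v ∈ D.RR) : v * x ∈ IE D Z := by
  obtain ⟨y, hy, hyr, hyv, rfl⟩ := hx
  obtain ⟨-, w, hw, hwr, rfl⟩ := hv
  exact ⟨w * y, D.V.mul_mem hw hy, fun P hP => (hwr P hP).mul_zero' (hyr P hP),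
    fun P hP => (hwr P (hZ P hP).1).mul_zero' (hyv P hP), red_mul hw hy⟩

variable (D) in
open Classical in
/-- The pairs locally divisible by `γ` at a class. -/
def locDiv (γ : E × E) (c : Cls k E) : Submodule k (E × E) where
  carrier := {h | h ∈ D.RR ∧ (c.1 = false → Vanish c.2 h.2 (c.2.ord γ.2)) ∧
    (c.1 = true → Vanish c.2 h.1 (c.2.ord γ.1)) ∧
    (c.1 = true → c.2 ∈ D.X → Vanish (D.frob • c.2) h.2 ((D.frob • c.2).ord γ.2) ∧
      (γ.1 ≠ 0 → γ.2 ≠ 0 → valAt c.2 (γ.1⁻¹ * h.1) = valAt (D.frob • c.2) (γ.2⁻¹ * h.2)))}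
  zero_mem' := ⟨D.RR.zero_mem, fun _ => Vanish.zero_left, fun _ => Vanish.zero_left,
    fun _ _ => ⟨Vanish.zero_left, fun _ _ => by simp [valAt_zero]⟩⟩
  add_mem' := by
    rintro a b ⟨ha, ha1, ha2, ha3⟩ ⟨hb, hb1, hb2, hb3⟩
    refine ⟨D.RR.add_mem ha hb, fun h => (ha1 h).add (hb1 h), fun h => (ha2 h).add (hb2 h),
      fun h hX => ⟨(ha3 h hX).1.add (hb3 h hX).1, fun h1 h2 => ?_⟩⟩
    have hva : ∀ {u : E} (_ : u ≠ 0) {P : Place k E} {w : E}, Vanish P w (P.ord u) →
        Vanish P (u⁻¹ * w) 0 := fun {u} _ {P} {w} hw =>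
      ((Vanish.self u⁻¹).mul hw).mono (by rw [P.ord_inv]; omega)
    simp only [Prod.fst_add, Prod.snd_add, mul_add]
    rw [D.param.curveBar.valAt_add (hva h1 (ha2 h)) (hva h1 (hb2 h)),
      D.param.curveBar.valAt_add (hva h2 (ha3 h hX).1) (hva h2 (hb3 h hX).1),
      (ha3 h hX).2 h1 h2, (hb3 h hX).2 h1 h2]
  smul_mem' := by
    rintro r a ⟨ha, ha1, ha2, ha3⟩
    refine ⟨D.RR.smul_mem r ha, fun h => (ha1 h).smul r, fun h => (ha2 h).smul r,
      fun h hX => ⟨(ha3 h hX).1.smul r, fun h1 h2 => ?_⟩⟩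
    have hva : ∀ {u : E} (_ : u ≠ 0) {P : Place k E} {w : E}, Vanish P w (P.ord u) →
        Vanish P (u⁻¹ * w) 0 := fun {u} _ {P} {w} hw =>
      ((Vanish.self u⁻¹).mul hw).mono (by rw [P.ord_inv]; omega)
    simp only [Prod.smul_fst, Prod.smul_snd, mul_smul_comm]
    rw [D.param.curveBar.valAt_smul r (hva h1 (ha2 h)),
      D.param.curveBar.valAt_smul r (hva h2 (ha3 h hX).1), (ha3 h hX).2 h1 h2]

/-- Locally divisible pairs are reductions of functions vanishing on the zeros specialising to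
the class. -/
theorem locDiv_le_IE [Infinite k] {y : F} (hy : y ∈ D.V) (hyr : RegAway (K := K) D.T y)
    (h1 : D.Ginf.red y ≠ 0) (h2 : D.Gzero.red y ≠ 0) {c : Cls k E} (hc : D.IsCanon c)
    (hcfin : 0 ≤ c.2.ord D.tau) {Z : Divisor K F}
    (hZ : ∀ P, Z P ≠ 0 → IsDisc A D.T P ∧ D.sp P = c ∧ Z P ≤ P.ord y) :
    D.locDiv (D.red y) c ≤ IE D Z := by
  classical
  intro h hh
  set γ := D.red y with hγ
  have hγRR : γ ∈ D.RR := red_mem_RR hy hyr
  obtain ⟨y₀, hy₀RR, hy₀c, hy₀0⟩ : ∃ u ∈ D.RR, cval u c = 1 ∧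
      (∀ R, 0 ≤ R.ord D.tau → (0 < R.ord γ.1 ∨ R ∈ D.Xaff) → D.cls true R ≠ c → valAt R u.1 = 0) ∧
      (∀ R, 0 ≤ R.ord D.tau → (0 < R.ord γ.2 ∨ D.frob⁻¹ • R ∈ D.Xaff) → D.cls false R ≠ c →
        valAt R u.2 = 0) := by
    set S1 : Finset (Place k E) := ((divOf γ.1 : Divisor k E).support ∪ D.Xfin).filter
      fun R => 0 ≤ R.ord D.tau with hS1
    set S2 : Finset (Place k E) :=
      ((divOf γ.2 : Divisor k E).support ∪ D.Xfin.image fun R => D.frob • R).filter
        fun R => 0 ≤ R.ord D.tau with hS2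
    set S : Finset (Cls k E) := ((S1.image (D.cls true)) ∪ (S2.image (D.cls false))).erase c
      with hS
    obtain ⟨u, hu, hu1, hu0⟩ := exists_sep S hc hcfin (fun d hd => by
      obtain ⟨hne, hd⟩ := Finset.mem_erase.mp hd
      rcases Finset.mem_union.mp hd with hd | hd <;> obtain ⟨R, hR, rfl⟩ := Finset.mem_image.mp hd
      · exact ⟨isCanon_cls _ _, by rw [ord_tau_cls]; exact (Finset.mem_filter.mp hR).2, hne⟩
      · exact ⟨isCanon_cls _ _, by rw [ord_tau_cls]; exact (Finset.mem_filter.mp hR).2, hne⟩)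
    refine ⟨u, hu, hu1, fun R hR hcase hne => ?_, fun R hR hcase hne => ?_⟩
    · rw [← cval_cls_true (D := D) u R]
      refine hu0 _ (Finset.mem_erase.mpr ⟨hne, Finset.mem_union_left _ (Finset.mem_image_of_mem _
        (Finset.mem_filter.mpr ⟨?_, hR⟩))⟩)
      rcases hcase with hc' | hc'
      · exact Finset.mem_union_left _ (Finsupp.mem_support_iff.mpr (by
          rw [D.param.curveBar.divOf_apply]; omega))
      · exact Finset.mem_union_right _ (mem_Xfin.mpr (Or.inl hc'))
    · rw [← cval_cls_false hu hR]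
      refine hu0 _ (Finset.mem_erase.mpr ⟨hne, Finset.mem_union_right _ (Finset.mem_image_of_mem _
        (Finset.mem_filter.mpr ⟨?_, hR⟩))⟩)
      rcases hcase with hc' | hc'
      · exact Finset.mem_union_left _ (Finsupp.mem_support_iff.mpr (by
          rw [D.param.curveBar.divOf_apply]; omega))
      · exact Finset.mem_union_right _
          (Finset.mem_image.mpr ⟨_, mem_Xfin.mpr (Or.inl hc'), smul_inv_smul _ _⟩)
  obtain ⟨m, hm⟩ : ∃ m : ℕ, ∀ R : Place k E, R.ord γ.1 < m ∧ R.ord γ.2 < m := by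
    set B1 := (divOf γ.1 : Divisor k E).support.sup fun R => (R.ord γ.1).natAbs
    set B2 := (divOf γ.2 : Divisor k E).support.sup fun R => (R.ord γ.2).natAbs
    refine ⟨B1 + B2 + 1, fun R => ⟨?_, ?_⟩⟩
    · by_cases hR : R ∈ (divOf γ.1 : Divisor k E).support
      · have := Finset.le_sup (f := fun R => (R.ord γ.1).natAbs) hR
        push_cast; omega
      · rw [Finsupp.notMem_support_iff, D.param.curveBar.divOf_apply] at hR
        rw [hR]; push_cast; omega
    · by_cases hR : R ∈ (divOf γ.2 : Divisor k E).support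
      · have := Finset.le_sup (f := fun R => (R.ord γ.2).natAbs) hR
        push_cast; omega
      · rw [Finsupp.notMem_support_iff, D.param.curveBar.divOf_apply] at hR
        rw [hR]; push_cast; omega
  set u := y₀ ^ m with hu
  have huRR : u ∈ D.RR := RR_pow hy₀RR m
  have huc : cval u c = 1 := by
    rw [hu]
    clear hu huRR hm
    induction m with
    | zero => rw [pow_zero, cval_one]
    | succ m ih => rw [pow_succ, cval_mul (RR_pow hy₀RR m) hy₀RR hcfin, ih, hy₀c, mul_one]
  have hγ1 : γ.1 ≠ 0 := h1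
  have hγ2 : γ.2 ≠ 0 := h2
  have hu1v : ∀ R : Place k E, 0 ≤ R.ord D.tau → (0 < R.ord γ.1 ∨ R ∈ D.Xaff) →
      D.cls true R ≠ c → Vanish R (γ.1⁻¹ * (u.1 * h.1)) 1 := by
    intro R hR hcase hne
    have hv := (D.param.curveBar.vanish_one_iff (hy₀RR.1.1 R hR)).mpr (hy₀0.1 R hR hcase hne)
    refine ((Vanish.self γ.1⁻¹).mul ((hv.pow m).mul (hh.1.1.1 R hR))).mono ?_
    rw [R.ord_inv]; have := (hm R).1; omega
  have hu2v : ∀ R : Place k E, 0 ≤ R.ord D.tau → (0 < R.ord γ.2 ∨ D.frob⁻¹ • R ∈ D.Xaff) →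
      D.cls false R ≠ c → Vanish R (γ.2⁻¹ * (u.2 * h.2)) 1 := by
    intro R hR hcase hne
    have hv := (D.param.curveBar.vanish_one_iff (hy₀RR.1.2 R hR)).mpr (hy₀0.2 R hR hcase hne)
    refine ((Vanish.self γ.2⁻¹).mul ((hv.pow m).mul (hh.1.1.2 R hR))).mono ?_
    rw [R.ord_inv]; have := (hm R).2; omega
  set z : E × E := (γ.1⁻¹ * (u.1 * h.1), γ.2⁻¹ * (u.2 * h.2)) with hz
  have hloc1 : ∀ R : Place k E, D.cls true R = c → Vanish R h.1 (R.ord γ.1) := by
    intro R hR
    rw [cls_true] at hR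
    subst hR
    exact hh.2.2.1 rfl
  have hloc2 : ∀ R : Place k E, D.cls false R = c → Vanish R h.2 (R.ord γ.2) := by
    intro R hR
    by_cases hX : D.frob⁻¹ • R ∈ D.X
    · have h' : D.cls false R = (true, D.frob⁻¹ • R) := by
        conv_lhs => rw [← smul_inv_smul D.frob R]
        exact cls_false_smul hX
      rw [h'] at hR
      subst hR
      have h3 := (hh.2.2.2 rfl hX).1
      rwa [smul_inv_smul] at h3
    · have h' : D.cls false R = (false, R) := cls_of_canon (c := (false, R)) fun h' => hX h'.2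
      rw [h'] at hR
      subst hR
      exact hh.2.1 rfl
  have hzRR : z ∈ D.RR := by
    refine mem_RR_iff.mpr ⟨⟨fun R hR => ?_, fun R hR => ?_⟩, fun Q hQ => ?_⟩
    · by_cases hRc : D.cls true R = c
      · refine ((Vanish.self γ.1⁻¹).mul ((huRR.1.1 R hR).mul_zero' (hloc1 R hRc))).mono ?_
        rw [R.ord_inv]; omega
      · rcases lt_or_eq_of_le (Vanish.zero_iff.mp (hγRR.1.1 R hR)) with hlt | heq
        · exact (hu1v R hR (Or.inl hlt) hRc).mono zero_le_one
        · exact Vanish.mul_zero' (Vanish.zero_iff.mpr (by rw [R.ord_inv, ← heq]; rfl))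
            ((huRR.1.1 R hR).mul_zero' (hh.1.1.1 R hR))
    · by_cases hRc : D.cls false R = c
      · refine ((Vanish.self γ.2⁻¹).mul ((huRR.1.2 R hR).mul_zero' (hloc2 R hRc))).mono ?_
        rw [R.ord_inv]; omega
      · rcases lt_or_eq_of_le (Vanish.zero_iff.mp (hγRR.1.2 R hR)) with hlt | heq
        · exact (hu2v R hR (Or.inl hlt) hRc).mono zero_le_one
        · exact Vanish.mul_zero' (Vanish.zero_iff.mpr (by rw [R.ord_inv, ← heq]; rfl))
            ((huRR.1.2 R hR).mul_zero' (hh.1.1.2 R hR))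
    · have hcQ := mem_Xaff_smul_ord hQ
      show valAt Q (γ.1⁻¹ * (u.1 * h.1)) = valAt (D.frob • Q) (γ.2⁻¹ * (u.2 * h.2))
      by_cases hQc : D.cls true Q = c
      · rw [cls_true] at hQc
        subst hQc
        obtain ⟨h4, h5⟩ := hh.2.2.2 rfl (Or.inl hQ)
        have r1 : Vanish Q (γ.1⁻¹ * h.1) 0 :=
          ((Vanish.self γ.1⁻¹).mul (hh.2.2.1 rfl)).mono (by dsimp only; rw [Q.ord_inv]; omega)
        have r2 : Vanish (D.frob • Q) (γ.2⁻¹ * h.2) 0 :=
          ((Vanish.self γ.2⁻¹).mul h4).mono (by rw [Place.ord_inv]; omega)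
        have e1 : valAt Q u.1 = 1 := huc
        have e2 : valAt (D.frob • Q) u.2 = 1 := (hQ.2 u huRR).symm.trans huc
        rw [mul_left_comm, D.param.curveBar.valAt_mul (huRR.1.1 Q hQ.1) r1, e1, one_mul,
          mul_left_comm, D.param.curveBar.valAt_mul (huRR.1.2 _ hcQ) r2, e2, one_mul]
        exact h5 hγ1 hγ2
      · have hne : D.cls false (D.frob • Q) ≠ c := by
          rw [cls_false_smul (Or.inl hQ), ← cls_true (D := D) Q]; exact hQc
        rw [valAt_eq_zero_of_vanish (hu1v Q hQ.1 (Or.inr hQ) hQc),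
          valAt_eq_zero_of_vanish (hu2v _ hcQ (Or.inr (by rwa [inv_smul_smul])) hne)]
  have huh : u * h = γ * z := by
    refine Prod.ext ?_ ?_
    · show u.1 * h.1 = γ.1 * (γ.1⁻¹ * (u.1 * h.1))
      rw [mul_inv_cancel_left₀ hγ1]
    · show u.2 * h.2 = γ.2 * (γ.2⁻¹ * (u.2 * h.2))
      rw [mul_inv_cancel_left₀ hγ2]
  have hZdisc : ∀ P, Z P ≠ 0 → IsDisc A D.T P := fun P hP => (hZ P hP).1
  let J : Submodule k (E × E) :=
    { carrier := {v | v ∈ D.RR ∧ v * h ∈ IE D Z}
      zero_mem' := ⟨D.RR.zero_mem, by rw [zero_mul]; exact (IE D Z).zero_mem⟩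
      add_mem' := fun {a b} ha hb =>
        ⟨D.RR.add_mem ha.1 hb.1, by rw [add_mul]; exact (IE D Z).add_mem ha.2 hb.2⟩
      smul_mem' := fun r a ha =>
        ⟨D.RR.smul_mem r ha.1, by rw [smul_mul_assoc]; exact (IE D Z).smul_mem r ha.2⟩ }
  obtain ⟨yp, p, d, hypV, hypd, hypred, hpreg, hpmon, -, hpvan⟩ := exists_discPoly Z hZdisc
  obtain ⟨hp1, hp0, hpex⟩ := monic_frobPoly_mul hpmon hpreg
  have hypr := D.curve.regAway_of_mem_polesLe hypd
  have hmk : ∀ (w : F) (_ : w ∈ D.V) (_ : RegAway (K := K) D.T w), D.red (w * yp) ∈ J := by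
    intro w hw hwr
    refine ⟨red_mem_RR (D.V.mul_mem hw hypV) (fun P hP => (hwr P hP).mul_zero' (hypr P hP)), ?_⟩
    rw [mul_comm]
    exact IE_mul hZdisc ⟨w * yp, D.V.mul_mem hw hypV,
      fun P hP => (hwr P hP).mul_zero' (hypr P hP),
      fun P hP => (hwr P (hZdisc P hP).1).mul_zero' (hpvan P hP), rfl⟩ hh.1
  have hone : (1 : E × E) ∈ J := by
    refine one_mem_RR_ideal J (fun v hv => hv.1) (fun x hx v hv => ⟨RR_mul hv hx.1, by
      rw [mul_assoc]; exact IE_mul hZdisc hx.2 hv⟩) hp0 hp1 hpex ?_ ?_ (fun c' hc' hc'fin => ?_)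
    · have h3 := hmk _ D.killZero_mem D.regAway_killZero
      rwa [red_mul D.killZero_mem hypV, D.red_killZero, hypred, Prod.mk_mul_mk, zero_mul] at h3
    · have h3 := hmk _ D.killInf_mem D.regAway_killInf
      rwa [red_mul D.killInf_mem hypV, D.red_killInf, hypred, Prod.mk_mul_mk, zero_mul] at h3
    · by_cases hcc : c' = c
      · subst hcc
        refine ⟨u, ⟨huRR, ?_⟩, by rw [huc]; exact one_ne_zero⟩
        rw [huh]
        obtain ⟨-, w, hw, hwr, hwz⟩ := hzRR
        refine ⟨y * w, D.V.mul_mem hy hw, fun P hP => (hyr P hP).mul_zero' (hwr P hP),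
          fun P hP => ?_, by rw [red_mul hy hw, hwz]⟩
        exact ((Vanish.self y).mono (hZ P hP).2.2).mul (hwr P (hZdisc P hP).1) |>.mono (by simp)
      · obtain ⟨b, hb, hb1, hb0⟩ := exists_ne_cval hc' hc hc'fin hcfin (Ne.symm hcc)
        obtain ⟨-, yb, hybV, hybr, hybred⟩ := hb
        have hprod : ∀ s : Finset (Place K F), (∀ P ∈ s, Z P ≠ 0) → ∃ w : F, w ∈ D.V ∧
            RegAway (K := K) D.T w ∧ (∀ P ∈ s, Vanish P w (Z P)) ∧ cval (D.red w) c' ≠ 0 := by
          intro s
          induction s using Finset.induction with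
          | empty =>
            intro _
            exact ⟨1, D.V.one_mem, fun _ _ => Vanish.one, by simp,
              by rw [red_one, cval_one]; exact one_ne_zero⟩
          | insert a s ha ih =>
            intro hs
            obtain ⟨w, hw, hwr, hwv, hwne⟩ := ih fun P hP => hs P (Finset.mem_insert_of_mem hP)
            obtain ⟨haD, hasp, -⟩ := hZ a (hs a (Finset.mem_insert_self a s))
            have hval := valAt_mem haD hybV hybr
            set t : A := ⟨valAt a yb, hval⟩
            have ht : π t = 0 := by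
              rw [← resVal_of_eq a yb t rfl, (isSp_sp haD).2.2 yb hybV hybr, hasp, hybred, hb0]
            set e := yb - algebraMap K F (t : K) with he
            have heV : e ∈ D.V := D.V.sub_mem hybV (const_mem t)
            have her : RegAway (K := K) D.T e := fun P hP => (hybr P hP).sub (Vanish.const _)
            have hered : D.red e = b := by
              rw [he, red_sub hybV (const_mem t), red_const, ht, map_zero, sub_zero, hybred]
            refine ⟨w * e ^ (Z a).toNat, D.V.mul_mem hw (pow_mem heV _),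
              fun P hP => (hwr P hP).mul_zero' (by simpa using (her P hP).pow _), fun P hP => ?_, ?_⟩
            · rcases Finset.mem_insert.mp hP with rfl | hP
              · refine ((hwr P haD.1).mul ((D.curve.exists_valAt (hybr P haD.1)).pow _)).mono ?_
                omega
              · have hP0 := (hZdisc P (hs P (Finset.mem_insert_of_mem hP))).1
                refine ((hwv P hP).mul (n := 0) ?_).mono (by simp)
                simpa using (her P hP0).pow _
            · have hbRR : b ∈ D.RR := hered ▸ red_mem_RR heV her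
              have hpw : ∀ n : ℕ, cval (b ^ n) c' = 1 := fun n => by
                induction n with
                | zero => rw [pow_zero, cval_one]
                | succ n ihn => rw [pow_succ, cval_mul (RR_pow hbRR n) hbRR hc'fin, ihn, hb1, one_mul]
              rw [red_mul hw (pow_mem heV _), red_pow heV, hered,
                cval_mul (red_mem_RR hw hwr) (RR_pow hbRR _) hc'fin, hpw, mul_one]
              exact hwne
        obtain ⟨w, hw, hwr, hwv, hwne⟩ := hprod Z.support fun P hP => Finsupp.mem_support_iff.mp hP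
        refine ⟨D.red w, ⟨red_mem_RR hw hwr, ?_⟩, hwne⟩
        rw [mul_comm]
        exact IE_mul hZdisc
          ⟨w, hw, hwr, fun P hP => hwv P (Finsupp.mem_support_iff.mpr hP), rfl⟩ hh.1
  simpa using hone.2

/-- Bounded lifting of reductions of functions vanishing on a divisor. -/
theorem exists_IE_bound [Infinite k] {Z : Divisor K F} (hZ : ∀ P, Z P ≠ 0 → IsDisc A D.T P) :
    ∃ N₀ : ℕ, ∀ N : ℕ, N₀ ≤ N →
      IE D Z ⊓ D.Gl N ≤ D.redSub (riemannRochSpace (boundDiv D.T N Z)) := by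
  classical
  have hmem : ∀ {N : ℕ} {y : F}, y ∈ (polesLe D.T N : Submodule K F) →
      (∀ P, Z P ≠ 0 → Vanish P y (Z P)) → y ∈ riemannRochSpace (boundDiv D.T N Z) := by
    intro N y hy hv
    refine D.curve.mem_L_bound.mpr fun P => ?_
    by_cases hP : Z P = 0
    · rw [hP, zero_sub]; exact D.curve.mem_polesLe.mp hy P
    · rw [max_eq_left (by have := (hZ P hP).1; omega), mul_zero, sub_zero]
      exact hv P hP
  obtain ⟨yp, p, d, hypV, hypd, hypred, hpreg, -, hinvm, hpvan⟩ := exists_discPoly Z hZ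
  obtain ⟨n₀, hn₀⟩ := exists_small (D := D.inv) D.inv.hat
  haveI := D.inv.param.curveBar.finite_L' (boundDiv D.inv.tau n₀ (0 : Divisor k E))
  set L := (polesLe D.inv.tau n₀ : Submodule k E)
  set Sm : Submodule k (E × E) := D.inv.RR ⊓ L.prod L with hSm
  haveI : FiniteDimensional k (L.prod L) := by
    have h : L.prod L = (⊤ : Submodule k (L × L)).map (L.subtype.prodMap L.subtype) := by
      rw [Submodule.map_top, LinearMap.range_prodMap, Submodule.range_subtype]
    rw [h]
    infer_instance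
  haveI : FiniteDimensional k Sm := Submodule.finiteDimensional_of_le inf_le_right
  obtain ⟨N₁, hN₁⟩ := exists_redT_of_fg (D := D.inv) Sm inf_le_left
  set B := d + N₁ + n₀ + 1 with hB
  haveI := (finrank_Gl (D := D) B).2
  haveI : FiniteDimensional k (IE D Z ⊓ D.Gl B : Submodule k (E × E)) :=
    Submodule.finiteDimensional_of_le inf_le_right
  obtain ⟨s, hs⟩ := (Module.Finite.iff_fg.mp
    (inferInstance : FiniteDimensional k (IE D Z ⊓ D.Gl B : Submodule k (E × E))) :
    (IE D Z ⊓ D.Gl B : Submodule k (E × E)).FG)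
  have hlift : ∀ x ∈ s, ∃ N : ℕ, x ∈ D.redSub (riemannRochSpace (boundDiv D.T N Z)) := by
    intro x hx
    obtain ⟨y, hy, hyr, hv, hyx⟩ := (hs ▸ Submodule.subset_span hx : x ∈ IE D Z ⊓ D.Gl B).1
    obtain ⟨N, hN⟩ := D.curve.exists_mem_polesLe hyr
    exact ⟨N, y, hmem hN hv, hy, hyx⟩
  choose Nx hNx using hlift
  set N₂ := s.attach.sup fun x => Nx x.1 x.2
  have hmono : ∀ {M N : ℕ}, M ≤ N →
      D.redSub (riemannRochSpace (boundDiv D.T M Z)) ≤
        D.redSub (riemannRochSpace (boundDiv D.T N Z)) := fun {M N} h =>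
    redSub_mono (CurveData.L_mono fun P => by
      simp only [D.curve.boundDiv_apply]
      have h1 : (M : ℤ) * max 0 (-P.ord D.T) ≤ N * max 0 (-P.ord D.T) :=
        mul_le_mul_of_nonneg_right (by exact_mod_cast h) (le_max_left _ _)
      omega)
  refine ⟨max B N₂, fun N hN => ?_⟩
  suffices h : ∀ e, IE D Z ⊓ D.Gl (B + e) ≤
      D.redSub (riemannRochSpace (boundDiv D.T (max N₂ (B + e)) Z)) by
    have := h (N - B)
    rwa [show B + (N - B) = N by omega, max_eq_right (by omega)] at this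
  intro e
  induction e with
  | zero =>
    rw [add_zero, ← hs, Submodule.span_le]
    exact fun x hx => hmono (le_trans (Finset.le_sup (f := fun x : s => Nx x.1 x.2)
      (Finset.mem_attach s ⟨x, hx⟩)) (le_max_left N₂ B)) (hNx x hx)
  | succ e ih =>
    rintro x ⟨hxI, hxG⟩
    set M := B + (e + 1) with hM
    obtain ⟨x', hx'RR, hx'1, hx'2, hz⟩ := hn₀ _ hxG.2
    obtain ⟨y', hy', hy'V, hy'red⟩ := hN₁ (show x' ∈ Sm from ⟨hx'RR, hx'1, hx'2⟩)
    rw [D.hat_inv, inv_inv] at hz
    have hy'V' : y' ∈ D.V := hy'V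
    have hyr' : D.red y' = x' := hy'red
    set Y := yp * (D.T ^ (M - d) * y') with hY
    have hYV : Y ∈ D.V := D.V.mul_mem hypV (D.V.mul_mem (pow_mem D.T_mem _) hy'V')
    have hTy := Tpow_mem_polesLe (D := D) (N := M - d) (show N₁ ≤ M - d by omega) hy'
    have hYM : Y ∈ (polesLe D.T M : Submodule K F) :=
      D.curve.polesLe_mono D.T (show d + (M - d) ≤ M by omega) (D.curve.mul_mem_polesLe hypd hTy)
    have hYv : ∀ P, Z P ≠ 0 → Vanish P Y (Z P) := fun P hP =>
      ((hpvan P hP).mul (D.curve.regAway_of_mem_polesLe hTy P (hZ P hP).1)).mono (by simp)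
    set r := p * (D.hat ^ d)⁻¹ with hr
    have hYred : D.red Y = D.hat ^ M • ((r, r) * x') := by
      rw [hY, red_mul hypV (D.V.mul_mem (pow_mem D.T_mem _) hy'V'), red_Tpow_mul hy'V', hypred,
        hyr', hr]
      have he : D.hat ^ M * (p * (D.hat ^ d)⁻¹) = p * D.hat ^ (M - d) := by
        rw [mul_left_comm]
        congr 1
        rw [← div_eq_mul_inv, div_eq_iff (pow_ne_zero _ D.hat_ne_zero), ← pow_add,
          Nat.sub_add_cancel (show d ≤ M by omega)]
      refine Prod.ext ?_ ?_ <;>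
        simp only [Prod.fst_mul, Prod.snd_mul, Prod.smul_fst, Prod.smul_snd, smul_eq_mul,
          ← mul_assoc, he]
    have hYI : D.red Y ∈ IE D Z := ⟨Y, hYV, D.curve.regAway_of_mem_polesLe hYM, hYv, rfl⟩
    have hsub : x - D.red Y ∈ IE D Z ⊓ D.Gl (B + e) := by
      refine ⟨(IE D Z).sub_mem hxI hYI, ⟨D.RR.sub_mem hxG.1 (IE_le_RR Z hYI), ?_⟩⟩
      have he2 : (D.hat ^ (B + e))⁻¹ • (x - D.red Y) =
          D.hat • ((D.hat ^ M)⁻¹ • x - x') - (D.hat * (r - 1), D.hat * (r - 1)) * x' := by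
        rw [hYred, hM, ← add_assoc, pow_succ]
        have hne := D.hat_ne_zero
        refine Prod.ext ?_ ?_ <;>
          simp only [Prod.fst_sub, Prod.snd_sub, Prod.fst_mul, Prod.snd_mul, Prod.smul_fst,
            Prod.smul_snd, smul_eq_mul] <;> field_simp <;> ring
      rw [he2]
      exact D.inv.RR.sub_mem hz (RR_mul hinvm.2 hx'RR)
    have h1 : D.red Y ∈ D.redSub (riemannRochSpace (boundDiv D.T (max N₂ M) Z)) :=
      hmono (le_max_right _ _) ⟨Y, hmem hYM hYv, hYV, rfl⟩
    have h2 := hmono (max_le_max le_rfl (show B + e ≤ M by omega)) (ih hsub)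
    simpa using Submodule.add_mem _ h2 h1

variable (D) in
open Classical in
/-- The gluing functional, modified at one crossing. -/
def glueTwist (γ : E × E) (c : Cls k E) (N : ℕ) (Q : Place k E) : E × E :=
  if c = (true, Q) then (γ.1⁻¹, γ.2⁻¹) else (D.twist N Q, D.twist N Q)

theorem finrank_locDiv_ge [Infinite k] {γ : E × E} (hγ : γ ∈ D.RR) (h1 : γ.1 ≠ 0) (h2 : γ.2 ≠ 0)
    {c : Cls k E} (hc : D.IsCanon c) (hcfin : 0 ≤ c.2.ord D.tau) :
    ∃ M₀ : ℕ, ∀ M : ℕ, M₀ ≤ M →
      ((2 * (((q + 1) * M : ℕ) * (paramDeg (K := K) D.j : ℤ) + 1 - g') - D.nX - D.rdiv γ c : ℤ)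
          ≤ finrank k (D.locDiv γ c ⊓ D.Gl M : Submodule k (E × E))) := by
  classical
  set z₁ : Divisor k E := if c.1 = true then Finsupp.single c.2 (c.2.ord γ.1) else 0 with hz₁
  set z₂ : Divisor k E :=
    if c.1 = true then (if c.2 ∈ D.X then
      Finsupp.single (D.frob • c.2) ((D.frob • c.2).ord γ.2) else 0)
    else Finsupp.single c.2 (c.2.ord γ.2) with hz₂
  have hord1 : ∀ R : Place k E, 0 ≤ R.ord D.tau → 0 ≤ R.ord γ.1 := fun R hR => Vanish.zero_iff.mp (hγ.1.1 R hR)
  have hord2 : ∀ R : Place k E, 0 ≤ R.ord D.tau → 0 ≤ R.ord γ.2 := fun R hR => Vanish.zero_iff.mp (hγ.1.2 R hR)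
  have hz₁0 : 0 ≤ z₁ := by
    rw [hz₁]; split_ifs
    · exact Finsupp.single_nonneg.mpr (hord1 _ hcfin)
    · exact le_rfl
  have hz₂0 : 0 ≤ z₂ := by
    rw [hz₂]; split_ifs
    · exact Finsupp.single_nonneg.mpr (hord2 _ (ord_tau_smul_nonneg hcfin))
    · exact le_rfl
    · exact Finsupp.single_nonneg.mpr (hord2 _ hcfin)
  have hdeg : Divisor.degree z₁ + Divisor.degree z₂ = D.rdiv γ c := by
    have hsd : ∀ (v : Place k E) (n : ℤ), Divisor.degree (Finsupp.single v n : Divisor k E) = n :=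
      D.param.curveBar.degree_single
    obtain ⟨b, z⟩ := c
    cases b
    · rw [rdiv_apply_false γ hc]
      simp [hz₁, hz₂, hsd]
    · rw [rdiv_apply_true γ z]
      by_cases hzX : z ∈ D.X <;> simp [hz₁, hz₂, hzX, hsd]
  obtain ⟨M₀, hM₀⟩ : ∃ M₀ : ℕ, ∀ M : ℕ, M₀ ≤ M →
      (D.param.bound : ℤ) + Divisor.degree z₁ + Divisor.degree z₂ ≤ M := by
    refine ⟨((D.param.bound : ℤ) + Divisor.degree z₁ + Divisor.degree z₂).toNat, fun M hM => ?_⟩
    have : ((((D.param.bound : ℤ) + Divisor.degree z₁ + Divisor.degree z₂).toNat : ℕ) : ℤ) ≤ M := by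
      exact_mod_cast hM
    omega
  refine ⟨M₀, fun M hM => ?_⟩
  haveI := D.param.curveBar.finite_L' (boundDiv D.tau ((q + 1) * M) z₁)
  haveI := D.param.curveBar.finite_L' (boundDiv D.tau ((q + 1) * M) z₂)
  set L₁ := riemannRochSpace (boundDiv D.tau ((q + 1) * M) z₁) with hL₁
  set L₂ := riemannRochSpace (boundDiv D.tau ((q + 1) * M) z₂) with hL₂
  have hle1 : L₁ ≤ polesLe D.tau ((q + 1) * M) := D.param.curveBar.L_bound_le_polesLe hz₁0
  have hle2 : L₂ ≤ polesLe D.tau ((q + 1) * M) := D.param.curveBar.L_bound_le_polesLe hz₂0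
  have hv1 : ∀ w : L₁, c.1 = true → Vanish c.2 (w : E) (c.2.ord γ.1) := by
    intro w hb
    have h := D.param.curveBar.mem_L_bound.mp w.2 c.2
    rwa [max_eq_left (by omega), mul_zero, sub_zero, hz₁, if_pos hb, Finsupp.single_eq_same] at h
  have hv2 : ∀ w : L₂, c.1 = false → Vanish c.2 (w : E) (c.2.ord γ.2) := by
    intro w hb
    have h := D.param.curveBar.mem_L_bound.mp w.2 c.2
    rwa [max_eq_left (by omega), mul_zero, sub_zero, hz₂, if_neg (by simp [hb]),
      Finsupp.single_eq_same] at h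
  have hv3 : ∀ w : L₂, c.1 = true → c.2 ∈ D.X →
      Vanish (D.frob • c.2) (w : E) ((D.frob • c.2).ord γ.2) := by
    intro w hb hX
    have h := D.param.curveBar.mem_L_bound.mp w.2 (D.frob • c.2)
    rwa [max_eq_left (by rw [D.ord_tau_smul]; omega), mul_zero, sub_zero, hz₂, if_pos hb,
      if_pos hX, Finsupp.single_eq_same] at h
  have htw1 : ∀ (w : L₁) (Q : D.Xfin),
      Vanish Q.1 ((D.glueTwist γ c M Q.1).1 * (w : E)) 0 := by
    intro w Q
    rw [glueTwist]
    split_ifs with hcq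
    · have h := hv1 w (by rw [hcq])
      rw [hcq] at h
      exact ((Vanish.self γ.1⁻¹).mul h).mono (by rw [Place.ord_inv]; omega)
    · exact twist_reg (hle1 w.2) rfl
  have htw2 : ∀ (w : L₂) (Q : D.Xfin),
      Vanish (D.frob • Q.1) ((D.glueTwist γ c M Q.1).2 * (w : E)) 0 := by
    intro w Q
    rw [glueTwist]
    split_ifs with hcq
    · have h := hv3 w (by rw [hcq]) (by rw [hcq]; exact mem_Xfin.mp Q.2)
      rw [hcq] at h
      exact ((Vanish.self γ.2⁻¹).mul h).mono (by rw [Place.ord_inv]; omega)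
    · exact twist_reg (hle2 w.2) (D.ord_tau_smul _)
  let φ : (L₁ × L₂) →ₗ[k] (D.Xfin → k) :=
    { toFun := fun w Q => valAt Q.1 ((D.glueTwist γ c M Q.1).1 * (w.1 : E)) -
        valAt (D.frob • Q.1) ((D.glueTwist γ c M Q.1).2 * (w.2 : E))
      map_add' := fun w w' => by
        funext Q
        simp only [Prod.fst_add, Prod.snd_add, Submodule.coe_add, mul_add, Pi.add_apply]
        rw [D.param.curveBar.valAt_add (htw1 _ Q) (htw1 _ Q),
          D.param.curveBar.valAt_add (htw2 _ Q) (htw2 _ Q)]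
        ring
      map_smul' := fun r w => by
        funext Q
        simp only [Prod.smul_fst, Prod.smul_snd, Submodule.coe_smul, mul_smul_comm, Pi.smul_apply,
          RingHom.id_apply, smul_eq_mul]
        rw [D.param.curveBar.valAt_smul r (htw1 _ Q), D.param.curveBar.valAt_smul r (htw2 _ Q)]
        ring }
  let ι : (L₁ × L₂) →ₗ[k] E × E := L₁.subtype.prodMap L₂.subtype
  have hι : Function.Injective ι := L₁.injective_subtype.prodMap L₂.injective_subtype
  have hmap : (LinearMap.ker φ).map ι ≤ D.locDiv γ c ⊓ D.Gl M := by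
    rintro _ ⟨w, hw, rfl⟩
    have hQ : ∀ Q ∈ D.X, valAt Q ((D.glueTwist γ c M Q).1 * (w.1 : E)) =
        valAt (D.frob • Q) ((D.glueTwist γ c M Q).2 * (w.2 : E)) := by
      intro Q hQ
      have h := congrFun (LinearMap.mem_ker.mp hw) ⟨Q, mem_Xfin.mpr hQ⟩
      exact sub_eq_zero.mp h
    have hGl : ι w ∈ D.Gl M := by
      refine mem_Gl_iff.mpr ⟨hle1 w.1.2, hle2 w.2.2, fun Q hQX => ?_⟩
      show valAt Q (D.twist M Q * (w.1 : E)) = valAt (D.frob • Q) (D.twist M Q * (w.2 : E))
      by_cases hcq : c = (true, Q)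
      · subst hcq
        have hfin : 0 ≤ Q.ord D.tau := hcfin
        have hXa : Q ∈ D.Xaff := mem_Xaff_iff.mpr ⟨hQX, hfin⟩
        have h := hQ Q hQX
        rw [glueTwist, if_pos rfl] at h
        rw [twist, if_neg (not_lt.mpr hfin), one_mul, one_mul]
        have hcQ := mem_Xaff_smul_ord hXa
        have r1 : Vanish Q (γ.1⁻¹ * (w.1 : E)) 0 :=
          ((Vanish.self γ.1⁻¹).mul (hv1 w.1 rfl)).mono (by dsimp only; rw [Q.ord_inv]; omega)
        have r2 : Vanish (D.frob • Q) (γ.2⁻¹ * (w.2 : E)) 0 :=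
          ((Vanish.self γ.2⁻¹).mul (hv3 w.2 rfl hQX)).mono (by dsimp only; rw [Place.ord_inv]; omega)
        calc valAt Q (w.1 : E) = valAt Q (γ.1 * (γ.1⁻¹ * (w.1 : E))) := by
              rw [mul_inv_cancel_left₀ h1]
          _ = valAt Q γ.1 * valAt Q (γ.1⁻¹ * (w.1 : E)) :=
              D.param.curveBar.valAt_mul (hγ.1.1 Q hfin) r1
          _ = valAt (D.frob • Q) γ.2 * valAt (D.frob • Q) (γ.2⁻¹ * (w.2 : E)) := by
              rw [h, hXa.2 γ hγ]
          _ = valAt (D.frob • Q) (γ.2 * (γ.2⁻¹ * (w.2 : E))) :=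
              (D.param.curveBar.valAt_mul (hγ.1.2 _ hcQ) r2).symm
          _ = valAt (D.frob • Q) (w.2 : E) := by rw [mul_inv_cancel_left₀ h2]
      · have h := hQ Q hQX
        rwa [glueTwist, if_neg hcq] at h
    refine ⟨⟨hGl.1, hv2 w.2, hv1 w.1, fun hb hX => ⟨hv3 w.2 hb hX, fun _ _ => ?_⟩⟩, hGl⟩
    have h := hQ c.2 hX
    have hcq : c = (true, c.2) := by rw [← hb]
    rwa [glueTwist, if_pos hcq] at h
  haveI := (finrank_Gl (D := D) M).2
  haveI : FiniteDimensional k (D.locDiv γ c ⊓ D.Gl M : Submodule k (E × E)) :=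
    Submodule.finiteDimensional_of_le inf_le_right
  have d1 := Submodule.finrank_mono hmap
  rw [← (Submodule.equivMapOfInjective ι hι _).finrank_eq] at d1
  have d2 := LinearMap.finrank_range_add_finrank_ker φ
  have d3 := Submodule.finrank_le (LinearMap.range φ)
  rw [finrank_pi, Fintype.card_coe] at d3
  rw [Module.finrank_prod] at d2
  have hM' := hM₀ M hM
  have hMq : (M : ℤ) ≤ (((q + 1) * M : ℕ) : ℤ) := by
    exact_mod_cast Nat.le_mul_of_pos_left M q.succ_pos
  have hd1 := D.param.curveBar.degree_nonneg hz₁0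
  have hd2 := D.param.curveBar.degree_nonneg hz₂0
  have hψ := D.param.le_mul_paramDeg ((q + 1) * M)
  have e1 : (finrank k L₁ : ℤ) = ((q + 1) * M : ℕ) * (paramDeg (K := K) D.j : ℤ)
      - Divisor.degree z₁ + 1 - g' := D.param.ell_bound_bar (by omega)
  have e2 : (finrank k L₂ : ℤ) = ((q + 1) * M : ℕ) * (paramDeg (K := K) D.j : ℤ)
      - Divisor.degree z₂ + 1 - g' := D.param.ell_bound_bar (by omega)
  rw [nX]
  omega

/-- The zeros specialising to a class of the affine chart are at most the zeros of the reductions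
there. -/
theorem spDiv_le_rdiv [Infinite k] {y : F} (hy : y ∈ D.V) (hyr : RegAway (K := K) D.T y)
    (h1 : D.Ginf.red y ≠ 0) (h2 : D.Gzero.red y ≠ 0) {c : Cls k E} (hc : D.IsCanon c)
    (hcfin : 0 ≤ c.2.ord D.tau) : D.spDiv y c ≤ D.rdiv (D.red y) c := by
  classical
  set Z : Divisor K F := (divOf y : Divisor K F).filter fun P => D.sp P = c with hZdef
  have hZ : ∀ P, Z P ≠ 0 → IsDisc A D.T P ∧ D.sp P = c ∧ Z P ≤ P.ord y := by
    intro P hP
    by_cases hPc : D.sp P = c
    · refine ⟨sp_finite_iff.mp (by rw [hPc]; exact hcfin), hPc, ?_⟩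
      rw [hZdef, Finsupp.filter_apply_pos (fun P => D.sp P = c) _ hPc, D.curve.divOf_apply]
    · exact absurd (Finsupp.filter_apply_neg (fun P => D.sp P = c) _ hPc) hP
  have hZ0 : 0 ≤ Z := fun P => by
    by_cases hPc : D.sp P = c
    · rw [hZdef, Finsupp.filter_apply_pos (fun P => D.sp P = c) _ hPc, D.curve.divOf_apply]
      exact Vanish.zero_iff.mp (hyr P (sp_finite_iff.mp (by rw [hPc]; exact hcfin)).1)
    · rw [hZdef, Finsupp.filter_apply_neg (fun P => D.sp P = c) _ hPc]; rfl
  have hdeg : Divisor.degree Z = D.spDiv y c := by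
    rw [D.curve.degree_eq_sum, spDiv, mapDomain_apply_eq_sum, hZdef, Finsupp.sum,
      Finsupp.support_filter]
    refine Finset.sum_congr rfl fun P hP => ?_
    exact Finsupp.filter_apply_pos (fun P => D.sp P = c) _ (Finset.mem_filter.mp hP).2
  obtain ⟨N₀, hN₀⟩ := exists_IE_bound (D := D) (Z := Z) fun P hP => (hZ P hP).1
  obtain ⟨M₀, hM₀⟩ := finrank_locDiv_ge (red_mem_RR hy hyr) h1 h2 hc hcfin
  obtain ⟨C₀, hC₀⟩ := D.curve.exists_C
  have hle := locDiv_le_IE hy hyr h1 h2 hc hcfin hZ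
  set M := max (max N₀ M₀) (C₀ + Divisor.degree Z).toNat with hM
  obtain ⟨hdim, hfin⟩ := D.finrank_redSub_L (boundDiv D.T M Z)
  haveI := hfin
  have hM1 : N₀ ≤ M := le_trans (le_max_left _ _) (le_max_left _ _)
  have hM2 : M₀ ≤ M := le_trans (le_max_right _ _) (le_max_left _ _)
  have d1 := Submodule.finrank_mono
    (le_trans (inf_le_inf_right (D.Gl M) hle) (hN₀ M hM1))
  have d2 := hM₀ M hM2
  have d3 : (ell (boundDiv D.T M Z) : ℤ) = M * (D.degT : ℤ) - Divisor.degree Z + 1 - g :=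
    D.ell_bound_T hC₀ (by
      have := D.le_mul_degT M
      have : (C₀ + Divisor.degree Z).toNat ≤ M := le_max_right _ _
      omega)
  rw [hdim] at d1
  have hg := genus_eq (D := D)
  simp only [degT] at d3
  push_cast at d2 d3
  have h6 : (M : ℤ) * (2 * (((q : ℤ) + 1) * paramDeg (K := K) D.j)) =
      2 * (((q : ℤ) + 1) * M * paramDeg (K := K) D.j) := by ring
  omega

/-- Classes which are not canonical carry no divisor. -/
theorem spDiv_noncanon [Infinite k] (y : F) {c : Cls k E} (hc : ¬ D.IsCanon c) :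
    D.spDiv y c = 0 :=
  mapDomain_eq_zero_of fun P _ h => hc (by rw [← h]; exact isCanon_sp P)

theorem rdiv_noncanon (x : E × E) {c : Cls k E} (hc : ¬ D.IsCanon c) : D.rdiv x c = 0 := by
  rw [rdiv, Finsupp.add_apply,
    mapDomain_eq_zero_of (f := D.cls true) (fun R _ h => hc (by rw [← h]; exact isCanon_cls _ _)),
    mapDomain_eq_zero_of (f := D.cls false) (fun R _ h => hc (by rw [← h]; exact isCanon_cls _ _)),
    add_zero]

theorem total_rdiv (x : E × E) : total (D.rdiv x) = 0 := by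
  have h : ∀ w : E, total (divOf w : Divisor k E) = 0 := fun w => by
    rw [← D.param.curveBar.degree_divOf w, D.param.curveBar.degree_eq_sum]
    rfl
  rw [rdiv, map_add, total_mapDomain, total_mapDomain, h, h, add_zero]

theorem total_spDiv [Infinite k] (y : F) : total (D.spDiv y) = 0 := by
  rw [spDiv, total_mapDomain, ← D.curve.degree_divOf y, D.curve.degree_eq_sum]
  rfl

/-- The symmetric parameter: its zeros and poles are those of its reductions at classes of the
opposite chart. -/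
theorem spDiv_T [Infinite k] {c : Cls k E} (hcn : c.2.ord D.tau < 0) :
    D.spDiv D.T c = D.rdiv (D.hat, D.hat) c := by
  classical
  set P1 : Cls k E →₀ ℤ := Finsupp.mapDomain D.sp (poleDiv D.T : Divisor K F) with hP1
  set P2 : Cls k E →₀ ℤ := Finsupp.mapDomain (D.cls true) (poleDiv D.hat : Divisor k E) +
    Finsupp.mapDomain (D.cls false) (poleDiv D.hat : Divisor k E) with hP2
  have hzeroK : (divOf D.T : Divisor K F) = poleDiv D.T⁻¹ - poleDiv D.T := Finsupp.ext fun P => by
    simp only [Finsupp.sub_apply, D.curve.poleDiv_apply, D.curve.divOf_apply, P.ord_inv, neg_neg]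
    omega
  have hzerok : (divOf D.hat : Divisor k E) = poleDiv D.hat⁻¹ - poleDiv D.hat :=
    Finsupp.ext fun P => by
      simp only [Finsupp.sub_apply, D.param.curveBar.poleDiv_apply, D.param.curveBar.divOf_apply,
        P.ord_inv, neg_neg]
      omega
  have hinvK : (divOf D.T⁻¹ : Divisor K F) = -divOf D.T := D.curve.divOf_inv _
  have hinvk : (divOf D.hat⁻¹ : Divisor k E) = -divOf D.hat := D.param.curveBar.divOf_inv _
  have hz1 : ∀ d : Cls k E, d.2.ord D.tau < 0 →
      Finsupp.mapDomain D.sp (poleDiv D.T⁻¹ : Divisor K F) d = 0 := fun d hd =>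
    mapDomain_eq_zero_of fun P hP h => by
      rw [D.curve.poleDiv_apply, P.ord_inv] at hP
      have hdisc : IsDisc A D.T P := by
        refine ⟨by omega, ?_⟩
        rw [valAt_eq_zero_of_vanish (Or.inr (by omega))]
        exact A.zero_mem
      have := sp_finite_iff.mpr hdisc
      rw [h] at this
      omega
  have hz2 : ∀ (b : Bool) (d : Cls k E), d.2.ord D.tau < 0 →
      Finsupp.mapDomain (D.cls b) (poleDiv D.hat⁻¹ : Divisor k E) d = 0 := fun b d hd =>
    mapDomain_eq_zero_of fun R hR h => by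
      rw [D.param.curveBar.poleDiv_apply, R.ord_inv] at hR
      have : 0 ≤ R.ord D.tau := D.hat_ord_nonneg.mp (by omega)
      rw [← h, ord_tau_cls] at hd
      omega
  have hle : ∀ d, P1 d ≤ P2 d := by
    intro d
    have hP2nn : 0 ≤ P2 d := by
      have hnn : ∀ b : Bool, 0 ≤ Finsupp.mapDomain (D.cls b) (poleDiv D.hat : Divisor k E) d := by
        intro b
        rw [mapDomain_apply_eq_sum]
        exact Finset.sum_nonneg fun R _ => by
          rw [D.param.curveBar.poleDiv_apply]; exact le_max_left _ _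
      rw [hP2, Finsupp.add_apply]
      exact add_nonneg (hnn true) (hnn false)
    rcases le_or_gt 0 (d.2.ord D.tau) with hd | hd
    · refine le_of_eq_of_le (mapDomain_eq_zero_of fun P hP h => ?_) hP2nn
      rw [D.curve.poleDiv_apply] at hP
      have h2 := (sp_finite_iff.mp (h ▸ hd : 0 ≤ (D.sp P).2.ord D.tau)).1
      omega
    · by_cases hdc : D.IsCanon d
      · have hdc' : D.inv.IsCanon d := fun h => hdc ⟨h.1, by rw [← D.X_inv]; exact h.2⟩
        have hTi : D.inv.red D.inv.T = (D.inv.hat, D.inv.hat) := D.inv.red_T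
        have h := spDiv_le_rdiv (D := D.inv) D.inv.T_mem (fun _ hP => Vanish.zero_iff.mpr hP)
          (by rw [show D.inv.Ginf.red D.inv.T = D.inv.hat from congrArg Prod.fst hTi]
              exact D.inv.hat_ne_zero)
          (by rw [show D.inv.Gzero.red D.inv.T = D.inv.hat from congrArg Prod.snd hTi]
              exact D.inv.hat_ne_zero)
          (c := d) hdc' (by rw [D.tau_inv, Place.ord_inv]; omega)
        rw [D.inv.red_T, spDiv_inv, rdiv_inv, D.hat_inv, D.T_inv] at h
        have e1 : D.spDiv D.T⁻¹ d = P1 d := by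
          rw [spDiv, hinvK, hzeroK, neg_sub, Finsupp.mapDomain_sub, Finsupp.sub_apply, hz1 d hd,
            sub_zero]
        have e2 : D.rdiv (D.hat⁻¹, D.hat⁻¹) d = P2 d := by
          rw [rdiv]
          simp only [hinvk, hzerok, neg_sub, Finsupp.mapDomain_sub, Finsupp.add_apply,
            Finsupp.sub_apply, hz2 _ d hd, sub_zero, hP2]
        omega
      · rw [hP1, mapDomain_eq_zero_of fun P _ h => hdc (by rw [← h]; exact isCanon_sp P)]
        exact hP2nn
  have htot : total P1 = total P2 := by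
    have h1 : total (poleDiv D.T : Divisor K F) = D.degT := by
      rw [← D.degree_poleDiv_T, D.curve.degree_eq_sum]; rfl
    have h2 : total (poleDiv D.hat : Divisor k E) = (q + 1) * (paramDeg (K := K) D.j : ℤ) := by
      have he : (poleDiv D.hat : Divisor k E) = ((q + 1 : ℕ) : ℤ) • poleDiv D.tau :=
        Finsupp.ext fun R => by
          simp only [Finsupp.smul_apply, D.param.curveBar.poleDiv_apply, D.ord_hat, smul_eq_mul]
          rcases le_or_gt 0 (R.ord D.tau) with h | h
          · rw [max_eq_left (by nlinarith), max_eq_left (by omega), mul_zero]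
          · rw [max_eq_right (by nlinarith), max_eq_right (by omega)]; ring
      rw [he, map_zsmul, smul_eq_mul]
      have h3 : total (poleDiv D.tau : Divisor k E) = (paramDeg (K := K) D.j : ℤ) := by
        rw [← D.param.degree_poleDiv_bar, D.param.curveBar.degree_eq_sum]; rfl
      rw [h3]; push_cast; ring
    rw [hP1, hP2, map_add, total_mapDomain, total_mapDomain, total_mapDomain, h1, h2]
    simp only [degT]
    push_cast; ring
  have heq := DFunLike.congr_fun (eq_of_le_of_total_eq hle htot) c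
  have e1 : D.spDiv D.T c = -P1 c := by
    rw [spDiv, hzeroK, Finsupp.mapDomain_sub, Finsupp.sub_apply, hz1 c hcn, zero_sub]
  have e2 : D.rdiv (D.hat, D.hat) c = -P2 c := by
    rw [rdiv]
    simp only [hzerok, Finsupp.mapDomain_sub, Finsupp.add_apply, Finsupp.sub_apply, hz2 _ c hcn,
      hP2]
    omega
  omega

/-- **Conservation of divisors.** -/
theorem spDiv_eq_rdiv [Infinite k] {y : F} (hy : y ∈ D.V) (h1 : D.Ginf.red y ≠ 0)
    (h2 : D.Gzero.red y ≠ 0) : D.spDiv y = D.rdiv (D.red y) := by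
  classical
  suffices hreg : ∀ z : F, z ∈ D.V → D.Ginf.red z ≠ 0 → D.Gzero.red z ≠ 0 →
      RegAway (K := K) D.T z → D.spDiv z = D.rdiv (D.red z) by
    obtain ⟨u, hu, hu1, hu2, hur, huy⟩ := D.exists_clear_poles y
    have hne : D.Ginf.red (u * y) ≠ 0 ∧ D.Gzero.red (u * y) ≠ 0 := by
      rw [D.Ginf.red_mul hu.1 hy.1, D.Gzero.red_mul hu.2 hy.2]
      exact ⟨mul_ne_zero hu1 h1, mul_ne_zero hu2 h2⟩
    have e := hreg (u * y) (D.V.mul_mem hu hy) hne.1 hne.2 huy
    rw [spDiv_mul (D.Ginf.ne_zero_of_red hu1) (D.Ginf.ne_zero_of_red h1), red_mul hu hy,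
      rdiv_mul hu1 hu2 h1 h2, hreg u hu hu1 hu2 hur] at e
    exact add_left_cancel e
  intro z hz hz1 hz2 hzr
  refine eq_of_le_of_total_eq (fun c => ?_) (by rw [total_spDiv, total_rdiv])
  by_cases hc : D.IsCanon c
  swap
  · rw [spDiv_noncanon z hc, rdiv_noncanon _ hc]
  rcases le_or_gt 0 (c.2.ord D.tau) with hcf | hcf
  · exact spDiv_le_rdiv hz hzr hz1 hz2 hc hcf
  · obtain ⟨N, hN⟩ := D.curve.exists_mem_polesLe hzr
    have hT1 : (D.red (D.T ^ N)).1 ≠ 0 ∧ (D.red (D.T ^ N)).2 ≠ 0 := by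
      rw [red_pow D.T_mem, D.red_T]
      exact ⟨pow_ne_zero _ D.hat_ne_zero, pow_ne_zero _ D.hat_ne_zero⟩
    have hTi : (D.T ^ N)⁻¹ ∈ D.V := inv_mem (pow_mem D.T_mem N) hT1.1 hT1.2
    have hTi1 : D.Ginf.red (D.T ^ N)⁻¹ ≠ 0 := by
      rw [D.Ginf.red_inv (pow_mem D.T_mem N).1 hT1.1]; exact inv_ne_zero hT1.1
    have hTi2 : D.Gzero.red (D.T ^ N)⁻¹ ≠ 0 := by
      rw [D.Gzero.red_inv (pow_mem D.T_mem N).2 hT1.2]; exact inv_ne_zero hT1.2
    have hw : RegAway (K := K) D.inv.T ((D.T ^ N)⁻¹ * z) := by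
      intro P hP
      rw [D.T_inv, P.ord_inv] at hP
      refine ((Vanish.self (D.T ^ N)⁻¹).mul (D.curve.mem_polesLe.mp hN P)).mono ?_
      rw [P.ord_inv, FF.ord_pow, max_eq_right (by omega)]
      linarith
    have hr1 : D.Ginf.red ((D.T ^ N)⁻¹ * z) ≠ 0 := by
      rw [D.Ginf.red_mul hTi.1 hz.1]; exact mul_ne_zero hTi1 hz1
    have hr2 : D.Gzero.red ((D.T ^ N)⁻¹ * z) ≠ 0 := by
      rw [D.Gzero.red_mul hTi.2 hz.2]; exact mul_ne_zero hTi2 hz2
    have hc' : D.inv.IsCanon c := fun h => hc ⟨h.1, by rw [← D.X_inv]; exact h.2⟩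
    have h := spDiv_le_rdiv (D := D.inv) (D.V.mul_mem hTi hz) hw hr1 hr2 hc'
      (by rw [D.tau_inv, Place.ord_inv]; omega)
    rw [spDiv_inv, rdiv_inv] at h
    change D.spDiv _ c ≤ D.rdiv (D.red ((D.T ^ N)⁻¹ * z)) c at h
    rw [spDiv_mul (inv_ne_zero (pow_ne_zero _ D.T_ne_zero)) (D.Ginf.ne_zero_of_red hz1),
      red_mul hTi hz, rdiv_mul (x := D.red (D.T ^ N)⁻¹) hTi1 hTi2 hz1 hz2,
      red_inv (pow_mem D.T_mem N) hT1.1 hT1.2, red_pow D.T_mem, D.red_T, Finsupp.add_apply,
      Finsupp.add_apply] at h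
    have eK : D.spDiv (D.T ^ N)⁻¹ c = -((N : ℤ) * D.spDiv D.T c) := by
      have hd : (divOf (D.T ^ N)⁻¹ : Divisor K F) = -((N : ℤ) • divOf D.T) :=
        Finsupp.ext fun P => by
          simp [D.curve.divOf_apply, FF.ord_pow, Place.ord_inv]
      rw [spDiv, hd, ← Finsupp.mapDomain.addMonoidHom_apply, map_neg, map_zsmul]
      simp [spDiv, Finsupp.mapDomain.addMonoidHom_apply]
    have ek : D.rdiv ((D.hat, D.hat) ^ N)⁻¹ c = -((N : ℤ) * D.rdiv (D.hat, D.hat) c) := by
      have hd : (divOf (D.hat ^ N)⁻¹ : Divisor k E) = -((N : ℤ) • divOf D.hat) :=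
        Finsupp.ext fun P => by
          simp [D.param.curveBar.divOf_apply, FF.ord_pow, Place.ord_inv]
      have hp : (((D.hat, D.hat) : E × E) ^ N)⁻¹ = ((D.hat ^ N)⁻¹, (D.hat ^ N)⁻¹) := rfl
      rw [hp, rdiv]
      simp only [hd, ← Finsupp.mapDomain.addMonoidHom_apply, map_neg, map_zsmul]
      simp [rdiv, Finsupp.mapDomain.addMonoidHom_apply]
      ring
    rw [eK, ek, spDiv_T hcf] at h
    omega

end Data

end FLTAgent.Lift
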