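import Fermat.Agent.Lift.Chart

/-!
# Reductions of the functions with bounded poles, and the genus formula

`Gl N` is the space of glued pairs with poles bounded by `N` times those of the parameter. For large
`N` it is the space of reductions of functions with poles bounded by `N` times those of `T`
(`redT_eq_Gl`); its dimension is computed with Riemann–Roch on the reduced curve
(`finrank_Gl_eventually`), whence `g + 1 = 2 g' + nX`, with `nX` the number of crossings
(`genus_eq`).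
-/

set_option autoImplicit false
set_option linter.style.haveILetI false
set_option linter.unusedSectionVars false

noncomputable section

open AlgebraicCurve SemilinearAut Module

namespace FLTAgent.Lift

open FLTAgent.Reduction

namespace Data

variable {K k F F₀ E : Type*} [Field K] [Field k] [Field F] [Field F₀] [Field E] [Algebra K F]
  [Algebra K F₀] [Algebra k E] {A : ValuationSubring K} {π : A →+* k} {q g g' : ℕ}
variable (D : Data A π q F F₀ E g g')

/-- The glued pairs with poles bounded by `N` times those of the parameter. -/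
def Gl (N : ℕ) : Submodule k (E × E) where
  carrier := {x | x ∈ D.RR ∧ (D.hat ^ N)⁻¹ • x ∈ D.inv.RR}
  zero_mem' := ⟨D.RR.zero_mem, by rw [smul_zero]; exact D.inv.RR.zero_mem⟩
  add_mem' := fun {a b} ha hb =>
    ⟨D.RR.add_mem ha.1 hb.1, by rw [smul_add]; exact D.inv.RR.add_mem ha.2 hb.2⟩
  smul_mem' := fun c a ha =>
    ⟨D.RR.smul_mem c ha.1, by rw [smul_comm]; exact D.inv.RR.smul_mem c ha.2⟩

/-- The reductions of the functions with poles bounded by `N` times those of `T`. -/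
abbrev redT (N : ℕ) : Submodule k (E × E) := D.redSub (polesLe D.T N)

variable {D}

theorem mem_Gl {N : ℕ} {x : E × E} :
    x ∈ D.Gl N ↔ x ∈ D.RR ∧ (D.hat ^ N)⁻¹ • x ∈ D.inv.RR := Iff.rfl

theorem mem_redT {N : ℕ} {x : E × E} :
    x ∈ D.redT N ↔ ∃ y ∈ (polesLe D.T N : Submodule K F), y ∈ D.V ∧ D.red y = x := Iff.rfl

theorem redT_mono {M N : ℕ} (h : M ≤ N) : D.redT M ≤ D.redT N :=
  redSub_mono (D.curve.polesLe_mono D.T h)

theorem mem_polesLe_tau_iff {N : ℕ} {w : E} :
    w ∈ (polesLe D.tau ((q + 1) * N) : Submodule k E) ↔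
      RegAway (K := k) D.tau w ∧ RegAway (K := k) D.inv.tau ((D.hat ^ N)⁻¹ * w) := by
  constructor
  · intro hw
    refine ⟨D.param.curveBar.regAway_of_mem_polesLe hw, fun Q hQ => ?_⟩
    rw [D.tau_inv, Q.ord_inv] at hQ
    rcases eq_or_ne w 0 with rfl | hw0
    · simp [Vanish]
    refine Or.inr ?_
    have h := (D.param.curveBar.mem_polesLe.mp hw Q).resolve_left hw0
    rw [max_eq_right (by omega)] at h
    rw [Q.ord_mul (inv_ne_zero (pow_ne_zero _ D.hat_ne_zero)) hw0, Q.ord_inv, FF.ord_pow, D.ord_hat]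
    push_cast at h ⊢
    linarith
  · rintro ⟨h1, h2⟩
    refine D.param.curveBar.mem_polesLe.mpr fun Q => ?_
    rcases le_or_gt 0 (Q.ord D.tau) with hQ | hQ
    · exact (h1 Q hQ).mono (by rw [max_eq_left (by omega)]; simp)
    · rcases eq_or_ne w 0 with rfl | hw0
      · exact Vanish.zero_left
      refine Or.inr ?_
      have h := (h2 Q (by rw [D.tau_inv, Q.ord_inv]; omega)).resolve_left
        (mul_ne_zero (inv_ne_zero (pow_ne_zero _ D.hat_ne_zero)) hw0)
      rw [Q.ord_mul (inv_ne_zero (pow_ne_zero _ D.hat_ne_zero)) hw0, Q.ord_inv, FF.ord_pow,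
        D.ord_hat] at h
      rw [max_eq_right (by omega)]
      push_cast at h ⊢
      linarith

/-! ### The linear conditions cutting out the glued pairs -/

variable (D) in
open Classical in
/-- The rescaling at a crossing. -/
def twist (N : ℕ) (Q : Place k E) : E := if Q.ord D.tau < 0 then (D.hat ^ N)⁻¹ else 1

theorem twist_reg {N : ℕ} {w : E} (hw : w ∈ (polesLe D.tau ((q + 1) * N) : Submodule k E))
    {Q R : Place k E} (hR : R.ord D.tau = Q.ord D.tau) : Vanish R (D.twist N Q * w) 0 := by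
  obtain ⟨h1, h2⟩ := mem_polesLe_tau_iff.mp hw
  rcases lt_or_ge (Q.ord D.tau) 0 with hQ | hQ
  · rw [twist, if_pos hQ]
    exact h2 R (by rw [D.tau_inv, R.ord_inv]; omega)
  · rw [twist, if_neg (not_lt.mpr hQ), one_mul]
    exact h1 R (by omega)

theorem mem_Gl_iff [Infinite k] {N : ℕ} {x : E × E} :
    x ∈ D.Gl N ↔ x.1 ∈ (polesLe D.tau ((q + 1) * N) : Submodule k E) ∧
      x.2 ∈ (polesLe D.tau ((q + 1) * N) : Submodule k E) ∧
      ∀ Q ∈ D.X, valAt Q (D.twist N Q * x.1) = valAt (D.frob • Q) (D.twist N Q * x.2) := by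
  constructor
  · rintro ⟨h1, h2⟩
    refine ⟨mem_polesLe_tau_iff.mpr ⟨h1.1.1, h2.1.1⟩, mem_polesLe_tau_iff.mpr ⟨h1.1.2, h2.1.2⟩,
      ?_⟩
    rintro Q (hQ | ⟨hneg, hQ⟩)
    · rw [twist, if_neg (not_lt.mpr hQ.1), one_mul, one_mul]
      exact hQ.2 x h1
    · rw [twist, if_pos hneg]
      exact hQ.2 _ h2
  · rintro ⟨h1, h2, h3⟩
    obtain ⟨a1, b1⟩ := mem_polesLe_tau_iff.mp h1
    obtain ⟨a2, b2⟩ := mem_polesLe_tau_iff.mp h2
    have hRR : x ∈ D.RR := by
      refine mem_RR_iff.mpr ⟨⟨a1, a2⟩, fun Q hQ => ?_⟩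
      have h := h3 Q (Or.inl hQ)
      rwa [twist, if_neg (not_lt.mpr hQ.1), one_mul, one_mul] at h
    refine ⟨hRR, mem_RR_iff.mpr ⟨⟨b1, b2⟩, fun Q hQ => ?_⟩⟩
    rcases lt_or_ge (Q.ord D.tau) 0 with hneg | hpos
    · have h := h3 Q (Or.inr ⟨hneg, hQ⟩)
      rwa [twist, if_pos hneg] at h
    · have h0 : Q.ord D.tau = 0 := by
        have := hQ.1
        rw [D.tau_inv, Q.ord_inv] at this
        omega
      have hQ' : Q ∈ D.Xaff := mem_Xaff_of_inv h0 hQ
      have e0 : Q.ord (D.hat ^ N) = 0 := by rw [FF.ord_pow, D.ord_hat, h0]; simp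
      have e1 : (D.frob • Q).ord (D.hat ^ N) = 0 := by
        rw [FF.ord_pow, D.ord_hat, D.ord_tau_smul, h0]; simp
      have hv : valAt Q (D.hat ^ N) = valAt (D.frob • Q) (D.hat ^ N) :=
        hQ'.2 (D.hat ^ N, D.hat ^ N) (by
          have h := RR_pow hat_mem_RR N (D := D)
          rwa [Prod.pow_mk] at h)
      have n0 := pow_ne_zero N D.hat_ne_zero
      show valAt Q ((D.hat ^ N)⁻¹ * x.1) = valAt (D.frob • Q) ((D.hat ^ N)⁻¹ * x.2)
      rw [D.param.curveBar.valAt_mul (Vanish.zero_iff.mpr (by rw [Q.ord_inv, e0]; rfl))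
          (a1 Q hQ'.1),
        D.param.curveBar.valAt_mul (Vanish.zero_iff.mpr (by rw [Place.ord_inv, e1]; rfl))
          (a2 _ (mem_Xaff_smul_ord hQ')),
        (valAt_inv D.param.curveBar n0 e0).2, (valAt_inv D.param.curveBar n0 e1).2, hv,
        hQ'.2 x hRR]

variable (D) in
/-- The crossings as a finite set. -/
def Xfin : Finset (Place k E) := D.X_finite.toFinset

theorem mem_Xfin {Q : Place k E} : Q ∈ D.Xfin ↔ Q ∈ D.X := D.X_finite.mem_toFinset

variable (D) in
/-- The number of crossings. -/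
def nX : ℕ := D.Xfin.card

variable (D) in
/-- The gluing conditions. -/
def glueMap (N : ℕ) :
    ((polesLe D.tau ((q + 1) * N) : Submodule k E) × (polesLe D.tau ((q + 1) * N) : Submodule k E))
      →ₗ[k] (D.Xfin → k) where
  toFun w Q := valAt Q.1 (D.twist N Q.1 * (w.1 : E)) -
    valAt (D.frob • Q.1) (D.twist N Q.1 * (w.2 : E))
  map_add' w w' := by
    funext Q
    simp only [Prod.fst_add, Prod.snd_add, Submodule.coe_add, mul_add, Pi.add_apply]
    rw [D.param.curveBar.valAt_add (twist_reg w.1.2 rfl) (twist_reg w'.1.2 rfl),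
      D.param.curveBar.valAt_add (twist_reg w.2.2 (D.ord_tau_smul _))
        (twist_reg w'.2.2 (D.ord_tau_smul _))]
    ring
  map_smul' c w := by
    funext Q
    simp only [Prod.smul_fst, Prod.smul_snd, Submodule.coe_smul, mul_smul_comm, Pi.smul_apply,
      RingHom.id_apply, smul_eq_mul]
    rw [D.param.curveBar.valAt_smul c (twist_reg w.1.2 rfl),
      D.param.curveBar.valAt_smul c (twist_reg w.2.2 (D.ord_tau_smul _))]
    ring

theorem glueMap_apply {N : ℕ} (w) (Q : D.Xfin) : D.glueMap N w Q =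
    valAt Q.1 (D.twist N Q.1 * (w.1 : E)) - valAt (D.frob • Q.1) (D.twist N Q.1 * (w.2 : E)) := rfl

theorem finrank_Gl [Infinite k] (N : ℕ) :
    finrank k (D.Gl N) = finrank k (LinearMap.ker (D.glueMap N)) ∧
      FiniteDimensional k (D.Gl N) := by
  haveI := D.param.curveBar.finite_L' (boundDiv D.tau ((q + 1) * N) (0 : Divisor k E))
  set L := (polesLe D.tau ((q + 1) * N) : Submodule k E)
  let ι : (L × L) →ₗ[k] E × E := L.subtype.prodMap L.subtype
  have hι : Function.Injective ι := L.injective_subtype.prodMap L.injective_subtype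
  have heq : (LinearMap.ker (D.glueMap N)).map ι = D.Gl N := by
    ext x
    rw [mem_Gl_iff]
    constructor
    · rintro ⟨w, hw, rfl⟩
      refine ⟨w.1.2, w.2.2, fun Q hQ => ?_⟩
      have h := congrFun (LinearMap.mem_ker.mp hw) ⟨Q, mem_Xfin.mpr hQ⟩
      rw [glueMap_apply, Pi.zero_apply, sub_eq_zero] at h
      exact h
    · rintro ⟨h1, h2, h3⟩
      refine ⟨(⟨x.1, h1⟩, ⟨x.2, h2⟩), LinearMap.mem_ker.mpr (funext fun Q => ?_), rfl⟩
      rw [glueMap_apply, Pi.zero_apply, sub_eq_zero]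
      exact h3 Q.1 (mem_Xfin.mp Q.2)
  exact ⟨by rw [← heq]; exact (Submodule.equivMapOfInjective ι hι _).finrank_eq.symm,
    heq ▸ Module.Finite.map _ _⟩

theorem finrank_Gl_ge [Infinite k] (N : ℕ) (hN : D.param.bound ≤ N) :
    2 * (((q + 1) * N : ℕ) * (paramDeg (K := K) D.j : ℤ) + 1 - g') - D.nX ≤ finrank k (D.Gl N) := by
  haveI := D.param.curveBar.finite_L' (boundDiv D.tau ((q + 1) * N) (0 : Divisor k E))
  have h1 := LinearMap.finrank_range_add_finrank_ker (D.glueMap N)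
  have h2 := Submodule.finrank_le (LinearMap.range (D.glueMap N))
  rw [finrank_pi, Fintype.card_coe] at h2
  rw [Module.finrank_prod] at h1
  have h3 : (finrank k (polesLe D.tau ((q + 1) * N) : Submodule k E) : ℤ) =
      ((q + 1) * N : ℕ) * (paramDeg (K := K) D.j : ℤ) + 1 - g' :=
    D.param.finrank_polesLe_bar (by nlinarith)
  rw [(finrank_Gl (D := D) N).1, nX]
  omega

open Classical in
theorem exists_delta [Infinite k] (Q₀ : Place k E) (hQ₀ : 0 ≤ Q₀.ord D.tau) :
    ∃ n : ℕ, ∀ N : ℕ, n < (q + 1) * N → ∃ w ∈ (polesLe D.tau ((q + 1) * N) : Submodule k E),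
      ∀ Q ∈ D.X, valAt Q (D.twist N Q * w) = if Q = Q₀ then 1 else 0 := by
  classical
  obtain ⟨w, hw, hwv⟩ := exists_prescribed D.param
    (insert Q₀ (D.Xfin.filter fun Q => 0 ≤ Q.ord D.tau)) (fun R hR => by
      rcases Finset.mem_insert.mp hR with rfl | hR
      · exact hQ₀
      · exact (Finset.mem_filter.mp hR).2) (fun R => if R = Q₀ then 1 else 0)
  obtain ⟨n, hn⟩ := D.param.curveBar.exists_mem_polesLe hw
  refine ⟨n, fun N hN => ⟨w, D.param.curveBar.polesLe_mono _ hN.le hn, fun Q hQ => ?_⟩⟩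
  rcases lt_or_ge (Q.ord D.tau) 0 with hneg | hpos
  · rw [if_neg (by rintro rfl; omega)]
    refine valAt_eq_zero_of_vanish ?_
    rw [twist, if_pos hneg]
    rcases eq_or_ne w 0 with rfl | hw0
    · simp [Vanish]
    refine Or.inr ?_
    have h := (D.param.curveBar.mem_polesLe.mp hn Q).resolve_left hw0
    rw [max_eq_right (show (0 : ℤ) ≤ -Q.ord (D.G.red D.j) from by
      show (0 : ℤ) ≤ -Q.ord D.tau; omega)] at h
    rw [Q.ord_mul (inv_ne_zero (pow_ne_zero _ D.hat_ne_zero)) hw0, Q.ord_inv, FF.ord_pow, D.ord_hat]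
    have h' : -((n : ℤ) * -Q.ord D.tau) ≤ Q.ord w := h
    have hN' : (n : ℤ) + 1 ≤ (q + 1 : ℕ) * N := by exact_mod_cast hN
    have h4 := mul_le_mul_of_nonneg_right hN' (show (0 : ℤ) ≤ -Q.ord D.tau by omega)
    push_cast at h4 ⊢
    linarith
  · rw [twist, if_neg (not_lt.mpr hpos), one_mul]
    exact hwv Q (Finset.mem_insert_of_mem (Finset.mem_filter.mpr ⟨mem_Xfin.mpr hQ, hpos⟩))

/-- The dimension of the glued pairs with bounded poles, for large `N`. -/
theorem finrank_Gl_eventually [Infinite k] : ∃ N₀ : ℕ, ∀ N : ℕ, N₀ ≤ N →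
    (finrank k (D.Gl N) : ℤ) =
      2 * (((q + 1) * N : ℕ) * (paramDeg (K := K) D.j : ℤ) + 1 - g') - D.nX := by
  classical
  have hd : ∀ Q₀ : D.Xfin, ∃ n : ℕ, ∀ N : ℕ, n < (q + 1) * N →
      ∃ w ∈ (polesLe D.tau ((q + 1) * N) : Submodule k E),
        ∀ Q ∈ D.X, valAt Q (D.twist N Q * w) = if Q = Q₀.1 then 1 else 0 := by
    intro Q₀
    rcases lt_or_ge (Q₀.1.ord D.tau) 0 with hneg | hpos
    · obtain ⟨n, hn⟩ := exists_delta (D := D.inv) Q₀.1 (by rw [D.tau_inv, Place.ord_inv]; omega)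
      refine ⟨n, fun N hN => ?_⟩
      obtain ⟨w, hw, hwv⟩ := hn N hN
      obtain ⟨a, b⟩ := (mem_polesLe_tau_iff (D := D.inv)).mp hw
      have hb : RegAway (K := k) D.tau (D.hat ^ N * w) := fun R hR => by
        have h := b R (by rwa [D.inv_inv'])
        rwa [D.hat_inv, inv_pow, inv_inv] at h
      have n0 := pow_ne_zero N D.hat_ne_zero
      refine ⟨D.hat ^ N * w, mem_polesLe_tau_iff.mpr ⟨hb, ?_⟩, fun Q hQ => ?_⟩
      · rwa [← mul_assoc, inv_mul_cancel₀ n0, one_mul]
      · rcases lt_trichotomy (Q.ord D.tau) 0 with h | h | h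
        · have h2 := hwv Q (D.X_inv ▸ hQ)
          rw [twist, if_neg (by rw [D.tau_inv, Q.ord_inv]; omega), one_mul] at h2
          rwa [twist, if_pos h, ← mul_assoc, inv_mul_cancel₀ n0, one_mul]
        · have h2 := hwv Q (D.X_inv ▸ hQ)
          rw [twist, if_neg (by rw [D.tau_inv, Q.ord_inv]; omega), one_mul] at h2
          have hne : Q ≠ Q₀.1 := fun e => by rw [e] at h; omega
          rw [if_neg hne] at h2 ⊢
          rw [twist, if_neg (by omega), one_mul,
            D.param.curveBar.valAt_mul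
              (Vanish.zero_iff.mpr (by rw [FF.ord_pow, D.ord_hat, h]; simp))
              (a Q (by rw [D.tau_inv, Q.ord_inv]; omega)), h2, mul_zero]
        · have h2 := hwv Q (D.X_inv ▸ hQ)
          rw [twist, if_pos (by rw [D.tau_inv, Q.ord_inv]; omega), D.hat_inv, inv_pow, inv_inv]
            at h2
          rwa [twist, if_neg (by omega), one_mul]
    · exact exists_delta Q₀.1 hpos
  choose n hn using hd
  refine ⟨max D.param.bound (Finset.univ.sup n + 1), fun N hN => ?_⟩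
  have hN' : ∀ Q, n Q < (q + 1) * N := fun Q => by
    have h1 : n Q ≤ Finset.univ.sup n := Finset.le_sup (Finset.mem_univ Q)
    have h2 : N ≤ (q + 1) * N := Nat.le_mul_of_pos_left N (Nat.succ_pos q)
    omega
  haveI := D.param.curveBar.finite_L' (boundDiv D.tau ((q + 1) * N) (0 : Divisor k E))
  have htop : LinearMap.range (D.glueMap N) = ⊤ := by
    rw [eq_top_iff]
    intro v _
    choose w hw hwv using fun Q => hn Q N (hN' Q)
    refine ⟨∑ Q : D.Xfin, v Q • ((⟨w Q, hw Q⟩, 0) : _ × _), ?_⟩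
    rw [map_sum]
    funext R
    rw [Finset.sum_apply, Finset.sum_eq_single R ?_ (by simp)]
    · rw [map_smul, Pi.smul_apply, glueMap_apply]
      simp [hwv R R.1 (mem_Xfin.mp R.2), valAt_zero]
    · intro Q _ hne
      rw [map_smul, Pi.smul_apply, glueMap_apply]
      have hne' : R.1 ≠ Q.1 := fun e => hne (Subtype.ext e.symm)
      simp [hwv Q R.1 (mem_Xfin.mp R.2), hne', valAt_zero]
  have h1 := LinearMap.finrank_range_add_finrank_ker (D.glueMap N)
  rw [htop, finrank_top, finrank_pi, Fintype.card_coe, Module.finrank_prod] at h1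
  have h3 : (finrank k (polesLe D.tau ((q + 1) * N) : Submodule k E) : ℤ) =
      ((q + 1) * N : ℕ) * (paramDeg (K := K) D.j : ℤ) + 1 - g' :=
    D.param.finrank_polesLe_bar
      (le_trans (le_max_left _ _) (hN.trans (Nat.le_mul_of_pos_left N (Nat.succ_pos q))))
  rw [(finrank_Gl (D := D) N).1, nX]
  omega

/-! ### Bounded representatives modulo an element -/

theorem exists_small [Infinite k] (p : E) :
    ∃ n₀ : ℕ, ∀ x ∈ D.RR, ∃ x' ∈ D.RR,
      x'.1 ∈ (polesLe D.tau n₀ : Submodule k E) ∧ x'.2 ∈ (polesLe D.tau n₀ : Submodule k E) ∧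
      p⁻¹ • (x - x') ∈ D.RR := by
  classical
  set S : Finset (Place k E) :=
    ((divOf p : Divisor k E).support.filter fun Q => 0 ≤ Q.ord D.tau) ∪
      (D.Xfin.filter fun Q => 0 ≤ Q.ord D.tau) ∪
      ((D.Xfin.filter fun Q => 0 ≤ Q.ord D.tau).image fun Q => D.frob • Q) with hS
  have hSfin : ∀ Q ∈ S, 0 ≤ Q.ord D.tau := by
    intro Q hQ
    rw [hS, Finset.mem_union, Finset.mem_union, Finset.mem_image] at hQ
    rcases hQ with (h | h) | ⟨R, h, rfl⟩
    · exact (Finset.mem_filter.mp h).2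
    · exact (Finset.mem_filter.mp h).2
    · exact ord_tau_smul_nonneg (Finset.mem_filter.mp h).2
  obtain ⟨n₀, hn₀⟩ := exists_approx D.param S (fun Q => (Q.ord p).toNat + 1) hSfin
  refine ⟨n₀, fun x hx => ?_⟩
  obtain ⟨w1, hw1, hv1⟩ := hn₀ x.1 hx.1.1
  obtain ⟨w2, hw2, hv2⟩ := hn₀ x.2 hx.1.2
  have hX1 : ∀ Q ∈ D.Xaff, Q ∈ S ∧ D.frob • Q ∈ S := fun Q hQ => by
    have h : Q ∈ D.Xfin.filter fun Q => 0 ≤ Q.ord D.tau :=
      Finset.mem_filter.mpr ⟨mem_Xfin.mpr (Or.inl hQ), hQ.1⟩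
    exact ⟨by simp [hS, h], Finset.mem_union_right _ (Finset.mem_image.mpr ⟨Q, h, rfl⟩)⟩
  have hr1 := D.param.curveBar.regAway_of_mem_polesLe hw1
  have hr2 := D.param.curveBar.regAway_of_mem_polesLe hw2
  have hz : ∀ {u : E} {w : E}, RegAway (K := k) D.tau u → RegAway (K := k) D.tau w →
      (∀ Q ∈ S, Vanish Q (u - w) (((Q.ord p).toNat + 1 : ℕ) : ℤ)) →
      RegAway (K := k) D.tau (p⁻¹ * (u - w)) ∧
        ∀ Q ∈ S, Vanish Q (p⁻¹ * (u - w)) 1 := by
    intro u w hu hw hv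
    have h1 : ∀ Q ∈ S, Vanish Q (p⁻¹ * (u - w)) 1 := fun Q hQ =>
      ((Vanish.self p⁻¹).mul (hv Q hQ)).mono (by rw [Q.ord_inv]; push_cast; omega)
    refine ⟨fun Q hQ => ?_, h1⟩
    by_cases hQS : Q ∈ S
    · exact (h1 Q hQS).mono zero_le_one
    · have h0 : Q.ord p = 0 := by
        by_contra hne
        exact hQS (Finset.mem_union_left _ (Finset.mem_union_left _ (Finset.mem_filter.mpr
          ⟨Finsupp.mem_support_iff.mpr (by rwa [D.param.curveBar.divOf_apply]), hQ⟩)))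
      exact Vanish.mul_zero' (Vanish.zero_iff.mpr (by rw [Q.ord_inv, h0]; rfl))
        ((hu Q hQ).sub (hw Q hQ))
  obtain ⟨hz1, hz1v⟩ := hz hx.1.1 hr1 hv1
  obtain ⟨hz2, hz2v⟩ := hz hx.1.2 hr2 hv2
  refine ⟨(w1, w2), mem_RR_iff.mpr ⟨⟨hr1, hr2⟩, fun Q hQ => ?_⟩, hw1, hw2,
    mem_RR_iff.mpr ⟨⟨hz1, hz2⟩, fun Q hQ => ?_⟩⟩
  · have e1 := valAt_eq_zero_of_vanish ((hv1 Q (hX1 Q hQ).1).mono (by push_cast; omega))
    have e2 := valAt_eq_zero_of_vanish ((hv2 _ (hX1 Q hQ).2).mono (by push_cast; omega))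
    rw [D.param.curveBar.valAt_sub (hx.1.1 Q hQ.1) (hr1 Q hQ.1), sub_eq_zero] at e1
    rw [D.param.curveBar.valAt_sub (hx.1.2 _ (mem_Xaff_smul_ord hQ))
      (hr2 _ (mem_Xaff_smul_ord hQ)), sub_eq_zero] at e2
    show valAt Q w1 = valAt (D.frob • Q) w2
    rw [← e1, ← e2]
    exact hQ.2 x hx
  · show valAt Q (p⁻¹ * (x.1 - w1)) = valAt (D.frob • Q) (p⁻¹ * (x.2 - w2))
    rw [valAt_eq_zero_of_vanish (hz1v Q (hX1 Q hQ).1), valAt_eq_zero_of_vanish (hz2v _ (hX1 Q hQ).2)]

theorem exists_redT_of_fg (W : Submodule k (E × E)) [FiniteDimensional k W] (hW : W ≤ D.RR) :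
    ∃ N : ℕ, W ≤ D.redT N := by
  classical
  obtain ⟨s, hs⟩ := (Module.Finite.iff_fg.mp ‹FiniteDimensional k W› : W.FG)
  have h : ∀ x ∈ s, ∃ N : ℕ, x ∈ D.redT N := by
    intro x hx
    obtain ⟨-, y, hy, hyr, hyx⟩ := hW (hs ▸ Submodule.subset_span hx)
    obtain ⟨N, hN⟩ := D.curve.exists_mem_polesLe hyr
    exact ⟨N, y, hN, hy, hyx⟩
  choose N hN using h
  refine ⟨s.attach.sup fun x => N x.1 x.2, ?_⟩
  rw [← hs, Submodule.span_le]
  exact fun x hx => redT_mono (Finset.le_sup (f := fun x : s => N x.1 x.2)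
    (Finset.mem_attach s ⟨x, hx⟩)) (hN x hx)

theorem Tpow_mem_polesLe {N₁ N : ℕ} (h : N₁ ≤ N) {y : F}
    (hy : y ∈ (polesLe D.inv.T N₁ : Submodule K F)) :
    D.T ^ N * y ∈ (polesLe D.T N : Submodule K F) := by
  refine D.curve.mem_polesLe.mpr fun P => ?_
  rcases eq_or_ne y 0 with rfl | hy0
  · simp [Vanish]
  refine Or.inr ?_
  have h1 := (D.curve.mem_polesLe.mp hy P).resolve_left hy0
  rw [D.T_inv, P.ord_inv, neg_neg] at h1
  rw [P.ord_mul (pow_ne_zero _ D.T_ne_zero) hy0, FF.ord_pow]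
  have h2 : (N₁ : ℤ) ≤ N := by exact_mod_cast h
  rcases le_or_gt 0 (P.ord D.T) with hP | hP
  · rw [max_eq_right hP] at h1
    rw [max_eq_left (by omega), mul_zero, neg_zero]
    have h3 := mul_le_mul_of_nonneg_right h2 hP
    omega
  · rw [max_eq_left (by omega)] at h1
    rw [max_eq_right (by omega), mul_neg, neg_neg]
    omega

theorem red_Tpow_mul {y : F} (hy : y ∈ D.V) (N : ℕ) :
    D.red (D.T ^ N * y) = D.hat ^ N • D.red y := by
  rw [red_mul (pow_mem D.T_mem _) hy, red_pow D.T_mem, D.red_T]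
  rfl

/-- For large `N` every glued pair is a reduction. -/
theorem Gl_le_redT [Infinite k] : ∃ N₀ : ℕ, ∀ N : ℕ, N₀ ≤ N → D.Gl N ≤ D.redT N := by
  classical
  obtain ⟨n₀, hn₀⟩ := exists_small (D := D.inv) D.inv.hat
  haveI := D.inv.param.curveBar.finite_L' (boundDiv D.inv.tau n₀ (0 : Divisor k E))
  set L := (polesLe D.inv.tau n₀ : Submodule k E)
  set Sm : Submodule k (E × E) := D.inv.RR ⊓ L.prod L with hSm
  haveI : FiniteDimensional k (L.prod L) := by
    have h : L.prod L = (⊤ : Submodule k (L × L)).map (L.subtype.prodMap L.subtype) := by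
      rw [Submodule.map_top, LinearMap.range_prodMap, Submodule.range_subtype]
    rw [h]
    infer_instance
  haveI : FiniteDimensional k Sm := Submodule.finiteDimensional_of_le inf_le_right
  obtain ⟨N₁, hN₁⟩ := exists_redT_of_fg (D := D.inv) Sm inf_le_left
  set B := n₀ + N₁ + 1 with hB
  haveI := (finrank_Gl (D := D) B).2
  obtain ⟨N₂, hN₂⟩ := exists_redT_of_fg (D.Gl B) (fun x hx => hx.1)
  refine ⟨max B N₂, fun N hN => ?_⟩
  suffices h : ∀ d, D.Gl (B + d) ≤ D.redT (max N₂ (B + d)) by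
    have := h (N - B)
    rwa [show B + (N - B) = N by omega, max_eq_right (by omega)] at this
  intro d
  induction d with
  | zero => exact hN₂.trans (redT_mono (le_max_left _ _))
  | succ d ih =>
    intro x hx
    set M := B + (d + 1) with hM
    obtain ⟨x', hx'RR, hx'1, hx'2, hz⟩ := hn₀ _ hx.2
    obtain ⟨y, hy, hyV, hyred⟩ := hN₁ (show x' ∈ Sm from ⟨hx'RR, hx'1, hx'2⟩)
    rw [D.hat_inv, inv_inv] at hz
    have hyV' : y ∈ D.V := hyV
    have hmem : D.T ^ M * y ∈ (polesLe D.T M : Submodule K F) := Tpow_mem_polesLe (by omega) hy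
    have hred : D.red (D.T ^ M * y) = D.hat ^ M • x' := by
      rw [red_Tpow_mul hyV']; exact congrArg _ hyred
    have hregM : ∀ {w : E}, w ∈ L → RegAway (K := k) D.tau (D.hat ^ M * w) := fun {w} hw Q hQ => by
      rcases eq_or_ne w 0 with rfl | hw0
      · simp [Vanish]
      refine Or.inr ?_
      have h := (D.inv.param.curveBar.mem_polesLe.mp hw Q).resolve_left hw0
      rw [D.tau_inv, Q.ord_inv, neg_neg, max_eq_right hQ] at h
      rw [Q.ord_mul (pow_ne_zero _ D.hat_ne_zero) hw0, FF.ord_pow, D.ord_hat]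
      have h2 : (n₀ : ℤ) ≤ M * (q + 1 : ℕ) := by
        have h2' : n₀ ≤ M * (q + 1) := le_trans (show n₀ ≤ M by omega) (Nat.le_mul_of_pos_right M q.succ_pos)
        exact_mod_cast h2'
      have h3 := mul_le_mul_of_nonneg_right h2 hQ
      push_cast at h3 ⊢
      linarith
    have hRR : D.hat ^ M • x' ∈ D.RR :=
      ⟨⟨hregM hx'1, hregM hx'2⟩, _, D.V.mul_mem (pow_mem D.T_mem _) hyV',
        D.curve.regAway_of_mem_polesLe hmem, hred⟩
    have hsub : x - D.hat ^ M • x' ∈ D.Gl (B + d) := by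
      refine ⟨D.RR.sub_mem hx.1 hRR, ?_⟩
      have he : (D.hat ^ (B + d))⁻¹ • (x - D.hat ^ M • x') =
          D.hat • ((D.hat ^ M)⁻¹ • x - x') := by
        have hne := D.hat_ne_zero
        simp only [smul_sub, smul_smul, hM, ← add_assoc, pow_succ]
        congr 2 <;> field_simp
      rw [he]
      exact hz
    have h1 : D.hat ^ M • x' ∈ D.redT (max N₂ M) :=
      redT_mono (le_max_right _ _) ⟨_, hmem, D.V.mul_mem (pow_mem D.T_mem _) hyV', hred⟩
    have h2 : x - D.hat ^ M • x' ∈ D.redT (max N₂ M) :=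
      redT_mono (max_le_max le_rfl (by omega)) (ih hsub)
    simpa using Submodule.add_mem _ h2 h1

theorem eq_zero_of_regular_sum {Q : Place k E} {z : E} (hz : Q.ord z < 0) {c : ℕ}
    (a : Fin c → k) (h : Vanish Q (∑ i, a i • z ^ ((i : ℕ) + 1)) 0) : a = 0 := by
  classical
  set p : Polynomial k := ∑ i : Fin c, Polynomial.C (a i) * Polynomial.X ^ ((i : ℕ) + 1) with hp
  have hev : Polynomial.aeval z p = ∑ i, a i • z ^ ((i : ℕ) + 1) := by
    simp [hp, map_sum, Algebra.smul_def]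
  have hc : ∀ i : Fin c, p.coeff ((i : ℕ) + 1) = a i := fun i => by
    simp [hp, Polynomial.finsetSum_coeff, Polynomial.coeff_X_pow, Fin.val_inj]
  funext i
  rw [Pi.zero_apply, ← hc i]
  by_contra hne
  have hp0 : p ≠ 0 := fun e => hne (by rw [e, Polynomial.coeff_zero])
  obtain ⟨h1, h2⟩ := ord_aeval_of_neg hz p hp0
  have h3 := h.resolve_left (by rw [← hev]; exact h1)
  rw [← hev, h2] at h3
  have h4 : 0 < p.natDegree :=
    lt_of_lt_of_le (Nat.succ_pos _) (Polynomial.le_natDegree_of_ne_zero hne)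
  exact absurd h3 (not_le.mpr (mul_neg_of_pos_of_neg (by exact_mod_cast h4) hz))

/-- Reductions of integral functions regular where `T` is finite are regular. -/
theorem regPair_red [Infinite k] {y : F} (hy : y ∈ D.V) (hyr : RegAway (K := K) D.T y) :
    D.RegPair (D.red y) := by
  classical
  obtain ⟨N₀, hN₀⟩ := Gl_le_redT (D := D)
  obtain ⟨C₀, hC₀⟩ := D.curve.exists_C
  obtain ⟨n, hn⟩ := D.curve.exists_mem_polesLe hyr
  suffices hkey : ∀ (φ : E × E →ₗ[k] E), (∀ x ∈ D.RR, RegAway (K := k) D.tau (φ x)) →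
      (∀ x x' : E × E, φ (x * x') = φ x * φ x') → φ 1 = 1 →
      RegAway (K := k) D.tau (φ (D.red y)) by
    exact ⟨hkey (LinearMap.fst k E E) (fun x hx => hx.1.1) (fun _ _ => rfl) rfl,
      hkey (LinearMap.snd k E E) (fun x hx => hx.1.2) (fun _ _ => rfl) rfl⟩
  intro φ hφ hφmul hφone Q hQ
  by_contra hv
  have hz : Q.ord (φ (D.red y)) < 0 := by
    by_contra h
    exact hv (Vanish.zero_iff.mpr (not_lt.mp h))
  set c := 2 * g' + D.nX + 1 with hc
  set M := max (max N₀ D.param.bound) (max (c * n) C₀.toNat) with hM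
  let v : Fin c → E × E := fun i => D.red y ^ ((i : ℕ) + 1)
  haveI := (finrank_Gl (D := D) M).2
  have hpow : ∀ i : ℕ, φ (D.red y ^ i) = φ (D.red y) ^ i := fun i => by
    induction i with
    | zero => simpa using hφone
    | succ i ih => rw [pow_succ, hφmul, ih, pow_succ]
  have hkill : ∀ a : Fin c → k, (∑ i, a i • v i) ∈ D.Gl M → a = 0 := by
    intro a ha
    refine eq_zero_of_regular_sum hz a ?_
    have h := hφ _ ha.1 Q hQ
    simpa [v, map_sum, map_smul, hpow] using h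
  have hli : LinearIndependent k v := by
    rw [Fintype.linearIndependent_iff]
    intro a ha i
    rw [hkill a (by rw [ha]; exact Submodule.zero_mem _)]
    rfl
  haveI : FiniteDimensional k (Submodule.span k (Set.range v)) :=
    FiniteDimensional.span_of_finite k (Set.finite_range v)
  have hdisj : D.Gl M ⊓ Submodule.span k (Set.range v) = ⊥ := by
    rw [eq_bot_iff]
    rintro x ⟨hx1, hx2⟩
    obtain ⟨a, rfl⟩ := (Submodule.mem_span_range_iff_exists_fun k).mp hx2
    rw [hkill a hx1]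
    simp
  have hle : D.Gl M ⊔ Submodule.span k (Set.range v) ≤ D.redT M := by
    refine sup_le (hN₀ M (le_trans (le_max_left _ _) (le_max_left _ _))) (Submodule.span_le.mpr ?_)
    rintro _ ⟨i, rfl⟩
    refine ⟨y ^ ((i : ℕ) + 1), D.curve.polesLe_mono D.T ?_ (D.curve.pow_mem_polesLe hn _),
      pow_mem hy _, red_pow hy _⟩
    calc ((i : ℕ) + 1) * n ≤ c * n := Nat.mul_le_mul_right n (by omega)
      _ ≤ M := le_trans (le_max_left _ _) (le_max_right _ _)
  haveI := (D.finrank_redSub_L (boundDiv D.T M (0 : Divisor K F))).2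
  have h1 := Submodule.finrank_mono hle
  have h2 := Submodule.finrank_sup_add_finrank_inf_eq (D.Gl M) (Submodule.span k (Set.range v))
  rw [hdisj, finrank_bot, finrank_span_eq_card hli, Fintype.card_fin] at h2
  have h3 := finrank_Gl_ge (D := D) M (le_trans (le_max_right _ _) (le_max_left _ _))
  have h4 := (D.finrank_redSub_L (boundDiv D.T M (0 : Divisor K F))).1
  have h5 := D.ell_bound_T hC₀ (n := M) (Z := (0 : Divisor K F)) (by
    rw [map_zero]
    have := D.le_mul_degT M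
    omega)
  rw [map_zero, sub_zero] at h5
  simp only [redT, polesLe, ell, degT] at h1 h2 h4 h5
  push_cast at h3 h5
  have h6 : (M : ℤ) * (2 * (((q : ℤ) + 1) * paramDeg (K := K) D.j)) =
      2 * (((q : ℤ) + 1) * M * paramDeg (K := K) D.j) := by ring
  omega

theorem red_mem_RR [Infinite k] {y : F} (hy : y ∈ D.V) (hyr : RegAway (K := K) D.T y) :
    D.red y ∈ D.RR :=
  ⟨regPair_red hy hyr, y, hy, hyr, rfl⟩

theorem redT_le_Gl [Infinite k] (N : ℕ) : D.redT N ≤ D.Gl N := by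
  rintro _ ⟨y, hy, hyV, rfl⟩
  refine ⟨red_mem_RR hyV (D.curve.regAway_of_mem_polesLe hy), ?_⟩
  have h1 : (D.red (D.T ^ N)).1 ≠ 0 ∧ (D.red (D.T ^ N)).2 ≠ 0 := by
    rw [red_pow D.T_mem, D.red_T]
    exact ⟨pow_ne_zero _ D.hat_ne_zero, pow_ne_zero _ D.hat_ne_zero⟩
  have hTi : (D.T ^ N)⁻¹ ∈ D.V := inv_mem (pow_mem D.T_mem N) h1.1 h1.2
  have hred : D.red ((D.T ^ N)⁻¹ * y) = (D.hat ^ N)⁻¹ • D.red y := by
    rw [red_mul hTi hyV, red_inv (pow_mem D.T_mem N) h1.1 h1.2, red_pow D.T_mem, D.red_T]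
    rfl
  rw [← hred]
  refine red_mem_RR (D := D.inv) (D.V.mul_mem hTi hyV) fun P hP => ?_
  rw [D.T_inv, P.ord_inv] at hP
  rcases eq_or_ne y 0 with rfl | hy0
  · simp [Vanish]
  refine Or.inr ?_
  have h := (D.curve.mem_polesLe.mp hy P).resolve_left hy0
  rw [max_eq_right (by omega)] at h
  rw [P.ord_mul (inv_ne_zero (pow_ne_zero _ D.T_ne_zero)) hy0, P.ord_inv, FF.ord_pow]
  linarith

/-- For large `N` the reductions of the functions with bounded poles are the glued pairs. -/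
theorem redT_eq_Gl [Infinite k] : ∃ N₀ : ℕ, ∀ N : ℕ, N₀ ≤ N → D.redT N = D.Gl N := by
  obtain ⟨N₀, h⟩ := Gl_le_redT (D := D)
  exact ⟨N₀, fun N hN => le_antisymm (redT_le_Gl N) (h N hN)⟩

/-- **The genus formula.** -/
theorem genus_eq [Infinite k] : (g : ℤ) + 1 = 2 * g' + D.nX := by
  obtain ⟨N₀, h₀⟩ := redT_eq_Gl (D := D)
  obtain ⟨N₁, h₁⟩ := finrank_Gl_eventually (D := D)
  obtain ⟨C₀, hC₀⟩ := D.curve.exists_C
  set M := max (max N₀ N₁) C₀.toNat with hM
  have h2 := h₁ M (le_trans (le_max_right _ _) (le_max_left _ _))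
  rw [← h₀ M (le_trans (le_max_left _ _) (le_max_left _ _))] at h2
  have h4 := (D.finrank_redSub_L (boundDiv D.T M (0 : Divisor K F))).1
  have h5 := D.ell_bound_T hC₀ (n := M) (Z := (0 : Divisor K F)) (by
    rw [map_zero]
    have := D.le_mul_degT M
    omega)
  rw [map_zero, sub_zero] at h5
  simp only [redT, polesLe, ell, degT] at h2 h4 h5
  push_cast at h2 h5
  have h6 : (M : ℤ) * (2 * (((q : ℤ) + 1) * paramDeg (K := K) D.j)) =
      2 * (((q : ℤ) + 1) * M * paramDeg (K := K) D.j) := by ring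
  omega

end Data

end FLTAgent.Lift
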