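import Fermat.Agent.Lift.Special

/-!
# Ideals of the glued ring, and monic elements

`one_mem_RR_ideal`: an ideal of the glued ring without common zero which contains exact elements on
each component is everything. `exists_discPoly`: a product of linear factors in `T` vanishing to
given orders at places in the disc, whose reduction is monic in both charts (`InvMonic`).
-/

set_option autoImplicit false
set_option linter.style.haveILetI false
set_option linter.unusedSectionVars false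

noncomputable section

open AlgebraicCurve SemilinearAut Module

namespace FLTAgent.Lift

open FLTAgent.Reduction

namespace Data

variable {K k F F₀ E : Type*} [Field K] [Field k] [Field F] [Field F₀] [Field E] [Algebra K F]
  [Algebra K F₀] [Algebra k E] {A : ValuationSubring K} {π : A →+* k} {q g g' : ℕ}
variable {D : Data A π q F F₀ E g g'}

/-- An ideal of the glued ring without common zero, containing exact elements on each component,
is everything. -/
theorem one_mem_RR_ideal [Infinite k] (J : Submodule k (E × E)) (hJ : J ≤ D.RR)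
    (hmul : ∀ x ∈ J, ∀ v ∈ D.RR, v * x ∈ J) {p : E} {d : ℕ} (hp0 : p ≠ 0)
    (hp : p ∈ (polesLe D.tau d : Submodule k E))
    (hexact : ∀ Q : Place k E, Q.ord D.tau < 0 → Q.ord p = (d : ℤ) * Q.ord D.tau)
    (hp1 : ((p, 0) : E × E) ∈ J) (hp2 : (((0 : E), p) : E × E) ∈ J)
    (hzero : ∀ c : Cls k E, D.IsCanon c → 0 ≤ c.2.ord D.tau → ∃ x ∈ J, cval x c ≠ 0) :
    (1 : E × E) ∈ J := by
  classical
  set Xs : Finset (Place k E) := D.Xfin.filter fun Q => 0 ≤ Q.ord D.tau with hXs
  have hXs' : ∀ {Q}, Q ∈ Xs ↔ Q ∈ D.Xaff := fun {Q} => by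
    rw [hXs, Finset.mem_filter, mem_Xfin, ← mem_Xaff_iff]
  have hfst : ∀ {w : E}, RegAway (K := k) D.tau w → (∀ Q ∈ D.Xaff, valAt Q w = 0) →
      ((w, 0) : E × E) ∈ J := by
    intro w hw hwX
    let J₁ : Submodule k E := J.comap (LinearMap.inl k E E)
    refine mem_ideal_of_ord D.param J₁ (fun u hu => (hJ hu).1.1) (fun u hu v hv => ?_)
      (show p ∈ J₁ from hp1) hp0 hp hexact (fun Q => if Q ∈ D.Xaff then 1 else 0) (fun Q hQ => ?_)
      hw (fun Q hQ => ?_)
    · show ((v * u, 0) : E × E) ∈ J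
      simpa using hmul _ hu _ (mk_Fr_mem_RR hv)
    · obtain ⟨x, hxJ, hx⟩ := hzero (D.cls true Q) (isCanon_cls _ _) (by rw [cls_true]; exact hQ)
      rw [cval_cls_true] at hx
      obtain ⟨i, hi0, hi, hiQ, hiX⟩ := exists_reg_ord D.param (insert Q Xs)
        (fun R => if R ∈ D.Xaff then 1 else 0) (fun R hR => by
          rcases Finset.mem_insert.mp hR with rfl | hR
          · exact hQ
          · exact (Finset.mem_filter.mp hR).2) (Finset.mem_insert_self _ _)
      have hiRR : ((i, 0) : E × E) ∈ D.RR := mem_RR_iff.mpr ⟨⟨hi, fun _ _ => Vanish.zero_left⟩,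
        fun R hR => by
          have h := hiX R (Finset.mem_insert_of_mem (hXs'.mpr hR))
          simp only [if_pos hR, Nat.cast_one] at h
          rw [valAt_eq_zero_of_vanish h, valAt_zero]⟩
      have hx1 : x.1 ≠ 0 := fun h => hx (by rw [h, valAt_zero])
      have hordx : Q.ord x.1 = 0 := by
        rcases lt_or_eq_of_le (Vanish.zero_iff.mp ((hJ hxJ).1.1 Q hQ)) with h | h
        · exact absurd (valAt_eq_zero_of_vanish (Or.inr h)) hx
        · exact h.symm
      refine ⟨i * x.1, ?_, mul_ne_zero hi0 hx1, ?_⟩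
      · show ((i * x.1, 0) : E × E) ∈ J
        have h := hmul x hxJ _ hiRR
        rwa [show ((i, 0) : E × E) * x = (i * x.1, 0) from Prod.ext rfl (zero_mul _)] at h
      · rw [Q.ord_mul hi0 hx1, hordx, hiQ, add_zero]
        split_ifs <;> simp
    · by_cases hQX : Q ∈ D.Xaff
      · rw [if_pos hQX]
        exact (D.param.curveBar.vanish_one_iff (hw Q hQ)).mpr (hwX Q hQX)
      · rw [if_neg hQX]
        exact hw Q hQ
  have hsnd : ∀ {w : E}, RegAway (K := k) D.tau w → (∀ Q ∈ D.Xaff, valAt (D.frob • Q) w = 0) →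
      (((0 : E), w) : E × E) ∈ J := by
    intro w hw hwX
    let J₂ : Submodule k E := J.comap (LinearMap.inr k E E)
    refine mem_ideal_of_ord D.param J₂ (fun u hu => (hJ hu).1.2) (fun u hu v hv => ?_)
      (show p ∈ J₂ from hp2) hp0 hp hexact
      (fun Q => if D.frob⁻¹ • Q ∈ D.Xaff then 1 else 0) (fun Q hQ => ?_) hw (fun Q hQ => ?_)
    · show (((0 : E), v * u) : E × E) ∈ J
      simpa using hmul _ hu _ (Fr_mk_mem_RR hv)
    · obtain ⟨x, hxJ, hx⟩ := hzero (D.cls false Q) (isCanon_cls _ _) (by rw [ord_tau_cls]; exact hQ)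
      rw [cval_cls_false (hJ hxJ) hQ] at hx
      obtain ⟨i, hi0, hi, hiQ, hiX⟩ := exists_reg_ord D.param
        (insert Q (Xs.image fun R => D.frob • R))
        (fun R => if D.frob⁻¹ • R ∈ D.Xaff then 1 else 0) (fun R hR => by
          rcases Finset.mem_insert.mp hR with rfl | hR
          · exact hQ
          · obtain ⟨R', hR', rfl⟩ := Finset.mem_image.mp hR
            exact ord_tau_smul_nonneg (Finset.mem_filter.mp hR').2) (Finset.mem_insert_self _ _)
      have hiRR : (((0 : E), i) : E × E) ∈ D.RR := mem_RR_iff.mpr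
        ⟨⟨fun _ _ => Vanish.zero_left, hi⟩, fun R hR => by
          have h := hiX _ (Finset.mem_insert_of_mem (Finset.mem_image_of_mem _ (hXs'.mpr hR)))
          simp only [inv_smul_smul, if_pos hR, Nat.cast_one] at h
          rw [valAt_eq_zero_of_vanish h, valAt_zero]⟩
      have hx2 : x.2 ≠ 0 := fun h => hx (by rw [h, valAt_zero])
      have hordx : Q.ord x.2 = 0 := by
        rcases lt_or_eq_of_le (Vanish.zero_iff.mp ((hJ hxJ).1.2 Q hQ)) with h | h
        · exact absurd (valAt_eq_zero_of_vanish (Or.inr h)) hx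
        · exact h.symm
      refine ⟨i * x.2, ?_, mul_ne_zero hi0 hx2, ?_⟩
      · show (((0 : E), i * x.2) : E × E) ∈ J
        have h := hmul x hxJ _ hiRR
        rwa [show (((0 : E), i) : E × E) * x = (0, i * x.2) from Prod.ext (zero_mul _) rfl] at h
      · rw [Q.ord_mul hi0 hx2, hordx, hiQ, add_zero]
        split_ifs <;> simp
    · by_cases hQX : D.frob⁻¹ • Q ∈ D.Xaff
      · rw [if_pos hQX]
        refine (D.param.curveBar.vanish_one_iff (hw Q hQ)).mpr ?_
        have h := hwX _ hQX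
        rwa [smul_inv_smul] at h
      · rw [if_neg hQX]
        exact hw Q hQ
  have hd : ∀ Q : Xs, ∃ y ∈ J, ∀ R ∈ Xs, cval y (true, R) = if R = Q.1 then 1 else 0 := by
    intro Q
    have hQX := hXs'.mp Q.2
    obtain ⟨x, hxJ, hx⟩ := hzero (true, Q.1) (isCanon_true _) hQX.1
    obtain ⟨e, he, he1, he0⟩ := exists_sep (D := D)
      ((Xs.erase Q.1).image fun R => ((true, R) : Cls k E))
      (c := (true, Q.1)) (isCanon_true _) hQX.1 (fun d hd => by
        obtain ⟨R, hR, rfl⟩ := Finset.mem_image.mp hd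
        exact ⟨isCanon_true _, (hXs'.mp (Finset.mem_of_mem_erase hR)).1,
          fun h => Finset.ne_of_mem_erase hR (congrArg Prod.snd h)⟩)
    refine ⟨(cval x (true, Q.1))⁻¹ • (e * x), J.smul_mem _ (hmul x hxJ e he), fun R hR => ?_⟩
    rw [cval_smul _ (RR_mul he (hJ hxJ)) (c := (true, R)) (hXs'.mp hR).1,
      cval_mul he (hJ hxJ) (c := (true, R)) (hXs'.mp hR).1]
    split_ifs with h
    · subst h; rw [he1, one_mul, inv_mul_cancel₀ hx]
    · rw [he0 _ (Finset.mem_image_of_mem _ (Finset.mem_erase.mpr ⟨h, hR⟩)), zero_mul, mul_zero]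
  choose y hy hyv using hd
  set Y := ∑ Q : Xs, y Q with hY
  have hYJ : Y ∈ J := J.sum_mem fun Q _ => hy Q
  have hz : (1 : E × E) - Y ∈ D.RR := D.RR.sub_mem RR_one (hJ hYJ)
  have hv : ∀ Q ∈ D.Xaff, valAt Q ((1 : E × E) - Y).1 = 0 ∧
      valAt (D.frob • Q) ((1 : E × E) - Y).2 = 0 := by
    intro Q hQ
    have hQs := hXs'.mpr hQ
    have h : cval ((1 : E × E) - Y) (true, Q) = 0 := by
      rw [cval_sub RR_one (hJ hYJ) (c := (true, Q)) hQ.1, cval_one,
        cval_sum _ (fun R _ => hJ (hy R)) (c := (true, Q)) hQ.1,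
        Finset.sum_eq_single (⟨Q, hQs⟩ : Xs) (fun R _ hR => by
          rw [hyv R Q hQs, if_neg (fun h => hR (Subtype.ext h.symm))]) (by simp),
        hyv _ Q hQs, if_pos rfl, sub_self]
    exact ⟨h, (hQ.2 _ hz).symm.trans h⟩
  have h : (1 : E × E) = ((((1 : E × E) - Y).1, 0) + (0, ((1 : E × E) - Y).2)) + Y := by
    ext <;> simp
  rw [h]
  exact J.add_mem (J.add_mem (hfst hz.1.1 fun Q hQ => (hv Q hQ).1)
    (hsnd hz.1.2 fun Q hQ => (hv Q hQ).2)) hYJ

variable (D) in
/-- `p / hat ^ d` is integral in the other chart and congruent to `1` modulo `hat⁻¹`. -/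
def InvMonic (p : E) (d : ℕ) : Prop :=
  ((p * (D.hat ^ d)⁻¹, p * (D.hat ^ d)⁻¹) : E × E) ∈ D.inv.RR ∧
    ((D.hat * (p * (D.hat ^ d)⁻¹ - 1), D.hat * (p * (D.hat ^ d)⁻¹ - 1)) : E × E) ∈ D.inv.RR

theorem invMonic_one : D.InvMonic 1 0 := by
  refine ⟨?_, ?_⟩
  · rw [pow_zero, inv_one, mul_one]; exact RR_one
  · rw [pow_zero, inv_one, mul_one, sub_self, mul_zero]; exact D.inv.RR.zero_mem

theorem invMonic_hat_sub [Infinite k] (c : k) : D.InvMonic (D.hat - algebraMap k E c) 1 := by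
  have hh := hat_mem_RR (D := D.inv)
  rw [D.hat_inv] at hh
  have e1 : ((D.hat - algebraMap k E c) * (D.hat ^ 1)⁻¹,
      (D.hat - algebraMap k E c) * (D.hat ^ 1)⁻¹) = (1 : E × E) - c • (D.hat⁻¹, D.hat⁻¹) := by
    rw [pow_one, sub_mul, mul_inv_cancel₀ D.hat_ne_zero]
    ext <;> simp [Algebra.smul_def]
  refine ⟨by rw [e1]; exact D.inv.RR.sub_mem RR_one (D.inv.RR.smul_mem _ hh), ?_⟩
  have e2 : D.hat * ((D.hat - algebraMap k E c) * (D.hat ^ 1)⁻¹ - 1) = -algebraMap k E c := by
    rw [pow_one]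
    field_simp [D.hat_ne_zero]
    ring
  rw [e2]
  have e3 : ((-algebraMap k E c, -algebraMap k E c) : E × E) = -(c • (1 : E × E)) := by
    ext <;> simp [Algebra.smul_def]
  rw [e3]
  exact D.inv.RR.neg_mem (D.inv.RR.smul_mem _ RR_one)

theorem InvMonic.mul {p p' : E} {d d' : ℕ} (hp : D.InvMonic p d) (hp' : D.InvMonic p' d') :
    D.InvMonic (p * p') (d + d') := by
  have e1 : p * p' * (D.hat ^ (d + d'))⁻¹ = (p * (D.hat ^ d)⁻¹) * (p' * (D.hat ^ d')⁻¹) := by
    rw [pow_add, mul_inv]; ring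
  refine ⟨by rw [e1]; exact RR_mul hp.1 hp'.1, ?_⟩
  rw [e1, show D.hat * (p * (D.hat ^ d)⁻¹ * (p' * (D.hat ^ d')⁻¹) - 1) =
    (p * (D.hat ^ d)⁻¹) * (D.hat * (p' * (D.hat ^ d')⁻¹ - 1)) +
      D.hat * (p * (D.hat ^ d)⁻¹ - 1) by ring]
  exact D.inv.RR.add_mem (RR_mul hp.1 hp'.2) hp.2

theorem monic_frobPoly_mul {p : E} {d : ℕ} (hp : D.Monic p d) (hreg : RegAway (K := k) D.tau p) :
    D.frobPoly * p ∈ (polesLe D.tau (q ^ 2 + (q + 1) * d) : Submodule k E) ∧
      D.frobPoly * p ≠ 0 ∧ ∀ Q : Place k E, Q.ord D.tau < 0 →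
        Q.ord (D.frobPoly * p) = ((q ^ 2 + (q + 1) * d : ℕ) : ℤ) * Q.ord D.tau := by
  have hord : ∀ Q : Place k E, Q.ord D.tau < 0 → Q.ord p = ((q + 1) * d : ℕ) * Q.ord D.tau := by
    intro Q hQ
    have h := (hp.ord_eq hQ).1
    rw [Q.ord_mul hp.ne_zero (inv_ne_zero (pow_ne_zero _ D.hat_ne_zero)), Q.ord_inv, FF.ord_pow,
      D.ord_hat] at h
    push_cast at h ⊢
    linarith
  have hpm : p ∈ (polesLe D.tau ((q + 1) * d) : Submodule k E) := by
    refine D.param.curveBar.mem_polesLe.mpr fun Q => ?_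
    rcases le_or_gt 0 (Q.ord D.tau) with hQ | hQ
    · exact (hreg Q hQ).mono (by rw [max_eq_left (by omega)]; simp)
    · exact Or.inr (by rw [hord Q hQ, max_eq_right (by omega), mul_neg, neg_neg])
  refine ⟨D.param.curveBar.mul_mem_polesLe D.frobPoly_mem hpm,
    mul_ne_zero D.frobPoly_ne_zero hp.ne_zero, fun Q hQ => ?_⟩
  rw [Q.ord_mul D.frobPoly_ne_zero hp.ne_zero, (D.frobPoly_ord hQ).2, hord Q hQ]
  push_cast
  ring

/-- The product of linear factors attached to a divisor in the disc of `T`. -/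
theorem exists_discPoly [Infinite k] (Z : Divisor K F)
    (hdisc : ∀ P, Z P ≠ 0 → IsDisc A D.T P) :
    ∃ (y : F) (p : E) (d : ℕ), y ∈ D.V ∧ y ∈ (polesLe D.T d : Submodule K F) ∧
      D.red y = (p, p) ∧ RegAway (K := k) D.tau p ∧ D.Monic p d ∧ D.InvMonic p d ∧
      ∀ P, Z P ≠ 0 → Vanish P y (Z P) := by
  classical
  suffices h : ∀ s : Finset (Place K F), (∀ P ∈ s, IsDisc A D.T P) →
      ∃ (y : F) (p : E) (d : ℕ), y ∈ D.V ∧ y ∈ (polesLe D.T d : Submodule K F) ∧
        D.red y = (p, p) ∧ RegAway (K := k) D.tau p ∧ D.Monic p d ∧ D.InvMonic p d ∧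
        ∀ P ∈ s, Vanish P y (Z P) by
    obtain ⟨y, p, d, h1, h2, h3, h4, h5, h6, h7⟩ :=
      h Z.support (fun P hP => hdisc P (Finsupp.mem_support_iff.mp hP))
    exact ⟨y, p, d, h1, h2, h3, h4, h5, h6, fun P hP => h7 P (Finsupp.mem_support_iff.mpr hP)⟩
  intro s
  induction s using Finset.induction with
  | empty =>
    intro _
    exact ⟨1, 1, 0, D.V.one_mem, D.curve.one_mem_polesLe _ _, red_one, fun _ _ => Vanish.one,
      monic_one, invMonic_one, by simp⟩
  | insert a s ha ih =>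
    intro hs
    obtain ⟨y, p, d, h1, h2, h3, h4, h5, h6, h7⟩ := ih fun P hP => hs P (Finset.mem_insert_of_mem hP)
    have hdA := hs a (Finset.mem_insert_self a s)
    set c : A := ⟨valAt a D.T, hdA.2⟩
    set l := linFactor A D.T (c : K) with hl
    set n := (Z a).toNat
    obtain ⟨r, hr, hr', hr''⟩ : ∃ r : E, D.red (l ^ n) = (r, r) ∧ RegAway (K := k) D.tau r ∧
        D.Monic r n ∧ D.InvMonic r n := by
      refine ⟨(D.hat - algebraMap k E (π c)) ^ n, ?_, fun Q hQ => ?_, ?_⟩
      · rw [red_pow (D.linFactor_mem _), D.red_linFactor_of_mem, Prod.pow_mk]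
      · simpa using ((D.regAway_hat Q hQ).sub (Vanish.const (π c))).pow n
      · induction n with
        | zero => exact ⟨by simpa using monic_one, by simpa using invMonic_one⟩
        | succ n ihn =>
          rw [pow_succ]
          exact ⟨ihn.1.mul (monic_hat_sub _), ihn.2.mul (invMonic_hat_sub _)⟩
    refine ⟨y * l ^ n, p * r, d + n, D.V.mul_mem h1 (pow_mem (D.linFactor_mem _) n), ?_, ?_,
      regAway_mul h4 hr', h5.mul hr''.1, h6.mul hr''.2, fun P hP => ?_⟩
    · refine D.curve.mul_mem_polesLe h2 ?_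
      simpa using D.curve.pow_mem_polesLe (D.linFactor_mem_polesLe (c : K)) n
    · rw [red_mul h1 (pow_mem (D.linFactor_mem _) n), h3, hr]
      rfl
    · rcases Finset.mem_insert.mp hP with rfl | hP
      · have hy0 : Vanish P y 0 := D.curve.regAway_of_mem_polesLe h2 P hdA.1
        refine (hy0.mul ((D.vanish_linFactor hdA.1).pow n)).mono ?_
        omega
      · have hP0 := (hs P (Finset.mem_insert_of_mem hP)).1
        refine ((h7 P hP).mul (n := 0) ?_).mono (by simp)
        simpa using ((D.curve.regAway_of_mem_polesLe (D.linFactor_mem_polesLe (c : K))) P hP0).pow n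

end Data

end FLTAgent.Lift
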