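import Fermat.Agent.Lift.Reg

/-!
# Many torsion classes whose normalised reductions are powers

A class killed by `n` is `Good` if a representative has unit content on both components and both
reductions are `n`-th powers. The obstructions (orders modulo `n` at the crossings and the two
restrictions to the small curve, `obstruction`) vanish on a large subgroup, whose multiple by an
exponent of the kernel of `frob² - 1` on `Pic0 k E` consists of good classes (`exists_good_nsmul`).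
Counting with `genus_eq` gives `exists_good_subgroup`.
-/

set_option autoImplicit false
set_option linter.style.haveILetI false
set_option linter.unusedSectionVars false

noncomputable section

open AlgebraicCurve SemilinearAut Module

namespace FLTAgent.Lift

open FLTAgent.Reduction

section Generic

variable {K F : Type*} [Field K] [Field F] [Algebra K F] {g : ℕ}

theorem eq_smul_of_divOf_eq (hC : CurveData K F g) {f f' : F} (hf : f ≠ 0) (hf' : f' ≠ 0)
    (h : (divOf f' : Divisor K F) = divOf f) : ∃ c : K, c ≠ 0 ∧ f' = c • f := by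
  obtain ⟨c, hc⟩ := hC.const (f' * f⁻¹) fun v => by
    rw [v.ord_mul hf' (inv_ne_zero hf), v.ord_inv, ← hC.divOf_apply, ← hC.divOf_apply, h]
    omega
  refine ⟨c, ?_, ?_⟩
  · rintro rfl
    rw [map_zero] at hc
    exact mul_ne_zero hf' (inv_ne_zero hf) hc.symm
  · rw [Algebra.smul_def, hc, mul_assoc, inv_mul_cancel₀ hf, mul_one]

theorem divOf_pow (hC : CurveData K F g) (f : F) (n : ℕ) :
    (divOf (f ^ n) : Divisor K F) = (n : ℤ) • divOf f :=
  Finsupp.ext fun v => by
    rw [Finsupp.smul_apply, hC.divOf_apply, hC.divOf_apply, FF.ord_pow, smul_eq_mul]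

theorem degree_eq_zero_of_smul (hC : CurveData K F g) {n : ℕ} (hn : n ≠ 0) {Z : Divisor K F}
    {f : F} (h : (n : ℤ) • Z = divOf f) : Z ∈ Divisor.degZero (K := K) (F := F) := by
  have h1 := congrArg Divisor.degree h
  rw [map_zsmul, hC.degree_divOf, smul_eq_mul] at h1
  exact (mul_eq_zero.mp h1).resolve_left (by exact_mod_cast hn)

theorem zsmul_cancel {α : Type*} {n : ℕ} (hn : n ≠ 0) {Z W : α →₀ ℤ}
    (h : (n : ℤ) • Z = (n : ℤ) • W) : Z = W :=
  Finsupp.ext fun a => by
    have := DFunLike.congr_fun h a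
    simp only [Finsupp.smul_apply, smul_eq_mul] at this
    exact mul_left_cancel₀ (by exact_mod_cast hn) this

theorem exists_divide {α : Type*} {n : ℕ} {Z : α →₀ ℤ} (h : ∀ a, (n : ℤ) ∣ Z a) :
    ∃ W : α →₀ ℤ, (n : ℤ) • W = Z := by
  refine ⟨Z.mapRange (· / (n : ℤ)) (Int.zero_ediv _), Finsupp.ext fun a => ?_⟩
  rw [Finsupp.smul_apply, Finsupp.mapRange_apply, smul_eq_mul, Int.mul_ediv_cancel' (h a)]

theorem pic0_mk_eq_zero {Z : Divisor.degZero (K := K) (F := F)} :
    Pic0.mk Z = 0 ↔ (Z : Divisor K F) ∈ Divisor.principal (K := K) (F := F) :=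
  (QuotientAddGroup.eq_zero_iff Z).trans AddSubgroup.mem_addSubgroupOf

theorem pic0_mk_eq_iff {Z W : Divisor.degZero (K := K) (F := F)} :
    Pic0.mk Z = Pic0.mk W ↔
      ((W : Divisor K F) - Z) ∈ Divisor.principal (K := K) (F := F) := by
  rw [show Pic0.mk Z = Pic0.mk W ↔ Pic0.mk (W - Z) = 0 from
    ⟨fun h => by
      show QuotientAddGroup.mk (W - Z) = _
      rw [QuotientAddGroup.mk_sub]
      exact sub_eq_zero.mpr h.symm, fun h => by
      have h' : (QuotientAddGroup.mk (W - Z) : Pic0 K F) = 0 := h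
      rw [QuotientAddGroup.mk_sub] at h'
      exact (sub_eq_zero.mp h').symm⟩, pic0_mk_eq_zero]
  rfl

end Generic

namespace Data

variable {K k F F₀ E : Type*} [Field K] [Field k] [Field F] [Field F₀] [Field E] [Algebra K F]
  [Algebra K F₀] [Algebra k E] {A : ValuationSubring K} {π : A →+* k} {q g g' : ℕ}
variable (D : Data A π q F F₀ E g g')

/-- A representative of a class killed by `n`, with the function whose divisor is `n` times it. -/
structure IsRep (n : ℕ) (z : Pic0 K F) (Z : Divisor.degZero (K := K) (F := F)) (f : F) :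
    Prop where
  mk_eq : Pic0.mk Z = z
  ne_zero : f ≠ 0
  div_eq : (n : ℤ) • (Z : Divisor K F) = divOf f

/-- A representative with unit content on both components and power reductions. -/
structure Good (n : ℕ) (z : Pic0 K F) where
  Z : Divisor.degZero (K := K) (F := F)
  f : F
  w1 : E
  w0 : E
  rep : IsRep n z Z f
  mem : f ∈ D.V
  w1_ne : w1 ≠ 0
  w0_ne : w0 ≠ 0
  red_eq : D.red f = (w1 ^ n, w0 ^ n)

variable {D}

theorem isRep_congr {n : ℕ} {z : Pic0 K F} {Z : Divisor.degZero (K := K) (F := F)} {f : F}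
    (h : IsRep n z Z f) {Z' : Divisor.degZero (K := K) (F := F)} {f' : F} (h' : IsRep n z Z' f')
    (hC : CurveData K F g) :
    ∃ (c : K) (u : F), c ≠ 0 ∧ u ≠ 0 ∧ f' = c • (f * u ^ n) := by
  obtain ⟨u, hu, huv⟩ := pic0_mk_eq_iff.mp (h.mk_eq.trans h'.mk_eq.symm)
  have e : (divOf f' : Divisor K F) = divOf (f * u ^ n) := by
    rw [hC.divOf_mul h.ne_zero (pow_ne_zero _ hu), divOf_pow hC, ← h.div_eq, ← h'.div_eq,
      ← smul_add]
    congr 1
    exact Finsupp.ext fun v => by
      rw [Finsupp.add_apply, hC.divOf_apply, ← huv v, Finsupp.sub_apply]; ring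
  obtain ⟨c, hc, hcf⟩ := eq_smul_of_divOf_eq hC (mul_ne_zero h.ne_zero (pow_ne_zero _ hu))
    h'.ne_zero e
  exact ⟨c, u, hc, hu, hcf⟩

theorem IsRep.add {n : ℕ} {z z' : Pic0 K F} {Z Z' : Divisor.degZero (K := K) (F := F)} {f f' : F}
    (h : IsRep n z Z f) (h' : IsRep n z' Z' f') (hC : CurveData K F g) :
    IsRep n (z + z') (Z + Z') (f * f') :=
  ⟨by rw [Pic0.mk_add, h.mk_eq, h'.mk_eq], mul_ne_zero h.ne_zero h'.ne_zero, by
    rw [AddSubgroup.coe_add, smul_add, h.div_eq, h'.div_eq, hC.divOf_mul h.ne_zero h'.ne_zero]⟩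

theorem exists_isRep {n : ℕ} {z : Pic0 K F} (hz : z ∈ Pic0.torsion K F n) (hC : CurveData K F g) :
    ∃ Z f, IsRep n z Z f := by
  obtain ⟨Z, rfl⟩ := Pic0.mk_surjective z
  rw [Pic0.mem_torsion] at hz
  have h1 : Pic0.mk ((n : ℤ) • Z) = 0 := by
    show (QuotientAddGroup.mk ((n : ℤ) • Z) : Pic0 K F) = 0
    rw [QuotientAddGroup.mk_zsmul]
    exact hz
  obtain ⟨f, hf, hfv⟩ := pic0_mk_eq_zero.mp h1
  exact ⟨Z, f, rfl, hf, Finsupp.ext fun v => by rw [hC.divOf_apply, ← hfv v]; rfl⟩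

open Classical in
theorem sDiv_apply_true [Infinite k] {f : F} (hf : f ≠ 0) (z : Place k E) :
    D.sDiv f (true, z) = D.dI f z + (if z ∈ D.X then D.dZ f (D.frob • z) else 0) := by
  obtain ⟨c, hc⟩ := exists_normal_inf (D := D) hf
  obtain ⟨c', hc'⟩ := exists_normal_zero (D := D) hf
  have h : D.sDiv f = D.rdiv (D.Ginf.red (c • f), D.Gzero.red (c' • f)) := by
    rw [sDiv, dI_eq hc, dZ_eq hc']; rfl
  rw [h, rdiv_apply_true, dI_eq hc, dZ_eq hc', D.param.curveBar.divOf_apply,
    D.param.curveBar.divOf_apply]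

theorem sDiv_apply_false [Infinite k] {f : F} (hf : f ≠ 0) {z : Place k E}
    (h : D.IsCanon (false, z)) : D.sDiv f (false, z) = D.dZ f z := by
  obtain ⟨c, hc⟩ := exists_normal_inf (D := D) hf
  obtain ⟨c', hc'⟩ := exists_normal_zero (D := D) hf
  have h' : D.sDiv f = D.rdiv (D.Ginf.red (c • f), D.Gzero.red (c' • f)) := by
    rw [sDiv, dI_eq hc, dZ_eq hc']; rfl
  rw [h', rdiv_apply_false _ h, dZ_eq hc', D.param.curveBar.divOf_apply]

theorem spDiv_rep [Infinite k] {n : ℕ} {Z : Divisor K F} {f : F}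
    (h : (n : ℤ) • Z = divOf f) :
    D.spDiv f = (n : ℤ) • Finsupp.mapDomain D.sp Z := by
  rw [spDiv, ← h, Finsupp.mapDomain_smul]

theorem pA_push [Infinite k] (f : F) :
    Finsupp.mapDomain D.pA (D.sDiv f) = D.dI f + D.frob • D.dZ f := by
  rw [sDiv, Finsupp.mapDomain_add, ← Finsupp.mapDomain_comp, ← Finsupp.mapDomain_comp,
    show D.pA ∘ D.cls true = id from funext fun z => pA_cls_true z,
    show D.pA ∘ D.cls false = (D.frob • ·) from funext fun z => pA_cls_false z,
    Finsupp.mapDomain_id, SemilinearAut.divisor_smul_def]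

theorem pB_push [Infinite k] (f : F) :
    Finsupp.mapDomain D.pB (D.sDiv f) = D.frob • D.dI f + D.dZ f := by
  rw [sDiv, Finsupp.mapDomain_add, ← Finsupp.mapDomain_comp, ← Finsupp.mapDomain_comp,
    show D.pB ∘ D.cls true = (D.frob • ·) from funext fun z => pB_cls_true z,
    show D.pB ∘ D.cls false = id from funext fun z => pB_cls_false z,
    Finsupp.mapDomain_id, SemilinearAut.divisor_smul_def]

variable (D) in
/-- Restriction of classes along a map of places preserving principal divisors. -/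
def resPic (r : Place K F → Place K F₀)
    (hr : ∀ f : F, f ≠ 0 →
      Finsupp.mapDomain r (divOf f : Divisor K F) ∈ Divisor.principal (K := K) (F := F₀)) :
    Pic0 K F →+ Pic0 K F₀ :=
  QuotientAddGroup.map _ _
    (((Finsupp.mapDomain.addMonoidHom r).domRestrict
      (Divisor.degZero (K := K) (F := F))).codRestrict _ fun Z => by
        show Divisor.degree (Finsupp.mapDomain r (Z : Divisor K F)) = 0
        rw [D.param.curve.degree_eq_sum, Finsupp.sum_mapDomain_index (fun _ => rfl)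
          (fun _ _ _ => rfl), ← D.curve.degree_eq_sum]
        exact Z.2)
    (by
      rintro ⟨Z, hZ⟩ h
      simp only [AddSubgroup.mem_comap, AddSubgroup.mem_addSubgroupOf] at h ⊢
      obtain ⟨f, hf, hfv⟩ := h
      show Finsupp.mapDomain r Z ∈ Divisor.principal (K := K) (F := F₀)
      rw [show Z = divOf f from Finsupp.ext fun v => by rw [D.curve.divOf_apply]; exact hfv v]
      exact hr f hf)

theorem mapDomain_of_resPic_eq_zero {r : Place K F → Place K F₀}
    {hr : ∀ f : F, f ≠ 0 →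
      Finsupp.mapDomain r (divOf f : Divisor K F) ∈ Divisor.principal (K := K) (F := F₀)}
    {Z : Divisor.degZero (K := K) (F := F)} (h : D.resPic r hr (Pic0.mk Z) = 0) :
    Finsupp.mapDomain r (Z : Divisor K F) ∈ Divisor.principal (K := K) (F := F₀) :=
  pic0_mk_eq_zero (Z := ⟨Finsupp.mapDomain r (Z : Divisor K F), _⟩).mp h

variable (D) in
open Classical in
/-- The orders of the first normalised reduction at the glued points, modulo `n`. -/
def phi (n : ℕ) (Q : Place k E) (z : Pic0.torsion K F n) : ZMod n :=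
  D.dI (exists_isRep z.2 D.curve).choose_spec.choose Q

theorem phi_eq {n : ℕ} {z : Pic0.torsion K F n} {Z : Divisor.degZero (K := K) (F := F)} {f : F}
    (h : IsRep n (z : Pic0 K F) Z f) (Q : Place k E) : D.phi n Q z = (D.dI f Q : ZMod n) := by
  classical
  have h' := (exists_isRep z.2 D.curve).choose_spec.choose_spec
  unfold Data.phi
  obtain ⟨c, u, hc, hu, hfu⟩ := isRep_congr h h' D.curve
  rw [hfu, dI_smul hc (mul_ne_zero h.ne_zero (pow_ne_zero _ hu)),
    dI_mul h.ne_zero (pow_ne_zero _ hu), dI_pow hu]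
  simp

variable [IsAlgClosed K] [Infinite k]

theorem dvd_dI_of_notMem {n : ℕ} {z : Pic0 K F} {Z : Divisor.degZero (K := K) (F := F)} {f : F}
    (h : IsRep n z Z f) {Q : Place k E} (hQ : Q ∉ D.X) : (n : ℤ) ∣ D.dI f Q := by
  have h1 := DFunLike.congr_fun (spDiv_rep (D := D) h.div_eq) (true, Q)
  rw [spDiv_eq_sDiv h.ne_zero, sDiv_apply_true h.ne_zero, if_neg hQ, add_zero,
    Finsupp.smul_apply, smul_eq_mul] at h1
  exact ⟨_, h1⟩

/-- For a class in the kernel of the obstructions, both normalised divisors are `n` times divisors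
with principal pushforwards to the small curve. -/
theorem exists_halves {n : ℕ} (hn : n ≠ 0) {z : Pic0 K F}
    {Z : Divisor.degZero (K := K) (F := F)} {f : F} (h : IsRep n z Z f)
    (hphi : ∀ Q ∈ D.X, (n : ℤ) ∣ D.dI f Q)
    (hA : D.resPic D.resα D.principal_resα z = 0)
    (hB : D.resPic D.resβ D.principal_resβ z = 0) :
    ∃ c1 c0 : Divisor k E, (n : ℤ) • c1 = D.dI f ∧ (n : ℤ) • c0 = D.dZ f ∧
      c1 + D.frob • c0 ∈ Divisor.principal (K := k) (F := E) ∧
      D.frob • c1 + c0 ∈ Divisor.principal (K := k) (F := E) := by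
  obtain ⟨c1, hc1⟩ := exists_divide (n := n) (Z := D.dI f) fun Q => by
    by_cases hQ : Q ∈ D.X
    exacts [hphi Q hQ, dvd_dI_of_notMem h hQ]
  obtain ⟨c0, hc0⟩ := exists_divide (n := n) (Z := D.dZ f) fun Q => by
    by_cases hQ : D.IsCanon (false, Q)
    · have h1 := DFunLike.congr_fun (spDiv_rep (D := D) h.div_eq) (false, Q)
      rw [spDiv_eq_sDiv h.ne_zero, sDiv_apply_false h.ne_zero hQ, Finsupp.smul_apply,
        smul_eq_mul] at h1
      exact ⟨_, h1⟩
    · simp only [Data.IsCanon, not_not] at hQ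
      have hQX : D.frob⁻¹ • Q ∈ D.X := hQ.2
      have h1 := DFunLike.congr_fun (spDiv_rep (D := D) h.div_eq) (true, D.frob⁻¹ • Q)
      rw [spDiv_eq_sDiv h.ne_zero, sDiv_apply_true h.ne_zero, if_pos hQX, smul_inv_smul,
        Finsupp.smul_apply, smul_eq_mul] at h1
      exact (dvd_add_right (hphi _ hQX)).mp ⟨_, h1⟩
  refine ⟨c1, c0, hc1, hc0, ?_, ?_⟩
  · have h1 := D.param.isRed.mapDomain_principal
      (mapDomain_of_resPic_eq_zero (h.mk_eq ▸ hA : D.resPic _ _ (Pic0.mk Z) = 0))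
    rw [← Finsupp.mapDomain_comp,
      show redMap D.param ∘ D.resα = D.pA ∘ D.sp from funext fun P => redMap_resα P,
      Finsupp.mapDomain_comp] at h1
    convert h1 using 1
    refine zsmul_cancel hn ?_
    rw [← Finsupp.mapDomain_smul, ← spDiv_rep h.div_eq, spDiv_eq_sDiv h.ne_zero, pA_push,
      ← hc1, ← hc0, smul_add]
    congr 1
    exact (map_zsmul (DistribSMul.toAddMonoidHom (Divisor k E) D.frob) _ _).symm
  · have h1 := D.param.isRed.mapDomain_principal
      (mapDomain_of_resPic_eq_zero (h.mk_eq ▸ hB : D.resPic _ _ (Pic0.mk Z) = 0))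
    rw [← Finsupp.mapDomain_comp,
      show redMap D.param ∘ D.resβ = D.pB ∘ D.sp from funext fun P => redMap_resβ P,
      Finsupp.mapDomain_comp] at h1
    convert h1 using 1
    refine zsmul_cancel hn ?_
    rw [← Finsupp.mapDomain_smul, ← spDiv_rep h.div_eq, spDiv_eq_sDiv h.ne_zero, pB_push,
      ← hc1, ← hc0, smul_add]
    congr 1
    exact (map_zsmul (DistribSMul.toAddMonoidHom (Divisor k E) D.frob) _ _).symm

/-- If both normalised divisors are `n` times principal ones, the class is good. -/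
theorem exists_good [IsAlgClosed k] {n : ℕ} (hn : n ≠ 0) {z : Pic0 K F}
    {Z : Divisor.degZero (K := K) (F := F)} {f : F} (h : IsRep n z Z f) {c1 c0 : Divisor k E}
    (h1 : (n : ℤ) • c1 = D.dI f) (h0 : (n : ℤ) • c0 = D.dZ f)
    (p1 : c1 ∈ Divisor.principal (K := k) (F := E))
    (p0 : c0 ∈ Divisor.principal (K := k) (F := E)) : Nonempty (D.Good n z) := by
  obtain ⟨v1, hv1, hv1'⟩ := p1
  obtain ⟨v0, hv0, hv0'⟩ := p0
  obtain ⟨u, c, hc, hu, hV, hr1, hr0⟩ := exists_eq_pow (D := D) h.ne_zero (Nat.pos_of_ne_zero hn)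
  set f' := c • f * (u ^ n)⁻¹ with hf'
  have hf'0 : f' ≠ 0 := fun h0 => hr1 (by rw [h0, D.Ginf.red_zero])
  have hcf : c • f ≠ 0 := smul_ne_zero hc h.ne_zero
  have hui : (u ^ n)⁻¹ = (u⁻¹) ^ n := (inv_pow u n).symm
  have hdiv : (n : ℤ) • ((Z : Divisor K F) - divOf u) = divOf f' := by
    rw [hf', D.curve.divOf_mul hcf (inv_ne_zero (pow_ne_zero _ hu)), D.curve.divOf_inv,
      divOf_pow D.curve, divOf_smul_const D.curve hc h.ne_zero, ← h.div_eq, smul_sub, sub_eq_add_neg]
  let Z' : Divisor.degZero (K := K) (F := F) :=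
    ⟨(Z : Divisor K F) - divOf u, degree_eq_zero_of_smul D.curve hn hdiv⟩
  have hrep : IsRep n z Z' f' := by
    refine ⟨(pic0_mk_eq_iff.mpr ?_).trans h.mk_eq, hf'0, hdiv⟩
    rw [show ((Z : Divisor K F) - ((Z : Divisor K F) - divOf u)) = divOf u by abel]
    exact D.curve.isPrincipal_divOf hu
  have hroot : ∀ (w v : E) (c' : Divisor k E), w ≠ 0 → v ≠ 0 → (∀ Q, c' Q = Q.ord v) →
      divOf w = (n : ℤ) • c' → ∃ ω : E, ω ≠ 0 ∧ w = ω ^ n := by
    intro w v c' hw hv hv' he
    have e : (divOf w : Divisor k E) = divOf (v ^ n) := by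
      rw [he, divOf_pow D.param.curveBar]
      congr 1
      exact Finsupp.ext fun Q => by rw [D.param.curveBar.divOf_apply, hv' Q]
    obtain ⟨a, ha, hwa⟩ :=
      eq_smul_of_divOf_eq D.param.curveBar (pow_ne_zero n hv) hw e
    obtain ⟨b, hb⟩ := IsAlgClosed.exists_pow_nat_eq a (Nat.pos_of_ne_zero hn)
    refine ⟨b • v, smul_ne_zero (fun hb0 => ha ?_) hv, by rw [smul_pow, hb, hwa]⟩
    rw [← hb, hb0, zero_pow hn]
  have hI : D.dI f' = D.dI f - (n : ℤ) • D.dI u := by
    rw [hf', dI_mul hcf (inv_ne_zero (pow_ne_zero _ hu)), dI_inv (pow_ne_zero _ hu), dI_pow hu,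
      dI_smul hc h.ne_zero, sub_eq_add_neg]
  have hZ : D.dZ f' = D.dZ f - (n : ℤ) • D.dZ u := by
    rw [hf', dZ_mul hcf (inv_ne_zero (pow_ne_zero _ hu)), dZ_inv (pow_ne_zero _ hu), dZ_pow hu,
      dZ_smul hc h.ne_zero, sub_eq_add_neg]
  obtain ⟨a1, ha1⟩ := exists_normal_inf (D := D) hu
  obtain ⟨a0, ha0⟩ := exists_normal_zero (D := D) hu
  obtain ⟨w1, hw1, e1⟩ := hroot (D.Ginf.red f') (v1 * (D.Ginf.red (a1 • u))⁻¹)
    (c1 - D.dI u) hr1 (mul_ne_zero hv1 (inv_ne_zero ha1.2)) (fun Q => by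
      rw [Finsupp.sub_apply, dI_eq ha1, D.param.curveBar.divOf_apply, hv1' Q,
        Q.ord_mul hv1 (inv_ne_zero ha1.2), Q.ord_inv]
      ring) (by rw [← dI_of_mem hV.1 hr1, hI, ← h1, smul_sub])
  obtain ⟨w0, hw0, e0⟩ := hroot (D.Gzero.red f') (v0 * (D.Gzero.red (a0 • u))⁻¹)
    (c0 - D.dZ u) hr0 (mul_ne_zero hv0 (inv_ne_zero ha0.2)) (fun Q => by
      rw [Finsupp.sub_apply, dZ_eq ha0, D.param.curveBar.divOf_apply, hv0' Q,
        Q.ord_mul hv0 (inv_ne_zero ha0.2), Q.ord_inv]
      ring) (by rw [← dZ_of_mem hV.2 hr0, hZ, ← h0, smul_sub])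
  exact ⟨⟨Z', f', w1, w0, hrep, hV, hw1, hw0, Prod.ext e1 e0⟩⟩

variable (D) in
/-- All the obstructions at once. -/
def obstruction (n : ℕ) (Q₀ : Place k E) : Pic0.torsion K F n →+
    ({Q : Place k E // Q ∈ D.Xfin ∧ Q ≠ Q₀} → ZMod n) × Pic0.torsion K F₀ n ×
      Pic0.torsion K F₀ n :=
  AddMonoidHom.mk' (fun z =>
    (fun Q => D.phi n Q.1 z,
      ⟨D.resPic D.resα D.principal_resα z, Pic0.mem_torsion.mpr (by
        rw [← map_zsmul, Pic0.mem_torsion.mp z.2, map_zero])⟩,
      ⟨D.resPic D.resβ D.principal_resβ z, Pic0.mem_torsion.mpr (by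
        rw [← map_zsmul, Pic0.mem_torsion.mp z.2, map_zero])⟩))
    fun z z' => by
      obtain ⟨Z, f, h⟩ := exists_isRep z.2 D.curve
      obtain ⟨Z', f', h'⟩ := exists_isRep z'.2 D.curve
      refine Prod.ext (funext fun Q => ?_) (Prod.ext (Subtype.ext ?_) (Subtype.ext ?_))
      · simp only [Prod.fst_add, Pi.add_apply, phi_eq h, phi_eq h',
          phi_eq (z := z + z') (h.add h' D.curve), dI_mul h.ne_zero h'.ne_zero,
          Finsupp.add_apply, Int.cast_add]
      · simp
      · simp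

theorem dvd_of_obstruction {n : ℕ} {Q₀ : Place k E} {z : Pic0.torsion K F n}
    (hz : D.obstruction n Q₀ z = 0) {Z : Divisor.degZero (K := K) (F := F)} {f : F}
    (h : IsRep n (z : Pic0 K F) Z f) : ∀ Q ∈ D.X, (n : ℤ) ∣ D.dI f Q := by
  classical
  have hQ : ∀ Q, Q ∈ D.Xfin → Q ≠ Q₀ → (n : ℤ) ∣ D.dI f Q := fun Q h1 h2 => by
    have h3 := congrFun (congrArg Prod.fst hz) ⟨Q, h1, h2⟩
    change D.phi n Q z = 0 at h3
    rw [phi_eq h, ZMod.intCast_zmod_eq_zero_iff_dvd] at h3
    exact h3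
  intro Q hQX
  by_cases he : Q = Q₀
  · subst he
    have hs : ∀ R, R ≠ Q → (n : ℤ) ∣ D.dI f R := fun R hR => by
      by_cases hX : R ∈ D.X
      exacts [hQ R (mem_Xfin.mpr hX) hR, dvd_dI_of_notMem h hX]
    have hdeg := degree_dI (D := D) h.ne_zero
    rw [D.param.curveBar.degree_eq_sum] at hdeg
    by_cases hsupp : Q ∈ (D.dI f).support
    · rw [Finsupp.sum, ← Finset.add_sum_erase _ _ hsupp] at hdeg
      have hd : (n : ℤ) ∣ ∑ R ∈ (D.dI f).support.erase Q, D.dI f R :=
        Finset.dvd_sum fun R hR => hs R (Finset.mem_erase.mp hR).1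
      exact (dvd_add_left hd).mp (by rw [hdeg]; exact dvd_zero _)
    · rw [Finsupp.notMem_support_iff.mp hsupp]; exact dvd_zero _
  · exact hQ Q (mem_Xfin.mpr hQX) he

/-- Multiplication by the exponent of the Frobenius-square fixed part lands in the good classes. -/
theorem exists_good_nsmul [IsAlgClosed k] {n : ℕ} (hn : n ≠ 0) {B : ℕ}
    (hfix : ∀ x : Pic0 k E, D.frob • D.frob • x = x → B • x = 0) {Q₀ : Place k E}
    {z : Pic0.torsion K F n} (hz : D.obstruction n Q₀ z = 0) :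
    Nonempty (D.Good n (B • (z : Pic0 K F))) := by
  obtain ⟨Z, f, h⟩ := exists_isRep z.2 D.curve
  obtain ⟨c1, c0, h1, h0, hA, hB⟩ := exists_halves hn h (dvd_of_obstruction hz h)
    (congrArg Subtype.val (congrArg (fun t => t.2.1) hz))
    (congrArg Subtype.val (congrArg (fun t => t.2.2) hz))
  have hd0 : c0 ∈ Divisor.degZero (K := k) (F := E) := by
    have h2 := congrArg Divisor.degree h0
    rw [map_zsmul, degree_dZ h.ne_zero, smul_eq_mul] at h2
    exact (mul_eq_zero.mp h2).resolve_left (by exact_mod_cast hn)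
  have hfix0 : D.frob • D.frob • Pic0.mk (⟨c0, hd0⟩ : Divisor.degZero (K := k) (F := E)) =
      Pic0.mk ⟨c0, hd0⟩ := by
    rw [pic0_smul_mk, pic0_smul_mk, pic0_mk_eq_iff]
    show c0 - D.frob • D.frob • c0 ∈ _
    have e : c0 - D.frob • D.frob • c0 =
        (D.frob • c1 + c0) - D.frob • (c1 + D.frob • c0) := by
      rw [smul_add]; abel
    rw [e]
    exact sub_mem hB (smul_mem_principal _ hA)
  have hB0 : B • c0 ∈ Divisor.principal (K := k) (F := E) := by
    have h2 := hfix _ hfix0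
    have h3 : Pic0.mk (B • (⟨c0, hd0⟩ : Divisor.degZero (K := k) (F := E))) = 0 := by
      show (QuotientAddGroup.mk _ : Pic0 k E) = 0
      rw [QuotientAddGroup.mk_nsmul]
      exact h2
    exact pic0_mk_eq_zero.mp h3
  have hB1 : B • c1 ∈ Divisor.principal (K := k) (F := E) := by
    have e : B • c1 = B • (c1 + D.frob • c0) - D.frob • (B • c0) := by
      have e2 : D.frob • (B • c0) = B • (D.frob • c0) :=
        map_nsmul (DistribSMul.toAddMonoidHom (Divisor k E) D.frob) B c0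
      rw [smul_add, e2]
      exact (add_sub_cancel_right _ _).symm
    rw [e]
    exact sub_mem (AddSubgroup.nsmul_mem _ hA B) (smul_mem_principal _ hB0)
  have hrep : IsRep n (B • (z : Pic0 K F)) (B • Z) (f ^ B) := by
    refine ⟨?_, pow_ne_zero _ h.ne_zero, ?_⟩
    · show (QuotientAddGroup.mk _ : Pic0 K F) = _
      rw [QuotientAddGroup.mk_nsmul]
      exact congrArg (B • ·) h.mk_eq
    · rw [divOf_pow D.curve, ← h.div_eq, AddSubgroupClass.coe_nsmul, smul_comm]
      simp [natCast_zsmul]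
  refine exists_good hn hrep (c1 := B • c1) (c0 := B • c0) ?_ ?_ hB1 hB0
  · rw [dI_pow h.ne_zero, ← h1, natCast_zsmul, natCast_zsmul, natCast_zsmul, smul_comm]
  · rw [dZ_pow h.ne_zero, ← h0, natCast_zsmul, natCast_zsmul, natCast_zsmul, smul_comm]

/-- There are many good classes. -/
theorem exists_good_subgroup [IsAlgClosed k] {p : ℕ} (hp : p.Prime)
    (hcard : ∀ m, Nat.card (Pic0.torsion K F (p ^ m)) = p ^ (2 * g * m))
    (hcard₀ : ∀ m, Nat.card (Pic0.torsion K F₀ (p ^ m)) = p ^ (2 * g' * m))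
    {B : ℕ} (hB : B ≠ 0) (hfix : ∀ x : Pic0 k E, D.frob • D.frob • x = x → B • x = 0)
    (hX : 1 ≤ D.nX) (m : ℕ) :
    ∃ S : AddSubgroup (Pic0 K F), S ≤ Pic0.torsion K F (p ^ m) ∧
      (∀ z ∈ S, Nonempty (D.Good (p ^ m) z)) ∧
      p ^ ((g - 2 * g') * m) ≤ Nat.card S * p ^ (2 * g * padicValNat p B) := by
  classical
  haveI := Fact.mk hp
  set n := p ^ m with hn
  have hn0 : n ≠ 0 := pow_ne_zero _ hp.ne_zero
  haveI : NeZero n := ⟨hn0⟩
  obtain ⟨Q₀, hQ₀⟩ : D.Xfin.Nonempty := Finset.card_pos.mp hX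
  set Θ := D.obstruction n Q₀ with hΘ
  haveI : Finite (Pic0.torsion K F n) :=
    Nat.finite_of_card_ne_zero (by rw [hn, hcard]; exact pow_ne_zero _ hp.ne_zero)
  haveI : Finite (Pic0.torsion K F₀ n) :=
    Nat.finite_of_card_ne_zero (by rw [hn, hcard₀]; exact pow_ne_zero _ hp.ne_zero)
  have hfs : ({Q : Place k E | Q ∈ D.Xfin ∧ Q ≠ Q₀}).Finite :=
    D.Xfin.finite_toSet.subset fun Q h => h.1
  haveI : Finite {Q : Place k E // Q ∈ D.Xfin ∧ Q ≠ Q₀} := hfs.to_subtype
  have hsub : Nat.card {Q : Place k E // Q ∈ D.Xfin ∧ Q ≠ Q₀} = D.nX - 1 := by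
    rw [Nat.card_congr (Equiv.subtypeEquivRight (q := fun Q => Q ∈ D.Xfin.erase Q₀)
      fun Q => by rw [Finset.mem_erase, and_comm]), Nat.card_eq_finsetCard,
      Finset.card_erase_of_mem hQ₀]
    rfl
  have hΘcard : Nat.card Θ.range ≤ p ^ ((D.nX - 1) * m + (2 * g' * m + 2 * g' * m)) := by
    refine le_trans (Nat.card_le_card_of_injective Θ.range.subtype Subtype.val_injective) ?_
    rw [Nat.card_prod, Nat.card_prod, Nat.card_fun, Nat.card_zmod, hsub, hn, hcard₀, ← pow_mul,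
      ← pow_add, ← pow_add, mul_comm m]
  have hker : p ^ (2 * g * m) = Nat.card Θ.ker * Nat.card Θ.range := by
    rw [← hcard, ← hn, AddSubgroup.card_eq_card_quotient_mul_card_addSubgroup Θ.ker,
      Nat.card_congr (QuotientAddGroup.quotientKerEquivRange Θ).toEquiv, mul_comm]
  have hgen : g + 1 = 2 * g' + D.nX := by exact_mod_cast genus_eq (D := D)
  set ι : Θ.ker →+ Pic0 K F :=
    (nsmulAddMonoidHom B).comp ((Pic0.torsion K F n).subtype.comp Θ.ker.subtype) with hι
  refine ⟨ι.range, ?_, ?_, ?_⟩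
  · rintro _ ⟨z, rfl⟩
    exact AddSubgroup.nsmul_mem _ z.1.2 B
  · rintro _ ⟨z, rfl⟩
    exact exists_good_nsmul hn0 hfix z.2
  set v := padicValNat p B with hv
  haveI : Finite (Pic0.torsion K F (p ^ v)) :=
    Nat.finite_of_card_ne_zero (by rw [hcard]; exact pow_ne_zero _ hp.ne_zero)
  have hιker : Nat.card ι.ker ≤ p ^ (2 * g * v) := by
    rw [← hcard]
    refine Nat.card_le_card_of_injective (fun z => ⟨((z.1.1 : Pic0.torsion K F n) : Pic0 K F), ?_⟩)
      fun a b h => Subtype.ext (Subtype.ext (Subtype.ext (congrArg Subtype.val h :)))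
    set x := ((z.1.1 : Pic0.torsion K F n) : Pic0 K F) with hx
    have h1 : addOrderOf x ∣ B := addOrderOf_dvd_of_nsmul_eq_zero z.2
    have h2 : addOrderOf x ∣ n := addOrderOf_dvd_of_nsmul_eq_zero (by
      have := Pic0.mem_torsion.mp z.1.1.2
      rwa [natCast_zsmul] at this)
    obtain ⟨i, -, hi⟩ := (Nat.dvd_prime_pow hp).mp h2
    have h3 : i ≤ v := by
      rw [hi] at h1
      exact (padicValNat_dvd_iff_le hB).mp h1
    rw [Pic0.mem_torsion, natCast_zsmul]
    exact addOrderOf_dvd_iff_nsmul_eq_zero.mp (hi ▸ pow_dvd_pow p h3)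
  have hcι : Nat.card Θ.ker = Nat.card ι.range * Nat.card ι.ker := by
    rw [AddSubgroup.card_eq_card_quotient_mul_card_addSubgroup ι.ker,
      Nat.card_congr (QuotientAddGroup.quotientKerEquivRange ι).toEquiv]
  have h5 : p ^ ((g - 2 * g') * m) * p ^ ((D.nX - 1) * m + (2 * g' * m + 2 * g' * m)) ≤
      Nat.card ι.range * p ^ (2 * g * v) *
        p ^ ((D.nX - 1) * m + (2 * g' * m + 2 * g' * m)) := by
    rw [← pow_add, show (g - 2 * g') * m + ((D.nX - 1) * m + (2 * g' * m + 2 * g' * m)) =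
      2 * g * m by
      rw [← add_mul, ← add_mul, ← add_mul]
      congr 1
      omega, hker, hcι]
    exact Nat.mul_le_mul (Nat.mul_le_mul_left _ hιker) hΘcard
  exact Nat.le_of_mul_le_mul_right h5 (pow_pos hp.pos _)

end Data

end FLTAgent.Lift
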