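import Fermat.Agent.Lift.Invariants

/-!
# Gluing labels of good classes

A witness `Wit n z μ` is a section of the class `z` whose values on the two branches at each
crossing have ratio `μ`, the label. Labels exist (`Good.exists_wit`, using points in general
position, `exists_pos`), multiply under addition (`Wit.add`), are constant for the zero class
(`Wit.zero_const`) and are unique up to a constant (`Wit.unique`).
-/

set_option autoImplicit false
set_option linter.style.haveILetI false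
set_option linter.unusedSectionVars false

noncomputable section

open AlgebraicCurve SemilinearAut Module

namespace FLTAgent.Lift

open FLTAgent.Reduction

section Generic

variable {K F : Type*} [Field K] [Field F] [Algebra K F] {g : ℕ}

theorem vanish_of_pow {v : Place K F} {f : F} {n : ℕ} (hn : n ≠ 0) (h : Vanish v (f ^ n) 0) :
    Vanish v f 0 := by
  rw [Vanish.zero_iff, FF.ord_pow] at h
  exact Vanish.zero_iff.mpr (nonneg_of_mul_nonneg_right h (by exact_mod_cast Nat.pos_of_ne_zero hn))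

theorem valAt_pow' (hC : CurveData K F g) {v : Place K F} {f : F} (h : Vanish v f 0) (n : ℕ) :
    valAt v (f ^ n) = valAt v f ^ n := by
  induction n with
  | zero => simp [valAt_one]
  | succ n ih => rw [pow_succ, hC.valAt_mul (by simpa using h.pow n) h, ih, pow_succ]

/-- Effective divisors in general position, relative to a base divisor. -/
theorem exists_general_position_rel (hC : CurveData K F g) {T : Set (Place K F)} (hT : T.Infinite)
    {W : Divisor K F} (hW : 0 ≤ W) (hW0 : W ≠ 0) :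
    ∃ s : Finset (Place K F), ↑s ⊆ T ∧ (s.card : ℤ) + 1 = g + Divisor.degree W ∧
      ell (∑ v ∈ s, Finsupp.single v (1 : ℤ) - W) = 0 := by
  classical
  obtain ⟨C, hCC⟩ := hC.exists_C
  set w := Divisor.degree W with hw
  obtain ⟨Q₀, hQ₀⟩ : ∃ Q, W Q ≠ 0 := Finsupp.ne_iff.mp hW0
  have hwpos : 1 ≤ w := by
    have h1 : Finsupp.single Q₀ (1 : ℤ) ≤ W := fun v => by
      have := hW v
      rw [Finsupp.zero_apply] at this
      rw [Finsupp.single_apply]
      split_ifs with he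
      · subst he; omega
      · exact this
    have := hC.degree_mono h1
    rwa [hC.degree_single] at this
  have hbot : ∀ f : F, f ∈ riemannRochSpace (-W) → f = 0 := by
    intro f hf
    obtain ⟨c, hc⟩ := CurveData.L_zero_eq_one hC (f := f)
      (CurveData.L_mono (neg_nonpos.mpr hW) hf)
    by_contra hne
    have := (mem_L_iff.mp hf Q₀).resolve_left hne
    rw [← hc, FF.ord_algebraMap, Finsupp.neg_apply, neg_neg] at this
    have := hW Q₀
    rw [Finsupp.zero_apply] at this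
    omega
  set N := (max (g + w) (C + w)).toNat with hN
  obtain ⟨U, hU, hUc⟩ := hT.exists_subset_card_eq N
  suffices h : ∀ n : ℕ, ∀ U : Finset (Place K F), ↑U ⊆ T → (U.card : ℤ) + 1 = g + w + n →
      (ell (∑ v ∈ U, Finsupp.single v (1 : ℤ) - W) : ℤ) = U.card - w + 1 - g →
      ∃ s : Finset (Place K F), ↑s ⊆ T ∧ (s.card : ℤ) + 1 = g + w ∧
        ell (∑ v ∈ s, Finsupp.single v (1 : ℤ) - W) = 0 by
    refine h (N + 1 - (g + w).toNat) U hU (by omega) ?_
    have hdeg : Divisor.degree (∑ v ∈ U, Finsupp.single v (1 : ℤ) - W) = U.card - w := by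
      rw [map_sub, map_sum]
      simp [hC.degree_single, hw]
    rw [hCC _ (by omega), hdeg]
  intro n
  induction n with
  | zero => exact fun U hU hc he => ⟨U, hU, by omega, by omega⟩
  | succ n ih =>
    intro U hU hc he
    obtain ⟨u, hu, hne⟩ : ∃ u ∈ U,
        ell (∑ v ∈ U, Finsupp.single v (1 : ℤ) - W - Finsupp.single u 1) <
          ell (∑ v ∈ U, Finsupp.single v (1 : ℤ) - W) := by
      by_contra hall
      push Not at hall
      have heq : ∀ u ∈ U, riemannRochSpace (∑ v ∈ U, Finsupp.single v (1 : ℤ) - W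
          - Finsupp.single u 1) = riemannRochSpace (∑ v ∈ U, Finsupp.single v (1 : ℤ) - W) :=
        fun u hu => by
          haveI := hC.finite_L' (∑ v ∈ U, Finsupp.single v (1 : ℤ) - W)
          exact Submodule.eq_of_le_of_finrank_le
            (CurveData.L_mono (sub_le_self _ (Finsupp.single_nonneg.mpr zero_le_one))) (hall u hu)
      haveI := hC.finite_L' (∑ v ∈ U, Finsupp.single v (1 : ℤ) - W)
      obtain ⟨⟨f, hf⟩, hf0⟩ : ∃ f : riemannRochSpace (∑ v ∈ U, Finsupp.single v (1 : ℤ) - W),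
          f ≠ 0 := by
        have hp : 0 < finrank K
            (riemannRochSpace (∑ v ∈ U, Finsupp.single v (1 : ℤ) - W)) := by
          unfold ell at he
          omega
        haveI := Module.finrank_pos_iff.mp hp
        exact exists_ne 0
      refine hf0 (Subtype.ext (hbot f (mem_L_iff.mpr fun v => ?_)))
      by_cases hv : v ∈ U
      · have := mem_L_iff.mp ((heq v hv).symm ▸ hf) v
        simp only [Finsupp.sub_apply, Finsupp.finsetSum_apply, Finsupp.single_apply,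
          Finset.sum_ite_eq', hv, if_true] at this
        rw [Finsupp.neg_apply]
        exact this.mono (by omega)
      · have := mem_L_iff.mp hf v
        simp only [Finsupp.sub_apply, Finsupp.finsetSum_apply, Finsupp.single_apply,
          Finset.sum_ite_eq', hv, if_false] at this
        rw [Finsupp.neg_apply]
        exact this.mono (by omega)
    have h1 := hC.ell_sub_single (∑ v ∈ U, Finsupp.single v (1 : ℤ) - W) u
    have e : ∑ v ∈ U.erase u, Finsupp.single v (1 : ℤ) - W =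
        ∑ v ∈ U, Finsupp.single v (1 : ℤ) - W - Finsupp.single u 1 := by
      rw [← Finset.add_sum_erase _ _ hu]
      abel
    refine ih (U.erase u) (fun x hx => hU (Finset.mem_of_mem_erase hx)) ?_ ?_
    · rw [Finset.card_erase_of_mem hu]
      have := Finset.card_pos.mpr ⟨u, hu⟩
      omega
    · rw [e, Finset.card_erase_of_mem hu]
      have := Finset.card_pos.mpr ⟨u, hu⟩
      omega

end Generic

namespace Data

variable {K k F F₀ E : Type*} [Field K] [Field k] [Field F] [Field F₀] [Field E] [Algebra K F]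
  [Algebra K F₀] [Algebra k E] {A : ValuationSubring K} {π : A →+* k} {q g g' : ℕ}
variable (D : Data A π q F F₀ E g g')

/-- A section of the class away from the glued points, and the ratio of its two values there. -/
structure Wit [Infinite k] (n : ℕ) (z : Pic0 K F) (μ : Place k E → k) where
  good : D.Good n z
  h : F
  G : Divisor K F
  h_mem : h ∈ D.V
  G_nonneg : 0 ≤ G
  bound : ∀ P, Vanish P h (-((good.Z : Divisor K F) P + G P))
  away : ∀ Q ∈ D.X, ∀ P, D.sp P = (true, Q) → G P = 0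
  val_ne : ∀ Q ∈ D.X, valAt Q (D.Ginf.red h * good.w1) ≠ 0
  glue : ∀ Q ∈ D.X,
    valAt (D.frob • Q) (D.Gzero.red h * good.w0) = μ Q * valAt Q (D.Ginf.red h * good.w1)

/-- Points in general position on both components, with lifts. -/
structure Pos [Infinite k] where
  S : Finset (Cls k E)
  D0 : Divisor K F
  ord_mem : ∀ c ∈ S, c.2 ∈ Data.Ord D
  nonneg : 0 ≤ D0
  deg : Divisor.degree D0 = g
  push : Finsupp.mapDomain D.sp D0 = ∑ c ∈ S, Finsupp.single c (1 : ℤ)
  supp : ∀ P, D0 P ≠ 0 → D.sp P ∈ S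
  constL : ∀ w : E, (∀ z, ((true, z) ∈ S → Vanish z w (-1)) ∧ ((true, z) ∉ S → Vanish z w 0)) →
    ∃ a : k, w = algebraMap k E a
  zeroL : ∀ w : E, (∀ z, ((false, z) ∈ S → Vanish z w (-1)) ∧ ((false, z) ∉ S → Vanish z w 0)) →
    (∀ Q ∈ D.X, Vanish (D.frob • Q) w 1) → w = 0

variable {D}

variable [Infinite k]

theorem exists_pos (hX : 1 ≤ D.nX) : Nonempty D.Pos := by
  classical
  have hC := D.param.curveBar
  obtain ⟨Q₀, hQ₀⟩ : D.Xfin.Nonempty := Finset.card_pos.mp hX
  obtain ⟨S1, hS1, hc1, hl1⟩ := hC.exists_general_position (ord_infinite (D := D))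
  set W : Divisor k E := ∑ Q ∈ D.Xfin, Finsupp.single (D.frob • Q) (1 : ℤ) with hW
  have hWv : ∀ v, W v = if D.frob⁻¹ • v ∈ D.Xfin then 1 else 0 := fun v => by
    rw [hW, Finsupp.finsetSum_apply, Finset.sum_congr rfl (fun Q _ => by
      rw [Finsupp.single_apply, show (D.frob • Q = v) = (Q = D.frob⁻¹ • v) from propext
        eq_inv_smul_iff.symm]), Finset.sum_ite_eq']
  have hW0 : 0 ≤ W := Finset.sum_nonneg fun _ _ => Finsupp.single_nonneg.mpr zero_le_one
  have hWne : W ≠ 0 := fun h => by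
    have h1 := hWv (D.frob • Q₀)
    rw [inv_smul_smul, if_pos hQ₀, h] at h1
    exact zero_ne_one h1
  have hWdeg : Divisor.degree W = D.nX := by
    rw [hW, map_sum]
    simp [hC.degree_single, Data.nX]
  obtain ⟨S0, hS0, hc0, hl0⟩ := exists_general_position_rel hC (ord_infinite (D := D)) hW0 hWne
  set S : Finset (Cls k E) := S1.image (fun z => (true, z)) ∪ S0.image (fun z => (false, z))
    with hS
  have hmem1 : ∀ z, (true, z) ∈ S ↔ z ∈ S1 := fun z => by simp [hS]
  have hmem0 : ∀ z, (false, z) ∈ S ↔ z ∈ S0 := fun z => by simp [hS]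
  have hord : ∀ c ∈ S, c.2 ∈ Data.Ord D := fun c hc => by
    obtain ⟨b, z⟩ := c
    cases b
    exacts [hS0 ((hmem0 z).mp hc), hS1 ((hmem1 z).mp hc)]
  choose P hP using fun c : S =>
    exists_sp_eq (D := D) (c := c.1) (isCanon_ord (hord c.1 c.2) _) (hord c.1 c.2).1
  set D0 : Divisor K F := ∑ c : S, Finsupp.single (P c) (1 : ℤ) with hD0
  have hcard : (S.card : ℤ) = g := by
    rw [hS, Finset.card_union_of_disjoint, Finset.card_image_of_injective _
      (fun a b h => (Prod.mk.inj h).2), Finset.card_image_of_injective _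
      (fun a b h => (Prod.mk.inj h).2)]
    · have := genus_eq (D := D)
      rw [hWdeg] at hc0
      push_cast
      omega
    · rw [Finset.disjoint_left]
      simp
  refine ⟨⟨S, D0, hord, Finset.sum_nonneg fun _ _ => Finsupp.single_nonneg.mpr zero_le_one, ?_,
    ?_, ?_, ?_, ?_⟩⟩
  · rw [hD0, map_sum]
    simpa [D.curve.degree_single] using hcard
  · rw [hD0, Finsupp.mapDomain_finsetSum, ← Finset.sum_coe_sort S]
    exact Finset.sum_congr rfl fun c _ => by rw [Finsupp.mapDomain_single, hP]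
  · intro R hR
    rw [hD0, Finsupp.finsetSum_apply] at hR
    obtain ⟨c, -, hc⟩ := Finset.exists_ne_zero_of_sum_ne_zero hR
    rw [Finsupp.single_apply] at hc
    split_ifs at hc with he
    · rw [← he, hP]; exact c.2
    · exact absurd rfl hc
  · intro w hw
    haveI := hC.finite_L' (∑ v ∈ S1, Finsupp.single v (1 : ℤ))
    have h1 : (1 : E) ∈ riemannRochSpace (∑ v ∈ S1, Finsupp.single v (1 : ℤ) : Divisor k E) :=
      CurveData.one_mem_L (Finset.sum_nonneg fun _ _ => Finsupp.single_nonneg.mpr zero_le_one)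
    have heq := Submodule.eq_of_le_of_finrank_eq
      ((Submodule.span_singleton_le_iff_mem 1 _).mpr h1)
      (by rw [finrank_span_singleton (K := k) (one_ne_zero : (1 : E) ≠ 0)]; exact hl1.symm)
    have hwL : w ∈ riemannRochSpace (∑ v ∈ S1, Finsupp.single v (1 : ℤ) : Divisor k E) := by
      refine mem_L_iff.mpr fun v => ?_
      simp only [Finsupp.finsetSum_apply, Finsupp.single_apply, Finset.sum_ite_eq']
      by_cases hv : v ∈ S1
      · simpa [hv] using (hw v).1 ((hmem1 v).mpr hv)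
      · simpa [hv] using (hw v).2 fun h => hv ((hmem1 v).mp h)
    rw [← heq] at hwL
    obtain ⟨a, ha⟩ := Submodule.mem_span_singleton.mp hwL
    exact ⟨a, by rw [← ha, Algebra.algebraMap_eq_smul_one]⟩
  · intro w hw hwX
    haveI := hC.finite_L' (∑ v ∈ S0, Finsupp.single v (1 : ℤ) - W)
    have hwL : w ∈ riemannRochSpace (∑ v ∈ S0, Finsupp.single v (1 : ℤ) - W) := by
      refine mem_L_iff.mpr fun v => ?_
      simp only [Finsupp.sub_apply, hWv, Finsupp.finsetSum_apply, Finsupp.single_apply,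
        Finset.sum_ite_eq', mem_Xfin]
      by_cases hv : v ∈ S0
      · have hX' : D.frob⁻¹ • v ∉ D.X := (hS0 hv).2.2
        simpa [hv, hX'] using (hw v).1 ((hmem0 v).mpr hv)
      · by_cases hX' : D.frob⁻¹ • v ∈ D.X
        · have := hwX _ hX'
          rw [smul_inv_smul] at this
          simpa [hv, hX'] using this
        · simpa [hv, hX'] using (hw v).2 fun h => hv ((hmem0 v).mp h)
    have hbot : riemannRochSpace (∑ v ∈ S0, Finsupp.single v (1 : ℤ) - W) = ⊥ :=
      Submodule.finrank_eq_zero.mp hl0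
    rw [hbot] at hwL
    exact (Submodule.mem_bot k).mp hwL

/-- Regularity of the section on a fibre free of poles. -/
theorem Good.regAt {n : ℕ} {z : Pic0 K F} (gd : D.Good n z) {h : F} (hh : h ∈ D.V)
    {G : Divisor K F} (hb : ∀ P, Vanish P h (-((gd.Z : Divisor K F) P + G P))) {c : Cls k E}
    (hc : D.IsCanon c) (hG : ∀ P, D.sp P = c → G P = 0) :
    D.RegAt ((D.Ginf.red h * gd.w1) ^ n, (D.Gzero.red h * gd.w0) ^ n) c := by
  have hV : h ^ n * gd.f ∈ D.V := D.V.mul_mem (pow_mem hh n) gd.mem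
  have hred : D.red (h ^ n * gd.f) =
      ((D.Ginf.red h * gd.w1) ^ n, (D.Gzero.red h * gd.w0) ^ n) := by
    rw [red_mul (pow_mem hh n) gd.mem, red_pow hh, gd.red_eq]
    exact Prod.ext (mul_pow _ _ _).symm (mul_pow _ _ _).symm
  rw [← hred]
  refine reg_of_noPole hc hV fun P hP => ?_
  refine (((hb P).pow n).mul (Vanish.self gd.f)).mono ?_
  rw [← D.curve.divOf_apply, ← gd.rep.div_eq, Finsupp.smul_apply, hG P hP, smul_eq_mul]
  exact le_of_eq (by ring)

theorem Good.regAt_glued {n : ℕ} (hn : n ≠ 0) {z : Pic0 K F} (gd : D.Good n z) {h : F}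
    (hh : h ∈ D.V) {G : Divisor K F} (hb : ∀ P, Vanish P h (-((gd.Z : Divisor K F) P + G P)))
    {Q : Place k E} (hQ : Q ∈ D.X) (hG : ∀ P, D.sp P = (true, Q) → G P = 0) :
    Vanish Q (D.Ginf.red h * gd.w1) 0 ∧ Vanish (D.frob • Q) (D.Gzero.red h * gd.w0) 0 ∧
      valAt Q (D.Ginf.red h * gd.w1) ^ n = valAt (D.frob • Q) (D.Gzero.red h * gd.w0) ^ n := by
  obtain ⟨h1, h2⟩ := gd.regAt hh hb (isCanon_true Q) hG
  obtain ⟨h3, h4⟩ := h2 rfl hQ
  have h1' := vanish_of_pow hn (h1 : Vanish Q ((D.Ginf.red h * gd.w1) ^ n) 0)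
  have h3' := vanish_of_pow hn h3
  refine ⟨h1', h3', ?_⟩
  rwa [← valAt_pow' D.param.curveBar h1', ← valAt_pow' D.param.curveBar h3']

namespace Wit

variable {n : ℕ} {z z' : Pic0 K F} {μ μ' : Place k E → k}

theorem reg (W : D.Wit n z μ) (hn : n ≠ 0) {Q : Place k E} (hQ : Q ∈ D.X) :
    Vanish Q (D.Ginf.red W.h * W.good.w1) 0 ∧
      Vanish (D.frob • Q) (D.Gzero.red W.h * W.good.w0) 0 ∧
      valAt Q (D.Ginf.red W.h * W.good.w1) ^ n =
        valAt (D.frob • Q) (D.Gzero.red W.h * W.good.w0) ^ n :=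
  W.good.regAt_glued hn W.h_mem W.bound hQ (W.away Q hQ)

theorem mu_ne (W : D.Wit n z μ) (hn : n ≠ 0) {Q : Place k E} (hQ : Q ∈ D.X) : μ Q ≠ 0 := by
  intro h
  have h1 := (W.reg hn hQ).2.2
  rw [W.glue Q hQ, h, zero_mul, zero_pow hn] at h1
  exact W.val_ne Q hQ ((pow_eq_zero_iff hn).mp h1)

end Wit

/-- The sum of two good classes. -/
def Good.add {n : ℕ} {z z' : Pic0 K F} (a : D.Good n z) (b : D.Good n z') :
    D.Good n (z + z') where
  Z := a.Z + b.Z
  f := a.f * b.f
  w1 := a.w1 * b.w1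
  w0 := a.w0 * b.w0
  rep := a.rep.add b.rep D.curve
  mem := D.V.mul_mem a.mem b.mem
  w1_ne := mul_ne_zero a.w1_ne b.w1_ne
  w0_ne := mul_ne_zero a.w0_ne b.w0_ne
  red_eq := by
    rw [red_mul a.mem b.mem, a.red_eq, b.red_eq]
    exact Prod.ext (mul_pow _ _ _).symm (mul_pow _ _ _).symm

/-- The opposite of a good class. -/
theorem Good.neg {n : ℕ} {z : Pic0 K F} (a : D.Good n z) : Nonempty (D.Good n (-z)) := by
  have h1 : D.Ginf.red a.f ≠ 0 := by
    rw [show D.Ginf.red a.f = a.w1 ^ n from congrArg Prod.fst a.red_eq]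
    exact pow_ne_zero _ a.w1_ne
  have h2 : D.Gzero.red a.f ≠ 0 := by
    rw [show D.Gzero.red a.f = a.w0 ^ n from congrArg Prod.snd a.red_eq]
    exact pow_ne_zero _ a.w0_ne
  refine ⟨⟨-a.Z, a.f⁻¹, a.w1⁻¹, a.w0⁻¹, ⟨?_, inv_ne_zero a.rep.ne_zero, ?_⟩,
    inv_mem a.mem h1 h2, inv_ne_zero a.w1_ne, inv_ne_zero a.w0_ne, ?_⟩⟩
  · show (QuotientAddGroup.mk (-a.Z) : Pic0 K F) = -z
    rw [QuotientAddGroup.mk_neg]
    exact congrArg Neg.neg a.rep.mk_eq
  · rw [NegMemClass.coe_neg, smul_neg, a.rep.div_eq, D.curve.divOf_inv]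
  · rw [red_inv a.mem h1 h2, a.red_eq]
    exact Prod.ext (inv_pow _ _).symm (inv_pow _ _).symm

/-- The product of two sections. -/
theorem Wit.add {n : ℕ} (hn : n ≠ 0) {z z' : Pic0 K F} {μ μ' : Place k E → k}
    (W : D.Wit n z μ) (W' : D.Wit n z' μ') : Nonempty (D.Wit n (z + z') (μ * μ')) := by
  have e1 : D.Ginf.red (W.h * W'.h) * (W.good.add W'.good).w1 =
      (D.Ginf.red W.h * W.good.w1) * (D.Ginf.red W'.h * W'.good.w1) := by
    rw [D.Ginf.red_mul W.h_mem.1 W'.h_mem.1]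
    exact mul_mul_mul_comm _ _ _ _
  have e0 : D.Gzero.red (W.h * W'.h) * (W.good.add W'.good).w0 =
      (D.Gzero.red W.h * W.good.w0) * (D.Gzero.red W'.h * W'.good.w0) := by
    rw [D.Gzero.red_mul W.h_mem.2 W'.h_mem.2]
    exact mul_mul_mul_comm _ _ _ _
  refine ⟨⟨W.good.add W'.good, W.h * W'.h, W.G + W'.G, D.V.mul_mem W.h_mem W'.h_mem,
    add_nonneg W.G_nonneg W'.G_nonneg, fun P => ?_,
    fun Q hQ P hP => by rw [Finsupp.add_apply, W.away Q hQ P hP, W'.away Q hQ P hP, add_zero],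
    fun Q hQ => ?_, fun Q hQ => ?_⟩⟩
  · refine ((W.bound P).mul (W'.bound P)).mono ?_
    show -((W.good.Z + W'.good.Z : Divisor.degZero (K := K) (F := F)).1 P + (W.G + W'.G) P) ≤ _
    rw [AddSubgroup.coe_add, Finsupp.add_apply, Finsupp.add_apply]
    omega
  · rw [e1, D.param.curveBar.valAt_mul (W.reg hn hQ).1 (W'.reg hn hQ).1]
    exact mul_ne_zero (W.val_ne Q hQ) (W'.val_ne Q hQ)
  · rw [e0, e1, D.param.curveBar.valAt_mul (W.reg hn hQ).2.1 (W'.reg hn hQ).2.1,
      D.param.curveBar.valAt_mul (W.reg hn hQ).1 (W'.reg hn hQ).1, W.glue Q hQ, W'.glue Q hQ,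
      Pi.mul_apply]
    ring

theorem normal_of_pow {G : GaussRed A π F E}
    (hs : ∀ f : F, f ≠ 0 → ∃ c : K, c ≠ 0 ∧ c • f ∈ G.V ∧ G.red (c • f) ≠ 0) {u : F} {n : ℕ}
    (hn : n ≠ 0) (h : u ^ n ∈ G.V) (h0 : G.red (u ^ n) ≠ 0) : u ∈ G.V ∧ G.red u ≠ 0 := by
  have hu : u ≠ 0 := fun e => h0 (by rw [e, zero_pow hn, G.red_zero])
  obtain ⟨c, hc, hcV, hcr⟩ := hs u hu
  have hN : IsNormal G (c ^ n) (u ^ n) := by
    unfold IsNormal
    rw [← smul_pow]
    exact ⟨pow_mem hcV n, by rw [G.red_pow hcV]; exact pow_ne_zero _ hcr⟩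
  have h1 : IsNormal G 1 (u ^ n) := ⟨by rwa [one_smul], by rwa [one_smul]⟩
  obtain ⟨a, ha, hca⟩ := hN.exists_unit h1
  have hci : c⁻¹ ∈ A := by
    rcases A.mem_or_inv_mem c with hm | hm
    · have e : c⁻¹ = (a : K) * c ^ (n - 1) := by
        have e2 : c ^ n = c ^ (n - 1) * c := by rw [← pow_succ]; congr 1; omega
        rw [e2] at hca
        field_simp
        linear_combination hca
      rw [e]
      exact A.mul_mem _ _ a.2 (A.toSubring.pow_mem hm _)
    · exact hm
  have e : u = c⁻¹ • (c • u) := by rw [smul_smul, inv_mul_cancel₀ hc, one_smul]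
  refine ⟨e ▸ G.smul_mem' hci hcV, fun h' => h0 ?_⟩
  rw [G.red_pow (e ▸ G.smul_mem' hci hcV), h', zero_pow hn]

include D in
theorem const_of_pow_eq {w v : E} {n : ℕ} (hn : n ≠ 0) (hw : w ≠ 0) (hv : v ≠ 0)
    (h : w ^ n = v ^ n) : ∃ a : k, a ≠ 0 ∧ w = a • v := by
  refine eq_smul_of_divOf_eq D.param.curveBar hv hw (zsmul_cancel hn ?_)
  rw [← divOf_pow D.param.curveBar, ← divOf_pow D.param.curveBar, h]

/-- The label of the zero class is constant. -/
theorem Wit.zero_const [IsAlgClosed K] {n : ℕ} (hn : n ≠ 0) {μ : Place k E → k}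
    (W : D.Wit n (0 : Pic0 K F) μ) : ∃ a : k, ∀ Q ∈ D.X, μ Q = a := by
  obtain ⟨v, hv, hvZ⟩ := pic0_mk_eq_zero.mp W.good.rep.mk_eq
  have hZ : (W.good.Z : Divisor K F) = divOf v :=
    Finsupp.ext fun P => by rw [D.curve.divOf_apply, hvZ P]
  obtain ⟨c, hc, hcf⟩ := eq_smul_of_divOf_eq D.curve (pow_ne_zero n hv) W.good.rep.ne_zero
    (by rw [divOf_pow D.curve, ← hZ, W.good.rep.div_eq])
  obtain ⟨e, he⟩ := IsAlgClosed.exists_pow_nat_eq c (Nat.pos_of_ne_zero hn)
  have he0 : e ≠ 0 := fun h => hc (by rw [← he, h, zero_pow hn])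
  set u : F := e • v with hu
  have hpow : u ^ n = W.good.f := by rw [hu, smul_pow, he, hcf]
  have hredf := W.good.red_eq
  obtain ⟨u1, u1r⟩ := normal_of_pow D.scale_inf hn (hpow ▸ W.good.mem.1) (by
    rw [hpow, show D.Ginf.red W.good.f = W.good.w1 ^ n from congrArg Prod.fst hredf]
    exact pow_ne_zero _ W.good.w1_ne)
  obtain ⟨u0, u0r⟩ := normal_of_pow D.scale_zero hn (hpow ▸ W.good.mem.2) (by
    rw [hpow, show D.Gzero.red W.good.f = W.good.w0 ^ n from congrArg Prod.snd hredf]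
    exact pow_ne_zero _ W.good.w0_ne)
  obtain ⟨a1, ha1, e1⟩ := const_of_pow_eq (D := D) hn W.good.w1_ne u1r (by
    rw [← D.Ginf.red_pow u1, hpow]; exact (congrArg Prod.fst hredf).symm)
  obtain ⟨a0, -, e0⟩ := const_of_pow_eq (D := D) hn W.good.w0_ne u0r (by
    rw [← D.Gzero.red_pow u0, hpow]; exact (congrArg Prod.snd hredf).symm)
  refine ⟨a0 / a1, fun Q hQ => ?_⟩
  have hxV : W.h * u ∈ D.V := D.V.mul_mem W.h_mem ⟨u1, u0⟩
  obtain ⟨r1, r2⟩ := reg_of_noPole (isCanon_true Q) hxV fun P hP => by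
    refine ((W.bound P).mul (Vanish.self u)).mono ?_
    rw [hu, Algebra.smul_def, Place.ord_mul P (by simpa using he0) hv, FF.ord_algebraMap,
      hZ, D.curve.divOf_apply, W.away Q hQ P hP]
    omega
  obtain ⟨r2, r3⟩ := r2 rfl hQ
  have f1 : D.Ginf.red W.h * W.good.w1 = a1 • D.Ginf.red (W.h * u) := by
    rw [e1, D.Ginf.red_mul W.h_mem.1 u1, mul_smul_comm]
  have f0 : D.Gzero.red W.h * W.good.w0 = a0 • D.Gzero.red (W.h * u) := by
    rw [e0, D.Gzero.red_mul W.h_mem.2 u0, mul_smul_comm]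
  have hne := W.val_ne Q hQ
  have hg := W.glue Q hQ
  have r1' : Vanish Q (D.Ginf.red (W.h * u)) 0 := r1
  rw [f1, D.param.curveBar.valAt_smul _ r1'] at hne hg
  have r2' : Vanish (D.frob • Q) (D.Gzero.red (W.h * u)) 0 := r2
  rw [f0, D.param.curveBar.valAt_smul _ r2'] at hg
  have r3' : valAt Q (D.Ginf.red (W.h * u)) = valAt (D.frob • Q) (D.Gzero.red (W.h * u)) := r3
  rw [← r3'] at hg
  have hv' : valAt Q (D.Ginf.red (W.h * u)) ≠ 0 := right_ne_zero_of_mul hne
  rw [eq_div_iff ha1]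
  refine mul_right_cancel₀ hv' ?_
  linear_combination -hg

/-- The canonical section: constant on the first component. -/
theorem Good.exists_section [IsAlgClosed K] {n : ℕ} (hn : n ≠ 0) {z : Pic0 K F}
    (gd : D.Good n z) (P0 : D.Pos) :
    ∃ (h : F) (a : k), h ∈ D.V ∧ h ≠ 0 ∧ a ≠ 0 ∧
      (∀ P, Vanish P h (-((gd.Z : Divisor K F) P + P0.D0 P))) ∧
      D.Ginf.red h * gd.w1 = algebraMap k E a ∧
      ∀ y, ((false, y) ∈ P0.S → Vanish y (D.Gzero.red h * gd.w0) (-1)) ∧
        ((false, y) ∉ P0.S → Vanish y (D.Gzero.red h * gd.w0) 0) := by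
  classical
  haveI := D.curve.finite_L' ((gd.Z : Divisor K F) + P0.D0)
  have hpos : 0 < finrank K (riemannRochSpace ((gd.Z : Divisor K F) + P0.D0)) := by
    have := D.curve.riemann ((gd.Z : Divisor K F) + P0.D0)
    rw [map_add, P0.deg, show Divisor.degree (gd.Z : Divisor K F) = 0 from gd.Z.2] at this
    omega
  haveI := Module.finrank_pos_iff.mp hpos
  obtain ⟨⟨h₀, hh₀⟩, hne⟩ := exists_ne (0 : riemannRochSpace ((gd.Z : Divisor K F) + P0.D0))
  obtain ⟨c, hc, hcV, hcr⟩ := D.exists_scale (f := h₀) fun e => hne (Subtype.ext e)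
  set h := c • h₀ with hh
  have hb : ∀ P, Vanish P h (-((gd.Z : Divisor K F) P + P0.D0 P)) := fun P =>
    Vanish.smul c (by rw [← Finsupp.add_apply]; exact mem_L_iff.mp hh₀ P)
  have hhne : h ≠ 0 := ne_zero_of_red hcr
  set φ := h ^ n * gd.f with hφ
  have hφ0 : φ ≠ 0 := mul_ne_zero (pow_ne_zero _ hhne) gd.rep.ne_zero
  have hφV : φ ∈ D.V := D.V.mul_mem (pow_mem hcV n) gd.mem
  have hfree : ∀ cl : Cls k E, cl ∉ P0.S → ∀ P, D.sp P = cl → P0.D0 P = 0 := fun cl hcl P hP => by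
    by_contra hne
    exact hcl (hP ▸ P0.supp P hne)
  have hlow : ∀ cl ∈ P0.S, -(n : ℤ) ≤ D.spDiv φ cl := by
    intro cl hcl
    have h1 : 0 ≤ Finsupp.mapDomain D.sp ((divOf φ : Divisor K F) + (n : ℤ) • P0.D0) cl := by
      rw [mapDomain_apply_eq_sum]
      refine Finset.sum_nonneg fun P _ => ?_
      have h2 := ((hb P).pow n).mul (Vanish.self gd.f)
      have h3 := h2.resolve_left hφ0
      rw [Finsupp.add_apply, Finsupp.smul_apply, D.curve.divOf_apply, smul_eq_mul]
      rw [← D.curve.divOf_apply gd.f, ← gd.rep.div_eq, Finsupp.smul_apply, smul_eq_mul] at h3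
      nlinarith [h3]
    rw [Finsupp.mapDomain_add, Finsupp.mapDomain_smul, P0.push, Finsupp.add_apply,
      Finsupp.smul_apply, Finsupp.finsetSum_apply] at h1
    simp only [Finsupp.single_apply, Finset.sum_ite_eq', hcl, if_true, smul_eq_mul, mul_one] at h1
    show -(n : ℤ) ≤ Finsupp.mapDomain D.sp (divOf φ : Divisor K F) cl
    omega
  have hred1 : D.Ginf.red φ = (D.Ginf.red h * gd.w1) ^ n := by
    rw [hφ, D.Ginf.red_mul (pow_mem hcV.1 n) gd.mem.1, D.Ginf.red_pow hcV.1, mul_pow,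
      show D.Ginf.red gd.f = gd.w1 ^ n from congrArg Prod.fst gd.red_eq]
  have hred0 : D.Gzero.red φ = (D.Gzero.red h * gd.w0) ^ n := by
    rw [hφ, D.Gzero.red_mul (pow_mem hcV.2 n) gd.mem.2, D.Gzero.red_pow hcV.2, mul_pow,
      show D.Gzero.red gd.f = gd.w0 ^ n from congrArg Prod.snd gd.red_eq]
  have hnpos : (0 : ℤ) < n := by exact_mod_cast Nat.pos_of_ne_zero hn
  have hH1 : ∀ y, ((true, y) ∈ P0.S → Vanish y (D.Ginf.red h * gd.w1) (-1)) ∧
      ((true, y) ∉ P0.S → Vanish y (D.Ginf.red h * gd.w1) 0) := by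
    refine fun y => ⟨fun hy => ?_, fun hy => ?_⟩
    · by_cases h0 : D.Ginf.red h * gd.w1 = 0
      · exact Or.inl h0
      refine Or.inr ?_
      have h1 := hlow _ hy
      have hr : D.Ginf.red φ ≠ 0 := by rw [hred1]; exact pow_ne_zero _ h0
      have hyX : y ∉ D.X := (P0.ord_mem _ hy).2.1
      rw [spDiv_eq_sDiv hφ0, sDiv_apply_true hφ0, if_neg hyX, add_zero, dI_of_mem hφV.1 hr,
        D.param.curveBar.divOf_apply, hred1, FF.ord_pow] at h1
      exact le_of_mul_le_mul_left (by linarith) hnpos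
    · exact vanish_of_pow hn (gd.regAt hcV hb (isCanon_true y) (hfree _ hy)).1
  have hH0 : ∀ y, ((false, y) ∈ P0.S → Vanish y (D.Gzero.red h * gd.w0) (-1)) ∧
      ((false, y) ∉ P0.S → Vanish y (D.Gzero.red h * gd.w0) 0) := by
    refine fun y => ⟨fun hy => ?_, fun hy => ?_⟩
    · by_cases h0 : D.Gzero.red h * gd.w0 = 0
      · exact Or.inl h0
      refine Or.inr ?_
      have h1 := hlow _ hy
      have hr : D.Gzero.red φ ≠ 0 := by rw [hred0]; exact pow_ne_zero _ h0
      rw [spDiv_eq_sDiv hφ0, sDiv_apply_false hφ0 (isCanon_ord (P0.ord_mem _ hy) _),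
        dZ_of_mem hφV.2 hr, D.param.curveBar.divOf_apply, hred0, FF.ord_pow] at h1
      exact le_of_mul_le_mul_left (by linarith) hnpos
    · by_cases hcan : D.IsCanon (false, y)
      · exact vanish_of_pow hn (gd.regAt hcV hb hcan (hfree _ hy)).1
      · simp only [Data.IsCanon, not_not] at hcan
        have hQ : D.frob⁻¹ • y ∈ D.X := hcan.2
        have hQS : ((true, D.frob⁻¹ • y) : Cls k E) ∉ P0.S := fun h' => (P0.ord_mem _ h').2.1 hQ
        have := (gd.regAt_glued hn hcV hb hQ (hfree _ hQS)).2.1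
        rwa [smul_inv_smul] at this
  obtain ⟨a, ha⟩ := P0.constL _ hH1
  refine ⟨h, a, hcV, hhne, fun ha0 => ?_, hb, ha, hH0⟩
  rw [ha0, map_zero] at ha
  have h0 : D.Gzero.red h * gd.w0 = 0 := by
    refine P0.zeroL _ hH0 fun Q hQ => ?_
    have hQS : ((true, Q) : Cls k E) ∉ P0.S := fun h' => (P0.ord_mem _ h').2.1 hQ
    obtain ⟨-, r2, r3⟩ := gd.regAt_glued hn hcV hb hQ (hfree _ hQS)
    rw [ha, valAt_zero, zero_pow hn] at r3
    exact (D.param.curveBar.vanish_one_iff r2).mpr ((pow_eq_zero_iff hn).mp r3.symm)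
  exact hcr (Prod.ext ((mul_eq_zero.mp ha).resolve_right gd.w1_ne)
    ((mul_eq_zero.mp h0).resolve_right gd.w0_ne))

/-- Every good class has a label. -/
theorem Good.exists_wit [IsAlgClosed K] {n : ℕ} (hn : n ≠ 0) (hX : 1 ≤ D.nX) {z : Pic0 K F} (gd : D.Good n z) :
    ∃ μ, Nonempty (D.Wit n z μ) := by
  obtain ⟨P0⟩ := exists_pos hX
  obtain ⟨h, a, hV, -, ha, hb, h1, -⟩ := gd.exists_section hn P0
  refine ⟨fun Q => valAt (D.frob • Q) (D.Gzero.red h * gd.w0) / a,
    ⟨⟨gd, h, P0.D0, hV, P0.nonneg, hb, fun Q hQ P hP => ?_, fun Q _ => ?_, fun Q _ => ?_⟩⟩⟩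
  · by_contra hne
    have := (P0.ord_mem _ (hP ▸ P0.supp P hne)).2.1
    exact this hQ
  · rw [h1, valAt_algebraMap]; exact ha
  · rw [h1, valAt_algebraMap, div_mul_cancel₀ _ ha]

/-- The label is unique up to a constant. -/
theorem Wit.unique [IsAlgClosed K] {n : ℕ} (hn : n ≠ 0) (hX : 1 ≤ D.nX) {z : Pic0 K F}
    {μ μ' : Place k E → k} (W : D.Wit n z μ) (W' : D.Wit n z μ') :
    ∃ a : k, ∀ Q ∈ D.X, μ' Q = a * μ Q := by
  obtain ⟨gn⟩ := W.good.neg
  obtain ⟨ν, ⟨V⟩⟩ := gn.exists_wit hn hX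
  obtain ⟨U⟩ := W.add hn V
  obtain ⟨U'⟩ := W'.add hn V
  rw [add_neg_cancel] at U U'
  obtain ⟨a, ha⟩ := U.zero_const hn
  obtain ⟨a', ha'⟩ := U'.zero_const hn
  refine ⟨a' / a, fun Q hQ => ?_⟩
  have h1 := ha Q hQ
  have h2 := ha' Q hQ
  rw [Pi.mul_apply] at h1 h2
  have hν := V.mu_ne hn hQ
  have hane : a ≠ 0 := h1 ▸ mul_ne_zero (W.mu_ne hn hQ) hν
  field_simp
  refine mul_right_cancel₀ hν ?_
  linear_combination a * h2 - a' * h1

end Data

end FLTAgent.Lift
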