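import Fermat.Agent.Lift.Frob

/-!
# The pair of reductions

`V` is the ring of functions integral for both reductions and `red` the pair of reductions. A family
with linearly independent pairs (`PIndep`) has coefficients in `A` on integral combinations
(`PIndep.coeff_mem`), so reduction preserves the dimension of the subspaces it spans
(`finrank_redSub`). Also: a common scaling (`exists_scale`), and high powers of a function dying on
one component kill any function there (`exists_kill`).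
-/

set_option autoImplicit false
set_option linter.style.haveILetI false
set_option linter.unusedSectionVars false

noncomputable section

open AlgebraicCurve SemilinearAut Module
open scoped Matrix

namespace FLTAgent.Lift

open FLTAgent.Reduction

section Scale

variable {K k F Fb : Type*} [Field K] [Field k] [Field F] [Field Fb] [Algebra K F] [Algebra k Fb]
variable {A : ValuationSubring K} {π : A →+* k} (G : GaussRed A π F Fb)
  (hs : ∀ f : F, f ≠ 0 → ∃ c : K, c ≠ 0 ∧ c • f ∈ G.V ∧ G.red (c • f) ≠ 0)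

theorem mem_A_of_smul_mem {c : K} {u : F} (hu : u ∈ G.V) (hu0 : G.red u ≠ 0) (h : c • u ∈ G.V) :
    c ∈ A := by
  have h1 := G.V.mul_mem h (G.inv_mem hu hu0)
  rw [smul_mul_assoc, mul_inv_cancel₀ (G.ne_zero_of_red hu0)] at h1
  have h2 : G.RedIndep (fun _ : Fin 1 => (1 : F)) :=
    ⟨fun _ => G.V.one_mem, linearIndependent_unique_iff.mpr (by rw [G.red_one]; exact one_ne_zero)⟩
  exact h2.coeff_mem (c := fun _ => c) (by simpa using h1) 0

include hs in
theorem exists_eq_smul_of_scale {y : F} (hy : y ∈ G.V) (hy0 : y ≠ 0) :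
    ∃ (a : A) (u : F), (a : K) ≠ 0 ∧ u ∈ G.V ∧ G.red u ≠ 0 ∧ y = (a : K) • u := by
  obtain ⟨c, hc, hcV, hcred⟩ := hs y hy0
  have hy' : c⁻¹ • (c • y) = y := by rw [smul_smul, inv_mul_cancel₀ hc, one_smul]
  have hcA : c⁻¹ ∈ A := mem_A_of_smul_mem G hcV hcred (by rwa [hy'])
  exact ⟨⟨c⁻¹, hcA⟩, c • y, inv_ne_zero hc, hcV, hcred, hy'.symm⟩

end Scale

namespace Data

variable {K k F F₀ E : Type*} [Field K] [Field k] [Field F] [Field F₀] [Field E] [Algebra K F]
  [Algebra K F₀] [Algebra k E] {A : ValuationSubring K} {π : A →+* k} {q g g' : ℕ}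
variable (D : Data A π q F F₀ E g g')

/-- Functions integral for both reductions. -/
def V : Subring F := D.Ginf.V ⊓ D.Gzero.V

/-- The pair of reductions. -/
def red (f : F) : E × E := (D.Ginf.red f, D.Gzero.red f)

variable {D}

theorem mem_V {f : F} : f ∈ D.V ↔ f ∈ D.Ginf.V ∧ f ∈ D.Gzero.V := Iff.rfl

theorem red_fst (f : F) : (D.red f).1 = D.Ginf.red f := rfl

theorem red_snd (f : F) : (D.red f).2 = D.Gzero.red f := rfl

theorem red_zero : D.red 0 = 0 := Prod.ext D.Ginf.red_zero D.Gzero.red_zero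

theorem red_one : D.red 1 = 1 := Prod.ext D.Ginf.red_one D.Gzero.red_one

theorem red_add {f f' : F} (h : f ∈ D.V) (h' : f' ∈ D.V) : D.red (f + f') = D.red f + D.red f' :=
  Prod.ext (D.Ginf.red_add h.1 h'.1) (D.Gzero.red_add h.2 h'.2)

theorem red_sub {f f' : F} (h : f ∈ D.V) (h' : f' ∈ D.V) : D.red (f - f') = D.red f - D.red f' :=
  Prod.ext (D.Ginf.red_sub h.1 h'.1) (D.Gzero.red_sub h.2 h'.2)

theorem red_mul {f f' : F} (h : f ∈ D.V) (h' : f' ∈ D.V) : D.red (f * f') = D.red f * D.red f' :=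
  Prod.ext (D.Ginf.red_mul h.1 h'.1) (D.Gzero.red_mul h.2 h'.2)

theorem red_pow {f : F} (h : f ∈ D.V) (n : ℕ) : D.red (f ^ n) = D.red f ^ n :=
  Prod.ext (D.Ginf.red_pow h.1 n) (D.Gzero.red_pow h.2 n)

theorem red_sum {ι : Type*} (s : Finset ι) (f : ι → F) (h : ∀ i ∈ s, f i ∈ D.V) :
    D.red (∑ i ∈ s, f i) = ∑ i ∈ s, D.red (f i) := by
  refine Prod.ext ?_ ?_
  · rw [Prod.fst_sum]; exact D.Ginf.red_sum s f fun i hi => (h i hi).1
  · rw [Prod.snd_sum]; exact D.Gzero.red_sum s f fun i hi => (h i hi).2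

theorem red_prod {ι : Type*} (s : Finset ι) (f : ι → F) (h : ∀ i ∈ s, f i ∈ D.V) :
    D.red (∏ i ∈ s, f i) = ∏ i ∈ s, D.red (f i) := by
  refine Prod.ext ?_ ?_
  · rw [Prod.fst_prod]; exact D.Ginf.red_prod s f fun i hi => (h i hi).1
  · rw [Prod.snd_prod]; exact D.Gzero.red_prod s f fun i hi => (h i hi).2

theorem const_mem (a : A) : algebraMap K F (a : K) ∈ D.V :=
  ⟨D.Ginf.const_mem a, D.Gzero.const_mem a⟩

theorem red_const (a : A) : D.red (algebraMap K F (a : K)) = algebraMap k (E × E) (π a) :=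
  Prod.ext (D.Ginf.red_const a) (D.Gzero.red_const a)

theorem smul_mem (a : A) {f : F} (h : f ∈ D.V) : (a : K) • f ∈ D.V :=
  ⟨D.Ginf.smul_mem a h.1, D.Gzero.smul_mem a h.2⟩

theorem red_smul (a : A) {f : F} (h : f ∈ D.V) : D.red ((a : K) • f) = π a • D.red f :=
  Prod.ext (D.Ginf.red_smul a h.1) (D.Gzero.red_smul a h.2)

theorem inv_mem {f : F} (h : f ∈ D.V) (h1 : D.Ginf.red f ≠ 0) (h2 : D.Gzero.red f ≠ 0) :
    f⁻¹ ∈ D.V :=
  ⟨D.Ginf.inv_mem h.1 h1, D.Gzero.inv_mem h.2 h2⟩

theorem red_inv {f : F} (h : f ∈ D.V) (h1 : D.Ginf.red f ≠ 0) (h2 : D.Gzero.red f ≠ 0) :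
    D.red f⁻¹ = (D.red f)⁻¹ :=
  Prod.ext (D.Ginf.red_inv h.1 h1) (D.Gzero.red_inv h.2 h2)

theorem ne_zero_of_red {f : F} (h : D.red f ≠ 0) : f ≠ 0 := fun h0 => h (h0 ▸ red_zero)

include D in
theorem mem_nonunits_of_res {a : A} (h : π a = 0) : (a : K) ∈ A.nonunits := by
  rw [ValuationSubring.mem_nonunits_iff_exists_mem_maximalIdeal]
  exact ⟨a.2, (IsLocalRing.mem_maximalIdeal _).mpr ((D.Ginf.res_eq_zero_iff a).mp h)⟩

include D in
/-- Powers of a small scalar move any function into `G.V` with reduction zero. -/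
theorem exists_pow_smul (G : GaussRed A π F E)
    (hs : ∀ f : F, f ≠ 0 → ∃ c : K, c ≠ 0 ∧ c • f ∈ G.V ∧ G.red (c • f) ≠ 0)
    {a : A} (ha : π a = 0) (f : F) :
    ∃ M : ℕ, ∀ M' : ℕ, M ≤ M' → (a : K) ^ M' • f ∈ G.V ∧ G.red ((a : K) ^ M' • f) = 0 := by
  rcases eq_or_ne f 0 with rfl | hf
  · exact ⟨0, fun M' _ => by simp [G.red_zero]⟩
  obtain ⟨c, hc, hcV, -⟩ := hs f hf
  obtain ⟨M, hM⟩ := D.rank_one (a : K) c (mem_nonunits_of_res (D := D) ha) hc
  refine ⟨M + 1, fun M' hM' => ?_⟩
  obtain ⟨r, rfl⟩ : ∃ r, M' = M + 1 + r := ⟨M' - (M + 1), by omega⟩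
  have he : (a : K) ^ (M + 1 + r) • f =
      ((a * (a ^ r * ⟨_, hM⟩) : A) : K) • (c • f) := by
    rw [smul_smul]
    congr 1
    push_cast
    field_simp
    ring
  rw [he]
  exact ⟨G.smul_mem _ hcV, by rw [G.red_smul _ hcV, map_mul, ha, zero_mul, zero_smul]⟩

variable (D) in
theorem exists_scale {f : F} (hf : f ≠ 0) : ∃ c : K, c ≠ 0 ∧ c • f ∈ D.V ∧ D.red (c • f) ≠ 0 := by
  obtain ⟨c, hc, hcV, hcr⟩ := D.scale_inf f hf
  obtain ⟨d, hd, hdV, hdr⟩ := D.scale_zero f hf
  rcases A.mem_or_inv_mem (d / c) with h | h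
  · refine ⟨d, hd, ⟨?_, hdV⟩, fun h0 => hdr (congrArg Prod.snd h0)⟩
    have := D.Ginf.smul_mem ⟨_, h⟩ hcV
    simpa [smul_smul, div_mul_cancel₀ _ hc] using this
  · refine ⟨c, hc, ⟨hcV, ?_⟩, fun h0 => hcr (congrArg Prod.fst h0)⟩
    rw [inv_div] at h
    have := D.Gzero.smul_mem ⟨_, h⟩ hdV
    simpa [smul_smul, div_mul_cancel₀ _ hd] using this

theorem mem_A_of_smul_mem {c : K} {u : F} (hu : u ∈ D.V) (hu0 : D.red u ≠ 0) (h : c • u ∈ D.V) :
    c ∈ A := by
  by_cases h1 : D.Ginf.red u = 0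
  · exact Lift.mem_A_of_smul_mem D.Gzero hu.2 (fun h2 => hu0 (Prod.ext h1 h2)) h.2
  · exact Lift.mem_A_of_smul_mem D.Ginf hu.1 h1 h.1

theorem exists_eq_smul {y : F} (hy : y ∈ D.V) (hy0 : y ≠ 0) :
    ∃ (a : A) (u : F), (a : K) ≠ 0 ∧ u ∈ D.V ∧ D.red u ≠ 0 ∧ y = (a : K) • u := by
  obtain ⟨c, hc, hcV, hcred⟩ := D.exists_scale hy0
  have hy' : c⁻¹ • (c • y) = y := by rw [smul_smul, inv_mul_cancel₀ hc, one_smul]
  have hcA : c⁻¹ ∈ A := mem_A_of_smul_mem hcV hcred (by rwa [hy'])
  exact ⟨⟨c⁻¹, hcA⟩, c • y, inv_ne_zero hc, hcV, hcred, hy'.symm⟩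

include D in
/-- If `u` dies on the second component, its high powers kill any function there. -/
theorem exists_kill (G₂ : GaussRed A π F E)
    (hs : ∀ f : F, f ≠ 0 → ∃ c : K, c ≠ 0 ∧ c • f ∈ G₂.V ∧ G₂.red (c • f) ≠ 0)
    {u : F} (hu : u ∈ G₂.V) (hu0 : G₂.red u = 0) (y : F) :
    ∃ M : ℕ, ∀ M' : ℕ, M ≤ M' → u ^ M' * y ∈ G₂.V ∧ G₂.red (u ^ M' * y) = 0 := by
  rcases eq_or_ne u 0 with rfl | hune
  · refine ⟨1, fun M' hM' => ?_⟩
    simp [zero_pow (by omega : M' ≠ 0), G₂.red_zero]
  obtain ⟨a, u', -, hu', hu'0, rfl⟩ := exists_eq_smul_of_scale G₂ hs hu hune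
  rw [G₂.red_smul a hu', smul_eq_zero] at hu0
  obtain ⟨M, hM⟩ := exists_pow_smul (D := D) G₂ hs (hu0.resolve_right hu'0) y
  refine ⟨M, fun M' hM' => ?_⟩
  obtain ⟨h1, h2⟩ := hM M' hM'
  have he : ((a : K) • u') ^ M' * y = u' ^ M' * ((a : K) ^ M' • y) := by
    rw [smul_pow, smul_mul_assoc, mul_smul_comm]
  rw [he]
  exact ⟨G₂.V.mul_mem (pow_mem hu' M') h1,
    by rw [G₂.red_mul (pow_mem hu' M') h1, h2, mul_zero]⟩

/-! ### Families with independent reductions -/

variable (D) in
/-- A family with independent pairs of reductions. -/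
def PIndep {ι : Type*} (b : ι → F) : Prop :=
  (∀ i, b i ∈ D.V) ∧ LinearIndependent k fun i => D.red (b i)

theorem red_sum_smul {ι : Type*} [Fintype ι] {b : ι → F} (hb : ∀ i, b i ∈ D.V) (a : ι → A) :
    D.red (∑ i, (a i : K) • b i) = ∑ i, π (a i) • D.red (b i) := by
  rw [red_sum _ _ fun i _ => smul_mem _ (hb i)]
  exact Finset.sum_congr rfl fun i _ => red_smul _ (hb i)

namespace PIndep

variable {ι : Type*} {b : ι → F}

theorem comp {κ : Type*} (hb : D.PIndep b) (f : κ → ι) (hf : Function.Injective f) :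
    D.PIndep (b ∘ f) :=
  ⟨fun _ => hb.1 _, hb.2.comp f hf⟩

theorem coeff_mem [Fintype ι] (hb : D.PIndep b) {c : ι → K} (h : (∑ i, c i • b i) ∈ D.V)
    (i : ι) : c i ∈ A := by
  classical
  by_contra hi
  haveI : Nonempty ι := ⟨i⟩
  obtain ⟨i₀, hi₀, hmax⟩ := D.Ginf.exists_max_of_field c ⟨i, fun h0 => hi (h0 ▸ A.zero_mem)⟩
  have hbad : c i₀ ∉ A := fun h0 => hi (by
    simpa [div_mul_cancel₀ _ hi₀] using A.mul_mem _ _ (hmax i) h0)
  let a : ι → A := fun j => ⟨c j / c i₀, hmax j⟩
  have hinv : (c i₀)⁻¹ ∈ A := (A.mem_or_inv_mem _).resolve_left hbad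
  have heq : ((⟨(c i₀)⁻¹, hinv⟩ : A) : K) • (∑ j, c j • b j) = ∑ j, (a j : K) • b j := by
    rw [Finset.smul_sum]
    refine Finset.sum_congr rfl fun j _ => ?_
    rw [smul_smul, inv_mul_eq_div]
  have h1 := congrArg D.red heq
  rw [red_smul _ h, D.Ginf.res_inv_of_notMem hbad, zero_smul, red_sum_smul hb.1] at h1
  have h2 := (Fintype.linearIndependent_iff.mp hb.2) _ h1.symm i₀
  rw [show a i₀ = 1 from Subtype.ext (div_self hi₀), map_one] at h2
  exact one_ne_zero h2

/-- Normalisation of a combination. -/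
theorem exists_norm [Fintype ι] (hb : D.PIndep b) {c : ι → K} (hc : ∃ i, c i ≠ 0) :
    ∃ d : K, d ≠ 0 ∧ d • (∑ i, c i • b i) ∈ D.V ∧ D.red (d • ∑ i, c i • b i) ≠ 0 := by
  classical
  obtain ⟨i, hi⟩ := hc
  haveI : Nonempty ι := ⟨i⟩
  obtain ⟨i₀, hi₀, hmax⟩ := D.Ginf.exists_max_of_field c ⟨i, hi⟩
  let a : ι → A := fun j => ⟨c j / c i₀, hmax j⟩
  have heq : (c i₀)⁻¹ • (∑ j, c j • b j) = ∑ j, (a j : K) • b j := by
    rw [Finset.smul_sum]
    refine Finset.sum_congr rfl fun j _ => ?_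
    rw [smul_smul, inv_mul_eq_div]
  refine ⟨(c i₀)⁻¹, inv_ne_zero hi₀, ?_, ?_⟩
  · rw [heq]; exact D.V.sum_mem fun j _ => smul_mem _ (hb.1 j)
  · rw [heq, red_sum_smul hb.1]
    intro h
    have h2 := (Fintype.linearIndependent_iff.mp hb.2) _ h i₀
    rw [show a i₀ = 1 from Subtype.ext (div_self hi₀), map_one] at h2
    exact one_ne_zero h2

theorem linearIndependent [Fintype ι] (hb : D.PIndep b) : LinearIndependent K b := by
  rw [Fintype.linearIndependent_iff]
  intro c hc
  by_contra hne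
  push Not at hne
  obtain ⟨d, -, -, h⟩ := hb.exists_norm hne
  rw [hc, smul_zero] at h
  exact h red_zero

end PIndep

variable (D) in
/-- The reductions of the integral elements of a subspace. -/
def redSub (W : Submodule K F) : Submodule k (E × E) where
  carrier := {w | ∃ y ∈ W, y ∈ D.V ∧ D.red y = w}
  zero_mem' := ⟨0, W.zero_mem, D.V.zero_mem, red_zero⟩
  add_mem' := by
    rintro _ _ ⟨y, hy, hyV, rfl⟩ ⟨z, hz, hzV, rfl⟩
    exact ⟨y + z, W.add_mem hy hz, D.V.add_mem hyV hzV, red_add hyV hzV⟩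
  smul_mem' := by
    rintro c _ ⟨y, hy, hyV, rfl⟩
    obtain ⟨a, rfl⟩ := D.Ginf.res_surj c
    exact ⟨(a : K) • y, W.smul_mem _ hy, smul_mem a hyV, red_smul a hyV⟩

theorem redSub_mono {W W' : Submodule K F} (h : W ≤ W') : D.redSub W ≤ D.redSub W' :=
  fun _ ⟨y, hy, hyV, hw⟩ => ⟨y, h hy, hyV, hw⟩

theorem redSub_span_eq {n : ℕ} {w : Fin n → F} (hw : D.PIndep w) :
    D.redSub (Submodule.span K (Set.range w)) =
      Submodule.span k (Set.range fun i => D.red (w i)) := by
  refine le_antisymm ?_ ?_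
  · rintro _ ⟨y, hy, hyV, rfl⟩
    obtain ⟨c, rfl⟩ := (Submodule.mem_span_range_iff_exists_fun K).mp hy
    have := red_sum_smul hw.1 (fun i => ⟨c i, hw.coeff_mem hyV i⟩)
    rw [this]
    exact Submodule.sum_mem _ fun i _ =>
      Submodule.smul_mem _ _ (Submodule.subset_span ⟨i, rfl⟩)
  · rw [Submodule.span_le]
    rintro _ ⟨i, rfl⟩
    exact ⟨w i, Submodule.subset_span ⟨i, rfl⟩, hw.1 i, rfl⟩

theorem redSub_finite {ι : Type*} [Fintype ι] {b : ι → F} (hb : D.PIndep b)
    {W : Submodule K F} (hW : W ≤ Submodule.span K (Set.range b)) :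
    FiniteDimensional k (D.redSub W) := by
  haveI : FiniteDimensional k (Submodule.span k (Set.range fun i => D.red (b i))) :=
    FiniteDimensional.span_of_finite k (Set.finite_range _)
  refine Submodule.finiteDimensional_of_le (S₂ := Submodule.span k (Set.range fun i => D.red (b i))) ?_
  rintro _ ⟨y, hy, hyV, rfl⟩
  obtain ⟨c, rfl⟩ := (Submodule.mem_span_range_iff_exists_fun K).mp (hW hy)
  have := red_sum_smul hb.1 (fun i => ⟨c i, hb.coeff_mem hyV i⟩)
  rw [this]
  exact Submodule.sum_mem _ fun i _ => Submodule.smul_mem _ _ (Submodule.subset_span ⟨i, rfl⟩)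

/-- Reduction preserves the dimension of subspaces. -/
theorem finrank_redSub {ι : Type*} [Fintype ι] {b : ι → F} (hb : D.PIndep b)
    {W : Submodule K F} (hW : W ≤ Submodule.span K (Set.range b)) :
    finrank k (D.redSub W) = finrank K W := by
  classical
  haveI := redSub_finite hb hW
  haveI : FiniteDimensional K (Submodule.span K (Set.range b)) :=
    FiniteDimensional.span_of_finite K (Set.finite_range b)
  haveI : FiniteDimensional K W := Submodule.finiteDimensional_of_le hW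
  obtain ⟨n, hn⟩ : ∃ n, finrank k (D.redSub W) = n := ⟨_, rfl⟩
  let e' := Module.finBasisOfFinrankEq k (D.redSub W) hn
  choose y hyW hyV hy using fun i => (e' i).2
  have hind : D.PIndep y := by
    refine ⟨hyV, ?_⟩
    have h : (fun i => D.red (y i)) = fun i => ((e' i : D.redSub W) : E × E) := funext hy
    rw [h]
    exact e'.linearIndependent.map' (D.redSub W).subtype (Submodule.ker_subtype _)
  haveI : FiniteDimensional K (Submodule.span K (Set.range y)) :=
    FiniteDimensional.span_of_finite K (Set.finite_range y)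
  have hle : Submodule.span K (Set.range y) ≤ W := Submodule.span_le.mpr (by
    rintro _ ⟨i, rfl⟩; exact hyW i)
  rw [hn]
  refine le_antisymm ?_ ?_
  · have h := Submodule.finrank_mono hle
    rwa [finrank_span_eq_card hind.linearIndependent, Fintype.card_fin] at h
  · by_contra hlt
    push Not at hlt
    have hne : ¬ W ≤ Submodule.span K (Set.range y) := fun h => by
      have h2 := Submodule.finrank_mono h
      rw [finrank_span_eq_card hind.linearIndependent, Fintype.card_fin] at h2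
      omega
    obtain ⟨z, hzW, hz⟩ := SetLike.not_le_iff_exists.mp hne
    choose a ha using fun j => (Submodule.mem_span_range_iff_exists_fun K).mp (hW (hyW j))
    have haA : ∀ j l, a j l ∈ A := fun j l => hb.coeff_mem (ha j ▸ hyV j) l
    let ab : Fin n → ι → k := fun j l => π ⟨a j l, haA j l⟩
    have hred : ∀ j, D.red (y j) = ∑ l, ab j l • D.red (b l) := fun j => by
      conv_lhs => rw [← ha j]
      exact red_sum_smul hb.1 (fun l => (⟨a j l, haA j l⟩ : A))
    have habi : LinearIndependent k ab := by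
      rw [Fintype.linearIndependent_iff]
      intro c hc
      refine (Fintype.linearIndependent_iff.mp hind.2) c ?_
      simp only [hred, Finset.smul_sum, smul_smul]
      rw [Finset.sum_comm]
      refine Finset.sum_eq_zero fun l _ => ?_
      rw [← Finset.sum_smul]
      have hl : ∑ j, c j * ab j l = 0 := by
        simpa [Finset.sum_apply] using congrFun hc l
      rw [hl, zero_smul]
    obtain ⟨h, hh⟩ := (Fintype.linearCombination k ab).exists_leftInverse_of_injective
      (LinearMap.ker_eq_bot.mpr habi.fintypeLinearCombination_injective)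
    choose Ψ hΨ using fun i l => D.Ginf.res_surj (h (Pi.single l 1) i)
    have hhl : ∀ (v : ι → k) i, h v i = ∑ l, π (Ψ i l) * v l := fun v i => by
      conv_lhs => rw [pi_eq_sum_univ' v]
      simp [map_sum, map_smul, Finset.sum_apply, hΨ, mul_comm]
    let M : Matrix (Fin n) (Fin n) A := fun i j => ∑ l, Ψ i l * ⟨a j l, haA j l⟩
    have hM : π.mapMatrix M = 1 := by
      ext i j
      have h1 : π (M i j) = h (ab j) i := by
        rw [hhl]
        simp [M, ab, map_sum]
      have h2 : h (ab j) = Pi.single j 1 := by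
        have h3 := LinearMap.congr_fun hh (Pi.single j 1)
        rw [LinearMap.comp_apply, Fintype.linearCombination_apply_single, one_smul,
          LinearMap.id_apply] at h3
        exact h3
      rw [RingHom.mapMatrix_apply, Matrix.map_apply, h1, h2, Matrix.one_apply, Pi.single_apply]
    have hdet : IsUnit ((algebraMap A K).mapMatrix M).det := by
      rw [← RingHom.map_det, isUnit_iff_ne_zero]
      intro h0
      have h1 : M.det = 0 := Subtype.ext h0
      have h2 := RingHom.map_det π M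
      rw [hM, h1, map_zero, Matrix.det_one] at h2
      exact zero_ne_one h2
    obtain ⟨cz, hcz⟩ := (Submodule.mem_span_range_iff_exists_fun K).mp (hW hzW)
    set e : Fin n → K :=
      ((algebraMap A K).mapMatrix M)⁻¹ *ᵥ (fun i => ∑ l, (Ψ i l : K) * cz l) with he
    set cz' : ι → K := fun l => cz l - ∑ j, e j * a j l with hcz'
    have hz' : ∑ l, cz' l • b l = z - ∑ j, e j • y j := by
      simp only [hcz', sub_smul, Finset.sum_sub_distrib, hcz, Finset.sum_smul]
      congr 1
      rw [Finset.sum_comm]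
      refine Finset.sum_congr rfl fun j _ => ?_
      rw [← ha j, Finset.smul_sum]
      exact Finset.sum_congr rfl fun l _ => by rw [smul_smul]
    have hker : ∀ i, ∑ l, (Ψ i l : K) * cz' l = 0 := fun i => by
      have h1 : ((algebraMap A K).mapMatrix M) *ᵥ e = fun i => ∑ l, (Ψ i l : K) * cz l := by
        rw [he, Matrix.mulVec_mulVec, Matrix.mul_nonsing_inv _ hdet, Matrix.one_mulVec]
      have h2 := congrFun h1 i
      have hMK : ∀ i j, ((algebraMap A K).mapMatrix M) i j = ∑ l, (Ψ i l : K) * a j l := fun i j => by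
        show algebraMap A K (M i j) = _
        simp only [M, map_sum, map_mul]
        rfl
      simp only [Matrix.mulVec, dotProduct, hMK] at h2
      simp only [hcz', mul_sub, Finset.sum_sub_distrib]
      rw [sub_eq_zero, ← h2]
      simp only [Finset.mul_sum, Finset.sum_mul]
      rw [Finset.sum_comm]
      exact Finset.sum_congr rfl fun l _ => Finset.sum_congr rfl fun j _ => by ring
    have hz'ne : ∃ l, cz' l ≠ 0 := by
      by_contra h0
      push Not at h0
      rw [Finset.sum_eq_zero fun l _ => by rw [h0 l, zero_smul], eq_comm, sub_eq_zero] at hz'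
      exact hz (hz' ▸ Submodule.sum_mem _ fun j _ =>
        Submodule.smul_mem _ _ (Submodule.subset_span ⟨j, rfl⟩))
    obtain ⟨d, hd, hdV, hdred⟩ := hb.exists_norm hz'ne
    have hmemW : d • ∑ l, cz' l • b l ∈ W := W.smul_mem _ (by
      rw [hz']
      exact W.sub_mem hzW (Submodule.sum_mem _ fun j _ => W.smul_mem _ (hyW j)))
    have hdA : ∀ l, d * cz' l ∈ A := fun l => hb.coeff_mem (c := fun l => d * cz' l) (by
      simpa [Finset.smul_sum, smul_smul] using hdV) l
    let v : ι → k := fun l => π ⟨d * cz' l, hdA l⟩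
    have hv : D.red (d • ∑ l, cz' l • b l) = ∑ l, v l • D.red (b l) := by
      have h1 := red_sum_smul hb.1 (fun l => (⟨d * cz' l, hdA l⟩ : A))
      simpa [Finset.smul_sum, smul_smul, v] using h1
    have hhv : h v = 0 := funext fun i => by
      have h1 : ∑ l, Ψ i l * (⟨d * cz' l, hdA l⟩ : A) = 0 := Subtype.ext (by
        push_cast
        simp only [← mul_assoc, mul_comm _ d]
        simp only [mul_assoc, ← Finset.mul_sum, hker, mul_zero])
      have h2 := congrArg π h1
      rw [map_sum, map_zero] at h2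
      simpa [hhl, v] using h2
    have hmem : D.red (d • ∑ l, cz' l • b l) ∈
        Submodule.span k (Set.range fun j => D.red (y j)) := by
      have h1 : D.red (d • ∑ l, cz' l • b l) ∈ D.redSub W := ⟨_, hmemW, hdV, rfl⟩
      have h2 := e'.sum_repr ⟨_, h1⟩
      have h3 := congrArg Subtype.val h2
      simp only [Submodule.coe_sum, Submodule.coe_smul, ← hy] at h3
      rw [← h3]
      exact Submodule.sum_mem _ fun j _ => Submodule.smul_mem _ _ (Submodule.subset_span ⟨j, rfl⟩)
    obtain ⟨t, ht⟩ := (Submodule.mem_span_range_iff_exists_fun k).mp hmem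
    rw [hv] at ht
    simp only [hred, Finset.smul_sum, smul_smul] at ht
    rw [Finset.sum_comm] at ht
    simp only [← Finset.sum_smul] at ht
    have hvt : v = Fintype.linearCombination k ab t := funext fun l => by
      have h1 : ∑ l, (v l - ∑ j, t j * ab j l) • D.red (b l) = 0 := by
        simp only [sub_smul, Finset.sum_sub_distrib, ht, sub_self]
      have h2 := Fintype.linearIndependent_iff.mp hb.2 _ h1 l
      rw [sub_eq_zero] at h2
      simpa [Fintype.linearCombination_apply, Finset.sum_apply] using h2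
    have ht0 : t = 0 := by
      rw [← LinearMap.id_apply (R := k) t, ← hh, LinearMap.comp_apply, ← hvt, hhv]
    refine hdred ?_
    rw [hv, hvt, ht0, map_zero]
    simp

end Data

end FLTAgent.Lift
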