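import Fermat.Agent.Lift.Scale

/-!
# Regularity at classes and restriction to the small curve

`reg_of_noPole`: a function without poles above a class reduces to a pair regular and glued there.
Every finite class is the class of a place (`exists_sp_eq`), and restriction of places along `α`,
`β` reduces to the projections `pA`, `pB` of classes (`redMap_resα`, `redMap_resβ`).
-/

set_option autoImplicit false
set_option linter.style.haveILetI false
set_option linter.unusedSectionVars false

noncomputable section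

open AlgebraicCurve SemilinearAut Module

namespace FLTAgent.Lift

open FLTAgent.Reduction

theorem of_mul_unit {K F : Type*} [Field K] [Field F] [Algebra K F] {g : ℕ}
    (hC : CurveData K F g) {Q : Place K F} {v f : F} (hv : Vanish Q v 0) (h1 : valAt Q v = 1)
    (h : Vanish Q (v * f) 0) : Vanish Q f 0 ∧ valAt Q f = valAt Q (v * f) := by
  have hv0 : v ≠ 0 := fun e => by simp [e, valAt_zero] at h1
  have hord : Q.ord v = 0 := by
    by_contra hne
    have := Vanish.zero_iff.mp hv
    rw [valAt_eq_zero_of_vanish (v := Q) (f := v) (Or.inr (by omega))] at h1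
    exact zero_ne_one h1
  have hi : Vanish Q v⁻¹ 0 := Vanish.zero_iff.mpr (by rw [Place.ord_inv, hord]; rfl)
  have e : f = v⁻¹ * (v * f) := by rw [← mul_assoc, inv_mul_cancel₀ hv0, one_mul]
  have hf : Vanish Q f 0 := e ▸ hi.mul_zero' h
  exact ⟨hf, by rw [hC.valAt_mul hv hf, h1, one_mul]⟩

namespace Data

variable {K k F F₀ E : Type*} [Field K] [Field k] [Field F] [Field F₀] [Field E] [Algebra K F]
  [Algebra K F₀] [Algebra k E] {A : ValuationSubring K} {π : A →+* k} {q g g' : ℕ}
variable (D : Data A π q F F₀ E g g')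

/-- A pair is regular at a class, and glued there. -/
def RegAt (x : E × E) (c : Cls k E) : Prop :=
  Vanish c.2 (if c.1 then x.1 else x.2) 0 ∧ (c.1 = true → c.2 ∈ D.X →
    Vanish (D.frob • c.2) x.2 0 ∧ valAt c.2 x.1 = valAt (D.frob • c.2) x.2)

variable {D}

theorem regAt_inv {x : E × E} {c : Cls k E} : D.inv.RegAt x c ↔ D.RegAt x c := by
  unfold Data.RegAt
  rw [D.X_inv]
  rfl

theorem valAt_alpha {P : Place K F} {a : F₀} (h : Vanish (D.resα P) a 0) :
    Vanish P (D.α a) 0 ∧ valAt P (D.α a) = valAt (D.resα P) a := by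
  obtain ⟨e, he, heq⟩ := D.ord_resα P
  have h0 : ∀ b : F₀, Vanish (D.resα P) b 0 → Vanish P (D.α b) 0 := fun b hb =>
    Vanish.zero_iff.mpr (by rw [heq]; exact mul_nonneg (by positivity) (Vanish.zero_iff.mp hb))
  refine ⟨h0 a h, valAt_eq ?_⟩
  rcases D.param.curve.exists_valAt h with h1 | h1
  · rw [← D.α.commutes, ← map_sub, h1, map_zero]; exact Vanish.zero_left
  · rw [← D.α.commutes, ← map_sub]
    refine Or.inr ?_
    rw [heq]
    exact le_trans h1 (le_mul_of_one_le_left (by omega) (by exact_mod_cast he))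

theorem valAt_beta {P : Place K F} {a : F₀} (h : Vanish (D.resβ P) a 0) :
    Vanish P (D.β a) 0 ∧ valAt P (D.β a) = valAt (D.resβ P) a := by
  obtain ⟨e, he, heq⟩ := D.ord_resβ P
  have h0 : ∀ b : F₀, Vanish (D.resβ P) b 0 → Vanish P (D.β b) 0 := fun b hb =>
    Vanish.zero_iff.mpr (by rw [heq]; exact mul_nonneg (by positivity) (Vanish.zero_iff.mp hb))
  refine ⟨h0 a h, valAt_eq ?_⟩
  rcases D.param.curve.exists_valAt h with h1 | h1
  · rw [← D.β.commutes, ← map_sub, h1, map_zero]; exact Vanish.zero_left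
  · rw [← D.β.commutes, ← map_sub]
    refine Or.inr ?_
    rw [heq]
    exact le_trans h1 (le_mul_of_one_le_left (by omega) (by exact_mod_cast he))

theorem vanish_of_cval {x : E × E} (hx : x ∈ D.RR) {c : Cls k E} (hfin : 0 ≤ c.2.ord D.tau) :
    Vanish c.2 (if c.1 then x.1 else x.2) 0 ∧
      valAt c.2 (if c.1 then x.1 else x.2) = cval x c := by
  refine ⟨cval_regular hx hfin, ?_⟩
  obtain ⟨b, z⟩ := c
  cases b <;> rfl

variable [Infinite k]

/-- A function vanishing at `P` whose reduction is `1` at another class. -/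
theorem exists_vanish_at {c : Cls k E} (hc : D.IsCanon c) (hfin : 0 ≤ c.2.ord D.tau)
    {P : Place K F} (hP : 0 ≤ P.ord D.T) (hne : D.sp P ≠ c) :
    ∃ w ∈ D.V, RegAway (K := K) D.T w ∧ Vanish P w 1 ∧ cval (D.red w) c = 1 := by
  by_cases hdisc : IsDisc A D.T P
  · obtain ⟨x, hx, h1, h0⟩ :=
      exists_ne_cval hc (isCanon_sp P) hfin (sp_finite_iff.mpr hdisc) hne
    obtain ⟨-, y, hy, hyr, rfl⟩ := hx
    have hA := valAt_mem hdisc hy hyr
    have h0' : π ⟨valAt P y, hA⟩ = 0 := by
      rw [← resVal_of_eq P y ⟨_, hA⟩ rfl, (isSp_sp hdisc).2.2 y hy hyr, h0]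
    refine ⟨y - algebraMap K F ((⟨valAt P y, hA⟩ : A) : K),
      D.V.sub_mem hy (const_mem _), fun Q hQ => (hyr Q hQ).sub (Vanish.const _),
      D.curve.exists_valAt (hyr P hP), ?_⟩
    rw [red_sub hy (const_mem _), red_const, h0', map_zero, sub_zero]
    exact h1
  · have hnot : valAt P D.T ∉ A := fun h => hdisc ⟨hP, h⟩
    refine ⟨linFactor A D.T (valAt P D.T), D.linFactor_mem _,
      D.curve.regAway_of_mem_polesLe (D.linFactor_mem_polesLe _), D.vanish_linFactor hP, ?_⟩
    rw [D.red_linFactor_of_notMem hnot, cval_one]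

theorem exists_clear_at {c : Cls k E} (hc : D.IsCanon c) (hfin : 0 ≤ c.2.ord D.tau) {f : F}
    (hp : ∀ P, D.sp P = c → Vanish P f 0) :
    ∃ u ∈ D.V, RegAway (K := K) D.T u ∧ cval (D.red u) c = 1 ∧ RegAway (K := K) D.T (u * f) := by
  classical
  set S : Finset (Place K F) :=
    (poleDiv f : Divisor K F).support.filter fun P => 0 ≤ P.ord D.T with hS
  have hmem : ∀ P, P ∈ S ↔ P.ord f < 0 ∧ 0 ≤ P.ord D.T := fun P => by
    rw [hS, Finset.mem_filter, Finsupp.mem_support_iff, D.curve.poleDiv_apply]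
    refine and_congr_left' ⟨fun h => ?_, fun h => ?_⟩ <;> omega
  have hne : ∀ P ∈ S, D.sp P ≠ c := fun P hP h => by
    have := Vanish.zero_iff.mp (hp P h)
    have := ((hmem P).mp hP).1
    omega
  choose! w hwV hwr hw1 hwc using fun P (hP : P ∈ S) =>
    exists_vanish_at hc hfin ((hmem P).mp hP).2 (hne P hP)
  set e : Place K F → ℕ := fun P => (-P.ord f).toNat
  have hV : ∀ P ∈ S, w P ^ e P ∈ D.V := fun P hP => pow_mem (hwV P hP) _
  have hr : ∀ P ∈ S, RegAway (K := K) D.T (w P ^ e P) := fun P hP Q hQ => by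
    simpa using (hwr P hP Q hQ).pow (e P)
  have hreg : ∀ T : Finset (Place K F), T ⊆ S → RegAway (K := K) D.T (∏ P ∈ T, w P ^ e P) := by
    intro T hT
    induction T using Finset.induction with
    | empty => exact fun _ _ => by simpa using Vanish.one
    | insert P T hPT ih =>
      rw [Finset.prod_insert hPT]
      exact fun Q hQ => (hr P (hT (Finset.mem_insert_self _ _)) Q hQ).mul_zero'
        (ih (fun x hx => hT (Finset.mem_insert_of_mem hx)) Q hQ)
  refine ⟨∏ P ∈ S, w P ^ e P, D.V.prod_mem hV, hreg S subset_rfl, ?_, fun Q hQ => ?_⟩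
  · rw [red_prod S _ hV,
      (cval_prod S (fun P hP => red_mem_RR (hV P hP) (hr P hP)) hfin).2]
    refine Finset.prod_eq_one fun P hP => ?_
    have hRR := red_mem_RR (hwV P hP) (hwr P hP)
    rw [red_pow (hwV P hP)]
    induction e P with
    | zero => rw [pow_zero, cval_one]
    | succ n ih => rw [pow_succ, cval_mul (RR_pow hRR n) hRR hfin, ih, hwc P hP, one_mul]
  · by_cases hQS : Q ∈ S
    · rw [← Finset.mul_prod_erase S _ hQS, mul_assoc, mul_left_comm]
      refine Vanish.mul_zero' (hreg _ (Finset.erase_subset _ _) Q hQ) ?_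
      refine (((hw1 Q hQS).pow (e Q)).mul (Vanish.self f)).mono ?_
      simp only [e]
      omega
    · refine Vanish.mul_zero' (hreg S subset_rfl Q hQ) (Vanish.zero_iff.mpr ?_)
      by_contra h
      exact hQS ((hmem Q).mpr ⟨by omega, hQ⟩)

/-- The finite case of `reg_of_noPole`, with the values at the places above the class. -/
theorem reg_of_noPole_fin {c : Cls k E} (hc : D.IsCanon c) (hfin : 0 ≤ c.2.ord D.tau) {f : F}
    (hf : f ∈ D.V) (hp : ∀ P, D.sp P = c → Vanish P f 0) :
    D.RegAt (D.red f) c ∧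
      ∀ P, D.sp P = c → valAt P f ∈ A ∧ resVal π P f = cval (D.red f) c := by
  obtain ⟨u, hu, hur, hu1, hufr⟩ := exists_clear_at hc hfin hp
  have hufV : u * f ∈ D.V := D.V.mul_mem hu hf
  have hv := red_mem_RR hu hur
  have hx := red_mem_RR hufV hufr
  rw [red_mul hu hf] at hx
  obtain ⟨b, z⟩ := c
  obtain ⟨hv0, hv1⟩ := vanish_of_cval hv hfin
  rw [hu1] at hv1
  have hxv := cval_regular hx hfin
  have key : Vanish z (if b then (D.red f).1 else (D.red f).2) 0 ∧
      cval (D.red f) (b, z) = cval (D.red u * D.red f) (b, z) := by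
    cases b <;> exact of_mul_unit D.param.curveBar hv0 hv1 hxv
  refine ⟨⟨key.1, fun hb hX => ?_⟩, fun P hP => ?_⟩
  · change b = true at hb
    subst hb
    have hQ : z ∈ D.Xaff := mem_Xaff_iff.mpr ⟨hX, hfin⟩
    have hg := (mem_RR_iff.mp hv).2 z hQ
    have hgx := (mem_RR_iff.mp hx).2 z hQ
    have hfin' : 0 ≤ (D.frob • z).ord D.tau := ord_tau_smul_nonneg hfin
    obtain ⟨h2, h2'⟩ := of_mul_unit D.param.curveBar (hv.1.2 _ hfin') (hg.symm.trans hv1)
      (hx.1.2 _ hfin')
    exact ⟨h2, key.2.trans (hgx.trans h2'.symm)⟩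
  · have hdisc : IsDisc A D.T P := sp_finite_iff.mp (by rw [hP]; exact hfin)
    have hA := valAt_mem hdisc hu hur
    have hAx := valAt_mem hdisc hufV hufr
    have h1 : π ⟨valAt P u, hA⟩ = 1 := by
      rw [← resVal_of_eq P u ⟨_, hA⟩ rfl, (isSp_sp hdisc).2.2 u hu hur, hP, hu1]
    have hinv : (valAt P u)⁻¹ ∈ A :=
      D.Ginf.res_ne_zero_inv_mem (a := ⟨valAt P u, hA⟩) (by rw [h1]; exact one_ne_zero)
    have hne : valAt P u ≠ 0 := fun h0 => by
      rw [show (⟨valAt P u, hA⟩ : A) = 0 from Subtype.ext h0, map_zero] at h1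
      exact zero_ne_one h1
    have hmul := D.curve.valAt_mul (hur P hdisc.1) (hp P hP)
    have hfA : valAt P f ∈ A := by
      have := A.mul_mem _ _ hinv hAx
      rwa [hmul, ← mul_assoc, inv_mul_cancel₀ hne, one_mul] at this
    refine ⟨hfA, ?_⟩
    have h3 := (isSp_sp hdisc).2.2 (u * f) hufV hufr
    rw [resVal_of_eq P (u * f) (⟨_, hA⟩ * ⟨_, hfA⟩) hmul, map_mul, h1, one_mul, hP,
      ← resVal_of_eq P f ⟨_, hfA⟩ rfl, red_mul hu hf, ← key.2] at h3
    exact h3

/-- **Regularity**: a function without poles above a class reduces to a pair regular there. -/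
theorem reg_of_noPole {c : Cls k E} (hc : D.IsCanon c) {f : F}
    (hf : f ∈ D.V) (hp : ∀ P, D.sp P = c → Vanish P f 0) : D.RegAt (D.red f) c := by
  rcases le_or_gt 0 (c.2.ord D.tau) with hfin | hfin
  · exact (reg_of_noPole_fin hc hfin hf hp).1
  · have hfin' : 0 ≤ c.2.ord D.inv.tau := by rw [D.tau_inv, Place.ord_inv]; omega
    have hc' : D.inv.IsCanon c := fun h => hc ⟨h.1, by rw [← D.X_inv]; exact h.2⟩
    exact regAt_inv.mp (reg_of_noPole_fin (D := D.inv) hc' hfin' hf
      (fun P hP => hp P (by rwa [sp_inv] at hP))).1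

variable (D) in
/-- Finite points lying outside the glued set on both components. -/
def Ord : Set (Place k E) := {z | 0 ≤ z.ord D.tau ∧ z ∉ D.X ∧ D.frob⁻¹ • z ∉ D.X}

theorem ord_infinite : (Data.Ord D).Infinite := by
  have h := D.param.infinite_finite_image
  have h' : {z : Place k E | z ∈ D.X ∨ D.frob⁻¹ • z ∈ D.X}.Finite :=
    D.X_finite.union (D.X_finite.preimage (MulAction.injective _).injOn)
  refine (h.sdiff h').mono fun z hz => ⟨hz.1.2, fun h1 => hz.2 (Or.inl h1), fun h1 => hz.2 (Or.inr h1)⟩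

theorem isCanon_ord {z : Place k E} (hz : z ∈ Data.Ord D) (b : Bool) : D.IsCanon (b, z) :=
  fun h => hz.2.2 h.2

theorem cls_ord {z : Place k E} (hz : z ∈ Data.Ord D) (b : Bool) : D.cls b z = (b, z) :=
  cls_of_canon (isCanon_ord hz b)

/-- Every finite class is the class of a place. -/
theorem exists_sp_eq {c : Cls k E} (hc : D.IsCanon c) (hfin : 0 ≤ c.2.ord D.tau) :
    ∃ P, D.sp P = c := by
  classical
  obtain ⟨z, hz, hzc⟩ := (ord_infinite (D := D)).exists_notMem_finset {c.2}
  rw [Finset.mem_singleton] at hzc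
  obtain ⟨x', hx', h1, h0⟩ := exists_sep (D := D) {(true, z), (false, z)} hc hfin (by
    intro d hd
    simp only [Finset.mem_insert, Finset.mem_singleton] at hd
    rcases hd with rfl | rfl <;>
      exact ⟨isCanon_ord hz _, hz.1, fun h => hzc (congrArg Prod.snd h)⟩)
  have hx : 1 - x' ∈ D.RR := Submodule.sub_mem _ RR_one hx'
  have hv : ∀ {d : Cls k E}, 0 ≤ d.2.ord D.tau → cval (1 - x') d = 1 - cval x' d := fun hd => by
    rw [cval_sub RR_one hx' hd, cval_one]
  have hT := hv (d := (true, z)) hz.1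
  have hF := hv (d := (false, z)) hz.1
  rw [h0 _ (by simp), sub_zero] at hT hF
  have hn1 : (1 - x').1 ≠ 0 := fun h => by
    change valAt z (1 - x').1 = 1 at hT
    rw [h, valAt_zero] at hT
    exact zero_ne_one hT
  have hn2 : (1 - x').2 ≠ 0 := fun h => by
    change valAt z (1 - x').2 = 1 at hF
    rw [h, valAt_zero] at hF
    exact zero_ne_one hF
  have hc0 := hv hfin
  rw [h1, sub_self] at hc0
  generalize 1 - x' = x at hx hn1 hn2 hc0
  obtain ⟨hreg, y, hy, -, rfl⟩ := hx
  have hpos : 0 < D.rdiv (D.red y) c := by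
    obtain ⟨b, w⟩ := c
    have hge : ∀ v : E, Vanish w v 0 → v ≠ 0 → valAt w v = 0 → 0 < w.ord v := by
      intro v hv hne h0
      have := ((D.param.curveBar.vanish_one_iff hv).mpr h0).resolve_left hne
      omega
    cases b
    · rw [rdiv_apply_false _ hc]
      exact hge _ (hreg.2 w hfin) hn2 hc0
    · rw [rdiv_apply_true]
      refine add_pos_of_pos_of_nonneg (hge _ (hreg.1 w hfin) hn1 hc0) ?_
      split_ifs
      · exact Vanish.zero_iff.mp (hreg.2 _ (ord_tau_smul_nonneg hfin))
      · rfl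
  rw [← spDiv_eq_rdiv hy hn1 hn2] at hpos
  by_contra h
  push Not at h
  rw [spDiv, mapDomain_eq_zero_of fun P _ => h P] at hpos
  exact lt_irrefl 0 hpos

variable (D) in
/-- The point of the small curve under a class, along the first degeneracy. -/
def pA (c : Cls k E) : Place k E := if c.1 then c.2 else D.frob • c.2

variable (D) in
/-- The point of the small curve under a class, along the second degeneracy. -/
def pB (c : Cls k E) : Place k E := if c.1 then D.frob • c.2 else c.2

theorem pA_cls_false (z : Place k E) : D.pA (D.cls false z) = D.frob • z := by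
  by_cases h : D.frob⁻¹ • z ∈ D.X
  · rw [Data.cls, if_pos ⟨rfl, h⟩]
    show D.frob⁻¹ • z = D.frob • z
    conv_rhs => rw [← smul_inv_smul D.frob z, D.frob_frob_of_mem_X h]
  · rw [Data.cls, if_neg fun h' => h h'.2]; rfl

theorem pB_cls_false (z : Place k E) : D.pB (D.cls false z) = z := by
  by_cases h : D.frob⁻¹ • z ∈ D.X
  · rw [Data.cls, if_pos ⟨rfl, h⟩]
    exact smul_inv_smul D.frob z
  · rw [Data.cls, if_neg fun h' => h h'.2]; rfl

theorem pA_cls_true (z : Place k E) : D.pA (D.cls true z) = z := by rw [cls_true]; rfl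

theorem pB_cls_true (z : Place k E) : D.pB (D.cls true z) = D.frob • z := by rw [cls_true]; rfl

theorem cval_alpha {a : F₀} (ha : a ∈ D.G.V) (har : RegAway (K := K) D.j a) {c : Cls k E}
    (hfin : 0 ≤ c.2.ord D.tau) :
    cval (D.red (D.α a)) c = valAt (D.pA c) (D.G.red a) := by
  rw [D.red_alpha ha]
  obtain ⟨b, z⟩ := c
  cases b
  · exact D.valAt_Fr (D.param.red_regAway ha har _ (ord_tau_smul_nonneg hfin))
  · rfl

theorem cval_beta {a : F₀} (ha : a ∈ D.G.V) (har : RegAway (K := K) D.j a) {c : Cls k E}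
    (hfin : 0 ≤ c.2.ord D.tau) :
    cval (D.red (D.β a)) c = valAt (D.pB c) (D.G.red a) := by
  rw [D.red_beta ha]
  obtain ⟨b, z⟩ := c
  cases b
  · rfl
  · exact D.valAt_Fr (D.param.red_regAway ha har _ (ord_tau_smul_nonneg hfin))

theorem centre_resα {P : Place K F} (hP : IsDisc A D.T P) :
    IsDisc A D.j (D.resα P) ∧ centreMap D.param (D.resα P) = D.pA (D.sp P) := by
  obtain ⟨e, he, heq⟩ := D.ord_resα P
  have hfin := (isSp_sp hP).2.1
  have hj : 0 ≤ (D.resα P).ord D.j := by
    have := (D.alpha_ord_nonneg hP.1).1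
    rw [heq] at this
    exact nonneg_of_mul_nonneg_right this (by exact_mod_cast he)
  have hval : ∀ a ∈ D.G.V, RegAway (K := K) D.j a →
      valAt (D.resα P) a ∈ A ∧ resVal π (D.resα P) a = valAt (D.pA (D.sp P)) (D.G.red a) := by
    intro a ha har
    have h1 := (valAt_alpha (P := P) (har _ hj)).2
    have hA := valAt_mem hP (D.alpha_mem ha) (D.regAway_alpha har)
    refine ⟨h1 ▸ hA, ?_⟩
    rw [resVal_of_eq (D.resα P) a ⟨_, hA⟩ h1.symm, ← resVal_of_eq P (D.α a) ⟨_, hA⟩ rfl,
      (isSp_sp hP).2.2 _ (D.alpha_mem ha) (D.regAway_alpha har), cval_alpha ha har hfin]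
  have hdisc : IsDisc A D.j (D.resα P) := ⟨hj, (hval D.j D.param.mem D.param.regAway_self).1⟩
  refine ⟨hdisc, D.param.centreMap_eq hdisc ⟨?_, fun a ha har => ((hval a ha har).2).symm⟩⟩
  show 0 ≤ (D.pA (D.sp P)).ord D.tau
  unfold Data.pA
  split_ifs
  · exact hfin
  · exact ord_tau_smul_nonneg hfin

theorem centre_resβ {P : Place K F} (hP : IsDisc A D.T P) :
    IsDisc A D.j (D.resβ P) ∧ centreMap D.param (D.resβ P) = D.pB (D.sp P) := by
  obtain ⟨e, he, heq⟩ := D.ord_resβ P
  have hfin := (isSp_sp hP).2.1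
  have hj : 0 ≤ (D.resβ P).ord D.j := by
    have := (D.alpha_ord_nonneg hP.1).2
    rw [heq] at this
    exact nonneg_of_mul_nonneg_right this (by exact_mod_cast he)
  have hval : ∀ a ∈ D.G.V, RegAway (K := K) D.j a →
      valAt (D.resβ P) a ∈ A ∧ resVal π (D.resβ P) a = valAt (D.pB (D.sp P)) (D.G.red a) := by
    intro a ha har
    have h1 := (valAt_beta (P := P) (har _ hj)).2
    have hA := valAt_mem hP (D.beta_mem ha) (D.regAway_beta har)
    refine ⟨h1 ▸ hA, ?_⟩
    rw [resVal_of_eq (D.resβ P) a ⟨_, hA⟩ h1.symm, ← resVal_of_eq P (D.β a) ⟨_, hA⟩ rfl,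
      (isSp_sp hP).2.2 _ (D.beta_mem ha) (D.regAway_beta har), cval_beta ha har hfin]
  have hdisc : IsDisc A D.j (D.resβ P) := ⟨hj, (hval D.j D.param.mem D.param.regAway_self).1⟩
  refine ⟨hdisc, D.param.centreMap_eq hdisc ⟨?_, fun a ha har => ((hval a ha har).2).symm⟩⟩
  show 0 ≤ (D.pB (D.sp P)).ord D.tau
  unfold Data.pB
  split_ifs
  · exact ord_tau_smul_nonneg hfin
  · exact hfin

/-- Restriction along `α` specialises to the projection `pA` of classes. -/
theorem redMap_resα (P : Place K F) : redMap D.param (D.resα P) = D.pA (D.sp P) := by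
  by_cases hP : IsDisc A D.T P
  · obtain ⟨h1, h2⟩ := centre_resα hP
    rw [redMap, if_pos h1, h2]
  · obtain ⟨h1, h2⟩ := centre_resα (D := D.inv) (isDisc_inv_of_not hP).1
    have h3 : centreMap D.param.inv (D.resα P) = D.pA (D.sp P) := by
      rw [← sp_inv]; exact h2
    unfold redMap
    split_ifs with h
    · rw [← D.param.centreMap_inv_eq h h1, h3]
    · exact h3

/-- Restriction along `β` specialises to the projection `pB` of classes. -/
theorem redMap_resβ (P : Place K F) : redMap D.param (D.resβ P) = D.pB (D.sp P) := by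
  by_cases hP : IsDisc A D.T P
  · obtain ⟨h1, h2⟩ := centre_resβ hP
    rw [redMap, if_pos h1, h2]
  · obtain ⟨h1, h2⟩ := centre_resβ (D := D.inv) (isDisc_inv_of_not hP).1
    have h3 : centreMap D.param.inv (D.resβ P) = D.pB (D.sp P) := by
      rw [← sp_inv]; exact h2
    unfold redMap
    split_ifs with h
    · rw [← D.param.centreMap_inv_eq h h1, h3]
    · exact h3

end Data

end FLTAgent.Lift
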