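import Fermat.Agent.Lift.Transport

/-!
# Rigidity: a good class with constant label is trivial

`Wit.eq_zero_of_const`. The key step `eq_of_red_const` shows that a function with constant reduction
and divisor `n` times the difference of an effective divisor and one in general position is
constant, since `n` is invertible in `k` and so simple poles of the reduction cannot cancel
(`vanish_red`).
-/

set_option autoImplicit false
set_option linter.style.haveILetI false
set_option linter.unusedSectionVars false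

noncomputable section

open AlgebraicCurve SemilinearAut Module

namespace FLTAgent.Lift

open FLTAgent.Reduction

/-- A fibre carrying total multiplicity one. -/
theorem exists_unique_of_mapDomain_eq_one {α β : Type*} (r : α → β) {E : α →₀ ℤ}
    (hE : 0 ≤ E) {b : β} (h : Finsupp.mapDomain r E b = 1) :
    ∃ a, r a = b ∧ E a = 1 ∧ ∀ a', r a' = b → a' ≠ a → E a' = 0 := by
  classical
  obtain ⟨a, ha, h1⟩ : ∃ a, r a = b ∧ 1 ≤ E a := by
    by_contra hall
    push Not at hall
    rw [mapDomain_eq_zero_of fun a ha e => ha (le_antisymm (by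
      have := hall a e; omega) (hE a))] at h
    exact zero_ne_one h
  have hle := le_mapDomain_of_nonneg r E b (fun x _ => hE x) ha
  refine ⟨a, ha, by omega, fun a' ha' hne => ?_⟩
  have h2 := add_le_mapDomain_of_nonneg r E b (fun x _ => hE x) ha ha' (Ne.symm hne)
  have : 0 ≤ E a' := hE a'
  omega

namespace Data

variable {K k F F₀ E : Type*} [Field K] [Field k] [Field F] [Field F₀] [Field E] [Algebra K F]
  [Algebra K F₀] [Algebra k E] {A : ValuationSubring K} {π : A →+* k} {q g g' : ℕ}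
variable {D : Data A π q F F₀ E g g'} [Infinite k]

/-- A component seen at an unglued finite class. -/
structure CompAt (D : Data A π q F F₀ E g g') (G : GaussRed A π F E) (c : Cls k E) : Prop where
  scale : ∀ f : F, f ≠ 0 → ∃ a : K, a ≠ 0 ∧ a • f ∈ G.V ∧ G.red (a • f) ≠ 0
  mem : ∀ f ∈ D.V, f ∈ G.V
  fin : 0 ≤ c.2.ord D.tau
  canon : D.IsCanon c
  val : ∀ f : F, cval (D.red f) c = valAt c.2 (G.red f)
  div : ∀ f : F, f ≠ 0 → D.spDiv f c = sdiv G f c.2
  unif : ∃ s ∈ D.V, c.2.ord (G.red s) = 1 ∧ ∀ P, D.sp P = c → Vanish P s 0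

theorem compAt_true [IsAlgClosed K] {z : Place k E} (hz : z ∈ Data.Ord D) :
    CompAt D D.Ginf (true, z) where
  scale := D.scale_inf
  mem _ hf := hf.1
  fin := hz.1
  canon := isCanon_true z
  val _ := rfl
  div f hf := by
    rw [spDiv_eq_sDiv hf, sDiv_apply_true hf, if_neg hz.2.1, add_zero]
    rfl
  unif := by
    obtain ⟨s, hs, hord, hreg⟩ := D.param.exists_uniformizer (Q := z) hz.1
    refine ⟨D.α s, D.alpha_mem hs, ?_, fun P hP => ?_⟩
    · rw [show D.Ginf.red (D.α s) = D.G.red s from congrArg Prod.fst (D.red_alpha hs)]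
      exact hord
    · refine (valAt_alpha (hreg _ ?_)).1
      rw [redMap_resα, hP]
      rfl

theorem compAt_false [IsAlgClosed K] {z : Place k E} (hz : z ∈ Data.Ord D) :
    CompAt D D.Gzero (false, z) where
  scale := D.scale_zero
  mem _ hf := hf.2
  fin := hz.1
  canon := isCanon_ord hz _
  val _ := rfl
  div f hf := by
    rw [spDiv_eq_sDiv hf, sDiv_apply_false hf (isCanon_ord hz _)]
    rfl
  unif := by
    obtain ⟨s, hs, hord, hreg⟩ := D.param.exists_uniformizer (Q := z) hz.1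
    refine ⟨D.β s, D.beta_mem hs, ?_, fun P hP => ?_⟩
    · rw [show D.Gzero.red (D.β s) = D.G.red s from congrArg Prod.snd (D.red_beta hs)]
      exact hord
    · refine (valAt_beta (hreg _ ?_)).1
      rw [redMap_resβ, hP]
      rfl

namespace CompAt

variable {G : GaussRed A π F E} {c : Cls k E}

theorem red_nonneg (H : CompAt D G c) {a : K} {f : F} (h : IsNormal G a f)
    (hp : ∀ P, D.sp P = c → Vanish P f 0) : 0 ≤ c.2.ord (G.red (a • f)) := by
  classical
  have hf := h.ne_zero.2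
  rw [← D.param.curveBar.divOf_apply, ← sdiv_eq D.param.curveBar h, ← H.div f hf, spDiv,
    mapDomain_apply_eq_sum]
  refine Finset.sum_nonneg fun P hP => ?_
  rw [D.curve.divOf_apply]
  exact Vanish.zero_iff.mp (hp P (Finset.mem_filter.mp hP).2)

/-- A uniformizer adapted to a place of the class. -/
theorem exists_unif_at (H : CompAt D G c) {s : F} (hs : s ∈ D.V) (hs1 : c.2.ord (G.red s) = 1)
    (hsp : ∀ P, D.sp P = c → Vanish P s 0) {P : Place K F} (hP : D.sp P = c) :
    ∃ v : A, valAt P s = (v : K) ∧ π v = 0 ∧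
      G.red (s - algebraMap K F (v : K)) = G.red s ∧
      P.ord (s - algebraMap K F (v : K)) = 1 ∧
      ∀ P', D.sp P' = c → P' ≠ P → P'.ord (s - algebraMap K F (v : K)) = 0 := by
  classical
  obtain ⟨-, hval⟩ := reg_of_noPole_fin H.canon H.fin hs hsp
  obtain ⟨hA, hres⟩ := hval P hP
  have h0 : π ⟨_, hA⟩ = 0 := by
    rw [← resVal_of_eq P s ⟨_, hA⟩ rfl, hres, H.val]
    exact valAt_eq_zero_of_vanish (Or.inr hs1.ge)
  set t := s - algebraMap K F ((⟨_, hA⟩ : A) : K) with ht
  have htred : G.red t = G.red s := by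
    rw [ht, G.red_sub (H.mem s hs) (G.const_mem _), G.red_const, h0, map_zero, sub_zero]
  have htn : IsNormal G 1 t := by
    refine ⟨by rw [one_smul]; exact G.V.sub_mem (H.mem s hs) (G.const_mem _), ?_⟩
    rw [one_smul, htred]
    exact fun e => by simp [e] at hs1
  have ht0 := htn.ne_zero.2
  have htreg : ∀ P', D.sp P' = c → Vanish P' t 0 := fun P' hP' =>
    (hsp P' hP').sub (Vanish.const _)
  have hnn : ∀ P', D.sp P' = c → 0 ≤ (divOf t : Divisor K F) P' := fun P' hP' => by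
    rw [D.curve.divOf_apply]
    exact Vanish.zero_iff.mp (htreg P' hP')
  have hone : Finsupp.mapDomain D.sp (divOf t : Divisor K F) c = 1 := by
    rw [show Finsupp.mapDomain D.sp (divOf t : Divisor K F) c = D.spDiv t c from rfl, H.div t ht0,
      sdiv_eq D.param.curveBar htn, one_smul, htred, D.param.curveBar.divOf_apply, hs1]
  have hge : 1 ≤ P.ord t := (D.curve.exists_valAt (hsp P hP)).resolve_left ht0
  have h1 := le_mapDomain_of_nonneg D.sp (divOf t : Divisor K F) c hnn hP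
  rw [hone, D.curve.divOf_apply] at h1
  refine ⟨⟨_, hA⟩, rfl, h0, htred, (show P.ord t = 1 by omega), fun P' hP' hne => ?_⟩
  show P'.ord t = 0
  have h2 := add_le_mapDomain_of_nonneg D.sp (divOf t : Divisor K F) c hnn hP hP' (Ne.symm hne)
  have h3 := hnn P' hP'
  rw [hone, D.curve.divOf_apply, D.curve.divOf_apply] at h2
  rw [D.curve.divOf_apply] at h3
  omega

set_option maxHeartbeats 400000 in
/-- **Simple poles.** -/
theorem vanish_red (H : CompAt D G c) {n : ℕ} (hn : (n : k) ≠ 0) {φ : F} (hφ : φ ∈ D.V)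
    (hred : G.red φ = 1) {P₁ P₀ : Place K F} (hP₁ : D.sp P₁ = c) (hP₀ : D.sp P₀ = c)
    (h₁ : P₁ ≠ P₀ → P₁.ord φ = n) (h₀ : P₁ ≠ P₀ → P₀.ord φ = -(n : ℤ))
    (hother : ∀ P, D.sp P = c → (P₁ ≠ P₀ → P ≠ P₁ ∧ P ≠ P₀) → P.ord φ = 0)
    {γ : K} (hψ : γ • (φ - 1) ∈ D.V) : Vanish c.2 (G.red (γ • (φ - 1))) (-1) := by
  classical
  have hψG := H.mem _ hψ
  by_cases hψ0 : G.red (γ • (φ - 1)) = 0
  · exact Or.inl hψ0
  have hγn : IsNormal G γ (φ - 1) := ⟨hψG, hψ0⟩
  by_cases hP : P₁ = P₀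
  · refine Or.inr (le_trans (by norm_num) (H.red_nonneg hγn fun P hPc => ?_))
    refine Vanish.sub ?_ Vanish.one
    exact Vanish.zero_iff.mpr (hother P hPc fun h => absurd hP h).ge
  obtain ⟨s, hs, hs1, hsp⟩ := H.unif
  obtain ⟨v₀, -, hv₀, ht, ht1, ht'⟩ := H.exists_unif_at hs hs1 hsp hP₀
  obtain ⟨v₁, -, hv₁, hu, hu1, hu'⟩ := H.exists_unif_at hs hs1 hsp hP₁
  set t := s - algebraMap K F (v₀ : K) with htdef
  set u := s - algebraMap K F (v₁ : K) with hudef
  set a : A := v₁ - v₀ with hadef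
  have ha : π a = 0 := by rw [hadef, map_sub, hv₀, hv₁, sub_zero]
  have hut : u = t - algebraMap K F (a : K) := by
    rw [hudef, htdef, hadef, AddSubgroupClass.coe_sub, map_sub]; ring
  have hs0 : G.red s ≠ 0 := fun e => by simp [e] at hs1
  have htV : t ∈ G.V := G.V.sub_mem (H.mem s hs) (G.const_mem _)
  have huV : u ∈ G.V := G.V.sub_mem (H.mem s hs) (G.const_mem _)
  have htr : G.red t ≠ 0 := by rwa [ht]
  have hur : G.red u ≠ 0 := by rwa [hu]
  have htne : t ≠ 0 := fun e => htr (by rw [e, G.red_zero])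
  have hune : u ≠ 0 := fun e => hur (by rw [e, G.red_zero])
  have hti := G.inv_mem htV htr
  have hui := G.inv_mem huV hur
  have hfac : G.red t⁻¹ = (G.red t)⁻¹ := by
    refine eq_inv_of_mul_eq_one_left ?_
    rw [← G.red_mul hti htV, inv_mul_cancel₀ htne, G.red_one]
  have huinv : G.red u⁻¹ = (G.red u)⁻¹ := by
    refine eq_inv_of_mul_eq_one_left ?_
    rw [← G.red_mul hui huV, inv_mul_cancel₀ hune, G.red_one]
  -- the function without zeros and poles in the class
  set U := φ * (t * u⁻¹) ^ n with hU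
  have htu : t * u⁻¹ ∈ G.V := G.V.mul_mem htV hui
  have hUV : U ∈ G.V := G.V.mul_mem (H.mem φ hφ) (pow_mem htu n)
  have hUred : G.red U = 1 := by
    rw [hU, G.red_mul (H.mem φ hφ) (pow_mem htu n), G.red_pow htu, G.red_mul htV hui, huinv,
      ht, hu, mul_inv_cancel₀ hs0, one_pow, hred, mul_one]
  have hφne : φ ≠ 0 := fun e => by simp [e, G.red_zero] at hred
  have hUreg : ∀ P, D.sp P = c → Vanish P (U - 1) 0 := fun P hPc => by
    refine Vanish.sub (Vanish.zero_iff.mpr ?_) Vanish.one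
    rw [hU, P.ord_mul hφne (pow_ne_zero _ (mul_ne_zero htne (inv_ne_zero hune))), FF.ord_pow,
      P.ord_mul htne (inv_ne_zero hune), P.ord_inv]
    by_cases e1 : P = P₁
    · subst e1
      rw [h₁ hP, hu1, ht' P hPc hP]; simp
    · by_cases e0 : P = P₀
      · subst e0
        rw [h₀ hP, ht1, hu' P hPc e1]; simp
      · rw [hother P hPc fun _ => ⟨e1, e0⟩, ht' P hPc e0, hu' P hPc e1]; simp
  obtain ⟨e', W, hWV, hWr, hWreg, hUW⟩ : ∃ (e' : K) (W : F), W ∈ G.V ∧ G.red W ≠ 0 ∧
      Vanish c.2 (G.red W) 0 ∧ U - 1 = e' • W := by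
    by_cases h : U - 1 = 0
    · exact ⟨0, 1, G.V.one_mem, by rw [G.red_one]; exact one_ne_zero,
        by rw [G.red_one]; exact Vanish.one, by rw [h, zero_smul]⟩
    · obtain ⟨b, hb, hbV, hbr⟩ := H.scale _ h
      exact ⟨b⁻¹, b • (U - 1), hbV, hbr, Vanish.zero_iff.mpr (H.red_nonneg ⟨hbV, hbr⟩ hUreg),
        by rw [smul_smul, inv_mul_cancel₀ hb, one_smul]⟩
  set τ := 1 - (a : K) • t⁻¹ with hτ
  have hτV : τ ∈ G.V := G.V.sub_mem G.V.one_mem (G.smul_mem a hti)
  have hτred : G.red τ = 1 := by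
    rw [hτ, G.red_sub G.V.one_mem (G.smul_mem a hti), G.red_smul a hti, ha, zero_smul, G.red_one,
      sub_zero]
  set R := -(t⁻¹) * ∑ i ∈ Finset.range n, τ ^ i with hR
  have hsum : (∑ i ∈ Finset.range n, τ ^ i) ∈ G.V := G.V.sum_mem fun i _ => pow_mem hτV i
  have hRV : R ∈ G.V := G.V.mul_mem (G.V.neg_mem hti) hsum
  have hRred : G.red R = -(G.red s)⁻¹ * algebraMap k E (n : k) := by
    rw [hR, G.red_mul (G.V.neg_mem hti) hsum, G.red_neg hti, hfac, ht,
      G.red_sum _ _ (fun i _ => pow_mem hτV i)]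
    simp [G.red_pow hτV, hτred]
  have hτn : τ ^ n - 1 = (a : K) • R := by
    rw [← geom_sum_mul, hR, hτ, Algebra.smul_def, Algebra.smul_def]
    ring
  have hτu : τ = u * t⁻¹ := by
    rw [hτ, hut, sub_mul, mul_inv_cancel₀ htne, Algebra.smul_def]
  have hdec : φ - 1 = e' • (τ ^ n * W) + (a : K) • R := by
    have h2 : φ = τ ^ n * U := by
      rw [hU, hτu, mul_left_comm, ← mul_pow,
        show u * t⁻¹ * (t * u⁻¹) = (u * u⁻¹) * (t⁻¹ * t) by ring, mul_inv_cancel₀ hune,
        inv_mul_cancel₀ htne, one_mul, one_pow, mul_one]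
    rw [← hτn, ← mul_smul_comm, ← hUW, h2]
    ring
  have hrW : G.red (τ ^ n * W) = G.red W := by
    rw [G.red_mul (pow_mem hτV n) hWV, G.red_pow hτV, hτred, one_pow, one_mul]
  have hRord : c.2.ord (G.red R) = -1 ∧ G.red R ≠ 0 := by
    have hne : algebraMap k E (n : k) ≠ 0 := (map_ne_zero _).mpr hn
    rw [hRred]
    refine ⟨?_, mul_ne_zero (neg_ne_zero.mpr (inv_ne_zero hs0)) hne⟩
    rw [neg_mul, FF.ord_neg, Place.ord_mul c.2 (inv_ne_zero hs0) hne, Place.ord_inv,
      FF.ord_algebraMap, hs1]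
    rfl
  have hindep : G.RedIndep ![τ ^ n * W, R] := by
    refine ⟨fun i => by fin_cases i; exacts [G.V.mul_mem (pow_mem hτV n) hWV, hRV], ?_⟩
    have e : (fun i => G.red (![τ ^ n * W, R] i)) = ![G.red W, G.red R] := by
      funext i; fin_cases i
      exacts [hrW, rfl]
    rw [e, LinearIndependent.pair_iff]
    intro x y hxy
    have hy : y = 0 := by
      by_contra hy
      have e2 : G.red R = (-(x / y)) • G.red W := by
        have h3 : y • G.red R = (-x) • G.red W := by rw [neg_smul]; linear_combination hxy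
        rw [← inv_smul_smul₀ hy (G.red R), h3, smul_smul]
        congr 1
        ring
      have h4 : Vanish c.2 (G.red R) 0 := e2 ▸ hWreg.smul _
      have h5 := Vanish.zero_iff.mp h4
      omega
    subst hy
    rw [zero_smul, add_zero, smul_eq_zero] at hxy
    exact ⟨hxy.resolve_right hWr, rfl⟩
  have hψeq : γ • (φ - 1) = ∑ i, (![γ * e', γ * (a : K)] i) • (![τ ^ n * W, R] i) := by
    rw [Fin.sum_univ_two, hdec]
    simp [smul_add, smul_smul]
  have hcoef := hindep.coeff_mem (c := ![γ * e', γ * (a : K)]) (hψeq ▸ hψG)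
  have hred2 := G.red_sum_smul hindep.1 fun i => (⟨_, hcoef i⟩ : A)
  rw [hψeq]
  refine (show G.red _ = _ from hred2) ▸ Vanish.sum _ _ fun i _ => Vanish.smul _ ?_
  fin_cases i
  · show Vanish c.2 (G.red (τ ^ n * W)) (-1)
    rw [hrW]
    exact hWreg.mono (by norm_num)
  · exact Or.inr hRord.1.ge

end CompAt

set_option maxHeartbeats 400000 in
/-- A function with constant reduction and divisor `n` times the difference of an effective
divisor and one in general position is constant. -/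
theorem eq_of_red_const [IsAlgClosed K] (P0 : D.Pos) {n : ℕ} (hn : (n : k) ≠ 0)
    {φ : F} (hφ : φ ∈ D.V) {u : k} (hu : u ≠ 0)
    (hred : D.red φ = (algebraMap k E u, algebraMap k E u)) {E' : Divisor K F} (hE : 0 ≤ E')
    (hdiv : (divOf φ : Divisor K F) = (n : ℤ) • (E' - P0.D0)) : E' = P0.D0 := by
  classical
  have hn0 : n ≠ 0 := fun h => hn (by rw [h, Nat.cast_zero])
  have hu' : algebraMap k E u ≠ 0 := by simpa using hu
  have hr1 : D.Ginf.red φ = algebraMap k E u := congrArg Prod.fst hred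
  have hr0 : D.Gzero.red φ = algebraMap k E u := congrArg Prod.snd hred
  have hpush : Finsupp.mapDomain D.sp E' = Finsupp.mapDomain D.sp P0.D0 := by
    refine sub_eq_zero.mp (zsmul_cancel hn0 (W := 0) ?_)
    rw [← Finsupp.mapDomain_sub, ← Finsupp.mapDomain_smul, ← hdiv, smul_zero,
      show Finsupp.mapDomain D.sp (divOf φ : Divisor K F) = D.spDiv φ from rfl,
      spDiv_eq_rdiv hφ (by rwa [hr1]) (by rwa [hr0]), hred, rdiv,
      show (divOf (algebraMap k E u) : Divisor k E) = 0 from Finsupp.ext fun v => by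
        rw [D.param.curveBar.divOf_apply, FF.ord_algebraMap]; rfl]
    simp
  have hone : ∀ cl ∈ P0.S, Finsupp.mapDomain D.sp P0.D0 cl = 1 := fun cl hcl => by
    rw [P0.push]
    simp [Finsupp.finsetSum_apply, Finsupp.single_apply, hcl]
  have hordφ : ∀ P, P.ord φ = (n : ℤ) * (E' P - P0.D0 P) := fun P => by
    rw [← D.curve.divOf_apply, hdiv, Finsupp.smul_apply, Finsupp.sub_apply, smul_eq_mul]
  -- the base point
  obtain ⟨z, hz, hzS⟩ := (ord_infinite (D := D)).exists_notMem_finset (P0.S.image Prod.snd)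
  obtain ⟨P, hP⟩ := exists_sp_eq (D := D) (isCanon_true z) hz.1
  have hPS : ∀ P', D.sp P' = (true, z) → P0.D0 P' = 0 := fun P' hP' => by
    by_contra h
    exact hzS (Finset.mem_image.mpr ⟨_, hP' ▸ P0.supp P' h, rfl⟩)
  have hφreg : ∀ P', D.sp P' = (true, z) → Vanish P' φ 0 := fun P' hP' => by
    rw [Vanish.zero_iff, hordφ, hPS P' hP', sub_zero]
    exact mul_nonneg (Nat.cast_nonneg n) (hE P')
  obtain ⟨-, hval⟩ := reg_of_noPole_fin (c := (true, z)) (isCanon_true z) hz.1 hφ hφreg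
  obtain ⟨hA, hres⟩ := hval P hP
  have hπ : π ⟨_, hA⟩ = u := by
    rw [← resVal_of_eq P φ ⟨_, hA⟩ rfl, hres]
    show valAt z (D.Ginf.red φ) = u
    rw [hr1, valAt_algebraMap]
  have hinv : (valAt P φ)⁻¹ ∈ A := D.Ginf.res_ne_zero_inv_mem (a := ⟨_, hA⟩) (by rw [hπ]; exact hu)
  have hv0 : valAt P φ ≠ 0 := fun h => hu (by
    rw [← hπ, show (⟨valAt P φ, hA⟩ : A) = 0 from Subtype.ext h, map_zero])
  have hπinv : π ⟨_, hinv⟩ = u⁻¹ := by
    refine eq_inv_of_mul_eq_one_left ?_
    rw [← hπ, ← map_mul, show (⟨_, hinv⟩ : A) * ⟨_, hA⟩ = 1 from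
      Subtype.ext (inv_mul_cancel₀ hv0), map_one]
  set φ' := (valAt P φ)⁻¹ • φ with hφ'
  have hφ'V : φ' ∈ D.V := smul_mem ⟨_, hinv⟩ hφ
  have hφ'red : D.red φ' = (1, 1) := by
    have h := red_smul ⟨_, hinv⟩ hφ
    rw [hπinv, hred] at h
    rw [hφ', h]
    refine Prod.ext ?_ ?_ <;>
      · show u⁻¹ • algebraMap k E u = 1
        rw [Algebra.smul_def, ← map_mul, inv_mul_cancel₀ hu, map_one]
  have hφne : φ ≠ 0 := fun h => hu' (by rw [← hr1, h, D.Ginf.red_zero])
  have hordφ' : ∀ P', P'.ord φ' = (n : ℤ) * (E' P' - P0.D0 P') := fun P' => by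
    rw [hφ', Algebra.smul_def, P'.ord_mul (by simpa using hv0) hφne,
      FF.ord_algebraMap, zero_add, hordφ]
  by_cases hx : φ' - 1 = 0
  · refine Finsupp.ext fun P' => ?_
    have := hordφ' P'
    rw [sub_eq_zero.mp hx, Place.ord_one] at this
    have h2 := (mul_eq_zero.mp this.symm).resolve_left (by exact_mod_cast hn0)
    omega
  exfalso
  obtain ⟨γ, hγ, hγV, hγr⟩ := D.exists_scale hx
  set ψ := γ • (φ' - 1) with hψ
  have hψreg : ∀ P', P0.D0 P' = 0 → Vanish P' ψ 0 := fun P' h => by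
    refine Vanish.smul γ (Vanish.sub (Vanish.zero_iff.mpr ?_) Vanish.one)
    rw [hordφ', h, sub_zero]
    exact mul_nonneg (Nat.cast_nonneg n) (hE P')
  have hfree : ∀ cl, cl ∉ P0.S → ∀ P', D.sp P' = cl → P0.D0 P' = 0 := fun cl hcl P' hP' => by
    by_contra h
    exact hcl (hP' ▸ P0.supp P' h)
  have hpole : ∀ (G : GaussRed A π F E) (cl : Cls k E), cl ∈ P0.S → CompAt D G cl →
      G.red φ' = 1 → Vanish cl.2 (G.red ψ) (-1) := by
    intro G cl hcl H hG
    obtain ⟨P₀, hP₀, hD1, hD0⟩ :=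
      exists_unique_of_mapDomain_eq_one D.sp P0.nonneg (hone cl hcl)
    obtain ⟨P₁, hP₁, hE1, hE0⟩ :=
      exists_unique_of_mapDomain_eq_one D.sp hE (by rw [hpush]; exact hone cl hcl)
    refine H.vanish_red hn hφ'V hG hP₁ hP₀ (fun h => ?_) (fun h => ?_) (fun R hR h => ?_) hγV
    · rw [hordφ', hE1, hD0 P₁ hP₁ h]; ring
    · rw [hordφ', hD1, hE0 P₀ hP₀ (Ne.symm h)]; ring
    · rw [hordφ']
      by_cases e : P₁ = P₀
      · subst e
        by_cases e' : R = P₁
        · subst e'; rw [hE1, hD1]; ring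
        · rw [hE0 R hR e', hD0 R hR e']; ring
      · rw [hE0 R hR (h e).1, hD0 R hR (h e).2]; ring
  have hregc : ∀ cl : Cls k E, D.IsCanon cl → cl ∉ P0.S → D.RegAt (D.red ψ) cl :=
    fun cl hcan hcl => reg_of_noPole hcan hγV fun P' hP' => hψreg P' (hfree cl hcl P' hP')
  have hI : ∀ y, ((true, y) ∈ P0.S → Vanish y (D.Ginf.red ψ) (-1)) ∧
      ((true, y) ∉ P0.S → Vanish y (D.Ginf.red ψ) 0) := by
    intro y
    constructor
    · intro hy
      have ho : y ∈ Data.Ord D := P0.ord_mem (true, y) hy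
      have he : D.Ginf.red φ' = 1 := congrArg Prod.fst hφ'red
      exact hpole D.Ginf (true, y) hy (compAt_true (D := D) ho) he
    · intro hy
      exact (hregc (true, y) (isCanon_true y) hy).1
  have hnotS : ∀ Q ∈ D.X, ((true, Q) : Cls k E) ∉ P0.S := fun Q hQ h => by
    have ho : Q ∈ Data.Ord D := P0.ord_mem (true, Q) h
    exact ho.2.1 hQ
  have hglue : ∀ Q ∈ D.X, Vanish (D.frob • Q) (D.Gzero.red ψ) 0 ∧
      valAt Q (D.Ginf.red ψ) = valAt (D.frob • Q) (D.Gzero.red ψ) := fun Q hQ =>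
    (hregc (true, Q) (isCanon_true Q) (hnotS Q hQ)).2 rfl hQ
  have hZ : ∀ y, ((false, y) ∈ P0.S → Vanish y (D.Gzero.red ψ) (-1)) ∧
      ((false, y) ∉ P0.S → Vanish y (D.Gzero.red ψ) 0) := by
    intro y
    constructor
    · intro hy
      have ho : y ∈ Data.Ord D := P0.ord_mem (false, y) hy
      have he : D.Gzero.red φ' = 1 := congrArg Prod.snd hφ'red
      exact hpole D.Gzero (false, y) hy (compAt_false (D := D) ho) he
    · intro hy
      by_cases hcan : D.IsCanon (false, y)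
      · exact (hregc (false, y) hcan hy).1
      · simp only [Data.IsCanon, not_not] at hcan
        have := (hglue _ hcan.2).1
        rwa [smul_inv_smul] at this
  obtain ⟨κ, hκ⟩ := P0.constL _ hI
  have h0 : D.Gzero.red ψ - algebraMap k E κ = 0 := by
    refine P0.zeroL _ (fun y => ⟨fun hy => ((hZ y).1 hy).sub ((Vanish.const κ).mono (by norm_num)),
      fun hy => ((hZ y).2 hy).sub (Vanish.const κ)⟩) fun Q hQ => ?_
    obtain ⟨g1, g2⟩ := hglue Q hQ
    rw [hκ, valAt_algebraMap] at g2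
    rw [g2]
    exact D.param.curveBar.exists_valAt g1
  obtain ⟨-, hval'⟩ := reg_of_noPole_fin (c := (true, z)) (isCanon_true z) hz.1 hγV
    fun P' hP' => hψreg P' (hPS P' hP')
  obtain ⟨-, hres'⟩ := hval' P hP
  have hv1 : valAt P φ' = 1 := by
    rw [hφ', D.curve.valAt_smul _ (hφreg P hP), inv_mul_cancel₀ hv0]
  have hvψ : valAt P ψ = ((0 : A) : K) := by
    have hr : Vanish P φ' 0 := Vanish.smul _ (hφreg P hP)
    rw [hψ, D.curve.valAt_smul _ (hr.sub Vanish.one), D.curve.valAt_sub hr Vanish.one, hv1,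
      valAt_one, sub_self, mul_zero]
    rfl
  rw [resVal_of_eq P ψ 0 hvψ, map_zero] at hres'
  have hκ0 : κ = 0 := by
    rw [show cval (D.red ψ) (true, z) = valAt z (D.Ginf.red ψ) from rfl, hκ,
      valAt_algebraMap] at hres'
    exact hres'.symm
  rw [hκ0, map_zero] at hκ h0
  exact hγr (Prod.ext hκ (by rw [sub_zero] at h0; exact h0))

set_option maxHeartbeats 400000 in
/-- **Rigidity**: a class with constant label is trivial. -/
theorem Wit.eq_zero_of_const [IsAlgClosed K] {n : ℕ} (hn : (n : k) ≠ 0) (hX : 1 ≤ D.nX)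
    {z : Pic0 K F} {μ : Place k E → k} (W : D.Wit n z μ) {a : k} (ha : ∀ Q ∈ D.X, μ Q = a) :
    z = 0 := by
  classical
  have hn0 : n ≠ 0 := fun h => hn (by rw [h, Nat.cast_zero])
  obtain ⟨P0⟩ := exists_pos (D := D) hX
  obtain ⟨h, b, hV, hh0, hb, hbd, hH1, hH0⟩ := W.good.exists_section hn0 P0
  have haway : ∀ Q ∈ D.X, ∀ P, D.sp P = (true, Q) → P0.D0 P = 0 := fun Q hQ P hP => by
    by_contra hne
    have h1 := P0.supp P hne
    rw [hP] at h1
    have ho : Q ∈ Data.Ord D := P0.ord_mem (true, Q) h1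
    exact ho.2.1 hQ
  let W' : D.Wit n z fun Q => valAt (D.frob • Q) (D.Gzero.red h * W.good.w0) / b :=
    ⟨W.good, h, P0.D0, hV, P0.nonneg, hbd, haway,
      fun Q _ => by rw [hH1, valAt_algebraMap]; exact hb,
      fun Q _ => by rw [hH1, valAt_algebraMap, div_mul_cancel₀ _ hb]⟩
  obtain ⟨e, he⟩ := W.unique hn0 hX W'
  have hconst : D.Gzero.red h * W.good.w0 - algebraMap k E (e * a * b) = 0 := by
    refine P0.zeroL _ (fun y => ⟨fun hy => ((hH0 y).1 hy).sub ((Vanish.const _).mono (by norm_num)),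
      fun hy => ((hH0 y).2 hy).sub (Vanish.const _)⟩) fun Q hQ => ?_
    have h1 := he Q hQ
    rw [ha Q hQ, div_eq_iff hb] at h1
    rw [← h1]
    exact D.param.curveBar.exists_valAt
      (W.good.regAt_glued hn0 hV hbd hQ (haway Q hQ)).2.1
  rw [sub_eq_zero] at hconst
  obtain ⟨Q₀, hQ₀⟩ : D.Xfin.Nonempty := Finset.card_pos.mp hX
  have hQX := mem_Xfin.mp hQ₀
  have hpow := (W.good.regAt_glued hn0 hV hbd hQX (haway _ hQX)).2.2
  rw [hH1, hconst, valAt_algebraMap, valAt_algebraMap] at hpow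
  set φ := h ^ n * W.good.f with hφ
  have hφV : φ ∈ D.V := D.V.mul_mem (pow_mem hV n) W.good.mem
  have hred : D.red φ = (algebraMap k E (b ^ n), algebraMap k E (b ^ n)) := by
    rw [hφ, red_mul (pow_mem hV n) W.good.mem, red_pow hV, W.good.red_eq]
    refine Prod.ext ?_ ?_
    · show D.Ginf.red h ^ n * W.good.w1 ^ n = _
      rw [← mul_pow, hH1, map_pow]
    · show D.Gzero.red h ^ n * W.good.w0 ^ n = _
      rw [← mul_pow, hconst, ← map_pow, ← hpow]
  set E' : Divisor K F := divOf h + (W.good.Z : Divisor K F) + P0.D0 with hE'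
  have hE0 : 0 ≤ E' := fun P => by
    have := (hbd P).resolve_left hh0
    rw [hE', Finsupp.add_apply, Finsupp.add_apply, D.curve.divOf_apply, Finsupp.zero_apply]
    omega
  have hdiv : (divOf φ : Divisor K F) = (n : ℤ) • (E' - P0.D0) := by
    rw [hφ, D.curve.divOf_mul (pow_ne_zero _ hh0) W.good.rep.ne_zero, divOf_pow D.curve,
      ← W.good.rep.div_eq, ← smul_add, hE', add_sub_cancel_right]
  have hEq := eq_of_red_const P0 hn hφV (pow_ne_zero n hb) hred hE0 hdiv
  rw [← W.good.rep.mk_eq, pic0_mk_eq_zero]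
  have hz : (W.good.Z : Divisor K F) = -divOf h := by
    rw [hE', add_eq_right] at hEq
    exact eq_neg_of_add_eq_zero_right hEq
  rw [hz]
  exact neg_mem (D.curve.isPrincipal_divOf hh0)

end Data

end FLTAgent.Lift
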