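import Fermat.Agent.Lift.Conservation

/-!
# Divisors of reductions, normalised separately on the two components

`dI f` and `dZ f` are the divisors of the reductions of the multiples of `f` with unit content on
each component, and `sDiv` their sum on classes. Up to a function with unit content on both
components every function is an `n`-th power (`exists_eq_pow`, from `exists_ratio`), whence
`spDiv_eq_sDiv`: divisors specialise to `sDiv`.
-/

set_option autoImplicit false
set_option linter.style.haveILetI false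
set_option linter.unusedSectionVars false

noncomputable section

open AlgebraicCurve SemilinearAut Module

namespace FLTAgent.Lift

open FLTAgent.Reduction

theorem divOf_smul_const {K F : Type*} [Field K] [Field F] [Algebra K F] {g : ℕ}
    (hC : CurveData K F g) {c : K} (hc : c ≠ 0) {f : F} (hf : f ≠ 0) :
    (divOf (c • f) : Divisor K F) = divOf f := by
  rw [Algebra.smul_def, hC.divOf_mul (by simpa using hc) hf, add_eq_right]
  exact Finsupp.ext fun v => by rw [hC.divOf_apply, FF.ord_algebraMap, Finsupp.zero_apply]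

section sdiv

variable {K k F E : Type*} [Field K] [Field k] [Field F] [Field E] [Algebra K F] [Algebra k E]
  {A : ValuationSubring K} {π : A →+* k} (G : GaussRed A π F E) {g : ℕ}

/-- `f` has unit content after multiplication by `c`. -/
def IsNormal (c : K) (f : F) : Prop := c • f ∈ G.V ∧ G.red (c • f) ≠ 0

open Classical in
/-- The divisor of the reduction of a normalised multiple. -/
def sdiv (f : F) : Divisor k E :=
  if h : ∃ c : K, IsNormal G c f then divOf (G.red (h.choose • f)) else 0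

variable {G}

theorem IsNormal.ne_zero {c : K} {f : F} (h : IsNormal G c f) : c ≠ 0 ∧ f ≠ 0 := by
  constructor
  · rintro rfl
    exact h.2 (by rw [zero_smul, G.red_zero])
  · rintro rfl
    exact h.2 (by rw [smul_zero, G.red_zero])

theorem IsNormal.exists_unit {c c' : K} {f : F} (h : IsNormal G c f) (h' : IsNormal G c' f) :
    ∃ a : A, π a ≠ 0 ∧ c' = (a : K) * c := by
  have e : c' / c * c = c' := div_mul_cancel₀ c' h.ne_zero.1
  have e' : c / c' * c' = c := div_mul_cancel₀ c h'.ne_zero.1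
  have h1 : c' / c ∈ A :=
    mem_A_of_smul_mem G h.1 h.2 (by rw [smul_smul, e]; exact h'.1)
  refine ⟨⟨c' / c, h1⟩, fun h0 => h'.2 ?_, e.symm⟩
  have h2 := G.red_smul ⟨c' / c, h1⟩ h.1
  rw [h0, zero_smul] at h2
  rw [smul_smul] at h2
  rwa [show ((⟨c' / c, h1⟩ : A) : K) * c = c' from e] at h2

theorem sdiv_eq (hC : CurveData k E g) {c : K} {f : F} (h : IsNormal G c f) :
    sdiv G f = divOf (G.red (c • f)) := by
  classical
  have hex : ∃ c : K, IsNormal G c f := ⟨c, h⟩
  rw [sdiv, dif_pos hex]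
  obtain ⟨a, ha, hc⟩ := h.exists_unit hex.choose_spec
  rw [hc, mul_smul, G.red_smul a h.1]
  exact divOf_smul_const hC ha h.2

theorem sdiv_of_mem (hC : CurveData k E g) {f : F} (h : f ∈ G.V) (h0 : G.red f ≠ 0) :
    sdiv G f = divOf (G.red f) := by
  rw [sdiv_eq hC (c := 1) ⟨by rwa [one_smul], by rwa [one_smul]⟩, one_smul]

theorem IsNormal.mul {c c' : K} {f f' : F} (h : IsNormal G c f) (h' : IsNormal G c' f') :
    IsNormal G (c * c') (f * f') := by
  have e : (c * c') • (f * f') = (c • f) * (c' • f') := (smul_mul_smul_comm c f c' f').symm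
  refine ⟨e ▸ G.V.mul_mem h.1 h'.1, ?_⟩
  rw [e, G.red_mul h.1 h'.1]
  exact mul_ne_zero h.2 h'.2

end sdiv

namespace Data

variable {K k F F₀ E : Type*} [Field K] [Field k] [Field F] [Field F₀] [Field E] [Algebra K F]
  [Algebra K F₀] [Algebra k E] {A : ValuationSubring K} {π : A →+* k} {q g g' : ℕ}
variable (D : Data A π q F F₀ E g g')

/-- The divisor of the normalised reduction on the first component. -/
def dI (f : F) : Divisor k E := sdiv D.Ginf f

/-- The divisor of the normalised reduction on the second component. -/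
def dZ (f : F) : Divisor k E := sdiv D.Gzero f

/-- The divisor on the classes of the two normalised reductions. -/
def sDiv (f : F) : Cls k E →₀ ℤ :=
  Finsupp.mapDomain (D.cls true) (D.dI f) + Finsupp.mapDomain (D.cls false) (D.dZ f)

variable {D}

theorem dI_eq {c : K} {f : F} (h : IsNormal D.Ginf c f) :
    D.dI f = divOf (D.Ginf.red (c • f)) := sdiv_eq D.param.curveBar h

theorem dZ_eq {c : K} {f : F} (h : IsNormal D.Gzero c f) :
    D.dZ f = divOf (D.Gzero.red (c • f)) := sdiv_eq D.param.curveBar h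

theorem exists_normal_inf {f : F} (hf : f ≠ 0) : ∃ c : K, IsNormal D.Ginf c f :=
  let ⟨c, _, h1, h2⟩ := D.scale_inf f hf
  ⟨c, h1, h2⟩

theorem exists_normal_zero {f : F} (hf : f ≠ 0) : ∃ c : K, IsNormal D.Gzero c f :=
  let ⟨c, _, h1, h2⟩ := D.scale_zero f hf
  ⟨c, h1, h2⟩

theorem dI_mul {f f' : F} (hf : f ≠ 0) (hf' : f' ≠ 0) : D.dI (f * f') = D.dI f + D.dI f' := by
  obtain ⟨c, hc⟩ := exists_normal_inf (D := D) hf
  obtain ⟨c', hc'⟩ := exists_normal_inf (D := D) hf'
  rw [dI_eq (hc.mul hc'), dI_eq hc, dI_eq hc', ← smul_mul_smul_comm,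
    D.Ginf.red_mul hc.1 hc'.1]
  exact D.param.curveBar.divOf_mul hc.2 hc'.2

theorem dZ_mul {f f' : F} (hf : f ≠ 0) (hf' : f' ≠ 0) : D.dZ (f * f') = D.dZ f + D.dZ f' := by
  obtain ⟨c, hc⟩ := exists_normal_zero (D := D) hf
  obtain ⟨c', hc'⟩ := exists_normal_zero (D := D) hf'
  rw [dZ_eq (hc.mul hc'), dZ_eq hc, dZ_eq hc', ← smul_mul_smul_comm,
    D.Gzero.red_mul hc.1 hc'.1]
  exact D.param.curveBar.divOf_mul hc.2 hc'.2

theorem dI_of_mem {f : F} (h : f ∈ D.Ginf.V) (h0 : D.Ginf.red f ≠ 0) :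
    D.dI f = divOf (D.Ginf.red f) := sdiv_of_mem D.param.curveBar h h0

theorem dZ_of_mem {f : F} (h : f ∈ D.Gzero.V) (h0 : D.Gzero.red f ≠ 0) :
    D.dZ f = divOf (D.Gzero.red f) := sdiv_of_mem D.param.curveBar h h0

theorem dI_smul {a : K} (ha : a ≠ 0) {f : F} (hf : f ≠ 0) : D.dI (a • f) = D.dI f := by
  obtain ⟨c, hc⟩ := exists_normal_inf (D := D) hf
  have h : IsNormal D.Ginf (c / a) (a • f) := by
    unfold IsNormal
    rw [smul_smul, div_mul_cancel₀ c ha]
    exact hc
  rw [dI_eq h, dI_eq hc, smul_smul, div_mul_cancel₀ c ha]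

theorem dZ_smul {a : K} (ha : a ≠ 0) {f : F} (hf : f ≠ 0) : D.dZ (a • f) = D.dZ f := by
  obtain ⟨c, hc⟩ := exists_normal_zero (D := D) hf
  have h : IsNormal D.Gzero (c / a) (a • f) := by
    unfold IsNormal
    rw [smul_smul, div_mul_cancel₀ c ha]
    exact hc
  rw [dZ_eq h, dZ_eq hc, smul_smul, div_mul_cancel₀ c ha]

theorem dI_one : D.dI (1 : F) = 0 := by
  have h := dI_mul (D := D) (one_ne_zero : (1 : F) ≠ 0) one_ne_zero
  rw [mul_one] at h
  simpa using h

theorem dZ_one : D.dZ (1 : F) = 0 := by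
  have h := dZ_mul (D := D) (one_ne_zero : (1 : F) ≠ 0) one_ne_zero
  rw [mul_one] at h
  simpa using h

theorem dI_pow {f : F} (hf : f ≠ 0) (n : ℕ) : D.dI (f ^ n) = (n : ℤ) • D.dI f := by
  induction n with
  | zero => simp [dI_one]
  | succ n ih => rw [pow_succ, dI_mul (pow_ne_zero _ hf) hf, ih]; push_cast; rw [add_smul, one_smul]

theorem dZ_pow {f : F} (hf : f ≠ 0) (n : ℕ) : D.dZ (f ^ n) = (n : ℤ) • D.dZ f := by
  induction n with
  | zero => simp [dZ_one]
  | succ n ih => rw [pow_succ, dZ_mul (pow_ne_zero _ hf) hf, ih]; push_cast; rw [add_smul, one_smul]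

theorem dI_inv {f : F} (hf : f ≠ 0) : D.dI f⁻¹ = -D.dI f := by
  have h := dI_mul (D := D) (inv_ne_zero hf) hf
  rw [inv_mul_cancel₀ hf, dI_one] at h
  exact eq_neg_of_add_eq_zero_left h.symm

theorem dZ_inv {f : F} (hf : f ≠ 0) : D.dZ f⁻¹ = -D.dZ f := by
  have h := dZ_mul (D := D) (inv_ne_zero hf) hf
  rw [inv_mul_cancel₀ hf, dZ_one] at h
  exact eq_neg_of_add_eq_zero_left h.symm

theorem degree_dI {f : F} (hf : f ≠ 0) : Divisor.degree (D.dI f) = 0 := by
  obtain ⟨c, hc⟩ := exists_normal_inf (D := D) hf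
  rw [dI_eq hc]
  exact D.param.curveBar.degree_divOf _

theorem degree_dZ {f : F} (hf : f ≠ 0) : Divisor.degree (D.dZ f) = 0 := by
  obtain ⟨c, hc⟩ := exists_normal_zero (D := D) hf
  rw [dZ_eq hc]
  exact D.param.curveBar.degree_divOf _

/-- Functions with an arbitrary ratio of contents on the two components. -/
theorem exists_ratio {d : K} (hd : d ≠ 0) :
    ∃ u : F, IsNormal D.Ginf 1 u ∧ IsNormal D.Gzero d u := by
  unfold IsNormal
  rcases A.mem_or_inv_mem d with hA | hA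
  · by_cases hu : π ⟨d, hA⟩ = 0
    · obtain ⟨M, hM⟩ := exists_kill (D := D) D.Ginf D.scale_inf D.killInf_mem.1
        (congrArg Prod.fst D.red_killInf) (algebraMap K F d⁻¹)
      obtain ⟨h1, h2⟩ := hM M le_rfl
      have e : d • (1 + D.killInf ^ M * algebraMap K F d⁻¹) =
          algebraMap K F ((⟨d, hA⟩ : A) : K) + D.killInf ^ M := by
        rw [Algebra.smul_def, mul_add, mul_one]
        congr 1
        rw [mul_left_comm, ← map_mul, mul_inv_cancel₀ hd, map_one, mul_one]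
      have hz : D.killInf ^ M ∈ D.Gzero.V := pow_mem D.killInf_mem.2 M
      refine ⟨1 + D.killInf ^ M * algebraMap K F d⁻¹, ?_, ?_⟩
      · rw [one_smul]
        refine ⟨D.Ginf.V.add_mem D.Ginf.V.one_mem h1, ?_⟩
        rw [D.Ginf.red_add D.Ginf.V.one_mem h1, h2, D.Ginf.red_one, add_zero]
        exact one_ne_zero
      · rw [e]
        refine ⟨D.Gzero.V.add_mem (D.Gzero.const_mem _) hz, ?_⟩
        rw [D.Gzero.red_add (D.Gzero.const_mem _) hz, D.Gzero.red_const, hu, map_zero, zero_add,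
          D.Gzero.red_pow D.killInf_mem.2,
          show D.Gzero.red D.killInf = D.frobPoly from congrArg Prod.snd D.red_killInf]
        exact pow_ne_zero _ D.frobPoly_ne_zero
    · refine ⟨1, ?_, ?_⟩
      · rw [one_smul]
        exact ⟨D.Ginf.V.one_mem, by rw [D.Ginf.red_one]; exact one_ne_zero⟩
      · rw [Algebra.smul_def, mul_one]
        refine ⟨D.Gzero.const_mem ⟨d, hA⟩, ?_⟩
        rw [show algebraMap K F d = algebraMap K F ((⟨d, hA⟩ : A) : K) from rfl, D.Gzero.red_const]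
        exact fun h => hu (map_eq_zero_iff _ (algebraMap k E).injective |>.mp h)
  · by_cases hu : π ⟨d⁻¹, hA⟩ = 0
    · obtain ⟨M, hM⟩ := exists_kill (D := D) D.Gzero D.scale_zero D.killZero_mem.2
        (congrArg Prod.snd D.red_killZero) (algebraMap K F d)
      obtain ⟨h1, h2⟩ := hM M le_rfl
      have hz : D.killZero ^ M ∈ D.Ginf.V := pow_mem D.killZero_mem.1 M
      have e : d • (algebraMap K F ((⟨d⁻¹, hA⟩ : A) : K) + D.killZero ^ M) =
          1 + D.killZero ^ M * algebraMap K F d := by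
        rw [Algebra.smul_def, mul_add]
        congr 1
        · rw [← map_mul, mul_inv_cancel₀ hd, map_one]
        · rw [mul_comm]
      refine ⟨algebraMap K F ((⟨d⁻¹, hA⟩ : A) : K) + D.killZero ^ M, ?_, ?_⟩
      · rw [one_smul]
        refine ⟨D.Ginf.V.add_mem (D.Ginf.const_mem _) hz, ?_⟩
        rw [D.Ginf.red_add (D.Ginf.const_mem _) hz, D.Ginf.red_const, hu, map_zero, zero_add,
          D.Ginf.red_pow D.killZero_mem.1,
          show D.Ginf.red D.killZero = D.frobPoly from congrArg Prod.fst D.red_killZero]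
        exact pow_ne_zero _ D.frobPoly_ne_zero
      · rw [e]
        refine ⟨D.Gzero.V.add_mem D.Gzero.V.one_mem h1, ?_⟩
        rw [D.Gzero.red_add D.Gzero.V.one_mem h1, h2, D.Gzero.red_one, add_zero]
        exact one_ne_zero
    · refine ⟨algebraMap K F ((⟨d⁻¹, hA⟩ : A) : K), ?_, ?_⟩
      · rw [one_smul]
        refine ⟨D.Ginf.const_mem _, ?_⟩
        rw [D.Ginf.red_const]
        exact fun h => hu (map_eq_zero_iff _ (algebraMap k E).injective |>.mp h)
      · rw [Algebra.smul_def, ← map_mul, mul_inv_cancel₀ hd, map_one]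
        exact ⟨D.Gzero.V.one_mem, by rw [D.Gzero.red_one]; exact one_ne_zero⟩

theorem sDiv_mul {f f' : F} (hf : f ≠ 0) (hf' : f' ≠ 0) :
    D.sDiv (f * f') = D.sDiv f + D.sDiv f' := by
  simp only [sDiv, dI_mul hf hf', dZ_mul hf hf', Finsupp.mapDomain_add]
  abel

theorem sDiv_pow {f : F} (hf : f ≠ 0) (n : ℕ) : D.sDiv (f ^ n) = (n : ℤ) • D.sDiv f := by
  simp only [sDiv, dI_pow hf, dZ_pow hf, Finsupp.mapDomain_smul, smul_add]

theorem sDiv_of_mem {f : F} (h : f ∈ D.V) (h1 : D.Ginf.red f ≠ 0) (h2 : D.Gzero.red f ≠ 0) :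
    D.sDiv f = D.rdiv (D.red f) := by
  rw [sDiv, dI_of_mem h.1 h1, dZ_of_mem h.2 h2]
  rfl

theorem spDiv_pow [Infinite k] {f : F} (hf : f ≠ 0) (n : ℕ) :
    D.spDiv (f ^ n) = (n : ℤ) • D.spDiv f := by
  induction n with
  | zero =>
    have h : D.spDiv (1 : F) = 0 := by
      have h := spDiv_mul (D := D) (one_ne_zero : (1 : F) ≠ 0) one_ne_zero
      rw [mul_one] at h
      simpa using h
    simp [h]
  | succ n ih =>
    rw [pow_succ, spDiv_mul (pow_ne_zero _ hf) hf, ih]; push_cast; rw [add_smul, one_smul]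

/-- Up to a function with unit content on both components, every function is an `n`-th power. -/
theorem exists_eq_pow [IsAlgClosed K] {f : F} (hf : f ≠ 0) {n : ℕ} (hn : 0 < n) :
    ∃ (u : F) (c : K), c ≠ 0 ∧ u ≠ 0 ∧ c • f * (u ^ n)⁻¹ ∈ D.V ∧
      D.Ginf.red (c • f * (u ^ n)⁻¹) ≠ 0 ∧ D.Gzero.red (c • f * (u ^ n)⁻¹) ≠ 0 := by
  obtain ⟨c, hc⟩ := exists_normal_inf (D := D) hf
  obtain ⟨c', hc'⟩ := exists_normal_zero (D := D) hf
  obtain ⟨d, hd⟩ := IsAlgClosed.exists_pow_nat_eq (c' / c) hn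
  have hd0 : d ≠ 0 := by
    rintro rfl
    rw [zero_pow hn.ne'] at hd
    exact div_ne_zero hc'.ne_zero.1 hc.ne_zero.1 hd.symm
  obtain ⟨u, hu, hu'⟩ := exists_ratio (D := D) hd0
  have hu1 : u ∈ D.Ginf.V ∧ D.Ginf.red u ≠ 0 := by
    obtain ⟨h1, h2⟩ := hu
    rw [one_smul] at h1 h2
    exact ⟨h1, h2⟩
  have hp1 : u ^ n ∈ D.Ginf.V := pow_mem hu1.1 n
  have hp1' : D.Ginf.red (u ^ n) ≠ 0 := by rw [D.Ginf.red_pow hu1.1]; exact pow_ne_zero _ hu1.2
  have hp2 : (d • u) ^ n ∈ D.Gzero.V := pow_mem hu'.1 n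
  have hp2' : D.Gzero.red ((d • u) ^ n) ≠ 0 := by
    rw [D.Gzero.red_pow hu'.1]; exact pow_ne_zero _ hu'.2
  have e : c • f * (u ^ n)⁻¹ = c' • f * ((d • u) ^ n)⁻¹ := by
    rw [smul_pow, hd]
    simp only [Algebra.smul_def, map_div₀]
    field_simp [(map_ne_zero (algebraMap K F)).mpr hc'.ne_zero.1,
      (map_ne_zero (algebraMap K F)).mpr hc.ne_zero.1, pow_ne_zero n hu.ne_zero.2]
  have i1 := D.Ginf.inv_mem hp1 hp1'
  have i2 := D.Gzero.inv_mem hp2 hp2'
  have inv_ne : ∀ (G : GaussRed A π F E) {x : F}, x ∈ G.V → G.red x ≠ 0 → G.red x⁻¹ ≠ 0 := by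
    intro G x hx hx0 h
    have h1 := G.red_mul hx (G.inv_mem hx hx0)
    rw [mul_inv_cancel₀ (fun h => hx0 (by rw [h, G.red_zero])), G.red_one, h, mul_zero] at h1
    exact one_ne_zero h1
  refine ⟨u, c, hc.ne_zero.1, hu.ne_zero.2, ⟨D.Ginf.V.mul_mem hc.1 i1, ?_⟩, ?_, ?_⟩
  · rw [e]; exact D.Gzero.V.mul_mem hc'.1 i2
  · rw [D.Ginf.red_mul hc.1 i1]; exact mul_ne_zero hc.2 (inv_ne _ hp1 hp1')
  · rw [e, D.Gzero.red_mul hc'.1 i2]; exact mul_ne_zero hc'.2 (inv_ne _ hp2 hp2')

/-- **Conservation of divisors**, with separate normalisation on the two components. -/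
theorem spDiv_eq_sDiv [Infinite k] [IsAlgClosed K] {f : F} (hf : f ≠ 0) :
    D.spDiv f = D.sDiv f := by
  refine sub_eq_zero.mp (Finsupp.ext fun c => ?_)
  set L := (D.spDiv f - D.sDiv f) c with hL
  by_contra h
  have hdiv : (((L.natAbs + 1 : ℕ) : ℤ)) ∣ L := by
    set n := L.natAbs + 1 with hn
    obtain ⟨u, b, hb, hu, hV, h1, h2⟩ := exists_eq_pow (D := D) hf (Nat.succ_pos L.natAbs)
    set f' := b • f * (u ^ n)⁻¹ with hf'
    have hf'0 : f' ≠ 0 := fun h0 => h1 (by rw [h0, D.Ginf.red_zero])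
    have hmul : f' * u ^ n = b • f := by
      rw [hf', mul_assoc, inv_mul_cancel₀ (pow_ne_zero n hu), mul_one]
    have e1 : D.spDiv f = D.spDiv f' + (n : ℤ) • D.spDiv u := by
      rw [← spDiv_pow hu, ← spDiv_mul hf'0 (pow_ne_zero n hu), hmul, spDiv, spDiv,
        divOf_smul_const D.curve hb hf]
    have e2 : D.sDiv f = D.sDiv f' + (n : ℤ) • D.sDiv u := by
      rw [← sDiv_pow hu, ← sDiv_mul hf'0 (pow_ne_zero n hu), hmul]
      simp only [sDiv, dI_smul hb hf, dZ_smul hb hf]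
    have e3 : D.spDiv f' = D.sDiv f' := by rw [spDiv_eq_rdiv hV h1 h2, sDiv_of_mem hV h1 h2]
    refine ⟨(D.spDiv u - D.sDiv u) c, ?_⟩
    rw [hL, e1, e2, e3, add_sub_add_left_eq_sub, ← smul_sub, Finsupp.smul_apply, smul_eq_mul]
  have hne : L ≠ 0 := h
  have := Int.le_of_dvd (by positivity : 0 < |L|) ((dvd_abs _ _).mpr hdiv)
  rw [Int.abs_eq_natAbs] at this
  omega

end Data

end FLTAgent.Lift
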