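import Fermat.Agent.Lift.Genus
import Fermat.Agent.Reduction.PlacesCentre

/-!
# Specialisation of places to the classes of the glued curve

A class (`Cls`) is a place on one of the two components, taken canonically at the crossings. For a
place `P` in the disc of `T`, values of integral regular functions are integral (`valAt_mem`) and
their residues form a character of the reduced chart, hence are the values at a unique class
(`exists_class_of_char`, `IsSp.unique`). Together with the chart at infinity this defines the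
specialisation `sp` of every place.
-/

set_option autoImplicit false
set_option linter.style.haveILetI false
set_option linter.unusedSectionVars false

noncomputable section

open AlgebraicCurve SemilinearAut Module

namespace FLTAgent.Lift

open FLTAgent.Reduction

/-- A place on one of the two components (`true` is the first). -/
abbrev Cls (k E : Type*) [Field k] [Field E] [Algebra k E] := Bool × Place k E

namespace Data

variable {K k F F₀ E : Type*} [Field K] [Field k] [Field F] [Field F₀] [Field E] [Algebra K F]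
  [Algebra K F₀] [Algebra k E] {A : ValuationSubring K} {π : A →+* k} {q g g' : ℕ}
variable (D : Data A π q F F₀ E g g')

open Classical in
/-- The canonical representative of a point of a component on the glued curve. -/
def cls (b : Bool) (z : Place k E) : Cls k E :=
  if b = false ∧ D.frob⁻¹ • z ∈ D.X then (true, D.frob⁻¹ • z) else (b, z)

/-- A canonical representative. -/
def IsCanon (c : Cls k E) : Prop := ¬ (c.1 = false ∧ D.frob⁻¹ • c.2 ∈ D.X)

/-- The value of a pair at a class. -/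
def cval {k E : Type*} [Field k] [Field E] [Algebra k E] (x : E × E) (c : Cls k E) : k := if c.1 then valAt c.2 x.1 else valAt c.2 x.2

variable {D}

include D in
theorem valAt_pow_bar {Q : Place k E} {w : E} (h : Vanish Q w 0) (n : ℕ) :
    valAt Q (w ^ n) = valAt Q w ^ n := by
  induction n with
  | zero => simp [valAt_one]
  | succ n ih => rw [pow_succ, D.param.curveBar.valAt_mul (by simpa using h.pow n) h, ih, pow_succ]

theorem cls_of_canon {c : Cls k E} (h : D.IsCanon c) : D.cls c.1 c.2 = c := if_neg h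

theorem cls_true (z : Place k E) : D.cls true z = (true, z) := by
  unfold Data.cls
  rw [if_neg (by simp)]

theorem cls_false_smul {Q : Place k E} (hQ : Q ∈ D.X) : D.cls false (D.frob • Q) = (true, Q) := by
  unfold Data.cls
  rw [inv_smul_smul, if_pos ⟨rfl, hQ⟩]

theorem isCanon_true (z : Place k E) : D.IsCanon (true, z) := fun h => by simp at h

theorem isCanon_cls (b : Bool) (z : Place k E) : D.IsCanon (D.cls b z) := by
  by_cases h : b = false ∧ D.frob⁻¹ • z ∈ D.X
  · rw [Data.cls, if_pos h]; exact isCanon_true _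
  · rw [Data.cls, if_neg h]; exact h

theorem ord_tau_inv_smul (z : Place k E) : (D.frob⁻¹ • z).ord D.tau = z.ord D.tau := by
  conv_rhs => rw [← smul_inv_smul D.frob z, D.ord_tau_smul]

theorem ord_tau_cls (b : Bool) (z : Place k E) : (D.cls b z).2.ord D.tau = z.ord D.tau := by
  by_cases h : b = false ∧ D.frob⁻¹ • z ∈ D.X
  · rw [Data.cls, if_pos h]; exact ord_tau_inv_smul z
  · rw [Data.cls, if_neg h]

theorem cval_cls_true (x : E × E) (z : Place k E) : cval x (D.cls true z) = valAt z x.1 := by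
  rw [cls_true]; rfl

theorem cval_cls_false {x : E × E} (hx : x ∈ D.RR) {z : Place k E} (hz : 0 ≤ z.ord D.tau) :
    cval x (D.cls false z) = valAt z x.2 := by
  by_cases h : D.frob⁻¹ • z ∈ D.X
  · rw [Data.cls, if_pos ⟨rfl, h⟩]
    have h1 : D.frob⁻¹ • z ∈ D.Xaff := mem_Xaff_iff.mpr ⟨h, by rwa [ord_tau_inv_smul]⟩
    have h2 := h1.2 x hx
    rwa [smul_inv_smul] at h2
  · rw [Data.cls, if_neg (fun h' => h h'.2)]; rfl

theorem cval_regular {x : E × E} (hx : x ∈ D.RR) {c : Cls k E} (hc : 0 ≤ c.2.ord D.tau) :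
    Vanish c.2 (if c.1 then x.1 else x.2) 0 := by
  cases c.1
  · exact hx.1.2 _ hc
  · exact hx.1.1 _ hc

theorem cval_sub {x x' : E × E} (hx : x ∈ D.RR) (hx' : x' ∈ D.RR) {c : Cls k E}
    (hc : 0 ≤ c.2.ord D.tau) : cval (x - x') c = cval x c - cval x' c := by
  obtain ⟨b, z⟩ := c
  cases b
  · exact D.param.curveBar.valAt_sub (hx.1.2 _ hc) (hx'.1.2 _ hc)
  · exact D.param.curveBar.valAt_sub (hx.1.1 _ hc) (hx'.1.1 _ hc)

theorem cval_add {x x' : E × E} (hx : x ∈ D.RR) (hx' : x' ∈ D.RR) {c : Cls k E}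
    (hc : 0 ≤ c.2.ord D.tau) : cval (x + x') c = cval x c + cval x' c := by
  obtain ⟨b, z⟩ := c
  cases b
  · exact D.param.curveBar.valAt_add (hx.1.2 _ hc) (hx'.1.2 _ hc)
  · exact D.param.curveBar.valAt_add (hx.1.1 _ hc) (hx'.1.1 _ hc)

theorem cval_mul {x x' : E × E} (hx : x ∈ D.RR) (hx' : x' ∈ D.RR) {c : Cls k E}
    (hc : 0 ≤ c.2.ord D.tau) : cval (x * x') c = cval x c * cval x' c := by
  obtain ⟨b, z⟩ := c
  cases b
  · exact D.param.curveBar.valAt_mul (hx.1.2 _ hc) (hx'.1.2 _ hc)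
  · exact D.param.curveBar.valAt_mul (hx.1.1 _ hc) (hx'.1.1 _ hc)

theorem cval_one (c : Cls k E) : cval 1 c = 1 := by
  obtain ⟨b, z⟩ := c
  cases b <;> exact valAt_one z

theorem cval_zero (c : Cls k E) : cval 0 c = 0 := by
  obtain ⟨b, z⟩ := c
  cases b <;> exact valAt_zero z

theorem cval_sum {ι : Type*} (s : Finset ι) {x : ι → E × E} (hx : ∀ i ∈ s, x i ∈ D.RR)
    {c : Cls k E} (hc : 0 ≤ c.2.ord D.tau) :
    cval (∑ i ∈ s, x i) c = ∑ i ∈ s, cval (x i) c := by
  classical
  induction s using Finset.induction with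
  | empty => simp [cval_zero]
  | insert a s ha ih =>
    have h' : ∀ i ∈ s, x i ∈ D.RR := fun i hi => hx i (Finset.mem_insert_of_mem hi)
    rw [Finset.sum_insert ha, Finset.sum_insert ha,
      cval_add (hx a (Finset.mem_insert_self a s)) (D.RR.sum_mem h') hc, ih h']

theorem cval_smul (a : k) {x : E × E} (hx : x ∈ D.RR) {c : Cls k E} (hc : 0 ≤ c.2.ord D.tau) :
    cval (a • x) c = a * cval x c := by
  obtain ⟨b, z⟩ := c
  cases b
  · exact D.param.curveBar.valAt_smul a (hx.1.2 _ hc)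
  · exact D.param.curveBar.valAt_smul a (hx.1.1 _ hc)

theorem cval_prod {ι : Type*} (s : Finset ι) {x : ι → E × E} (hx : ∀ i ∈ s, x i ∈ D.RR)
    {c : Cls k E} (hc : 0 ≤ c.2.ord D.tau) :
    (∏ i ∈ s, x i) ∈ D.RR ∧ cval (∏ i ∈ s, x i) c = ∏ i ∈ s, cval (x i) c := by
  classical
  induction s using Finset.induction with
  | empty => exact ⟨by simpa using RR_one, by simp [cval_one]⟩
  | insert a s ha ih =>
    obtain ⟨h1, h2⟩ := ih fun i hi => hx i (Finset.mem_insert_of_mem hi)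
    have ha' := hx a (Finset.mem_insert_self a s)
    rw [Finset.prod_insert ha, Finset.prod_insert ha, cval_mul ha' h1 hc, h2]
    exact ⟨RR_mul ha' h1, rfl⟩

/-- Separation of classes in the affine chart. -/
theorem exists_sep [Infinite k] (S : Finset (Cls k E)) {c : Cls k E} (hc : D.IsCanon c)
    (hcfin : 0 ≤ c.2.ord D.tau) (hS : ∀ d ∈ S, D.IsCanon d ∧ 0 ≤ d.2.ord D.tau ∧ d ≠ c) :
    ∃ x ∈ D.RR, cval x c = 1 ∧ ∀ d ∈ S, cval x d = 0 := by
  classical
  set Xs : Finset (Place k E) := D.Xfin.filter fun Q => 0 ≤ Q.ord D.tau with hXs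
  obtain ⟨w1, hw1, hv1⟩ := exists_prescribed D.param ((insert c S).image Prod.snd ∪ Xs)
    (fun R hR => by
      rcases Finset.mem_union.mp hR with h | h
      · obtain ⟨d, hd, rfl⟩ := Finset.mem_image.mp h
        rcases Finset.mem_insert.mp hd with rfl | hd
        · exact hcfin
        · exact (hS d hd).2.1
      · exact (Finset.mem_filter.mp h).2)
    (fun z => if (true, z) = c then 1 else 0)
  obtain ⟨w2, hw2, hv2⟩ := exists_prescribed D.param
    ((insert c S).image Prod.snd ∪ Xs.image fun Q => D.frob • Q)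
    (fun R hR => by
      rcases Finset.mem_union.mp hR with h | h
      · obtain ⟨d, hd, rfl⟩ := Finset.mem_image.mp h
        rcases Finset.mem_insert.mp hd with rfl | hd
        · exact hcfin
        · exact (hS d hd).2.1
      · obtain ⟨Q, hQ, rfl⟩ := Finset.mem_image.mp h
        exact ord_tau_smul_nonneg (Finset.mem_filter.mp hQ).2)
    (fun z => if D.cls false z = c then 1 else 0)
  have hRR : (w1, w2) ∈ D.RR := by
    refine mem_RR_iff.mpr ⟨⟨hw1, hw2⟩, fun Q hQ => ?_⟩
    have hQs : Q ∈ Xs := Finset.mem_filter.mpr ⟨mem_Xfin.mpr (Or.inl hQ), hQ.1⟩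
    show valAt Q w1 = valAt (D.frob • Q) w2
    rw [hv1 Q (Finset.mem_union_right _ hQs),
      hv2 _ (Finset.mem_union_right _ (Finset.mem_image_of_mem _ hQs)),
      cls_false_smul (Or.inl hQ)]
  have hval : ∀ d ∈ insert c S, D.IsCanon d → cval (w1, w2) d = if d = c then 1 else 0 := by
    intro d hd hcan
    have hmem : d.2 ∈ (insert c S).image Prod.snd := Finset.mem_image_of_mem _ hd
    obtain ⟨b, z⟩ := d
    cases b
    · show valAt z w2 = _
      rw [hv2 z (Finset.mem_union_left _ hmem), cls_of_canon hcan]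
    · exact hv1 z (Finset.mem_union_left _ hmem)
  refine ⟨_, hRR, by simpa using hval c (Finset.mem_insert_self _ _) hc, fun d hd => ?_⟩
  rw [hval d (Finset.mem_insert_of_mem hd) (hS d hd).1, if_neg (hS d hd).2.2]

theorem exists_ne_cval [Infinite k] {c d : Cls k E} (hc : D.IsCanon c) (hd : D.IsCanon d)
    (hcfin : 0 ≤ c.2.ord D.tau) (hdfin : 0 ≤ d.2.ord D.tau) (hne : d ≠ c) :
    ∃ x ∈ D.RR, cval x c = 1 ∧ cval x d = 0 := by
  classical
  obtain ⟨x, hx, h1, h2⟩ := exists_sep {d} hc hcfin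
    (fun e he => by rw [Finset.mem_singleton.mp he]; exact ⟨hd, hdfin, hne⟩)
  exact ⟨x, hx, h1, h2 d (Finset.mem_singleton_self d)⟩

/-! ### Division by a monic element -/

/-- `p` behaves like `hat ^ d` at the poles of the parameter. -/
def Monic (D : Data A π q F F₀ E g g') (p : E) (d : ℕ) : Prop :=
  ∀ Q : Place k E, Q.ord D.tau < 0 → Vanish Q (p * (D.hat ^ d)⁻¹ - 1) 1

theorem Monic.ord_eq {p : E} {d : ℕ} (hp : D.Monic p d) {Q : Place k E} (hQ : Q.ord D.tau < 0) :
    Q.ord (p * (D.hat ^ d)⁻¹) = 0 ∧ valAt Q (p * (D.hat ^ d)⁻¹) = 1 := by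
  have h := hp Q hQ
  have hv : valAt Q (p * (D.hat ^ d)⁻¹) = 1 := valAt_eq (by rwa [map_one])
  refine ⟨?_, hv⟩
  have h0 : Vanish Q (p * (D.hat ^ d)⁻¹) 0 := by
    have := (h.mono zero_le_one).add (Vanish.one (v := Q))
    rwa [sub_add_cancel] at this
  rcases lt_or_eq_of_le (Vanish.zero_iff.mp h0) with hlt | heq
  · exact absurd (valAt_eq_zero_of_vanish (Or.inr hlt)) (by rw [hv]; exact one_ne_zero)
  · exact heq.symm

theorem Monic.mul {p p' : E} {d d' : ℕ} (hp : D.Monic p d) (hp' : D.Monic p' d') :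
    D.Monic (p * p') (d + d') := by
  intro Q hQ
  have h1 := hp.ord_eq hQ
  have he : p * p' * (D.hat ^ (d + d'))⁻¹ - 1 =
      (p * (D.hat ^ d)⁻¹) * (p' * (D.hat ^ d')⁻¹ - 1) + (p * (D.hat ^ d)⁻¹ - 1) := by
    rw [pow_add, mul_inv]; ring
  rw [he]
  exact (Vanish.mul_zero' (Vanish.zero_iff.mpr h1.1.ge) (hp' Q hQ)).add (hp Q hQ)

theorem monic_one : D.Monic 1 0 := fun Q _ => by simp [Vanish]

theorem monic_hat_sub (c : k) : D.Monic (D.hat - algebraMap k E c) 1 := by
  intro Q hQ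
  have he : (D.hat - algebraMap k E c) * (D.hat ^ 1)⁻¹ - 1 = -(algebraMap k E c * D.hat⁻¹) := by
    rw [pow_one, sub_mul, mul_inv_cancel₀ D.hat_ne_zero]; ring
  rw [he]
  refine Vanish.neg (((Vanish.const c).mul (Vanish.self D.hat⁻¹)).mono ?_)
  rw [Q.ord_inv]
  have := D.hat_ord_neg.mpr hQ
  omega

theorem Monic.ne_zero {p : E} {d : ℕ} (hp : D.Monic p d) : p ≠ 0 := by
  obtain ⟨Q, hQ⟩ := D.param.exists_pole_bar
  intro h
  have h2 := (hp.ord_eq hQ).2
  rw [h, zero_mul, valAt_zero] at h2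
  exact zero_ne_one h2

theorem Monic.mem_Gl_of_smul [Infinite k] {p : E} {d N : ℕ} (hp : D.Monic p d) {z : E × E}
    (hz : z ∈ D.RR) (h : p • z ∈ D.Gl (N + d)) : z ∈ D.Gl N := by
  obtain ⟨h1, h2, h3⟩ := mem_Gl_iff.mp h
  have hb : ∀ {w : E}, RegAway (K := k) D.tau w →
      p * w ∈ (polesLe D.tau ((q + 1) * (N + d)) : Submodule k E) →
      w ∈ (polesLe D.tau ((q + 1) * N) : Submodule k E) := by
    intro w hw hpw
    obtain ⟨-, hb'⟩ := mem_polesLe_tau_iff.mp hpw
    refine mem_polesLe_tau_iff.mpr ⟨hw, fun Q hQ => ?_⟩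
    rw [D.tau_inv, Q.ord_inv] at hQ
    rcases lt_or_eq_of_le (show Q.ord D.tau ≤ 0 by omega) with hneg | h0
    · rcases eq_or_ne w 0 with rfl | hw0
      · simp [Vanish]
      obtain ⟨hu, -⟩ := hp.ord_eq hneg
      have h5 := (hb' Q (by rw [D.tau_inv, Q.ord_inv]; omega)).resolve_left
        (mul_ne_zero (inv_ne_zero (pow_ne_zero _ D.hat_ne_zero)) (mul_ne_zero hp.ne_zero hw0))
      have he : (D.hat ^ (N + d))⁻¹ * (p * w) =
          (p * (D.hat ^ d)⁻¹) * ((D.hat ^ N)⁻¹ * w) := by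
        rw [pow_add, mul_inv]; ring
      rw [he, Q.ord_mul (mul_ne_zero hp.ne_zero (inv_ne_zero (pow_ne_zero _ D.hat_ne_zero)))
        (mul_ne_zero (inv_ne_zero (pow_ne_zero _ D.hat_ne_zero)) hw0), hu, zero_add] at h5
      exact Or.inr h5
    · exact Vanish.mul_zero' (Vanish.zero_iff.mpr (by
        rw [Q.ord_inv, FF.ord_pow, D.ord_hat, h0]; simp)) (hw Q (by omega))
  have hz1 := hb hz.1.1 h1
  have hz2 := hb hz.1.2 h2
  refine mem_Gl_iff.mpr ⟨hz1, hz2, ?_⟩
  rintro Q (hQ | ⟨hneg, hQ⟩)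
  · rw [twist, if_neg (not_lt.mpr hQ.1), one_mul, one_mul]
    exact hQ.2 z hz
  · have h := h3 Q (Or.inr ⟨hneg, hQ⟩)
    have hneg' : (D.frob • Q).ord D.tau < 0 := by rwa [D.ord_tau_smul]
    simp only [twist, if_pos hneg, Prod.smul_fst, Prod.smul_snd, smul_eq_mul] at h ⊢
    have he : ∀ w : E, (D.hat ^ (N + d))⁻¹ * (p * w) =
        (p * (D.hat ^ d)⁻¹) * ((D.hat ^ N)⁻¹ * w) := fun w => by rw [pow_add, mul_inv]; ring
    have r1 : Vanish Q ((D.hat ^ N)⁻¹ * z.1) 0 :=
      (mem_polesLe_tau_iff.mp hz1).2 Q (by rw [D.tau_inv, Q.ord_inv]; omega)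
    have r2 : Vanish (D.frob • Q) ((D.hat ^ N)⁻¹ * z.2) 0 :=
      (mem_polesLe_tau_iff.mp hz2).2 _ (by rw [D.tau_inv, Place.ord_inv]; omega)
    rw [he, he, D.param.curveBar.valAt_mul (Vanish.zero_iff.mpr (hp.ord_eq hneg).1.ge) r1,
      D.param.curveBar.valAt_mul (Vanish.zero_iff.mpr (hp.ord_eq hneg').1.ge) r2,
      (hp.ord_eq hneg).2, (hp.ord_eq hneg').2, one_mul, one_mul] at h
    exact h

theorem Gl_mono [Infinite k] {M N : ℕ} (h : M ≤ N) : D.Gl M ≤ D.Gl N := by
  obtain ⟨d, rfl⟩ := Nat.exists_eq_add_of_le h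
  induction d with
  | zero => exact le_rfl
  | succ d ih =>
    refine le_trans (ih (Nat.le_add_right M d)) fun x hx => ⟨hx.1, ?_⟩
    have he : (D.hat ^ (M + (d + 1)))⁻¹ • x = (D.inv.hat, D.inv.hat) * ((D.hat ^ (M + d))⁻¹ • x) := by
      rw [D.hat_inv, ← add_assoc, pow_succ, mul_inv, mul_comm, mul_smul]
      rfl
    rw [he]
    exact RR_mul hat_mem_RR hx.2

/-- An adapted basis of the functions with bounded poles. -/
theorem exists_adapted (N : ℕ) : ∃ (n : ℕ) (w : Fin n → F), D.PIndep w ∧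
    Submodule.span K (Set.range w) = (polesLe D.T N : Submodule K F) := by
  obtain ⟨hdim, hfin⟩ := D.finrank_redSub_L (boundDiv D.T N (0 : Divisor K F))
  haveI := hfin
  haveI := D.curve.finite_L' (boundDiv D.T N (0 : Divisor K F))
  let e := Module.finBasisOfFinrankEq k (D.redT N) hdim
  choose y hy hyV hyx using fun i => (e i).2
  have hind : D.PIndep y := by
    refine ⟨hyV, ?_⟩
    have h : (fun i => D.red (y i)) = fun i => ((e i : D.redT N) : E × E) := funext hyx
    rw [h]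
    exact e.linearIndependent.map' (D.redT N).subtype (Submodule.ker_subtype _)
  refine ⟨_, y, hind, Submodule.eq_of_le_of_finrank_eq (Submodule.span_le.mpr ?_) ?_⟩
  · rintro _ ⟨i, rfl⟩; exact hy i
  · rw [finrank_span_eq_card hind.linearIndependent, Fintype.card_fin]

/-- Division with bounded remainder by `T - c`. -/
theorem exists_decomp [Infinite k] (c : A) : ∃ N₁ : ℕ, ∀ y ∈ D.V, RegAway (K := K) D.T y →
    ∃ w z : F, w ∈ D.V ∧ w ∈ (polesLe D.T N₁ : Submodule K F) ∧ z ∈ D.V ∧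
      RegAway (K := K) D.T z ∧ y = w + (D.T - algebraMap K F (c : K)) * z := by
  classical
  set p := D.hat - algebraMap k E (π c) with hp
  obtain ⟨n₀, hn₀⟩ := exists_small (D := D) p
  haveI := D.param.curveBar.finite_L' (boundDiv D.tau n₀ (0 : Divisor k E))
  set L := (polesLe D.tau n₀ : Submodule k E)
  set Sm : Submodule k (E × E) := D.RR ⊓ L.prod L with hSm
  haveI : FiniteDimensional k (L.prod L) := by
    have h : L.prod L = (⊤ : Submodule k (L × L)).map (L.subtype.prodMap L.subtype) := by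
      rw [Submodule.map_top, LinearMap.range_prodMap, Submodule.range_subtype]
    rw [h]
    infer_instance
  haveI : FiniteDimensional k Sm := Submodule.finiteDimensional_of_le inf_le_right
  obtain ⟨Na, hNa⟩ := exists_redT_of_fg (D := D) Sm inf_le_left
  obtain ⟨N₀, hN₀⟩ := redT_eq_Gl (D := D)
  refine ⟨Na + N₀, fun y hy hyr => ?_⟩
  obtain ⟨n, hn⟩ := D.curve.exists_mem_polesLe hyr
  set N := max n (Na + N₀) + 1 with hN
  obtain ⟨hdim, hfin⟩ := D.finrank_redSub_L (boundDiv D.T N (0 : Divisor K F))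
  haveI := hfin
  haveI := D.curve.finite_L' (boundDiv D.T N (0 : Divisor K F))
  let e := Module.finBasisOfFinrankEq k (D.redT N) hdim
  have hsplit : ∀ i, ∃ w z : F, w ∈ D.V ∧ w ∈ (polesLe D.T (Na + N₀) : Submodule K F) ∧ z ∈ D.V ∧
      z ∈ (polesLe D.T (N - 1) : Submodule K F) ∧
      D.red (w + (D.T - algebraMap K F (c : K)) * z) = ((e i : D.redT N) : E × E) := by
    intro i
    set x : E × E := ((e i : D.redT N) : E × E) with hx
    have hxG : x ∈ D.Gl N := redT_le_Gl N (e i).2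
    obtain ⟨x', hx', h1, h2, hz⟩ := hn₀ x hxG.1
    obtain ⟨w, hw, hwV, hwx⟩ := redT_mono (Nat.le_add_right Na N₀) (hNa (show x' ∈ Sm from ⟨hx', h1, h2⟩))
    have hx'G : x' ∈ D.Gl N := Gl_mono (show Na + N₀ ≤ N by omega) (redT_le_Gl _ ⟨w, hw, hwV, hwx⟩)
    have hp0 : p ≠ 0 := (monic_hat_sub (D := D) (π c)).ne_zero
    have hzG : p⁻¹ • (x - x') ∈ D.Gl (N - 1) := by
      refine (monic_hat_sub (D := D) (π c)).mem_Gl_of_smul hz ?_
      rw [← hp, smul_smul, mul_inv_cancel₀ hp0, one_smul, show N - 1 + 1 = N by omega]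
      exact (D.Gl N).sub_mem hxG hx'G
    rw [← hN₀ (N - 1) (by omega)] at hzG
    obtain ⟨z, hz', hzV, hzx⟩ := hzG
    have hTc : D.T - algebraMap K F (c : K) ∈ D.V := D.V.sub_mem D.T_mem (const_mem c)
    refine ⟨w, z, hwV, hw, hzV, hz', ?_⟩
    rw [red_add hwV (D.V.mul_mem hTc hzV), red_mul hTc hzV, red_sub D.T_mem (const_mem c),
      D.red_T, red_const, hwx, hzx]
    show x' + (p, p) * (p⁻¹ • (x - x')) = x
    rw [show (p, p) * (p⁻¹ • (x - x')) = p • (p⁻¹ • (x - x')) from rfl, smul_smul,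
      mul_inv_cancel₀ hp0, one_smul, add_sub_cancel]
  choose w z hwV hw hzV hz hred using hsplit
  let yy : Fin (ell (boundDiv D.T N (0 : Divisor K F))) → F :=
    fun i => w i + (D.T - algebraMap K F (c : K)) * z i
  have hTc : D.T - algebraMap K F (c : K) ∈ D.V := D.V.sub_mem D.T_mem (const_mem c)
  have hTc1 : D.T - algebraMap K F (c : K) ∈ (polesLe D.T 1 : Submodule K F) :=
    Submodule.sub_mem _ (D.curve.self_mem_polesLe D.T) (by
      rw [Algebra.algebraMap_eq_smul_one]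
      exact Submodule.smul_mem _ _ (D.curve.one_mem_polesLe D.T 1))
  have hind : D.PIndep yy := by
    refine ⟨fun i => D.V.add_mem (hwV i) (D.V.mul_mem hTc (hzV i)), ?_⟩
    have h : (fun i => D.red (yy i)) = fun i => ((e i : D.redT N) : E × E) := funext hred
    rw [h]
    exact e.linearIndependent.map' (D.redT N).subtype (Submodule.ker_subtype _)
  have hspan : Submodule.span K (Set.range yy) = (polesLe D.T N : Submodule K F) := by
    refine Submodule.eq_of_le_of_finrank_eq (Submodule.span_le.mpr ?_) ?_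
    · rintro _ ⟨i, rfl⟩
      refine Submodule.add_mem _ (D.curve.polesLe_mono D.T (by omega) (hw i)) ?_
      exact D.curve.polesLe_mono D.T (by omega) (D.curve.mul_mem_polesLe hTc1 (hz i))
    · rw [finrank_span_eq_card hind.linearIndependent, Fintype.card_fin]
  have hyN : y ∈ Submodule.span K (Set.range yy) := hspan ▸ D.curve.polesLe_mono D.T (by omega) hn
  obtain ⟨a, rfl⟩ := (Submodule.mem_span_range_iff_exists_fun K).mp hyN
  have haA : ∀ i, a i ∈ A := fun i => hind.coeff_mem hy i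
  refine ⟨∑ i, a i • w i, ∑ i, a i • z i, D.V.sum_mem fun i _ => smul_mem ⟨_, haA i⟩ (hwV i),
    Submodule.sum_mem _ fun i _ => Submodule.smul_mem _ _ (hw i),
    D.V.sum_mem fun i _ => smul_mem ⟨_, haA i⟩ (hzV i),
    fun P hP => Vanish.sum _ _ fun i _ =>
      (D.curve.regAway_of_mem_polesLe (hz i) P hP).smul _, ?_⟩
  simp only [yy, smul_add, Finset.sum_add_distrib, Finset.mul_sum, mul_smul_comm]

/-! ### Values at places of the disc of `T` -/

theorem valAt_mem [Infinite k] {P : Place K F} (hP : IsDisc A D.T P) {y : F} (hy : y ∈ D.V)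
    (hreg : RegAway (K := K) D.T y) : valAt P y ∈ A := by
  classical
  obtain ⟨N₁, hN₁⟩ := exists_decomp (D := D) ⟨valAt P D.T, hP.2⟩
  obtain ⟨n, w, hw, hwspan⟩ := exists_adapted (D := D) N₁
  set μ : Fin n → K := fun i => valAt P (w i) with hμ
  have hwmem : ∀ i, w i ∈ (polesLe D.T N₁ : Submodule K F) := fun i =>
    hwspan ▸ Submodule.subset_span ⟨i, rfl⟩
  have hwreg : ∀ i, Vanish P (w i) 0 := fun i =>
    D.curve.regAway_of_mem_polesLe (hwmem i) P hP.1
  have key : ∀ z : F, z ∈ D.V → RegAway (K := K) D.T z →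
      ∃ c : Fin n → A, valAt P z = ∑ i, (c i : K) * μ i := by
    intro z hz hzreg
    obtain ⟨w', z', hw'V, hw', -, hz'r, rfl⟩ := hN₁ z hz hzreg
    rw [← hwspan] at hw'
    obtain ⟨c, rfl⟩ := (Submodule.mem_span_range_iff_exists_fun K).mp hw'
    refine ⟨fun i => ⟨c i, hw.coeff_mem hw'V i⟩, valAt_eq ?_⟩
    rw [map_sum, add_sub_right_comm, ← Finset.sum_sub_distrib]
    refine Vanish.add (Vanish.sum _ _ fun i _ => ?_)
      (by simpa using (D.curve.exists_valAt (Vanish.zero_iff.mpr hP.1)).mul (hz'r P hP.1))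
    rw [map_mul, ← Algebra.smul_def, ← smul_sub]
    exact (D.curve.exists_valAt (hwreg i)).smul _
  obtain ⟨c₁, hc₁⟩ := key 1 D.V.one_mem fun _ _ => Vanish.one
  rw [valAt_one] at hc₁
  obtain ⟨i, hi⟩ : ∃ i, μ i ≠ 0 := by
    by_contra h
    push Not at h
    simp [h] at hc₁
  haveI : Nonempty (Fin n) := ⟨i⟩
  obtain ⟨i₀, hi₀, hmax⟩ := D.Ginf.exists_max_of_field μ ⟨i, hi⟩
  have key2 : ∀ z : F, z ∈ D.V → RegAway (K := K) D.T z → valAt P z / μ i₀ ∈ A := by
    intro z hz hzreg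
    obtain ⟨c, hc⟩ := key z hz hzreg
    rw [hc, Finset.sum_div]
    exact A.toSubring.sum_mem fun j _ => by
      rw [mul_div_assoc]; exact A.mul_mem _ _ (c j).2 (hmax j)
  have hwi : RegAway (K := K) D.T (w i₀) := D.curve.regAway_of_mem_polesLe (hwmem i₀)
  have h2 := key2 (w i₀ * w i₀) (D.V.mul_mem (hw.1 i₀) (hw.1 i₀))
    fun Q hQ => (hwi Q hQ).mul_zero' (hwi Q hQ)
  rw [D.curve.valAt_mul (hwi P hP.1) (hwi P hP.1)] at h2
  have h3 : μ i₀ ∈ A := by simpa [hμ, mul_div_assoc, div_self hi₀] using h2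
  simpa [div_mul_cancel₀ _ hi₀] using A.mul_mem _ _ (key2 y hy hreg) h3

theorem resVal_add [Infinite k] {P : Place K F} (hP : IsDisc A D.T P) {y z : F} (hy : y ∈ D.V)
    (hyr : RegAway (K := K) D.T y) (hz : z ∈ D.V) (hzr : RegAway (K := K) D.T z) :
    resVal π P (y + z) = resVal π P y + resVal π P z := by
  rw [resVal_of_eq P (y + z) (⟨_, valAt_mem hP hy hyr⟩ + ⟨_, valAt_mem hP hz hzr⟩)
    (D.curve.valAt_add (hyr P hP.1) (hzr P hP.1)),
    resVal_of_eq P y ⟨_, valAt_mem hP hy hyr⟩ rfl,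
    resVal_of_eq P z ⟨_, valAt_mem hP hz hzr⟩ rfl, map_add]

theorem resVal_mul [Infinite k] {P : Place K F} (hP : IsDisc A D.T P) {y z : F} (hy : y ∈ D.V)
    (hyr : RegAway (K := K) D.T y) (hz : z ∈ D.V) (hzr : RegAway (K := K) D.T z) :
    resVal π P (y * z) = resVal π P y * resVal π P z := by
  rw [resVal_of_eq P (y * z) (⟨_, valAt_mem hP hy hyr⟩ * ⟨_, valAt_mem hP hz hzr⟩)
    (D.curve.valAt_mul (hyr P hP.1) (hzr P hP.1)),
    resVal_of_eq P y ⟨_, valAt_mem hP hy hyr⟩ rfl,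
    resVal_of_eq P z ⟨_, valAt_mem hP hz hzr⟩ rfl, map_mul]

theorem resVal_const (P : Place K F) (a : A) :
    resVal π P (algebraMap K F (a : K)) = π a :=
  resVal_of_eq P _ a (valAt_algebraMap P _)

theorem resVal_eq_zero_of_red [Infinite k] {P : Place K F} (hP : IsDisc A D.T P) {y : F}
    (hy : y ∈ D.V) (hyr : RegAway (K := K) D.T y) (h : D.red y = 0) : resVal π P y = 0 := by
  rcases eq_or_ne y 0 with rfl | hy0
  · rw [resVal_of_eq P (0 : F) 0 (valAt_zero P), map_zero]
  obtain ⟨a, u, ha, hu, hu0, rfl⟩ := exists_eq_smul hy hy0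
  have hur : RegAway (K := K) D.T u := fun Q hQ => by
    simpa [smul_smul, inv_mul_cancel₀ ha] using (hyr Q hQ).smul (a : K)⁻¹
  rw [red_smul a hu, smul_eq_zero] at h
  rw [resVal_of_eq P _ (a * ⟨_, valAt_mem hP hu hur⟩) (D.curve.valAt_smul _ (hur P hP.1)),
    map_mul, h.resolve_right hu0, zero_mul]

theorem resVal_congr [Infinite k] {P : Place K F} (hP : IsDisc A D.T P) {y z : F} (hy : y ∈ D.V)
    (hyr : RegAway (K := K) D.T y) (hz : z ∈ D.V) (hzr : RegAway (K := K) D.T z)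
    (h : D.red y = D.red z) : resVal π P y = resVal π P z := by
  have hr : RegAway (K := K) D.T (y - z) := fun Q hQ => (hyr Q hQ).sub (hzr Q hQ)
  have h0 := resVal_eq_zero_of_red hP (D.V.sub_mem hy hz) hr (by rw [red_sub hy hz, h, sub_self])
  have h1 := resVal_add hP (D.V.sub_mem hy hz) hr hz hzr
  rwa [sub_add_cancel, h0, zero_add] at h1

variable (D) in
open Classical in
/-- The character of the reduced chart attached to a place. -/
def chi (P : Place K F) (x : E × E) : k :=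
  if h : x ∈ D.RR then resVal π P h.2.choose else 0

theorem chi_red [Infinite k] {P : Place K F} (hP : IsDisc A D.T P) {y : F} (hy : y ∈ D.V)
    (hyr : RegAway (K := K) D.T y) : D.chi P (D.red y) = resVal π P y := by
  have h := red_mem_RR hy hyr
  rw [chi, dif_pos h]
  obtain ⟨h1, h2, h3⟩ := h.2.choose_spec
  exact resVal_congr hP h1 h2 hy hyr h3

/-- Every character of the reduced chart is the value at a class. -/
theorem exists_class_of_char [Infinite k] (χ : E × E → k)
    (hadd : ∀ x ∈ D.RR, ∀ x' ∈ D.RR, χ (x + x') = χ x + χ x')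
    (hmul : ∀ x ∈ D.RR, ∀ x' ∈ D.RR, χ (x * x') = χ x * χ x')
    (hsmul : ∀ (a : k), ∀ x ∈ D.RR, χ (a • x) = a * χ x) (hone : χ 1 = 1) :
    ∃ c : Cls k E, D.IsCanon c ∧ 0 ≤ c.2.ord D.tau ∧ ∀ x ∈ D.RR, χ x = cval x c := by
  classical
  have hprod : ∀ {u : E}, ((u, 0) : E × E) ∈ D.RR → ∀ w, RegAway (K := k) D.tau w →
      ((w * u, 0) : E × E) ∈ D.RR := fun {u} hu w hw => by
    simpa using RR_mul (mk_Fr_mem_RR hw) hu
  have hprod' : ∀ {u : E}, (((0 : E), u) : E × E) ∈ D.RR → ∀ w, RegAway (K := k) D.tau w →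
      (((0 : E), w * u) : E × E) ∈ D.RR := fun {u} hu w hw => by
    simpa using RR_mul (Fr_mk_mem_RR hw) hu
  by_cases h1 : ∃ e, ((e, 0) : E × E) ∈ D.RR ∧ χ (e, 0) ≠ 0
  · obtain ⟨e, he, hne⟩ := h1
    obtain ⟨z, hz, hev⟩ := exists_place_of_char D.param (fun w => χ (w * e, 0) / χ (e, 0))
      (fun u v hu hv => by
        rw [← add_div, ← hadd _ (hprod he u hu) _ (hprod he v hv)]
        simp [add_mul])
      (fun u v hu hv => by
        rw [div_mul_div_comm, ← hmul _ (hprod he u hu) _ (hprod he v hv),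
          div_eq_div_iff hne (mul_ne_zero hne hne), ← mul_assoc]
        congr 1
        rw [← hmul _ (hprod he (u * v) (regAway_mul hu hv)) _ he]
        simp only [Prod.mk_mul_mk, mul_zero]
        congr 2
        ring)
      (fun a => by
        rw [show ((algebraMap k E a * e, 0) : E × E) = a • (e, 0) by
          simp [Algebra.smul_def], hsmul a _ he, mul_div_assoc, div_self hne, mul_one])
    refine ⟨D.cls true z, isCanon_cls _ _, by rw [cls_true]; exact hz, fun x hx => ?_⟩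
    rw [cval_cls_true, ← hev x.1 hx.1.1, eq_div_iff hne, ← hmul x hx _ he]
    congr 1
    exact Prod.ext rfl (by simp)
  by_cases h2 : ∃ e, (((0 : E), e) : E × E) ∈ D.RR ∧ χ (0, e) ≠ 0
  · obtain ⟨e, he, hne⟩ := h2
    obtain ⟨z, hz, hev⟩ := exists_place_of_char D.param (fun w => χ (0, w * e) / χ (0, e))
      (fun u v hu hv => by
        rw [← add_div, ← hadd _ (hprod' he u hu) _ (hprod' he v hv)]
        simp [add_mul])
      (fun u v hu hv => by
        rw [div_mul_div_comm, ← hmul _ (hprod' he u hu) _ (hprod' he v hv),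
          div_eq_div_iff hne (mul_ne_zero hne hne), ← mul_assoc]
        congr 1
        rw [← hmul _ (hprod' he (u * v) (regAway_mul hu hv)) _ he]
        simp only [Prod.mk_mul_mk, mul_zero]
        congr 2
        ring)
      (fun a => by
        rw [show (((0 : E), algebraMap k E a * e) : E × E) = a • ((0 : E), e) by
          simp [Algebra.smul_def], hsmul a _ he, mul_div_assoc, div_self hne, mul_one])
    refine ⟨D.cls false z, isCanon_cls _ _, by rw [ord_tau_cls]; exact hz, fun x hx => ?_⟩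
    rw [cval_cls_false hx hz, ← hev x.2 hx.1.2, eq_div_iff hne, ← hmul x hx _ he]
    congr 1
    exact Prod.ext (by simp) rfl
  push Not at h1 h2
  set Xs : Finset (Place k E) := D.Xfin.filter fun Q => 0 ≤ Q.ord D.tau with hXs
  have hXs' : ∀ {Q}, Q ∈ Xs → Q ∈ D.Xaff := fun {Q} hQ =>
    mem_Xaff_iff.mpr ⟨mem_Xfin.mp (Finset.mem_filter.mp hQ).1, (Finset.mem_filter.mp hQ).2⟩
  have hd : ∀ Q : Xs, ∃ e ∈ D.RR, ∀ R ∈ Xs, cval e (true, R) = if R = Q.1 then 1 else 0 := by
    intro Q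
    obtain ⟨e, he, he1, he0⟩ := exists_sep (D := D)
      ((Xs.erase Q.1).image fun R => ((true, R) : Cls k E))
      (c := (true, Q.1)) (isCanon_true _) (hXs' Q.2).1 (fun d hd => by
        obtain ⟨R, hR, rfl⟩ := Finset.mem_image.mp hd
        exact ⟨isCanon_true _, (hXs' (Finset.mem_of_mem_erase hR)).1,
          fun h => Finset.ne_of_mem_erase hR (congrArg Prod.snd h)⟩)
    refine ⟨e, he, fun R hR => ?_⟩
    split_ifs with h
    · rw [h]; exact he1
    · exact he0 _ (Finset.mem_image_of_mem _ (Finset.mem_erase.mpr ⟨h, hR⟩))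
  choose e he hev using hd
  have hχ0 : χ 0 = 0 := by
    have h := hsmul 0 0 D.RR.zero_mem
    simpa using h
  have hexp : ∀ x ∈ D.RR, χ x = ∑ Q : Xs, cval x (true, Q.1) * χ (e Q) := by
    intro x hx
    set y := ∑ Q : Xs, cval x (true, Q.1) • e Q with hy
    have hyR : y ∈ D.RR := D.RR.sum_mem fun Q _ => D.RR.smul_mem _ (he Q)
    have hz : x - y ∈ D.RR := D.RR.sub_mem hx hyR
    have hv : ∀ Q ∈ D.Xaff, cval (x - y) (true, Q) = 0 := by
      intro Q hQ
      have hQs : Q ∈ Xs := Finset.mem_filter.mpr ⟨mem_Xfin.mpr (Or.inl hQ), hQ.1⟩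
      rw [cval_sub hx hyR (c := (true, Q)) hQ.1,
        cval_sum _ (fun R _ => D.RR.smul_mem _ (he R)) (c := (true, Q)) hQ.1,
        Finset.sum_eq_single (⟨Q, hQs⟩ : Xs) (fun R _ hR => by
          rw [cval_smul _ (he R) (c := (true, Q)) hQ.1, hev R Q hQs,
            if_neg (fun h => hR (Subtype.ext h.symm)), mul_zero]) (by simp),
        cval_smul _ (he _) (c := (true, Q)) hQ.1, hev _ Q hQs, if_pos rfl, mul_one, sub_self]
    have ha : (((x - y).1, (0 : E)) : E × E) ∈ D.RR :=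
      mem_RR_iff.mpr ⟨⟨hz.1.1, fun _ _ => Vanish.zero_left⟩, fun Q hQ => by
        rw [valAt_zero]; exact hv Q hQ⟩
    have hb : (((0 : E), (x - y).2) : E × E) ∈ D.RR :=
      mem_RR_iff.mpr ⟨⟨fun _ _ => Vanish.zero_left, hz.1.2⟩, fun Q hQ => by
        rw [valAt_zero, ← hQ.2 _ hz]; exact (hv Q hQ).symm⟩
    have hxe : x = ((x - y).1, 0) + ((0, (x - y).2) + y) := by
      ext <;> simp
    have hyv : χ y = ∑ Q : Xs, cval x (true, Q.1) * χ (e Q) := by
      rw [hy]
      induction (Finset.univ : Finset Xs) using Finset.induction with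
      | empty => simpa using hχ0
      | insert a s has ih =>
        rw [Finset.sum_insert has, Finset.sum_insert has,
          hadd _ (D.RR.smul_mem _ (he a)) _ (D.RR.sum_mem fun Q _ => D.RR.smul_mem _ (he Q)), ih,
          hsmul _ _ (he a)]
    conv_lhs => rw [hxe]
    rw [hadd _ ha _ (D.RR.add_mem hb hyR), hadd _ hb _ hyR, h1 _ ha, h2 _ hb, zero_add, zero_add,
      hyv]
  obtain ⟨Q, hQ⟩ : ∃ Q : Xs, χ (e Q) ≠ 0 := by
    by_contra h
    push Not at h
    have := hexp 1 RR_one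
    simp [hone, h] at this
  refine ⟨(true, Q.1), isCanon_true _, (hXs' Q.2).1, fun x hx => ?_⟩
  have h := hmul x hx _ (he Q)
  rw [hexp _ (RR_mul hx (he Q)), Finset.sum_eq_single Q (fun R _ hR => by
    rw [cval_mul hx (he Q) (c := (true, R.1)) (hXs' R.2).1, hev Q R.1 R.2,
      if_neg (fun h => hR (Subtype.ext h)), mul_zero, zero_mul]) (by simp),
    cval_mul hx (he Q) (c := (true, Q.1)) (hXs' Q.2).1, hev Q Q.1 Q.2, if_pos rfl, mul_one] at h
  exact (mul_right_cancel₀ hQ h).symm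

variable (D) in
/-- `c` is the class of `P` in the affine chart. -/
def IsSp (P : Place K F) (c : Cls k E) : Prop :=
  D.IsCanon c ∧ 0 ≤ c.2.ord D.tau ∧
    ∀ y ∈ D.V, RegAway (K := K) D.T y → resVal π P y = cval (D.red y) c

theorem exists_isSp [Infinite k] {P : Place K F} (hP : IsDisc A D.T P) : ∃ c, D.IsSp P c := by
  obtain ⟨c, hc, hfin, hev⟩ := exists_class_of_char (D := D) (D.chi P)
    (fun x hx x' hx' => by
      obtain ⟨-, y, hy, hyr, rfl⟩ := hx
      obtain ⟨-, y', hy', hy'r, rfl⟩ := hx'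
      rw [← red_add hy hy', chi_red hP (D.V.add_mem hy hy') (fun Q hQ => (hyr Q hQ).add (hy'r Q hQ)),
        chi_red hP hy hyr, chi_red hP hy' hy'r, resVal_add hP hy hyr hy' hy'r])
    (fun x hx x' hx' => by
      obtain ⟨-, y, hy, hyr, rfl⟩ := hx
      obtain ⟨-, y', hy', hy'r, rfl⟩ := hx'
      rw [← red_mul hy hy',
        chi_red hP (D.V.mul_mem hy hy') (fun Q hQ => (hyr Q hQ).mul_zero' (hy'r Q hQ)),
        chi_red hP hy hyr, chi_red hP hy' hy'r, resVal_mul hP hy hyr hy' hy'r])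
    (fun a x hx => by
      obtain ⟨-, y, hy, hyr, rfl⟩ := hx
      obtain ⟨b, rfl⟩ := D.Ginf.res_surj a
      have hyr' : RegAway (K := K) D.T ((b : K) • y) := fun Q hQ => (hyr Q hQ).smul _
      rw [← red_smul b hy, chi_red hP (smul_mem b hy) hyr', chi_red hP hy hyr, Algebra.smul_def,
        resVal_mul hP (const_mem b) (fun _ _ => Vanish.const _) hy hyr, resVal_const])
    (by
      rw [← red_one (D := D), chi_red hP D.V.one_mem (fun _ _ => Vanish.one),
        resVal_of_eq P (1 : F) 1 (valAt_one P), map_one])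
  exact ⟨c, hc, hfin, fun y hy hyr => by rw [← chi_red hP hy hyr]; exact hev _ (red_mem_RR hy hyr)⟩

theorem IsSp.unique [Infinite k] {P : Place K F} {c c' : Cls k E} (h : D.IsSp P c)
    (h' : D.IsSp P c') : c = c' := by
  by_contra hne
  obtain ⟨x, hx, h1, h0⟩ := exists_ne_cval h.1 h'.1 h.2.1 h'.2.1 (Ne.symm hne)
  obtain ⟨-, y, hy, hyr, rfl⟩ := hx
  rw [← h.2.2 y hy hyr] at h1
  rw [← h'.2.2 y hy hyr, h1] at h0
  exact one_ne_zero h0

theorem IsSp.of_inv [Infinite k] {P : Place K F} {c : Cls k E} (hP : IsDisc A D.T P)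
    (hP' : IsDisc A D.inv.T P) (h : D.inv.IsSp P c) : D.IsSp P c := by
  obtain ⟨hcan, hfin, hev⟩ := h
  have hT' : resVal π P D.inv.T = cval (D.inv.hat, D.inv.hat) c := by
    have h1 := hev D.inv.T D.inv.T_mem fun _ hQ => Vanish.zero_iff.mpr hQ
    rwa [D.inv.red_T] at h1
  have hordP : P.ord D.T = 0 := by
    have := hP.1
    have := hP'.1
    rw [D.T_inv, P.ord_inv] at this
    omega
  have hu : resVal π P D.T * resVal π P D.inv.T = 1 := by
    have hm : (⟨_, hP.2⟩ : A) * ⟨_, hP'.2⟩ = 1 := Subtype.ext (by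
      show valAt P D.T * valAt P D.inv.T = 1
      rw [D.T_inv, (valAt_inv D.curve D.T_ne_zero hordP).2,
        mul_inv_cancel₀ (valAt_inv D.curve D.T_ne_zero hordP).1])
    rw [resVal_of_eq P D.T ⟨_, hP.2⟩ rfl, resVal_of_eq P D.inv.T ⟨_, hP'.2⟩ rfl, ← map_mul, hm,
      map_one]
  have hhat : c.2.ord D.tau = 0 := by
    have h2 : 0 ≤ -c.2.ord D.tau := by
      have := hfin
      rwa [D.tau_inv, Place.ord_inv] at this
    by_contra hne
    have hpos : c.2.ord D.tau < 0 := by omega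
    have hzero : cval (D.inv.hat, D.inv.hat) c = 0 := by
      have h4 : valAt c.2 D.inv.hat = 0 := valAt_eq_zero_of_vanish (Or.inr (by
        rw [D.inv.ord_hat, D.tau_inv, Place.ord_inv]; push_cast; nlinarith))
      obtain ⟨b, z⟩ := c
      cases b <;> exact h4
    rw [hT', hzero, mul_zero] at hu
    exact zero_ne_one hu
  refine ⟨?_, hhat.ge, fun y hy hyr => ?_⟩
  · intro h'; exact hcan ⟨h'.1, by rw [D.X_inv]; exact h'.2⟩
  obtain ⟨N, hN⟩ := exists_shift (red_mem_RR hy hyr)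
  obtain ⟨-, y', hy', hy'r, hred⟩ := hN N le_rfl
  have hv : Vanish P y' 0 := hy'r P hP'.1
  have hy'V : y' ∈ D.V := hy'
  obtain ⟨n, hn⟩ := D.curve.exists_mem_polesLe hy'r
  have hreg2 : RegAway (K := K) D.T (D.T ^ (N + n) * y') :=
    D.curve.regAway_of_mem_polesLe (Tpow_mem_polesLe (by omega) hn)
  have hregn : RegAway (K := K) D.T (D.T ^ n * y) := fun Q hQ =>
    Vanish.mul_zero' (by simpa using (Vanish.zero_iff.mpr hQ).pow n) (hyr Q hQ)
  have heq : D.red (D.T ^ (N + n) * y') = D.red (D.T ^ n * y) := by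
    have hred' : D.red y' = (D.hat ^ N)⁻¹ • D.red y := hred
    rw [red_Tpow_mul hy'V, red_Tpow_mul hy, hred', smul_smul, pow_add, mul_comm (D.hat ^ N),
      mul_assoc, mul_inv_cancel₀ (pow_ne_zero _ D.hat_ne_zero), mul_one]
  have h1 := resVal_congr hP (D.V.mul_mem (pow_mem D.T_mem _) hy'V) hreg2
    (D.V.mul_mem (pow_mem D.T_mem _) hy) hregn heq
  have hTpow : ∀ m : ℕ, resVal π P (D.T ^ m) = resVal π P D.T ^ m ∧
      RegAway (K := K) D.T (D.T ^ m) := by
    intro m
    induction m with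
    | zero =>
      refine ⟨?_, fun _ _ => by simpa using Vanish.one⟩
      rw [pow_zero, pow_zero, resVal_of_eq P (1 : F) 1 (valAt_one P), map_one]
    | succ m ih =>
      have hTr : RegAway (K := K) D.T D.T := fun Q hQ => Vanish.zero_iff.mpr hQ
      refine ⟨?_, fun Q hQ => by
        rw [pow_succ]; exact Vanish.mul_zero' (ih.2 Q hQ) (Vanish.zero_iff.mpr hQ)⟩
      rw [pow_succ, pow_succ, resVal_mul hP (pow_mem D.T_mem m) ih.2 D.T_mem hTr, ih.1]
  have hA' : valAt P y' ∈ A := valAt_mem (D := D.inv) hP' hy' hy'r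
  have h2 : resVal π P (D.T ^ (N + n) * y') = resVal π P D.T ^ (N + n) * resVal π P y' := by
    have hTv : Vanish P (D.T ^ (N + n)) 0 := (hTpow _).2 P hP.1
    have hA : valAt P (D.T ^ (N + n)) ∈ A :=
      valAt_mem hP (pow_mem D.T_mem _) (hTpow _).2
    rw [resVal_of_eq P _ (⟨_, hA⟩ * ⟨_, hA'⟩) (D.curve.valAt_mul hTv hv),
      map_mul, ← resVal_of_eq P (D.T ^ (N + n)) ⟨_, hA⟩ rfl, (hTpow _).1,
      ← resVal_of_eq P y' ⟨_, hA'⟩ rfl]
  rw [h2, resVal_mul hP (pow_mem D.T_mem n) (hTpow n).2 hy hyr, (hTpow n).1,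
    hev y' hy' hy'r] at h1
  -- compare the values at the class
  have hRR := red_mem_RR hy hyr
  have hhatv : cval (D.hat, D.hat) c = resVal π P D.T := by
    have h3 : cval (D.hat, D.hat) c * cval (D.inv.hat, D.inv.hat) c = 1 := by
      have h5 : valAt c.2 D.hat * valAt c.2 D.inv.hat = 1 := by
        have e0 : c.2.ord D.hat = 0 := by rw [D.ord_hat, hhat]; simp
        rw [D.hat_inv, (valAt_inv D.param.curveBar D.hat_ne_zero e0).2,
          mul_inv_cancel₀ (valAt_inv D.param.curveBar D.hat_ne_zero e0).1]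
      obtain ⟨b, w⟩ := c
      cases b <;> exact h5
    rw [← hT'] at h3
    exact mul_right_cancel₀ (right_ne_zero_of_mul (hu.symm ▸ one_ne_zero : _ ≠ (0 : k))) (h3.trans hu.symm)
  have hval : cval (D.red y) c = cval (D.hat, D.hat) c ^ N * cval (D.inv.red y') c := by
    have hRR' : (D.hat ^ N)⁻¹ • D.red y ∈ D.inv.RR := hN N le_rfl
    have h5 : ∀ {w : E}, RegAway (K := k) D.tau w →
        valAt c.2 w = valAt c.2 D.hat ^ N * valAt c.2 ((D.hat ^ N)⁻¹ * w) := by
      intro w hw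
      have e0 : c.2.ord (D.hat ^ N) = 0 := by rw [FF.ord_pow, D.ord_hat, hhat]; simp
      have e1 : valAt c.2 (D.hat ^ N) = valAt c.2 D.hat ^ N :=
        valAt_pow_bar (D := D) (D.regAway_hat _ hhat.ge) N
      rw [D.param.curveBar.valAt_mul (Vanish.zero_iff.mpr (by rw [Place.ord_inv, e0]; rfl))
        (hw _ hhat.ge), (valAt_inv D.param.curveBar (pow_ne_zero _ D.hat_ne_zero) e0).2, e1,
        ← mul_assoc, mul_inv_cancel₀ (e1 ▸ (valAt_inv D.param.curveBar
          (pow_ne_zero _ D.hat_ne_zero) e0).1), one_mul]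
    rw [hred]
    obtain ⟨b, w⟩ := c
    cases b
    · exact h5 hRR.1.2
    · exact h5 hRR.1.1
  have hne : resVal π P D.T ≠ 0 := left_ne_zero_of_mul (hu.symm ▸ one_ne_zero : _ ≠ (0 : k))
  rw [pow_add, mul_assoc, mul_left_comm] at h1
  rw [hval, hhatv]
  exact (mul_left_cancel₀ (pow_ne_zero n hne) h1).symm

variable (D) in
open Classical in
/-- The class of a place. -/
def sp [Infinite k] (P : Place K F) : Cls k E :=
  if h : IsDisc A D.T P then (exists_isSp h).choose
  else (exists_isSp (D := D.inv)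
    (by rw [D.T_inv]; exact (disc_inv_of_not_disc D.Ginf D.curve D.T_ne_zero h).1)).choose

theorem isSp_sp [Infinite k] {P : Place K F} (hP : IsDisc A D.T P) : D.IsSp P (D.sp P) := by
  rw [sp, dif_pos hP]
  exact (exists_isSp hP).choose_spec

theorem isSp_inv_sp [Infinite k] {P : Place K F} (hP : IsDisc A D.inv.T P) :
    D.inv.IsSp P (D.sp P) := by
  by_cases h : IsDisc A D.T P
  · obtain ⟨c, hc⟩ := exists_isSp (D := D.inv) hP
    rwa [IsSp.unique (isSp_sp h) (IsSp.of_inv h hP hc)]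
  · rw [sp, dif_neg h]
    exact (exists_isSp (D := D.inv) hP).choose_spec

theorem isDisc_inv_of_not [Infinite k] {P : Place K F} (h : ¬ IsDisc A D.T P) :
    IsDisc A D.inv.T P ∧ resVal π P D.inv.T = 0 := by
  rw [D.T_inv]
  exact disc_inv_of_not_disc D.Ginf D.curve D.T_ne_zero h

/-- Specialisation does not depend on the chart. -/
theorem sp_inv [Infinite k] (P : Place K F) : D.inv.sp P = D.sp P := by
  by_cases h : IsDisc A D.inv.T P
  · exact IsSp.unique (isSp_sp (D := D.inv) h) (isSp_inv_sp h)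
  · obtain ⟨h1, -⟩ := isDisc_inv_of_not (D := D.inv) h
    rw [D.inv_inv'] at h1
    have h2 : D.inv.inv.IsSp P (D.inv.sp P) := isSp_inv_sp (D := D.inv) (by rwa [D.inv_inv'])
    rw [D.inv_inv'] at h2
    exact IsSp.unique h2 (isSp_sp h1)

theorem isCanon_sp [Infinite k] (P : Place K F) : D.IsCanon (D.sp P) := by
  by_cases h : IsDisc A D.T P
  · exact (isSp_sp h).1
  · intro h'
    exact (isSp_inv_sp (isDisc_inv_of_not h).1).1 ⟨h'.1, by rw [D.X_inv]; exact h'.2⟩

theorem sp_finite_iff [Infinite k] {P : Place K F} :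
    0 ≤ (D.sp P).2.ord D.tau ↔ IsDisc A D.T P := by
  refine ⟨fun hc => ?_, fun h => (isSp_sp h).2.1⟩
  by_contra h
  obtain ⟨h1, h0⟩ := isDisc_inv_of_not h
  obtain ⟨-, hfin, hev⟩ := isSp_inv_sp h1
  have h2 := hev D.inv.T D.inv.T_mem fun _ hQ => Vanish.zero_iff.mpr hQ
  rw [h0, D.inv.red_T] at h2
  have hord : (D.sp P).2.ord D.tau = 0 := by
    rw [D.tau_inv, Place.ord_inv] at hfin
    omega
  have e0 : (D.sp P).2.ord D.inv.hat = 0 := by
    rw [D.inv.ord_hat, D.tau_inv, Place.ord_inv, hord]; simp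
  have hne := (valAt_inv D.param.curveBar D.inv.hat_ne_zero e0).1
  refine hne (Eq.symm ?_)
  revert h2
  generalize D.sp P = c
  obtain ⟨b, z⟩ := c
  cases b <;> exact id

end Data

end FLTAgent.Lift
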